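import Mathlib
import Fermat.Agent.MUL.Orig.S48.Defs
import Fermat.Agent.MUL.S48.W.Interfaces
import Fermat.Agent.MUL.S48.W.ProductDefs
import Fermat.Agent.MUL.Orig.S48.Bnd.Rep
import Fermat.Agent.MUL.Orig.Lib.Frobenius.Exists
import Fermat.Agent.MUL.Orig.S48.Rankin.Bessel
import Fermat.Agent.MUL.Lib.FrobDensity.Main
import Fermat.Agent.MUL.Orig.S48.Conj
import Fermat.Agent.MUL.Orig.S48.W.G.Red.Igusa.DistUnit

section MergeWrap_S48_Assembly -- from S48/Assembly.lean

/-!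
# S48 (Deligne–Serre): top-level assembly from the interface statements

`dsResult_of : ComplexRepStatement → IrredStatement → (the statement of S48)`.
`Fermat/Agent/S48.lean` will be `dsResult_of complexRep irred` once the closure is sorry-free.
-/

set_option autoImplicit false

open CongruenceSubgroup

namespace Fermat.Agent.S48

local notation "Γℚ" => (AlgebraicClosure ℚ ≃ₐ[ℚ] AlgebraicClosure ℚ)

theorem dsConclusion_of (hC : ComplexRepStatement) (hI : IrredStatement)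
    (N : ℕ) [NeZero N] (ε : DirichletCharacter ℂ N) (f : CuspForm (Gamma1 N) 1)
    (h : HeckeRel N ε (fun n => ModularFormClass.qCoeff f n)) :
    DSConclusion N ε (fun n => ModularFormClass.qCoeff f n) := by
  obtain ⟨ρ, hfin, hρ⟩ := hC N ε f h
  refine ⟨ρ, hfin, hI N ε f h ρ hfin (fun p hp hpN A hA σ hσ => ((hρ p hp hpN A hA).2 σ hσ).1),
    hρ⟩

/-- The statement of S48 from the two endgame statements. -/
theorem dsResult_of (hC : ComplexRepStatement) (hI : IrredStatement)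
    (N : ℕ) [NeZero N] (ε : DirichletCharacter ℂ N) (f : CuspForm (Gamma1 N) 1)
    (hf₁ : ModularFormClass.qCoeff f 1 = 1)
    (hT : ∀ p : ℕ, p.Prime → ¬ p ∣ N → ∀ n : ℕ,
        ModularFormClass.qCoeff f (p * n) +
            ε (p : ZMod N) * (if p ∣ n then ModularFormClass.qCoeff f (n / p) else 0) =
          ModularFormClass.qCoeff f p * ModularFormClass.qCoeff f n) :
    ∃ ρ : Γℚ →* GL (Fin 2) ℂ, GaloisFactorsThroughFiniteLevel ρ ∧
      (Deformation.matrixRepresentation ρ).IsIrreducible ∧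
      ∀ p : ℕ, p.Prime → ¬ p ∣ N →
        ∀ A : ValuationSubring (AlgebraicClosure ℚ), A.LiesOverPrime p →
          (∀ σ ∈ A.inertiaSubgroupIn ℚ, ρ σ = 1) ∧
          ∀ σ : Γℚ, A.IsFrobeniusAt σ p →
            ((ρ σ : GL (Fin 2) ℂ) : Matrix (Fin 2) (Fin 2) ℂ).trace = ModularFormClass.qCoeff f p ∧
            ((ρ σ : GL (Fin 2) ℂ) : Matrix (Fin 2) (Fin 2) ℂ).det = ε (p : ZMod N) :=
  dsConclusion_of hC hI N ε f ⟨hf₁, hT⟩

end Fermat.Agent.S48
end MergeWrap_S48_Assembly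

section MergeWrap_S48_ModL -- from S48/ModL.lean

/-!
# S48, seat MODL: the wall `S48W.WallStatement` in consumer form

`modL_of : S48W.WallStatement → NebStatement → AlgStatement → IntegralStatement → ModLStatement`
and the same from the wall for `ℓ ≥ ℓ₀` only, `modL_of_from ℓ₀ : S48W.WallStatementFrom ℓ₀ → ...`
(helper22).  Pure wiring:

* `AlgStatement` gives a nonzero eigenvector `g` with algebraic integer coefficients in a number
  field and the same eigenvalues `a_p` as `f`;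
* `NebStatement` gives the nebentypus of `g`;
* `IntegralStatement` gives the integrality of the `a_p`;
* the Dirichlet character `ε` is made `(ℤ/N)ˣ →* ℤ̄ˣ` (its values are roots of unity);
* the exceptional set is the set of the primes dividing `2 N` (and the `ℓ < ℓ₀`).
-/

set_option autoImplicit false

open CongruenceSubgroup Polynomial
open scoped MatrixGroups ModularForm

namespace Fermat.Agent.S48.ModLSeat

local notation "Γℚ" => (AlgebraicClosure ℚ ≃ₐ[ℚ] AlgebraicClosure ℚ)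
local notation "Zb" => integralClosure ℤ ℂ

/-- A unit of finite order of `ℂ` is integral over `ℤ`. -/
theorem isIntegral_of_pow_eq_one (x : ℂ) (n : ℕ) (hn : 0 < n) (h : x ^ n = 1) :
    IsIntegral ℤ x := by
  refine ⟨Polynomial.X ^ n - 1, Polynomial.monic_X_pow_sub_C (1 : ℤ) hn.ne', ?_⟩
  simp [h]

/-- The values of a Dirichlet character on the units are integral. -/
theorem isIntegral_dirichlet {N : ℕ} [NeZero N] (ε : DirichletCharacter ℂ N) (d : (ZMod N)ˣ) :
    IsIntegral ℤ (ε (d : ZMod N)) := by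
  have hfin : orderOf d ≠ 0 := (orderOf_pos d).ne'
  refine isIntegral_of_pow_eq_one _ (orderOf d) (orderOf_pos d) ?_
  rw [← map_pow, ← Units.val_pow_eq_pow_val, pow_orderOf_eq_one]
  simp

/-- The Dirichlet character `ε` as a homomorphism `(ℤ/N)ˣ →* ℤ̄`. -/
noncomputable def charZb {N : ℕ} [NeZero N] (ε : DirichletCharacter ℂ N) : (ZMod N)ˣ →* Zb where
  toFun d := ⟨ε (d : ZMod N), isIntegral_dirichlet ε d⟩
  map_one' := by
    apply Subtype.ext
    simp
  map_mul' d e := by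
    apply Subtype.ext
    simp

/-- The Dirichlet character `ε` as a homomorphism `(ℤ/N)ˣ →* ℤ̄ˣ`. -/
noncomputable def charZbUnits {N : ℕ} [NeZero N] (ε : DirichletCharacter ℂ N) :
    (ZMod N)ˣ →* Zbˣ :=
  (charZb ε).toHomUnits

theorem charZbUnits_coe {N : ℕ} [NeZero N] (ε : DirichletCharacter ℂ N) (d : (ZMod N)ˣ) :
    (((charZbUnits ε d : Zbˣ) : Zb) : ℂ) = ε (d : ZMod N) := rfl

theorem unitOfCoprime_coe_eq {N : ℕ} (p : ℕ) (h : Nat.Coprime p N) :
    ((ZMod.unitOfCoprime p h : (ZMod N)ˣ) : ZMod N) = (p : ZMod N) :=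
  ZMod.coe_unitOfCoprime p h

/-- **MODL** from the wall for `ℓ ≥ ℓ₀`. -/
theorem modL_of_from (ℓ₀ : ℕ) (hW : Fermat.Agent.S48W.WallStatementFrom ℓ₀)
    (hNeb : NebStatement) (hAlg : AlgStatement) (hInt : IntegralStatement) : ModLStatement := by
  classical
  intro N _ ε f hf
  obtain ⟨g, c, hc, hne, hK, hrel⟩ := hAlg N ε f hf
  obtain ⟨hint, -⟩ := hInt N ε f hf
  -- the eigenvalues in `ℤ̄`
  let a : ℕ → Zb := fun p =>
    if h : IsIntegral ℤ (ModularFormClass.qCoeff f p) then ⟨_, h⟩ else 0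
  have ha : ∀ p : ℕ, p.Prime → ¬ p ∣ N → (a p : ℂ) = ModularFormClass.qCoeff f p := by
    intro p hp hpN
    simp only [a, dif_pos (hint p hp hpN)]
  -- nebentypus of `g`
  have hU : UHeckeRel N ε (fun p => ModularFormClass.qCoeff f p)
      (fun n => ModularFormClass.qCoeff g n) := by
    intro p hp hpN n
    have := hrel p hp hpN n
    simpa only [hc] using this
  have hneb := hNeb N ε g (fun p => ModularFormClass.qCoeff f p) hU
  refine ⟨(2 * N).primeFactors ∪ Finset.range ℓ₀, fun ℓ hℓ hℓS k _ _ _ φ => ?_⟩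
  have hℓ2N : ¬ ℓ ∣ 2 * N := fun h =>
    hℓS (Finset.mem_union_left _
      (Nat.mem_primeFactors.2 ⟨hℓ, h, mul_ne_zero two_ne_zero (NeZero.ne N)⟩))
  have hℓ₀ : ℓ₀ ≤ ℓ := by
    by_contra hlt
    exact hℓS (Finset.mem_union_right _ (Finset.mem_range.2 (not_le.1 hlt)))
  obtain ⟨ρ, hur, hfrob⟩ := hW N (charZbUnits ε) g c a hc hne hK
    (by
      intro γ hγ d hd z
      rw [charZbUnits_coe, hd]
      exact hneb γ hγ z)
    (by
      intro p hp hcop n
      have hpN : ¬ p ∣ N := (Nat.Prime.coprime_iff_not_dvd hp).1 hcop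
      apply Subtype.ext
      have := hrel p hp hpN n
      push_cast
      rw [ha p hp hpN, charZbUnits_coe, unitOfCoprime_coe_eq]
      by_cases hpn : p ∣ n
      · simpa only [if_pos hpn] using this
      · simpa only [if_neg hpn, ZeroMemClass.coe_zero] using this)
    ℓ hℓ hℓ2N hℓ₀ k φ
  refine ⟨ρ, fun p hp hpNℓ => ⟨hur p hp hpNℓ, fun A hA σ hσ => ?_⟩⟩
  have hpN : ¬ p ∣ N := fun h => hpNℓ (h.mul_right ℓ)
  have hpℓ : p ≠ ℓ := fun h => hpNℓ (h ▸ dvd_mul_left _ _)
  have hcop : Nat.Coprime p N := (Nat.Prime.coprime_iff_not_dvd hp).2 hpN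
  refine ⟨a p, (charZbUnits ε (ZMod.unitOfCoprime p hcop) : Zbˣ), ha p hp hpN, ?_,
    hfrob p hp hcop hpℓ A hA σ hσ⟩
  rw [charZbUnits_coe, unitOfCoprime_coe_eq]

/-- **MODL**: the wall in consumer form. -/
theorem modL_of (hW : Fermat.Agent.S48W.WallStatement) (hNeb : NebStatement)
    (hAlg : AlgStatement) (hInt : IntegralStatement) : ModLStatement :=
  modL_of_from 0
    (fun N _ ε f c a hc hne hK hneb hT ℓ hℓ hℓN _ k _ _ φ =>
      hW N ε f c a hc hne hK hneb hT ℓ hℓ hℓN k φ)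
    hNeb hAlg hInt

end Fermat.Agent.S48.ModLSeat
end MergeWrap_S48_ModL

section MergeWrap_S48_Bnd_Density -- from S48/Bnd/Density.lean

/-!
# S48 (Deligne–Serre), seat BND, part 1: comparison of logarithmic densities (helper55)

* `upperLogDensityLE_empty`  : the empty set has upper logarithmic density `≤ 0`;
* `le_of_lower_of_upper`     : if `Z ⊆ X ∪ T`, `T` finite, `Z` has lower logarithmic density `≥ δ`
                               and `X` has upper logarithmic density `≤ η`, then `δ ≤ η`;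
* `exists_mem_not_mem_of_lower` : a set of primes of positive lower logarithmic density is not
                               contained in a finite set.
-/

set_option autoImplicit false

namespace Fermat.Agent.S48.Bnd

open Fermat.Agent.S48

theorem upperLogDensityLE_empty : UpperLogDensityLE (∅ : Set ℕ) 0 := by
  refine ⟨0, fun s _ _ F hF => ?_⟩
  have hFe : F = ∅ := by
    apply Finset.eq_empty_of_forall_notMem
    intro p hp
    exact (hF p hp).2
  subst hFe
  simp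

theorem rpow_neg_nonneg (p : ℕ) (s : ℝ) : 0 ≤ (p : ℝ) ^ (-s) :=
  Real.rpow_nonneg (Nat.cast_nonneg p) _

theorem rpow_neg_le_one (p : ℕ) {s : ℝ} (hs : 1 < s) : (p : ℝ) ^ (-s) ≤ 1 := by
  rcases Nat.eq_zero_or_pos p with h0 | h0
  · subst h0
    rw [Nat.cast_zero, Real.zero_rpow (by linarith)]
    exact zero_le_one
  · have hp1 : (1 : ℝ) ≤ p := by exact_mod_cast h0
    exact Real.rpow_le_one_of_one_le_of_nonpos hp1 (by linarith)

/-- Comparison of a lower and an upper logarithmic density. -/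
theorem le_of_lower_of_upper {Z X : Set ℕ} (T : Finset ℕ) {δ η : ℝ}
    (hZ : ∀ p ∈ Z, p.Prime → p ∈ X ∨ p ∈ T)
    (hlow : LowerLogDensityGE Z δ) (hup : UpperLogDensityLE X η) : δ ≤ η := by
  classical
  by_contra hlt
  push Not at hlt
  have hpos : 0 < δ - η := by linarith
  obtain ⟨C₁, hC₁⟩ := hup
  obtain ⟨C₂, s₀, hs₀, hC₂⟩ := hlow ((δ - η) / 2) (by linarith)
  set K : ℝ := C₁ + C₂ + T.card with hK
  -- choose `s` with `((δ - η)/2) log (1/(s-1)) > K`, `s < min 2 s₀`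
  set M : ℝ := max (max 1 (2 * K / (δ - η) + 1)) (- Real.log (s₀ - 1) + 1) with hM
  have hM1 : 1 ≤ M := le_trans (le_max_left _ _) (le_max_left _ _)
  have hM2 : 2 * K / (δ - η) + 1 ≤ M := le_trans (le_max_right _ _) (le_max_left _ _)
  have hM3 : - Real.log (s₀ - 1) + 1 ≤ M := le_max_right _ _
  set s : ℝ := 1 + Real.exp (-M) with hs
  have hexp_pos : 0 < Real.exp (-M) := Real.exp_pos _
  have hexp_lt : Real.exp (-M) < 1 := by
    rw [Real.exp_lt_one_iff]
    linarith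
  have h1 : 1 < s := by rw [hs]; linarith
  have h2 : s < 2 := by rw [hs]; linarith
  have h3 : s < s₀ := by
    have h4 : Real.exp (-M) < s₀ - 1 := by
      have h5 : Real.exp (-M) < Real.exp (Real.log (s₀ - 1)) := by
        rw [Real.exp_lt_exp]
        linarith
      rwa [Real.exp_log (by linarith)] at h5
    rw [hs]; linarith
  have hlog : Real.log (1 / (s - 1)) = M := by
    have : s - 1 = Real.exp (-M) := by rw [hs]; ring
    rw [this, one_div, ← Real.exp_neg, neg_neg, Real.log_exp]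
  obtain ⟨F, hF, hle⟩ := hC₂ s h1 h3
  have hsplit : ∑ p ∈ F, (p : ℝ) ^ (-s)
      = ∑ p ∈ F.filter (· ∈ X), (p : ℝ) ^ (-s) + ∑ p ∈ F.filter (fun p => ¬ p ∈ X), (p : ℝ) ^ (-s) :=
    (Finset.sum_filter_add_sum_filter_not F (· ∈ X) _).symm
  have hA : ∑ p ∈ F.filter (· ∈ X), (p : ℝ) ^ (-s) ≤ η * Real.log (1 / (s - 1)) + C₁ := by
    apply hC₁ s h1 h2
    intro p hp
    rw [Finset.mem_filter] at hp
    exact ⟨(hF p hp.1).1, hp.2⟩
  have hB : ∑ p ∈ F.filter (fun p => ¬ p ∈ X), (p : ℝ) ^ (-s) ≤ T.card := by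
    have hsub : F.filter (fun p => ¬ p ∈ X) ⊆ T := by
      intro p hp
      rw [Finset.mem_filter] at hp
      rcases hZ p (hF p hp.1).2 (hF p hp.1).1 with h | h
      · exact absurd h hp.2
      · exact h
    calc ∑ p ∈ F.filter (fun p => ¬ p ∈ X), (p : ℝ) ^ (-s)
        ≤ ∑ p ∈ T, (p : ℝ) ^ (-s) :=
          Finset.sum_le_sum_of_subset_of_nonneg hsub (fun p _ _ => rpow_neg_nonneg p s)
      _ ≤ ∑ _p ∈ T, (1 : ℝ) := Finset.sum_le_sum (fun p _ => rpow_neg_le_one p h1)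
      _ = T.card := by simp
  rw [hlog] at hle hA
  have hfin : (δ - η) / 2 * M ≤ K := by
    rw [hK]
    nlinarith [hle, hA, hB, hsplit]
  have h6 : 2 * K / (δ - η) < M := by linarith
  rw [div_lt_iff₀ hpos] at h6
  nlinarith

/-- A set of primes of positive lower logarithmic density is not contained in a finite set. -/
theorem exists_mem_not_mem_of_lower {Z : Set ℕ} (T : Finset ℕ) {δ : ℝ} (hδ : 0 < δ)
    (hlow : LowerLogDensityGE Z δ) : ∃ p ∈ Z, p.Prime ∧ p ∉ T := by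
  by_contra hcon
  push Not at hcon
  have := le_of_lower_of_upper (X := ∅) T
    (fun p hp hpp => Or.inr (hcon p hp hpp)) hlow upperLogDensityLE_empty
  linarith

end Fermat.Agent.S48.Bnd
end MergeWrap_S48_Bnd_Density

section MergeWrap_S48_BoundedImage -- from S48/BoundedImage.lean

set_option autoImplicit false
set_option linter.unusedSectionVars false
set_option linter.style.haveILetI false

open Matrix

namespace Fermat.Agent.S48BI

variable {F : Type*} [Field F]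

/-- the set of matrices of a subgroup of `GL₂(F)`. -/
def matSet (G : Subgroup (GL (Fin 2) F)) : Set (Matrix (Fin 2) (Fin 2) F) :=
  {x | ∃ g ∈ G, ((g : GL (Fin 2) F) : Matrix (Fin 2) (Fin 2) F) = x}

/-- the linear span of `G` in `M₂(F)`. -/
def spanMat (G : Subgroup (GL (Fin 2) F)) : Submodule F (Matrix (Fin 2) (Fin 2) F) :=
  Submodule.span F (matSet G)

theorem coe_mem_matSet {G : Subgroup (GL (Fin 2) F)} {g : GL (Fin 2) F} (hg : g ∈ G) :
    ((g : GL (Fin 2) F) : Matrix (Fin 2) (Fin 2) F) ∈ matSet G := ⟨g, hg, rfl⟩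

theorem coe_mem_spanMat {G : Subgroup (GL (Fin 2) F)} {g : GL (Fin 2) F} (hg : g ∈ G) :
    ((g : GL (Fin 2) F) : Matrix (Fin 2) (Fin 2) F) ∈ spanMat G :=
  Submodule.subset_span (coe_mem_matSet hg)

theorem one_mem_spanMat (G : Subgroup (GL (Fin 2) F)) :
    (1 : Matrix (Fin 2) (Fin 2) F) ∈ spanMat G := by
  have := coe_mem_spanMat (G := G) G.one_mem
  simpa using this

/-- `span G` is stable under right multiplication by elements of `G`. -/
theorem mul_coe_mem_spanMat {G : Subgroup (GL (Fin 2) F)} {x : Matrix (Fin 2) (Fin 2) F}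
    (hx : x ∈ spanMat G) {g : GL (Fin 2) F} (hg : g ∈ G) :
    x * ((g : GL (Fin 2) F) : Matrix (Fin 2) (Fin 2) F) ∈ spanMat G := by
  unfold spanMat at hx ⊢
  induction hx using Submodule.span_induction with
  | mem y hy =>
    obtain ⟨h, hh, rfl⟩ := hy
    refine Submodule.subset_span ⟨h * g, G.mul_mem hh hg, ?_⟩
    simp
  | zero => rw [zero_mul]; exact zero_mem _
  | add y z _ _ hy hz => rw [add_mul]; exact add_mem hy hz
  | smul c y _ hy => rw [smul_mul_assoc]; exact Submodule.smul_mem _ _ hy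

/-- `span G` is stable under left multiplication by elements of `G`. -/
theorem coe_mul_mem_spanMat {G : Subgroup (GL (Fin 2) F)} {x : Matrix (Fin 2) (Fin 2) F}
    (hx : x ∈ spanMat G) {g : GL (Fin 2) F} (hg : g ∈ G) :
    ((g : GL (Fin 2) F) : Matrix (Fin 2) (Fin 2) F) * x ∈ spanMat G := by
  unfold spanMat at hx ⊢
  induction hx using Submodule.span_induction with
  | mem y hy =>
    obtain ⟨h, hh, rfl⟩ := hy
    refine Submodule.subset_span ⟨g * h, G.mul_mem hg hh, ?_⟩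
    simp
  | zero => rw [mul_zero]; exact zero_mem _
  | add y z _ _ hy hz => rw [mul_add]; exact add_mem hy hz
  | smul c y _ hy => rw [mul_smul_comm]; exact Submodule.smul_mem _ _ hy

/-- `span G` is a subalgebra. -/
theorem mul_mem_spanMat {G : Subgroup (GL (Fin 2) F)} {x y : Matrix (Fin 2) (Fin 2) F}
    (hx : x ∈ spanMat G) (hy : y ∈ spanMat G) : x * y ∈ spanMat G := by
  unfold spanMat at hy
  induction hy using Submodule.span_induction with
  | mem z hz =>
    obtain ⟨h, hh, rfl⟩ := hz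
    exact mul_coe_mem_spanMat hx hh
  | zero => rw [mul_zero]; exact zero_mem _
  | add y z _ _ hy hz => rw [mul_add]; exact add_mem hy hz
  | smul c y _ hy => rw [mul_smul_comm]; exact Submodule.smul_mem _ _ hy

/-- the trace form `(x, y) ↦ tr (x y)` is nondegenerate on the span of `G`. -/
def TraceNondeg (G : Subgroup (GL (Fin 2) F)) : Prop :=
  ∀ x ∈ spanMat G,
    (∀ g ∈ G, trace (x * ((g : GL (Fin 2) F) : Matrix (Fin 2) (Fin 2) F)) = 0) → x = 0

/-- orthogonality to `G` is orthogonality to the span. -/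
theorem trace_mul_eq_zero_of_forall {G : Subgroup (GL (Fin 2) F)}
    {x : Matrix (Fin 2) (Fin 2) F}
    (h : ∀ g ∈ G, trace (x * ((g : GL (Fin 2) F) : Matrix (Fin 2) (Fin 2) F)) = 0)
    {y : Matrix (Fin 2) (Fin 2) F} (hy : y ∈ spanMat G) : trace (x * y) = 0 := by
  unfold spanMat at hy
  induction hy using Submodule.span_induction with
  | mem z hz =>
    obtain ⟨g, hg, rfl⟩ := hz
    exact h g hg
  | zero => simp
  | add y z _ _ hy hz => rw [mul_add, trace_add, hy, hz, add_zero]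
  | smul c y _ hy => rw [mul_smul_comm, trace_smul, hy, smul_zero]

/-! ### the counting bound -/

section Count

variable (G : Subgroup (GL (Fin 2) F)) [Finite G]

/-- an element of `G` is determined by its traces against a spanning subset of `G`. -/
theorem eq_of_trace_eq (hnd : TraceNondeg G) {b : Set (Matrix (Fin 2) (Fin 2) F)}
    (hbspan : Submodule.span F b = Submodule.span F (matSet G)) {g g' : GL (Fin 2) F}
    (hg : g ∈ G) (hg' : g' ∈ G)
    (h : ∀ β ∈ b, trace ((g : Matrix (Fin 2) (Fin 2) F) * β)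
      = trace ((g' : Matrix (Fin 2) (Fin 2) F) * β)) : g = g' := by
  have hx : (g : Matrix (Fin 2) (Fin 2) F) - (g' : Matrix (Fin 2) (Fin 2) F) ∈ spanMat G :=
    sub_mem (coe_mem_spanMat hg) (coe_mem_spanMat hg')
  have h0 : ∀ y ∈ Submodule.span F b,
      trace (((g : Matrix (Fin 2) (Fin 2) F) - (g' : Matrix (Fin 2) (Fin 2) F)) * y) = 0 := by
    intro y hy
    induction hy using Submodule.span_induction with
    | mem z hz => rw [sub_mul, trace_sub, h z hz, sub_self]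
    | zero => simp
    | add y z _ _ hy hz => rw [mul_add, trace_add, hy, hz, add_zero]
    | smul c y _ hy => rw [mul_smul_comm, trace_smul, hy, smul_zero]
  have h1 := hnd _ hx fun k hk => h0 _ (by rw [hbspan]; exact Submodule.subset_span (coe_mem_matSet hk))
  exact Units.ext (sub_eq_zero.mp h1)

open Classical in
/-- **Bounded image.**  If the trace form is nondegenerate on `span G` and all elements of `G`
outside `Bad` have their trace in the finite set `Y`, then `|G| ≤ 4 |Bad ∩ G| + |Y| ^ 4`. -/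
theorem card_le_of_traceNondeg (hnd : TraceNondeg G) (Bad : Set (GL (Fin 2) F)) (Y : Finset F)
    (hY : ∀ g ∈ G, g ∉ Bad → trace ((g : GL (Fin 2) F) : Matrix (Fin 2) (Fin 2) F) ∈ Y) :
    Nat.card G ≤ 4 * Nat.card {g : G // (g : GL (Fin 2) F) ∈ Bad} + Y.card ^ 4 := by
  haveI : Fintype G := Fintype.ofFinite G
  obtain ⟨b, hbsub, hbspan, hbli⟩ := exists_linearIndependent F (matSet G)
  have hbfin : b.Finite := hbli.setFinite
  haveI : Fintype b := hbfin.fintype
  have hcard : Fintype.card b ≤ 4 := by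
    have h1 : Fintype.card b ≤ Module.finrank F (Matrix (Fin 2) (Fin 2) F) :=
      hbli.fintype_card_le_finrank
    have h2 : Module.finrank F (Matrix (Fin 2) (Fin 2) F) = 4 := by
      rw [Module.finrank_matrix]
      simp
    rw [h2] at h1
    exact h1
  -- a lift of the basis to `G`
  have hex : ∀ β : b, ∃ γ : G, ((γ : GL (Fin 2) F) : Matrix (Fin 2) (Fin 2) F) = β := by
    intro β
    obtain ⟨g, hg, hgβ⟩ := hbsub β.2
    exact ⟨⟨g, hg⟩, hgβ⟩
  choose γ hγ using hex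
  -- `b` is not empty
  have hbne : 1 ≤ Fintype.card b := by
    rw [Nat.one_le_iff_ne_zero, Ne, Fintype.card_eq_zero_iff]
    intro hempty
    have hb0 : b = ∅ := Set.isEmpty_coe_sort.mp hempty
    have h1 := one_mem_spanMat G
    unfold spanMat at h1
    rw [← hbspan, hb0, Submodule.span_empty, Submodule.mem_bot] at h1
    exact one_ne_zero h1
  -- the good elements
  set Gp : Finset G := Finset.univ.filter fun g => ∀ β : b, ((g * γ β : G) : GL (Fin 2) F) ∉ Bad
    with hGp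
  -- the trace map
  set φ : G → (b → F) := fun g β =>
    trace (((g : GL (Fin 2) F) : Matrix (Fin 2) (Fin 2) F) * (β : Matrix (Fin 2) (Fin 2) F))
    with hφ
  have hφinj : Function.Injective φ := by
    intro g g' hgg
    apply Subtype.ext
    refine eq_of_trace_eq G hnd hbspan g.2 g'.2 fun β hβ => ?_
    exact congrFun hgg ⟨β, hβ⟩
  have hGpcard : Gp.card ≤ Y.card ^ Fintype.card b := by
    have h1 : Gp.card ≤ (Fintype.piFinset fun _ : b => Y).card := by
      refine Finset.card_le_card_of_injOn φ ?_ (hφinj.injOn)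
      intro g hg
      rw [Finset.mem_coe, hGp, Finset.mem_filter] at hg
      rw [Finset.mem_coe, Fintype.mem_piFinset]
      intro β
      have h2 := hY (g * γ β : G) (g * γ β : G).2 (hg.2 β)
      have h3 : (((g * γ β : G) : GL (Fin 2) F) : Matrix (Fin 2) (Fin 2) F)
          = ((g : GL (Fin 2) F) : Matrix (Fin 2) (Fin 2) F) * β := by
        rw [← hγ β]
        simp
      rw [h3] at h2
      exact h2
    rw [Fintype.card_piFinset, Finset.prod_const, Finset.card_univ] at h1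
    exact h1
  have hYpow : Y.card ^ Fintype.card b ≤ Y.card ^ 4 := by
    rcases Nat.eq_zero_or_pos Y.card with h0 | hpos
    · rw [h0, zero_pow (by omega), zero_pow (by omega)]
    · exact Nat.pow_le_pow_right hpos hcard
  -- the bad elements
  have hbad : (Finset.univ \ Gp).card
      ≤ Fintype.card b * Nat.card {g : G // (g : GL (Fin 2) F) ∈ Bad} := by
    have hsub : Finset.univ \ Gp ⊆ Finset.univ.biUnion fun β : b =>
        Finset.univ.filter fun g : G => ((g * γ β : G) : GL (Fin 2) F) ∈ Bad := by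
      intro g hg
      rw [Finset.mem_sdiff, hGp, Finset.mem_filter] at hg
      have h1 : ¬ ∀ β : b, ((g * γ β : G) : GL (Fin 2) F) ∉ Bad := fun h => hg.2 ⟨Finset.mem_univ _, h⟩
      push Not at h1
      obtain ⟨β, hβ⟩ := h1
      exact Finset.mem_biUnion.mpr ⟨β, Finset.mem_univ _, Finset.mem_filter.mpr ⟨Finset.mem_univ _, hβ⟩⟩
    refine (Finset.card_le_card hsub).trans (Finset.card_biUnion_le.trans ?_)
    have hconst : ∀ β : b, (Finset.univ.filter fun g : G => ((g * γ β : G) : GL (Fin 2) F) ∈ Bad).card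
        = Nat.card {g : G // (g : GL (Fin 2) F) ∈ Bad} := by
      intro β
      rw [Nat.card_eq_fintype_card, Fintype.card_subtype]
      refine Finset.card_bij (fun g _ => g * γ β) ?_ ?_ ?_
      · intro g hg
        rw [Finset.mem_filter] at hg ⊢
        exact ⟨Finset.mem_univ _, hg.2⟩
      · intro g _ g' _ h
        exact mul_right_cancel h
      · intro g hg
        rw [Finset.mem_filter] at hg
        refine ⟨g * (γ β)⁻¹, ?_, ?_⟩
        · rw [Finset.mem_filter]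
          refine ⟨Finset.mem_univ _, ?_⟩
          rw [inv_mul_cancel_right]
          exact hg.2
        · rw [inv_mul_cancel_right]
    rw [Finset.sum_congr rfl fun β _ => hconst β, Finset.sum_const, Finset.card_univ,
      smul_eq_mul]
  have htot : Nat.card G = Gp.card + (Finset.univ \ Gp).card := by
    rw [Nat.card_eq_fintype_card, ← Finset.card_univ, add_comm,
      Finset.card_sdiff_add_card_eq_card (Finset.subset_univ Gp)]
  rw [htot]
  have h4 : Fintype.card b * Nat.card {g : G // (g : GL (Fin 2) F) ∈ Bad}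
      ≤ 4 * Nat.card {g : G // (g : GL (Fin 2) F) ∈ Bad} := Nat.mul_le_mul_right _ hcard
  omega

open Classical in
/-- **Bounded image**, the form used by Deligne–Serre: if at most one eighth of the elements of `G`
are bad and the good ones have at most `M` traces, then `|G| ≤ 2 M ^ 4`. -/
theorem card_le_two_mul (hnd : TraceNondeg G) (Bad : Set (GL (Fin 2) F)) (Y : Finset F)
    (hY : ∀ g ∈ G, g ∉ Bad → trace ((g : GL (Fin 2) F) : Matrix (Fin 2) (Fin 2) F) ∈ Y)
    (hBad : 8 * Nat.card {g : G // (g : GL (Fin 2) F) ∈ Bad} ≤ Nat.card G)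
    {M : ℕ} (hM : Y.card ≤ M) : Nat.card G ≤ 2 * M ^ 4 := by
  have h1 := card_le_of_traceNondeg G hnd Bad Y hY
  have h2 : Y.card ^ 4 ≤ M ^ 4 := Nat.pow_le_pow_left hM 4
  omega

end Count

/-! ### nondegeneracy of the trace form for semisimple groups -/

section Nondeg

/-- `2 × 2`: if `tr x = 0 = tr x²` and `2 ≠ 0` then `x² = 0`. -/
theorem sq_eq_zero_of_trace (h2 : (2 : F) ≠ 0) (x : Matrix (Fin 2) (Fin 2) F)
    (h : trace x = 0) (h' : trace (x * x) = 0) : x * x = 0 := by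
  rw [Matrix.trace_fin_two] at h h'
  simp only [Matrix.mul_apply, Fin.sum_univ_two] at h'
  have hd : x 1 1 = - x 0 0 := by linear_combination h
  have hq : x 0 0 * x 0 0 + x 0 1 * x 1 0 = 0 := by
    have h3 : (2 : F) * (x 0 0 * x 0 0 + x 0 1 * x 1 0) = 0 := by
      rw [hd] at h'
      linear_combination h'
    rcases mul_eq_zero.mp h3 with h4 | h4
    · exact absurd h4 h2
    · exact h4
  ext i j
  fin_cases i <;> fin_cases j <;>
    simp only [Matrix.mul_apply, Fin.sum_univ_two, Fin.zero_eta, Fin.mk_one, Matrix.zero_apply]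
  · exact hq
  · rw [hd]; ring
  · rw [hd]; ring
  · rw [hd]; linear_combination hq

/-- a `2 × 2` matrix killing two independent vectors is zero. -/
theorem eq_zero_of_mulVec_eq_zero (x : Matrix (Fin 2) (Fin 2) F) (w u : Fin 2 → F)
    (hD : w 0 * u 1 - w 1 * u 0 ≠ 0) (hw : x *ᵥ w = 0) (hu : x *ᵥ u = 0) : x = 0 := by
  have hw' : ∀ i, x i 0 * w 0 + x i 1 * w 1 = 0 := fun i => by
    have := congrFun hw i
    simpa [Matrix.mulVec, dotProduct, Fin.sum_univ_two] using this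
  have hu' : ∀ i, x i 0 * u 0 + x i 1 * u 1 = 0 := fun i => by
    have := congrFun hu i
    simpa [Matrix.mulVec, dotProduct, Fin.sum_univ_two] using this
  have h0 : ∀ i, x i 0 = 0 := fun i => by
    have h3 : x i 0 * (w 0 * u 1 - w 1 * u 0) = 0 := by
      linear_combination u 1 * hw' i - w 1 * hu' i
    rcases mul_eq_zero.mp h3 with h4 | h4
    · exact h4
    · exact absurd h4 hD
  have h1 : ∀ i, x i 1 = 0 := fun i => by
    have h3 : x i 1 * (w 0 * u 1 - w 1 * u 0) = 0 := by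
      linear_combination w 0 * hu' i - u 0 * hw' i
    rcases mul_eq_zero.mp h3 with h4 | h4
    · exact h4
    · exact absurd h4 hD
  ext i j
  fin_cases j
  · exact h0 i
  · exact h1 i

/-- the kernel of a nonzero `2 × 2` matrix is at most a line. -/
theorem exists_smul_eq_of_mulVec_eq_zero {x : Matrix (Fin 2) (Fin 2) F} (hx : x ≠ 0)
    {w u : Fin 2 → F} (hw0 : w ≠ 0) (hw : x *ᵥ w = 0) (hu : x *ᵥ u = 0) :
    ∃ c : F, u = c • w := by
  have hD : w 0 * u 1 - w 1 * u 0 = 0 := by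
    by_contra hD
    exact hx (eq_zero_of_mulVec_eq_zero x w u hD hw hu)
  by_cases h0 : w 0 = 0
  · have h1 : w 1 ≠ 0 := by
      intro h1
      apply hw0
      ext i
      fin_cases i
      · exact h0
      · exact h1
    refine ⟨u 1 / w 1, ?_⟩
    ext i
    fin_cases i
    · simp only [Fin.zero_eta, Pi.smul_apply, smul_eq_mul, h0, mul_zero]
      rw [h0] at hD
      have h3 : w 1 * u 0 = 0 := by linear_combination -hD
      rcases mul_eq_zero.mp h3 with h4 | h4
      · exact absurd h4 h1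
      · exact h4
    · simp only [Fin.mk_one, Pi.smul_apply, smul_eq_mul]
      field_simp
  · refine ⟨u 0 / w 0, ?_⟩
    ext i
    fin_cases i
    · simp only [Fin.zero_eta, Pi.smul_apply, smul_eq_mul]
      field_simp
    · simp only [Fin.mk_one, Pi.smul_apply, smul_eq_mul]
      field_simp
      linear_combination hD

/-- every element of `span G` has the common eigenvectors of `G` as eigenvectors. -/
theorem exists_eigen_of_mem_spanMat {G : Subgroup (GL (Fin 2) F)} {w : Fin 2 → F}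
    (hw : ∀ g ∈ G, ∃ c : F, ((g : GL (Fin 2) F) : Matrix (Fin 2) (Fin 2) F) *ᵥ w = c • w)
    {x : Matrix (Fin 2) (Fin 2) F} (hx : x ∈ spanMat G) : ∃ c : F, x *ᵥ w = c • w := by
  unfold spanMat at hx
  induction hx using Submodule.span_induction with
  | mem y hy =>
    obtain ⟨g, hg, rfl⟩ := hy
    exact hw g hg
  | zero => exact ⟨0, by simp⟩
  | add y z _ _ hy hz =>
    obtain ⟨c, hc⟩ := hy
    obtain ⟨c', hc'⟩ := hz
    exact ⟨c + c', by rw [Matrix.add_mulVec, hc, hc', add_smul]⟩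
  | smul a y _ hy =>
    obtain ⟨c, hc⟩ := hy
    exact ⟨a * c, by rw [Matrix.smul_mulVec, hc, smul_smul]⟩

/-- an element of the radical of the trace form has square zero. -/
theorem sq_eq_zero_of_rad (h2 : (2 : F) ≠ 0) {G : Subgroup (GL (Fin 2) F)}
    {x : Matrix (Fin 2) (Fin 2) F} (hx : x ∈ spanMat G)
    (h : ∀ g ∈ G, trace (x * ((g : GL (Fin 2) F) : Matrix (Fin 2) (Fin 2) F)) = 0) :
    x * x = 0 := by
  refine sq_eq_zero_of_trace h2 x ?_ (trace_mul_eq_zero_of_forall h hx)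
  have := trace_mul_eq_zero_of_forall h (one_mem_spanMat G)
  rwa [mul_one] at this

/-- a nonzero element of the radical of the trace form produces a `G`-stable line. -/
theorem exists_eigenvector_of_rad (h2 : (2 : F) ≠ 0) {G : Subgroup (GL (Fin 2) F)}
    {x : Matrix (Fin 2) (Fin 2) F} (hx : x ∈ spanMat G)
    (h : ∀ g ∈ G, trace (x * ((g : GL (Fin 2) F) : Matrix (Fin 2) (Fin 2) F)) = 0)
    (hx0 : x ≠ 0) :
    ∃ w : Fin 2 → F, w ≠ 0 ∧ x *ᵥ w = 0 ∧
      ∀ g ∈ G, ∃ c : F, ((g : GL (Fin 2) F) : Matrix (Fin 2) (Fin 2) F) *ᵥ w = c • w := by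
  have hsq := sq_eq_zero_of_rad h2 hx h
  -- a vector not killed by `x`
  obtain ⟨v, hv⟩ : ∃ v : Fin 2 → F, x *ᵥ v ≠ 0 := by
    by_contra hall
    push Not at hall
    apply hx0
    ext i j
    have := congrFun (hall (Pi.single j 1)) i
    simpa using this
  refine ⟨x *ᵥ v, hv, ?_, fun g hg => ?_⟩
  · rw [Matrix.mulVec_mulVec, hsq, Matrix.zero_mulVec]
  · -- `x g x = 0`
    have hxg : x * ((g : GL (Fin 2) F) : Matrix (Fin 2) (Fin 2) F) ∈ spanMat G :=
      mul_coe_mem_spanMat hx hg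
    have hxg' : ∀ k ∈ G, trace (x * ((g : GL (Fin 2) F) : Matrix (Fin 2) (Fin 2) F)
        * ((k : GL (Fin 2) F) : Matrix (Fin 2) (Fin 2) F)) = 0 := by
      intro k hk
      have := h (g * k) (G.mul_mem hg hk)
      rw [Matrix.mul_assoc]
      simpa using this
    have hsq' := sq_eq_zero_of_rad h2 hxg hxg'
    have hxgx : x * ((g : GL (Fin 2) F) : Matrix (Fin 2) (Fin 2) F) * x = 0 := by
      have h3 : x * ((g : GL (Fin 2) F) : Matrix (Fin 2) (Fin 2) F) * x
          = (x * ((g : GL (Fin 2) F) : Matrix (Fin 2) (Fin 2) F)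
              * (x * ((g : GL (Fin 2) F) : Matrix (Fin 2) (Fin 2) F)))
            * ((g⁻¹ : GL (Fin 2) F) : Matrix (Fin 2) (Fin 2) F) := by
        have h4 : ((g : GL (Fin 2) F) : Matrix (Fin 2) (Fin 2) F)
            * ((g⁻¹ : GL (Fin 2) F) : Matrix (Fin 2) (Fin 2) F) = 1 := by
          rw [← Units.val_mul, mul_inv_cancel, Units.val_one]
        rw [Matrix.mul_assoc (x * _) (x * _), Matrix.mul_assoc x _ (g⁻¹ : GL (Fin 2) F).1, h4,
          Matrix.mul_one]
      rw [h3, hsq', Matrix.zero_mul]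
    have hker : x *ᵥ (((g : GL (Fin 2) F) : Matrix (Fin 2) (Fin 2) F) *ᵥ (x *ᵥ v)) = 0 := by
      rw [Matrix.mulVec_mulVec, Matrix.mulVec_mulVec]
      have h5 : x * (((g : GL (Fin 2) F) : Matrix (Fin 2) (Fin 2) F) * x) = 0 := by
        rw [← Matrix.mul_assoc]
        exact hxgx
      first
        | rw [h5, Matrix.zero_mulVec]
        | (rw [hxgx, Matrix.zero_mulVec])
    have hker0 : x *ᵥ (x *ᵥ v) = 0 := by
      rw [Matrix.mulVec_mulVec, hsq, Matrix.zero_mulVec]
    exact exists_smul_eq_of_mulVec_eq_zero hx0 hv hker0 hker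

/-- **semisimple ⟹ nondegenerate**: if `2 ≠ 0` and every `G`-stable line has a `G`-stable
complement, the trace form is nondegenerate on `span G`. -/
theorem traceNondeg_of_semisimple (h2 : (2 : F) ≠ 0) (G : Subgroup (GL (Fin 2) F))
    (hss : ∀ w : Fin 2 → F, w ≠ 0 →
      (∀ g ∈ G, ∃ c : F, ((g : GL (Fin 2) F) : Matrix (Fin 2) (Fin 2) F) *ᵥ w = c • w) →
      ∃ w' : Fin 2 → F, w 0 * w' 1 - w 1 * w' 0 ≠ 0 ∧
        ∀ g ∈ G, ∃ c : F, ((g : GL (Fin 2) F) : Matrix (Fin 2) (Fin 2) F) *ᵥ w' = c • w') :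
    TraceNondeg G := by
  intro x hx h
  by_contra hx0
  obtain ⟨w, hw0, hxw, hw⟩ := exists_eigenvector_of_rad h2 hx h hx0
  obtain ⟨w', hD, hw'⟩ := hss w hw0 hw
  obtain ⟨c', hc'⟩ := exists_eigen_of_mem_spanMat hw' hx
  have hsq := sq_eq_zero_of_rad h2 hx h
  -- `c' = 0`
  have hw'0 : w' ≠ 0 := by
    intro h0
    rw [h0] at hD
    simp at hD
  have hc0 : c' = 0 := by
    have h3 : x *ᵥ (x *ᵥ w') = 0 := by
      rw [Matrix.mulVec_mulVec, hsq, Matrix.zero_mulVec]
    rw [hc', Matrix.mulVec_smul, hc', smul_smul] at h3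
    have h4 : c' * c' = 0 := by
      rcases smul_eq_zero.mp h3 with h5 | h5
      · exact h5
      · exact absurd h5 hw'0
    exact mul_self_eq_zero.mp h4
  rw [hc0, zero_smul] at hc'
  exact hx0 (eq_zero_of_mulVec_eq_zero x w w' hD hxw hc')

/-- **irreducible ⟹ nondegenerate**. -/
theorem traceNondeg_of_irreducible (h2 : (2 : F) ≠ 0) (G : Subgroup (GL (Fin 2) F))
    (hirr : ∀ w : Fin 2 → F, w ≠ 0 →
      ¬ ∀ g ∈ G, ∃ c : F, ((g : GL (Fin 2) F) : Matrix (Fin 2) (Fin 2) F) *ᵥ w = c • w) :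
    TraceNondeg G :=
  traceNondeg_of_semisimple h2 G fun w hw0 hw => absurd hw (hirr w hw0)

/-- a group of diagonal matrices has nondegenerate trace form (`2 ≠ 0`). -/
theorem traceNondeg_of_diagonal (h2 : (2 : F) ≠ 0) (G : Subgroup (GL (Fin 2) F))
    (hdiag : ∀ g ∈ G, ((g : GL (Fin 2) F) : Matrix (Fin 2) (Fin 2) F) 0 1 = 0 ∧
      ((g : GL (Fin 2) F) : Matrix (Fin 2) (Fin 2) F) 1 0 = 0) : TraceNondeg G := by
  have hdall : ∀ y ∈ spanMat G, y 0 1 = 0 ∧ y 1 0 = 0 := by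
    intro y hy
    unfold spanMat at hy
    induction hy using Submodule.span_induction with
    | mem y hy =>
      obtain ⟨g, hg, rfl⟩ := hy
      exact hdiag g hg
    | zero => simp
    | add y z _ _ hy hz => simp [Matrix.add_apply, hy.1, hy.2, hz.1, hz.2]
    | smul a y _ hy => simp [Matrix.smul_apply, hy.1, hy.2]
  intro x hx h
  have hsq := sq_eq_zero_of_rad h2 hx h
  have hd : x 0 1 = 0 ∧ x 1 0 = 0 := hdall x hx
  have h00 : x 0 0 * x 0 0 = 0 := by
    have := congrFun (congrFun hsq 0) 0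
    simpa [Matrix.mul_apply, Fin.sum_univ_two, hd.1] using this
  have h11 : x 1 1 * x 1 1 = 0 := by
    have := congrFun (congrFun hsq 1) 1
    simpa [Matrix.mul_apply, Fin.sum_univ_two, hd.2] using this
  ext i j
  fin_cases i <;> fin_cases j
  · exact mul_self_eq_zero.mp h00
  · exact hd.1
  · exact hd.2
  · exact mul_self_eq_zero.mp h11

end Nondeg

/-! ### semisimplification -/

section Semisimplification

/-- an eigenvalue of a `2 × 2` matrix is a root of the characteristic polynomial. -/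
theorem eigen_quadratic (A : Matrix (Fin 2) (Fin 2) F) {w : Fin 2 → F} (hw : w ≠ 0) {c : F}
    (h : A *ᵥ w = c • w) : c * c - trace A * c + det A = 0 := by
  have e0 : A 0 0 * w 0 + A 0 1 * w 1 = c * w 0 := by
    have := congrFun h 0
    simpa [Matrix.mulVec, dotProduct, Fin.sum_univ_two] using this
  have e1 : A 1 0 * w 0 + A 1 1 * w 1 = c * w 1 := by
    have := congrFun h 1
    simpa [Matrix.mulVec, dotProduct, Fin.sum_univ_two] using this
  rw [Matrix.trace_fin_two, Matrix.det_fin_two]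
  by_cases h0 : w 0 = 0
  · have h1 : w 1 ≠ 0 := by
      intro h1
      apply hw
      ext i
      fin_cases i
      · exact h0
      · exact h1
    have h3 : (c * c - (A 0 0 + A 1 1) * c + (A 0 0 * A 1 1 - A 0 1 * A 1 0)) * w 1 = 0 := by
      rw [h0] at e0 e1
      linear_combination (A 0 0 - c) * e1 - A 1 0 * e0
    rcases mul_eq_zero.mp h3 with h4 | h4
    · exact h4
    · exact absurd h4 h1
  · have h3 : (c * c - (A 0 0 + A 1 1) * c + (A 0 0 * A 1 1 - A 0 1 * A 1 0)) * w 0 = 0 := by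
      linear_combination (A 1 1 - c) * e0 - A 0 1 * e1
    rcases mul_eq_zero.mp h3 with h4 | h4
    · exact h4
    · exact absurd h4 h0

/-- the diagonal representation attached to two characters. -/
def diagHom {Γ : Type*} [Group Γ] (χ₁ χ₂ : Γ →* Fˣ) : Γ →* GL (Fin 2) F where
  toFun γ :=
    { val := Matrix.diagonal fun i => if i = 0 then (χ₁ γ : F) else (χ₂ γ : F)
      inv := Matrix.diagonal fun i => if i = 0 then ((χ₁ γ)⁻¹ : Fˣ) else ((χ₂ γ)⁻¹ : Fˣ)
      val_inv := by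
        rw [Matrix.diagonal_mul_diagonal, ← Matrix.diagonal_one]
        congr 1
        funext i
        fin_cases i <;> simp
      inv_val := by
        rw [Matrix.diagonal_mul_diagonal, ← Matrix.diagonal_one]
        congr 1
        funext i
        fin_cases i <;> simp }
  map_one' := by
    apply Units.ext
    show Matrix.diagonal _ = (1 : Matrix (Fin 2) (Fin 2) F)
    rw [← Matrix.diagonal_one]
    congr 1
    funext i
    fin_cases i <;> simp
  map_mul' γ δ := by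
    apply Units.ext
    show Matrix.diagonal _ = Matrix.diagonal _ * Matrix.diagonal _
    rw [Matrix.diagonal_mul_diagonal]
    congr 1
    funext i
    fin_cases i <;> simp

theorem coe_diagHom {Γ : Type*} [Group Γ] (χ₁ χ₂ : Γ →* Fˣ) (γ : Γ) :
    ((diagHom χ₁ χ₂ γ : GL (Fin 2) F) : Matrix (Fin 2) (Fin 2) F)
      = Matrix.diagonal fun i => if i = 0 then (χ₁ γ : F) else (χ₂ γ : F) := rfl

theorem trace_diagHom {Γ : Type*} [Group Γ] (χ₁ χ₂ : Γ →* Fˣ) (γ : Γ) :
    trace ((diagHom χ₁ χ₂ γ : GL (Fin 2) F) : Matrix (Fin 2) (Fin 2) F)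
      = (χ₁ γ : F) + (χ₂ γ : F) := by
  rw [coe_diagHom, Matrix.trace_fin_two]
  simp

theorem det_diagHom {Γ : Type*} [Group Γ] (χ₁ χ₂ : Γ →* Fˣ) (γ : Γ) :
    det ((diagHom χ₁ χ₂ γ : GL (Fin 2) F) : Matrix (Fin 2) (Fin 2) F)
      = (χ₁ γ : F) * (χ₂ γ : F) := by
  rw [coe_diagHom, Matrix.det_fin_two]
  simp

theorem traceNondeg_range_diagHom (h2 : (2 : F) ≠ 0) {Γ : Type*} [Group Γ] (χ₁ χ₂ : Γ →* Fˣ) :
    TraceNondeg (diagHom (F := F) χ₁ χ₂).range := by
  refine traceNondeg_of_diagonal h2 _ ?_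
  rintro g ⟨γ, rfl⟩
  rw [coe_diagHom]
  constructor <;> simp

/-- **Semisimplification.**  For every `ρ : Γ →* GL₂(F)` (`2 ≠ 0` in `F`) there is
`ρ' : Γ →* GL₂(F)` with the same traces and determinants (hence the same characteristic
polynomials), trivial on the kernel of `ρ`, such that the trace form is nondegenerate on the span
of the image of `ρ'`. -/
theorem exists_semisimplification (h2 : (2 : F) ≠ 0) {Γ : Type*} [Group Γ]
    (ρ : Γ →* GL (Fin 2) F) :
    ∃ ρ' : Γ →* GL (Fin 2) F,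
      (∀ γ, trace ((ρ' γ : GL (Fin 2) F) : Matrix (Fin 2) (Fin 2) F)
        = trace ((ρ γ : GL (Fin 2) F) : Matrix (Fin 2) (Fin 2) F)) ∧
      (∀ γ, det ((ρ' γ : GL (Fin 2) F) : Matrix (Fin 2) (Fin 2) F)
        = det ((ρ γ : GL (Fin 2) F) : Matrix (Fin 2) (Fin 2) F)) ∧
      (∀ γ, ρ γ = 1 → ρ' γ = 1) ∧ TraceNondeg ρ'.range := by
  classical
  by_cases hss : ∀ w : Fin 2 → F, w ≠ 0 →
      (∀ g ∈ ρ.range, ∃ c : F, ((g : GL (Fin 2) F) : Matrix (Fin 2) (Fin 2) F) *ᵥ w = c • w) →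
      ∃ w' : Fin 2 → F, w 0 * w' 1 - w 1 * w' 0 ≠ 0 ∧
        ∀ g ∈ ρ.range, ∃ c : F, ((g : GL (Fin 2) F) : Matrix (Fin 2) (Fin 2) F) *ᵥ w' = c • w'
  · exact ⟨ρ, fun _ => rfl, fun _ => rfl, fun _ h => h, traceNondeg_of_semisimple h2 _ hss⟩
  · push Not at hss
    obtain ⟨w, hw0, hw, -⟩ := hss
    have hw' : ∀ γ : Γ, ∃ c : F,
        ((ρ γ : GL (Fin 2) F) : Matrix (Fin 2) (Fin 2) F) *ᵥ w = c • w :=
      fun γ => hw (ρ γ) ⟨γ, rfl⟩
    choose c hc using hw'
    have huniq : ∀ {a b : F}, a • w = b • w → a = b := by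
      intro a b hab
      have h3 : (a - b) • w = 0 := by rw [sub_smul, hab, sub_self]
      rcases smul_eq_zero.mp h3 with h4 | h4
      · exact sub_eq_zero.mp h4
      · exact absurd h4 hw0
    have hc1 : c 1 = 1 := by
      apply huniq
      rw [← hc 1, map_one, Units.val_one, Matrix.one_mulVec, one_smul]
    have hcmul : ∀ γ δ, c (γ * δ) = c γ * c δ := by
      intro γ δ
      apply huniq
      rw [← hc (γ * δ), map_mul, Units.val_mul, ← Matrix.mulVec_mulVec, hc δ,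
        Matrix.mulVec_smul, hc γ, smul_smul, mul_comm]
    have hcne : ∀ γ, c γ ≠ 0 := by
      intro γ h0
      have h3 : c (γ * γ⁻¹) = 0 := by rw [hcmul, h0, zero_mul]
      rw [mul_inv_cancel, hc1] at h3
      exact one_ne_zero h3
    -- the two characters
    let χ₁ : Γ →* Fˣ :=
      { toFun := fun γ => Units.mk0 (c γ) (hcne γ)
        map_one' := by
          apply Units.ext
          exact hc1
        map_mul' := fun γ δ => by
          apply Units.ext
          exact hcmul γ δ }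
    let χ₂ : Γ →* Fˣ := (Matrix.GeneralLinearGroup.det.comp ρ) / χ₁
    have hχ₁ : ∀ γ, (χ₁ γ : F) = c γ := fun _ => rfl
    have hχ₂ : ∀ γ, (χ₁ γ : F) * (χ₂ γ : F)
        = det ((ρ γ : GL (Fin 2) F) : Matrix (Fin 2) (Fin 2) F) := by
      intro γ
      have h3 : χ₁ γ * χ₂ γ = Matrix.GeneralLinearGroup.det (ρ γ) := by
        show χ₁ γ * ((Matrix.GeneralLinearGroup.det.comp ρ) γ / χ₁ γ) = _
        rw [mul_div_cancel]
        rfl
      have h4 := congrArg (fun u : Fˣ => (u : F)) h3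
      simpa using h4
    refine ⟨diagHom χ₁ χ₂, fun γ => ?_, fun γ => ?_, fun γ hγ => ?_,
      traceNondeg_range_diagHom h2 χ₁ χ₂⟩
    · rw [trace_diagHom]
      have hq := eigen_quadratic _ hw0 (hc γ)
      have hdet := hχ₂ γ
      rw [hχ₁] at hdet ⊢
      have hcγ := hcne γ
      -- `c² - tr c + c χ₂ = 0`
      rw [← hdet] at hq
      have h5 : c γ * (c γ - trace ((ρ γ : GL (Fin 2) F) : Matrix (Fin 2) (Fin 2) F)
          + (χ₂ γ : F)) = 0 := by
        linear_combination hq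
      rcases mul_eq_zero.mp h5 with h6 | h6
      · exact absurd h6 hcγ
      · linear_combination h6
    · rw [det_diagHom]
      exact hχ₂ γ
    · have h1 : c γ = 1 := by
        apply huniq
        rw [← hc γ, hγ, Units.val_one, Matrix.one_mulVec, one_smul]
      have h3 : (χ₂ γ : F) = 1 := by
        have := hχ₂ γ
        rw [hχ₁, h1, one_mul, hγ, Units.val_one, Matrix.det_one] at this
        exact this
      apply Units.ext
      rw [coe_diagHom, Units.val_one, ← Matrix.diagonal_one]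
      congr 1
      funext i
      fin_cases i
      · simp only [Fin.zero_eta, if_true]
        rw [hχ₁, h1]
      · simp only [Fin.mk_one]
        rw [if_neg (by decide), h3]

end Semisimplification

/-! ### the final form -/

section Final

open Classical in
/-- **DS Prop. 7.2** (all fields, no classification of subgroups): let `G` be a finite subgroup
of `GL₂(F)` with nondegenerate trace form (e.g. acting semisimply on `F²`, `2 ≠ 0`); if `H` is a
set containing at least `7/8` of the elements of `G`, and the elements of `H ∩ G` have at most `M`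
traces, then `|G| ≤ 2 M ^ 4`. -/
theorem card_le_of_good_subset (G : Subgroup (GL (Fin 2) F)) [Finite G]
    (hnd : TraceNondeg G) (H : Set (GL (Fin 2) F))
    (hH : 7 * Nat.card G ≤ 8 * Nat.card {g : G // (g : GL (Fin 2) F) ∈ H}) {M : ℕ}
    (hM : ((fun g : GL (Fin 2) F => trace (g : Matrix (Fin 2) (Fin 2) F)) ''
      (H ∩ (G : Set (GL (Fin 2) F)))).ncard ≤ M) :
    Nat.card G ≤ 2 * M ^ 4 := by
  have hGfin : (G : Set (GL (Fin 2) F)).Finite := Set.toFinite _
  have hfin : ((fun g : GL (Fin 2) F => trace (g : Matrix (Fin 2) (Fin 2) F)) ''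
      (H ∩ (G : Set (GL (Fin 2) F)))).Finite :=
    (hGfin.subset Set.inter_subset_right).image _
  refine card_le_two_mul G hnd Hᶜ hfin.toFinset ?_ ?_ ?_
  · intro g hg hgB
    rw [Set.Finite.mem_toFinset]
    refine ⟨g, ⟨?_, hg⟩, rfl⟩
    by_contra hgH
    exact hgB hgH
  · -- `|G| = |H ∩ G| + |Hᶜ ∩ G|`
    haveI : Fintype G := Fintype.ofFinite G
    have hsplit : Nat.card {g : G // (g : GL (Fin 2) F) ∈ H}
        + Nat.card {g : G // (g : GL (Fin 2) F) ∈ Hᶜ} = Nat.card G := by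
      rw [Nat.card_eq_fintype_card, Nat.card_eq_fintype_card, Nat.card_eq_fintype_card]
      have h3 := Fintype.card_subtype_le (fun g : G => (g : GL (Fin 2) F) ∈ H)
      have h4 : Fintype.card {g : G // ¬ ((g : GL (Fin 2) F) ∈ H)}
          = Fintype.card G - Fintype.card {g : G // (g : GL (Fin 2) F) ∈ H} :=
        Fintype.card_subtype_compl _
      have h5 : Fintype.card {g : G // (g : GL (Fin 2) F) ∈ Hᶜ}
          = Fintype.card {g : G // ¬ ((g : GL (Fin 2) F) ∈ H)} :=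
        Fintype.card_congr (Equiv.refl _)
      omega
    omega
  · rw [← Set.ncard_eq_toFinset_card _ hfin]
    exact hM

end Final

end Fermat.Agent.S48BI
end MergeWrap_S48_BoundedImage

section MergeWrap_S48_Bnd -- from S48/Bnd.lean

/-!
# S48 (Deligne–Serre), seat BND: bounded image (helper55)

`boundedStatement_of : ModLStatement → FiniteValuesStatement → ChebotarevStatement →
BoundedStatement`.

Proof.  `η = 1/8`.  (FV) gives a finite set `Y` and a set `X` of primes of upper logarithmic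
density `≤ 1/8` with `a_p ∈ Y` for `p ∉ X`.  For `ℓ ∉ S ∪ {2}` take `ρ₀` from (MODL), write it in
a basis and semisimplify (`S48BI.exists_semisimplification`): `r : Γℚ →* GL₂(k)` with the same
traces and determinants, trivial on `ker ρ₀`, with nondegenerate trace form on `G = range r`.

* `det g ∈ μ_n(k)`, `n = φ(N)`, for every `g ∈ G`: by (P5) the class of `g` and `g⁻¹` contains
  the Frobenius of a prime `p ∤ N ℓ`, where `det = φ(ε(p))`.
* `Tr = μ_n(k) · φ(Y)` (at most `n |Y|` elements) is stable under multiplication by `μ_n(k)`, so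
  `C = {g ∈ G : tr g ∉ Tr}` is stable under conjugation and inversion (`tr g⁻¹ = tr g / det g`).
  The primes with Frobenius in `C` lie in `X ∪ {p ∣ N ℓ}`, so `|C|/|G| ≤ 1/8` by (P5).
* `S48BI.card_le_of_good_subset`: `|G| ≤ 2 (n |Y|)⁴`.
-/

set_option autoImplicit false

namespace Fermat.Agent.S48.Bnd

open Polynomial Matrix Fermat.Agent.S48

local notation "Γℚ" => (AlgebraicClosure ℚ ≃ₐ[ℚ] AlgebraicClosure ℚ)

/-- `tr g⁻¹ · det g = tr g` for `g ∈ GL₂`. -/
theorem trace_inv_mul_det {k : Type} [Field k] (g : GL (Fin 2) k) :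
    trace ((g⁻¹ : GL (Fin 2) k) : Matrix (Fin 2) (Fin 2) k)
        * det ((g : GL (Fin 2) k) : Matrix (Fin 2) (Fin 2) k)
      = trace ((g : GL (Fin 2) k) : Matrix (Fin 2) (Fin 2) k) := by
  have hdet : det ((g : GL (Fin 2) k) : Matrix (Fin 2) (Fin 2) k) ≠ 0 := by
    have := Matrix.GeneralLinearGroup.det_ne_zero g
    simpa using this
  rw [Matrix.coe_units_inv, Matrix.inv_def, Matrix.adjugate_fin_two, Matrix.trace_smul,
    Matrix.trace_fin_two, Matrix.trace_fin_two]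
  simp only [Matrix.of_apply, Matrix.cons_val', Matrix.cons_val_zero, Matrix.cons_val_one,
    Matrix.cons_val_fin_one, smul_eq_mul, Ring.inverse_eq_inv']
  field_simp
  ring

theorem trace_conj {k : Type} [Field k] (g h : GL (Fin 2) k) :
    trace ((h * g * h⁻¹ : GL (Fin 2) k) : Matrix (Fin 2) (Fin 2) k)
      = trace ((g : GL (Fin 2) k) : Matrix (Fin 2) (Fin 2) k) := by
  rw [Units.val_mul, Units.val_mul, Matrix.trace_mul_cycle, ← Units.val_mul, inv_mul_cancel,
    Units.val_one, one_mul]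

theorem det_conj {k : Type} [Field k] (g h : GL (Fin 2) k) :
    det ((h * g * h⁻¹ : GL (Fin 2) k) : Matrix (Fin 2) (Fin 2) k)
      = det ((g : GL (Fin 2) k) : Matrix (Fin 2) (Fin 2) k) := by
  rw [Units.val_mul, Units.val_mul, Matrix.det_mul, Matrix.det_mul, mul_comm, ← mul_assoc,
    ← Matrix.det_mul, ← Units.val_mul, inv_mul_cancel, Units.val_one, Matrix.det_one, one_mul]

theorem det_inv_mul_det {k : Type} [Field k] (g : GL (Fin 2) k) :
    det ((g⁻¹ : GL (Fin 2) k) : Matrix (Fin 2) (Fin 2) k)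
        * det ((g : GL (Fin 2) k) : Matrix (Fin 2) (Fin 2) k) = 1 := by
  rw [← Matrix.det_mul, ← Units.val_mul, inv_mul_cancel, Units.val_one, Matrix.det_one]

/-- The value of the nebentypus at a prime `p ∤ N` is a `φ(N)`-th root of unity. -/
theorem eps_pow_totient {N : ℕ} [NeZero N] (ε : DirichletCharacter ℂ N) {p : ℕ}
    (hp : p.Prime) (hpN : ¬ p ∣ N) : ε (p : ZMod N) ^ N.totient = 1 := by
  have hcop : p.Coprime N := (Nat.Prime.coprime_iff_not_dvd hp).mpr hpN
  have h1 : ((ZMod.unitOfCoprime p hcop : (ZMod N)ˣ) : ZMod N) = (p : ZMod N) :=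
    ZMod.coe_unitOfCoprime p hcop
  have h2 := ZMod.pow_totient (ZMod.unitOfCoprime p hcop)
  have h3 : (p : ZMod N) ^ N.totient = 1 := by
    rw [← h1, ← Units.val_pow_eq_pow_val, h2, Units.val_one]
  rw [← map_pow, h3, map_one]

/-- The local data extracted from `IsAttachedModL` at a Frobenius element. -/
theorem attached_trace_det {N : ℕ} [NeZero N] {ε : DirichletCharacter ℂ N} {a : ℕ → ℂ} {ℓ : ℕ}
    {k : Type} [Field k] {φ : integralClosure ℤ ℂ →+* k} {ρ₀ : ResidualGaloisRep k}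
    (hρ₀ : IsAttachedModL N ε a ℓ φ ρ₀) (b : Module.Basis (Fin 2) k ρ₀.V)
    {p : ℕ} (hp : p.Prime) (hpN : ¬ p ∣ N * ℓ)
    {A : ValuationSubring (AlgebraicClosure ℚ)} (hA : A.LiesOverPrime p) {σ : Γℚ}
    (hσ : A.IsFrobeniusAt σ p) :
    ∃ t d : integralClosure ℤ ℂ, (t : ℂ) = a p ∧ (d : ℂ) = ε (p : ZMod N) ∧
      trace ((toGL ρ₀ b σ : GL (Fin 2) k) : Matrix (Fin 2) (Fin 2) k) = φ t ∧
      det ((toGL ρ₀ b σ : GL (Fin 2) k) : Matrix (Fin 2) (Fin 2) k) = φ d := by
  obtain ⟨t, d, ht, hd, hcp⟩ := (hρ₀ p hp hpN).2 A hA σ hσ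
  rw [charpoly_eq_toGL ρ₀ b σ] at hcp
  obtain ⟨h1, h2⟩ := quad_inj hcp
  exact ⟨t, d, ht, hd, h1, h2⟩

section main

variable {k : Type} [Field k]

/-- The counting step: if at most `1/8` of a finite type lies in `C`, at least `7/8` lies in the
complement. -/
theorem seven_eighths {G : Type} [Finite G] (P : G → Prop)
    (h : 8 * Nat.card {g : G // ¬ P g} ≤ Nat.card G) :
    7 * Nat.card G ≤ 8 * Nat.card {g : G // P g} := by
  classical
  have : Fintype G := Fintype.ofFinite G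
  have h4 : Fintype.card {g : G // ¬ P g} = Fintype.card G - Fintype.card {g : G // P g} :=
    Fintype.card_subtype_compl _
  have h3 := Fintype.card_subtype_le P
  rw [Nat.card_eq_fintype_card, Nat.card_eq_fintype_card] at h
  rw [Nat.card_eq_fintype_card, Nat.card_eq_fintype_card]
  omega

end main

/-- **(BND)**: bounded image, from (MODL), (FV) and (P5). -/
theorem boundedStatement_of (hMODL : ModLStatement) (hFV : FiniteValuesStatement)
    (hP5 : ChebotarevStatement) : BoundedStatement := by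
  classical
  intro N _ ε f hf
  obtain ⟨Y, X, hX, hY⟩ := hFV N ε f hf (1 / 8) (by norm_num)
  obtain ⟨S₀, hS₀⟩ := hMODL N ε f hf
  set n : ℕ := N.totient with hn
  have hn0 : 0 < n := Nat.totient_pos.mpr (Nat.pos_of_ne_zero (NeZero.ne N))
  refine ⟨insert 2 S₀, 2 * (n * Y.card) ^ 4, fun ℓ hℓ hℓS k _ _ _ φ => ?_⟩
  have hℓ2 : ℓ ≠ 2 := fun h => hℓS (h ▸ Finset.mem_insert_self _ _)
  have hℓS₀ : ℓ ∉ S₀ := fun h => hℓS (Finset.mem_insert_of_mem h)
  obtain ⟨ρ₀, hρ₀⟩ := hS₀ ℓ hℓ hℓS₀ k φ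
  obtain ⟨b⟩ := exists_basis ρ₀
  have h2 : (2 : k) ≠ 0 := by
    intro h20
    have h3 : ((2 : ℕ) : k) = 0 := by exact_mod_cast h20
    rw [CharP.cast_eq_zero_iff k ℓ] at h3
    exact hℓ2 ((Nat.prime_dvd_prime_iff_eq hℓ Nat.prime_two).mp h3)
  obtain ⟨r, htr, hdet, hker, hnd⟩ := S48BI.exists_semisimplification h2 (toGL ρ₀ b)
  have hfac : GaloisFactorsThroughFiniteLevel r := by
    obtain ⟨L, hL, hL'⟩ := ρ₀.factorsThroughFiniteLevel
    exact ⟨L, hL, fun σ hσ => hker σ (toGL_eq_one_of ρ₀ b (hL' σ hσ))⟩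
  -- trace and determinant of `r` at Frobenius elements
  have hfrob : ∀ p : ℕ, p.Prime → ¬ p ∣ N * ℓ →
      ∀ A : ValuationSubring (AlgebraicClosure ℚ), A.LiesOverPrime p →
      ∀ σ : Γℚ, A.IsFrobeniusAt σ p →
      ∃ t d : integralClosure ℤ ℂ, (t : ℂ) = ModularFormClass.qCoeff f p ∧
        (d : ℂ) = ε (p : ZMod N) ∧
        trace ((r σ : GL (Fin 2) k) : Matrix (Fin 2) (Fin 2) k) = φ t ∧
        det ((r σ : GL (Fin 2) k) : Matrix (Fin 2) (Fin 2) k) = φ d := by
    intro p hp hpN A hA σ hσ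
    obtain ⟨t, d, ht, hd, h1, h2⟩ := attached_trace_det hρ₀ b hp hpN hA hσ
    exact ⟨t, d, ht, hd, by rw [htr, h1], by rw [hdet, h2]⟩
  refine ⟨ofGL r hfac, ?_, ?_⟩
  · -- attached
    intro p hp hpN
    refine ⟨fun A hA σ hσ => ?_, fun A hA σ hσ => ?_⟩
    · exact ofGL_ρ_eq_one_of r hfac (hker σ (toGL_eq_one_of ρ₀ b ((hρ₀ p hp hpN).1 A hA σ hσ)))
    · obtain ⟨t, d, ht, hd, h1, h2⟩ := hfrob p hp hpN A hA σ hσ
      exact ⟨t, d, ht, hd, by rw [charpoly_ofGL, h1, h2]⟩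
  · -- the bound
    rw [card_range_ofGL]
    have hGfin : (Set.range r).Finite := finite_range_of_factors r hfac
    set G : Subgroup (GL (Fin 2) k) := r.range with hG
    have hGr : (G : Set (GL (Fin 2) k)) = Set.range r := MonoidHom.coe_range r
    have : Finite G := by
      have : Finite (G : Set (GL (Fin 2) k)) := by rw [hGr]; exact hGfin.to_subtype
      exact this
    have hcardG : Nat.card (Set.range r) = Nat.card G := by
      rw [← hGr]; rfl
    rw [hcardG]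
    -- the surjection onto `G`
    set r' : Γℚ →* G := r.rangeRestrict with hr'
    have hr'surj : Function.Surjective r' := r.rangeRestrict_surjective
    have hr'val : ∀ σ, ((r' σ : G) : GL (Fin 2) k) = r σ := fun σ => rfl
    have hr'fac : GaloisFactorsThroughFiniteLevel r' := by
      obtain ⟨L, hL, hL'⟩ := hfac
      refine ⟨L, hL, fun σ hσ => ?_⟩
      apply Subtype.ext
      rw [hr'val, hL' σ hσ]
      rfl
    set T : Finset ℕ := (N * ℓ).primeFactors with hT
    have hNℓ : N * ℓ ≠ 0 := Nat.mul_ne_zero (NeZero.ne N) hℓ.ne_zero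
    have hTmem : ∀ p : ℕ, p.Prime → p ∉ T → ¬ p ∣ N * ℓ := by
      intro p hp hpT hdvd
      exact hpT (Nat.mem_primeFactors.mpr ⟨hp, hdvd, hNℓ⟩)
    -- roots of unity
    set Un : Finset k := Polynomial.nthRootsFinset n (1 : k) with hUn
    have hUnmem : ∀ x : k, x ∈ Un ↔ x ^ n = 1 := fun x => Polynomial.mem_nthRootsFinset hn0 1
    have hUncard : Un.card ≤ n := by
      rw [hUn, Polynomial.nthRootsFinset_def]
      exact le_trans (Multiset.toFinset_card_le _) (Polynomial.card_nthRoots n 1)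
    -- determinants lie in `Un`
    have hdetUn : ∀ g : G, det ((g : GL (Fin 2) k) : Matrix (Fin 2) (Fin 2) k) ∈ Un := by
      intro g
      set Cg : Set G := {x | ∃ h : G, x = h * g * h⁻¹ ∨ x = h * g⁻¹ * h⁻¹} with hCg
      have hCgconj : ∀ x h : G, x ∈ Cg → h * x * h⁻¹ ∈ Cg := by
        rintro x h ⟨h', hx | hx⟩
        · exact ⟨h * h', Or.inl (by rw [hx]; group)⟩
        · exact ⟨h * h', Or.inr (by rw [hx]; group)⟩
      have hCginv : ∀ x : G, x ∈ Cg → x⁻¹ ∈ Cg := by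
        rintro x ⟨h', hx | hx⟩
        · exact ⟨h', Or.inr (by rw [hx]; group)⟩
        · exact ⟨h', Or.inl (by rw [hx]; group)⟩
      have hgCg : g ∈ Cg := ⟨1, Or.inl (by group)⟩
      have hpos : (0 : ℝ) < (Nat.card Cg : ℝ) / Nat.card G := by
        have h1 : 0 < Nat.card Cg := by
          have : Nonempty Cg := ⟨⟨g, hgCg⟩⟩
          exact Nat.card_pos
        have h2 : 0 < Nat.card G := Nat.card_pos
        positivity
      obtain ⟨p, hpZ, hp, hpT⟩ := exists_mem_not_mem_of_lower T hpos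
        (hP5 G r' hr'surj hr'fac Cg hCgconj hCginv)
      have hpN := hTmem p hp hpT
      obtain ⟨A, σ, hA, hσ⟩ := Fermat.Agent.FrobExists.exists_frobenius p hp
      obtain ⟨t, d, -, hd, -, hdσ⟩ := hfrob p hp hpN A hA σ hσ
      have hpN' : ¬ p ∣ N := fun h => hpN (Dvd.dvd.mul_right h ℓ)
      have hdn : d ^ n = 1 := by
        apply Subtype.ext
        rw [SubmonoidClass.coe_pow, hd, eps_pow_totient ε hp hpN']
        rfl
      have hφd : (φ d) ^ n = 1 := by rw [← map_pow, hdn, map_one]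
      have hmem : r' σ ∈ Cg := hpZ.2 A hA σ hσ
      obtain ⟨h, hx | hx⟩ := hmem
      · have h3 : r σ = (h : GL (Fin 2) k) * g * (h : GL (Fin 2) k)⁻¹ := by
          rw [← hr'val, hx]; rfl
        rw [hUnmem, ← det_conj (g : GL (Fin 2) k) h, ← h3, hdσ]
        exact hφd
      · have h3 : r σ = (h : GL (Fin 2) k) * (g : GL (Fin 2) k)⁻¹ * (h : GL (Fin 2) k)⁻¹ := by
          rw [← hr'val, hx]; rfl
        have h4 : det (((g : GL (Fin 2) k)⁻¹ : GL (Fin 2) k) : Matrix (Fin 2) (Fin 2) k) ^ n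
            = 1 := by
          rw [← det_conj ((g : GL (Fin 2) k)⁻¹) h, ← h3, hdσ]
          exact hφd
        have h5 := det_inv_mul_det (g : GL (Fin 2) k)
        rw [hUnmem]
        have h6 : (det (((g : GL (Fin 2) k)⁻¹ : GL (Fin 2) k) : Matrix (Fin 2) (Fin 2) k)
            * det ((g : GL (Fin 2) k) : Matrix (Fin 2) (Fin 2) k)) ^ n = 1 := by
          rw [h5, one_pow]
        rw [mul_pow, h4, one_mul] at h6
        exact h6
    -- the images of the good values
    set ψ : ℂ → k := fun y => if h : IsIntegral ℤ y then φ ⟨y, h⟩ else 0 with hψ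
    have hψt : ∀ t : integralClosure ℤ ℂ, ψ (t : ℂ) = φ t := by
      intro t
      have ht : IsIntegral ℤ (t : ℂ) := t.2
      simp only [hψ, dif_pos ht]
    set Tr : Finset k := (Un ×ˢ Y.image ψ).image (fun x => x.1 * x.2) with hTr
    have hTrcard : Tr.card ≤ n * Y.card := by
      calc Tr.card ≤ (Un ×ˢ Y.image ψ).card := Finset.card_image_le
        _ = Un.card * (Y.image ψ).card := Finset.card_product _ _
        _ ≤ n * Y.card := Nat.mul_le_mul hUncard Finset.card_image_le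
    have hTrmul : ∀ u x : k, u ∈ Un → x ∈ Tr → u * x ∈ Tr := by
      intro u x hu hx
      rw [hTr, Finset.mem_image] at hx ⊢
      obtain ⟨⟨u', y⟩, huy, rfl⟩ := hx
      rw [Finset.mem_product] at huy
      refine ⟨(u * u', y), ?_, by simp only; ring⟩
      rw [Finset.mem_product]
      refine ⟨?_, huy.2⟩
      rw [hUnmem] at hu ⊢
      have hu' := (hUnmem u').mp huy.1
      rw [mul_pow, hu, hu', one_mul]
    have hYTr : ∀ y ∈ Y, ψ y ∈ Tr := by
      intro y hy
      rw [hTr, Finset.mem_image]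
      refine ⟨(1, ψ y), ?_, by simp⟩
      rw [Finset.mem_product]
      exact ⟨(hUnmem 1).mpr (one_pow n), Finset.mem_image_of_mem ψ hy⟩
    -- the exceptional set
    set C : Set G := {g | trace ((g : GL (Fin 2) k) : Matrix (Fin 2) (Fin 2) k) ∉ Tr} with hC
    have hCconj : ∀ g h : G, g ∈ C → h * g * h⁻¹ ∈ C := by
      intro g h hg
      show trace (((h * g * h⁻¹ : G) : GL (Fin 2) k) : Matrix (Fin 2) (Fin 2) k) ∉ Tr
      have : ((h * g * h⁻¹ : G) : GL (Fin 2) k)
          = (h : GL (Fin 2) k) * g * (h : GL (Fin 2) k)⁻¹ := rfl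
      rw [this, trace_conj]
      exact hg
    have hCinv : ∀ g : G, g ∈ C → g⁻¹ ∈ C := by
      intro g hg hgi
      apply hg
      have h1 := trace_inv_mul_det (g : GL (Fin 2) k)
      have h2 : trace (((g⁻¹ : G) : GL (Fin 2) k) : Matrix (Fin 2) (Fin 2) k) ∈ Tr := hgi
      have h3 : ((g⁻¹ : G) : GL (Fin 2) k) = (g : GL (Fin 2) k)⁻¹ := rfl
      rw [h3] at h2
      rw [← h1, mul_comm]
      exact hTrmul _ _ (hdetUn g) h2
    have hsub : ∀ p ∈ frobPrimes r' C, p.Prime → p ∈ X ∨ p ∈ T := by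
      intro p hpZ hp
      by_contra hcon
      push Not at hcon
      obtain ⟨hpX, hpT⟩ := hcon
      have hpN := hTmem p hp hpT
      have hpN' : ¬ p ∣ N := fun h => hpN (Dvd.dvd.mul_right h ℓ)
      obtain ⟨A, σ, hA, hσ⟩ := Fermat.Agent.FrobExists.exists_frobenius p hp
      obtain ⟨t, d, ht, -, htσ, -⟩ := hfrob p hp hpN A hA σ hσ
      have hmem : r' σ ∈ C := hpZ.2 A hA σ hσ
      apply hmem
      show trace ((r σ : GL (Fin 2) k) : Matrix (Fin 2) (Fin 2) k) ∈ Tr
      rw [htσ, ← hψt t, ht]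
      exact hYTr _ (hY p hp hpN' hpX)
    have hdens : (Nat.card C : ℝ) / Nat.card G ≤ 1 / 8 :=
      le_of_lower_of_upper T hsub (hP5 G r' hr'surj hr'fac C hCconj hCinv) hX
    have hcardpos : (0 : ℝ) < Nat.card G := by
      have : 0 < Nat.card G := Nat.card_pos
      exact_mod_cast this
    have h8 : 8 * Nat.card C ≤ Nat.card G := by
      rw [div_le_iff₀ hcardpos] at hdens
      have : (8 : ℝ) * Nat.card C ≤ Nat.card G := by linarith
      exact_mod_cast this
    -- apply DS Prop. 7.2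
    set H : Set (GL (Fin 2) k) :=
      {g | trace ((g : GL (Fin 2) k) : Matrix (Fin 2) (Fin 2) k) ∈ Tr} with hH
    refine S48BI.card_le_of_good_subset G hnd H ?_ ?_
    · have h9 : Nat.card {g : G // ¬ ((g : GL (Fin 2) k) ∈ H)} = Nat.card C := rfl
      exact seven_eighths (fun g : G => (g : GL (Fin 2) k) ∈ H) (by rw [h9]; exact h8)
    · have hsubTr : ((fun g : GL (Fin 2) k => trace (g : Matrix (Fin 2) (Fin 2) k)) ''
          (H ∩ (G : Set (GL (Fin 2) k)))) ⊆ (Tr : Set k) := by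
        rintro _ ⟨g, ⟨hgH, -⟩, rfl⟩
        exact hgH
      calc ((fun g : GL (Fin 2) k => trace (g : Matrix (Fin 2) (Fin 2) k)) ''
          (H ∩ (G : Set (GL (Fin 2) k)))).ncard
          ≤ (Tr : Set k).ncard := Set.ncard_le_ncard hsubTr (Finset.finite_toSet Tr)
        _ = Tr.card := Set.ncard_coe_finset Tr
        _ ≤ n * Y.card := hTrcard

end Fermat.Agent.S48.Bnd
end MergeWrap_S48_Bnd

section MergeWrap_S48_Rankin_Dirichlet -- from S48/Rankin/Dirichlet.lean

set_option autoImplicit false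

namespace Fermat.Agent.S48

open Finset

/-- Abel summation, as an inequality: if the partial sums of `b` are at most `C M` and the
weights `w` are nonnegative and decreasing, then `∑ b n w n ≤ C ∑ w n`. -/
theorem rk_abel (b w : ℕ → ℝ) (C : ℝ) (hw : ∀ n, 0 ≤ w n)
    (hanti : ∀ n, 1 ≤ n → w (n + 1) ≤ w n)
    (hB : ∀ M, 1 ≤ M → ∑ n ∈ Icc 1 M, b n ≤ C * M) (M : ℕ) :
    ∑ n ∈ Icc 1 M, b n * w n ≤ C * ∑ n ∈ Icc 1 M, w n := by
  -- stronger claim
  have key : ∀ M : ℕ, 1 ≤ M →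
      w M * (C * M - ∑ n ∈ Icc 1 M, b n) ≤
        C * ∑ n ∈ Icc 1 M, w n - ∑ n ∈ Icc 1 M, b n * w n := by
    intro M hM
    induction M, hM using Nat.le_induction with
    | base =>
      simp only [Icc_self, sum_singleton, Nat.cast_one, mul_one]
      apply le_of_eq
      ring
    | succ M hM ih =>
      rw [sum_Icc_succ_top (by omega), sum_Icc_succ_top (by omega), sum_Icc_succ_top (by omega)]
      have h1 : 0 ≤ C * M - ∑ n ∈ Icc 1 M, b n := sub_nonneg.2 (hB M hM)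
      have h2 := hanti M hM
      have h3 : w (M + 1) * (C * M - ∑ n ∈ Icc 1 M, b n) ≤
          w M * (C * M - ∑ n ∈ Icc 1 M, b n) := mul_le_mul_of_nonneg_right h2 h1
      push_cast
      nlinarith [ih, h3]
  rcases Nat.eq_zero_or_pos M with rfl | hM
  · simp
  · have h1 := key M hM
    have h2 : 0 ≤ w M * (C * M - ∑ n ∈ Icc 1 M, b n) :=
      mul_nonneg (hw M) (sub_nonneg.2 (hB M hM))
    linarith

/-- `∑_{1 ≤ n ≤ M} n^{-s} ≤ s / (s - 1)` for `s > 1`. -/
theorem rk_sum_rpow_le (s : ℝ) (hs : 1 < s) (M : ℕ) :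
    ∑ n ∈ Icc 1 M, ((n : ℝ) ^ s)⁻¹ ≤ s / (s - 1) := by
  have hs0 : 0 < s - 1 := sub_pos.2 hs
  rcases Nat.eq_zero_or_pos M with rfl | hM
  · simp only [zero_lt_one, Icc_eq_empty_of_lt, sum_empty]
    positivity
  -- `∑_{n=2}^{M} n^{-s} ≤ ∫_1^M x^{-s} dx`
  have hanti : AntitoneOn (fun x : ℝ => (x ^ s)⁻¹) (Set.Icc ((1 : ℕ) : ℝ) (((1 : ℕ) : ℝ) + ((M - 1 : ℕ) : ℝ))) := by
    intro x hx y hy hxy
    have hx0 : (0 : ℝ) < x := lt_of_lt_of_le (by norm_num) hx.1
    have hy0 : (0 : ℝ) < y := lt_of_lt_of_le (by norm_num) hy.1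
    simp only
    rw [inv_le_inv₀ (Real.rpow_pos_of_pos hy0 s) (Real.rpow_pos_of_pos hx0 s)]
    exact Real.rpow_le_rpow hx0.le hxy (by linarith)
  have h1 := AntitoneOn.sum_le_integral (x₀ := ((1 : ℕ) : ℝ)) (a := M - 1) hanti
  have hcast : (((1 : ℕ) : ℝ) + ((M - 1 : ℕ) : ℝ)) = (M : ℝ) := by
    rw [← Nat.cast_add]
    congr 1
    omega
  rw [hcast] at h1
  have h2 : ∫ x in ((1 : ℕ) : ℝ)..(M : ℝ), (x ^ s)⁻¹ = ((M : ℝ) ^ (-s + 1) - 1) / (-s + 1) := by
    have h3 : ∀ x ∈ Set.uIcc ((1 : ℕ) : ℝ) (M : ℝ), (x ^ s)⁻¹ = x ^ (-s) := by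
      intro x hx
      have hx1 : (1 : ℝ) ≤ x := by
        have hM1 : ((1 : ℕ) : ℝ) ≤ (M : ℝ) := by exact_mod_cast hM
        rw [Set.uIcc_of_le hM1] at hx
        exact_mod_cast hx.1
      rw [Real.rpow_neg (by linarith)]
    rw [intervalIntegral.integral_congr h3, integral_rpow]
    · simp
    · right
      refine ⟨by linarith, ?_⟩
      have hM1 : ((1 : ℕ) : ℝ) ≤ (M : ℝ) := by exact_mod_cast hM
      rw [Set.uIcc_of_le hM1]
      intro h0
      have := h0.1
      norm_num at this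
  rw [h2] at h1
  -- the sum from `1` to `M`
  have h4 : ∑ n ∈ Icc 1 M, ((n : ℝ) ^ s)⁻¹ =
      1 + ∑ i ∈ range (M - 1), ((((1 : ℕ) : ℝ) + ((i + 1 : ℕ) : ℝ)) ^ s)⁻¹ := by
    have h5 : Icc 1 M = insert 1 ((range (M - 1)).image (fun i => 1 + (i + 1))) := by
      ext n
      simp only [mem_Icc, mem_insert, mem_image, mem_range]
      constructor
      · rintro ⟨h1, h2⟩
        rcases Nat.eq_or_lt_of_le h1 with h | h
        · exact Or.inl h.symm
        · exact Or.inr ⟨n - 2, by omega, by omega⟩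
      · rintro (rfl | ⟨i, hi, rfl⟩)
        · exact ⟨le_rfl, hM⟩
        · omega
    rw [h5, sum_insert, sum_image]
    · simp
    · intro i _ j _ hij
      simpa using hij
    · simp only [mem_image, mem_range, not_exists, not_and]
      intro i _ h
      omega
  rw [h4]
  have h6 : ((M : ℝ) ^ (-s + 1) - 1) / (-s + 1) ≤ 1 / (s - 1) := by
    have h7 : 0 ≤ (M : ℝ) ^ (-s + 1) := Real.rpow_nonneg (Nat.cast_nonneg M) _
    have h8 : ((M : ℝ) ^ (-s + 1) - 1) / (-s + 1) = (1 - (M : ℝ) ^ (-s + 1)) / (s - 1) := by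
      have hne : s - 1 ≠ 0 := hs0.ne'
      have hne' : -s + 1 ≠ 0 := by
        intro h
        apply hne
        linarith
      field_simp
      ring
    rw [h8]
    exact div_le_div_of_nonneg_right (by linarith) hs0.le
  have h9 : s / (s - 1) = 1 + 1 / (s - 1) := by
    field_simp
    ring
  rw [h9]
  linarith

/-- Dirichlet series bound from the mean square bound. -/
theorem rk_dirichlet_le (b : ℕ → ℝ) (C : ℝ) (hC : 0 ≤ C)
    (hB : ∀ M, 1 ≤ M → ∑ n ∈ Icc 1 M, b n ≤ C * M) (s : ℝ) (hs : 1 < s) (M : ℕ) :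
    ∑ n ∈ Icc 1 M, b n * ((n : ℝ) ^ s)⁻¹ ≤ C * (s / (s - 1)) := by
  refine (rk_abel b (fun n => ((n : ℝ) ^ s)⁻¹) C (fun n => by positivity) ?_ hB M).trans ?_
  · intro n hn
    have hn0 : (0 : ℝ) < n := by exact_mod_cast hn
    rw [inv_le_inv₀ (Real.rpow_pos_of_pos (by positivity) s) (Real.rpow_pos_of_pos hn0 s)]
    refine Real.rpow_le_rpow hn0.le ?_ (by linarith)
    push_cast
    linarith
  · exact mul_le_mul_of_nonneg_left (rk_sum_rpow_le s hs M) hC

/-! ### multiplicativity on squarefree numbers -/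

theorem rk_not_dvd_prod (T : Finset ℕ) (hT : ∀ p ∈ T, p.Prime) (q : ℕ) (hq : q.Prime)
    (hqT : q ∉ T) : ¬ q ∣ ∏ p ∈ T, p := by
  intro h
  obtain ⟨p, hp, hqp⟩ := (Prime.dvd_finsetProd_iff (Nat.prime_iff.mp hq) _).1 h
  have := (Nat.prime_dvd_prime_iff_eq hq (hT p hp)).1 hqp
  exact hqT (this ▸ hp)

/-- `a` is multiplicative on products of distinct primes of `Pr`. -/
theorem rk_prod_primes (a : ℕ → ℂ) (Pr : Set ℕ) (h1 : a 1 = 1)
    (hmul : ∀ p ∈ Pr, p.Prime → ∀ n : ℕ, ¬ p ∣ n → a (p * n) = a p * a n)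
    (T : Finset ℕ) (hT : ∀ p ∈ T, p.Prime ∧ p ∈ Pr) :
    a (∏ p ∈ T, p) = ∏ p ∈ T, a p := by
  classical
  induction T using Finset.induction_on with
  | empty => simpa using h1
  | insert q T hq ih =>
    have hT' : ∀ p ∈ T, p.Prime ∧ p ∈ Pr := fun p hp => hT p (mem_insert_of_mem hp)
    have hqP := hT q (mem_insert_self q T)
    rw [prod_insert hq, prod_insert hq,
      hmul q hqP.2 hqP.1 _ (rk_not_dvd_prod T (fun p hp => (hT' p hp).1) q hqP.1 hq), ih hT']

/-- The Euler product over finitely many primes of `Pr` is bounded by the Dirichlet series. -/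
theorem rk_prod_le (a : ℕ → ℂ) (Pr : Set ℕ) (h1 : a 1 = 1)
    (hmul : ∀ p ∈ Pr, p.Prime → ∀ n : ℕ, ¬ p ∣ n → a (p * n) = a p * a n)
    (C : ℝ) (hC : 0 ≤ C) (hB : ∀ M, 1 ≤ M → ∑ n ∈ Icc 1 M, ‖a n‖ ^ 2 ≤ C * M)
    (T : Finset ℕ) (hT : ∀ p ∈ T, p.Prime ∧ p ∈ Pr) (s : ℝ) (hs : 1 < s) :
    ∏ p ∈ T, (1 + ‖a p‖ ^ 2 * ((p : ℝ) ^ s)⁻¹) ≤ C * (s / (s - 1)) := by
  classical
  rw [prod_one_add]
  set g : ℕ → ℝ := fun n => ‖a n‖ ^ 2 * ((n : ℝ) ^ s)⁻¹ with hg
  have hg0 : ∀ n, 0 ≤ g n := fun n => by positivity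
  have hU : ∀ U ∈ T.powerset, ∏ p ∈ U, (‖a p‖ ^ 2 * ((p : ℝ) ^ s)⁻¹) = g (∏ p ∈ U, p) := by
    intro U hUT
    have hU' : ∀ p ∈ U, p.Prime ∧ p ∈ Pr := fun p hp => hT p (mem_powerset.1 hUT hp)
    simp only [hg]
    rw [rk_prod_primes a Pr h1 hmul U hU', norm_prod, prod_mul_distrib, prod_pow, prod_inv_distrib,
      Nat.cast_prod, Real.finsetProd_rpow _ _ (fun p _ => Nat.cast_nonneg p)]
  rw [sum_congr rfl hU]
  have hinj : Set.InjOn (fun U : Finset ℕ => ∏ p ∈ U, p) (T.powerset : Set (Finset ℕ)) := by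
    intro U hUT U' hUT' h
    have h2 := Nat.primeFactors_prod (s := U) fun p hp => (hT p (mem_powerset.1 hUT hp)).1
    have h3 := Nat.primeFactors_prod (s := U') fun p hp => (hT p (mem_powerset.1 hUT' hp)).1
    simp only at h
    rw [← h2, ← h3, h]
  rw [← sum_image (f := g) hinj]
  refine le_trans ?_ (rk_dirichlet_le (fun n => ‖a n‖ ^ 2) C hC hB s hs (∏ p ∈ T, p))
  refine sum_le_sum_of_subset_of_nonneg ?_ (fun n _ _ => hg0 n)
  intro n hn
  obtain ⟨U, hUT, rfl⟩ := mem_image.1 hn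
  rw [mem_Icc]
  have hpos : 0 < ∏ p ∈ U, p :=
    prod_pos fun p hp => (hT p (mem_powerset.1 hUT hp)).1.pos
  have hposT : 0 < ∏ p ∈ T, p := prod_pos fun p hp => (hT p hp).1.pos
  exact ⟨hpos, Nat.le_of_dvd hposT (prod_dvd_prod_of_subset _ _ _ (mem_powerset.1 hUT))⟩

end Fermat.Agent.S48
end MergeWrap_S48_Rankin_Dirichlet

section MergeWrap_S48_Rankin -- from S48/Rankin.lean

set_option autoImplicit false

namespace Fermat.Agent.S48

open Finset

/-- `log (1 + x) ≥ x - x²` for `x ≥ 0`. -/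
theorem rk_log_one_add_ge (x : ℝ) (hx : 0 ≤ x) : x - x ^ 2 ≤ Real.log (1 + x) := by
  have h1 : 0 < 1 + x := by linarith
  have h2 := Real.one_sub_inv_le_log_of_pos h1
  refine le_trans ?_ h2
  rw [sub_le_sub_iff, ← sub_nonneg]
  have h3 : 1 + x ^ 2 - (x + (1 + x)⁻¹) = x ^ 3 / (1 + x) := by
    field_simp
    ring
  rw [h3]
  positivity

section Abstract

variable (a : ℕ → ℂ) (Pr : Set ℕ) (h1 : a 1 = 1)
  (hmul : ∀ p ∈ Pr, p.Prime → ∀ n : ℕ, ¬ p ∣ n → a (p * n) = a p * a n)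
  (C : ℝ) (hC : 0 ≤ C) (hB : ∀ M, 1 ≤ M → ∑ n ∈ Icc 1 M, ‖a n‖ ^ 2 ≤ C * M)

include h1 hmul hC hB in
theorem rk_one_le (s : ℝ) (hs : 1 < s) : 1 ≤ C * (s / (s - 1)) := by
  have := rk_prod_le a Pr h1 hmul C hC hB ∅ (by simp) s hs
  simpa using this

include h1 hmul hC hB in
/-- Density form of Rankin's bound. -/
theorem rk_density_le (c : ℝ) (hc : 0 < c) (T : Finset ℕ)
    (hT : ∀ p ∈ T, p.Prime ∧ p ∈ Pr ∧ c ≤ ‖a p‖ ^ 2) (s : ℝ) (hs : 1 < s) :
    (∑ p ∈ T, ((p : ℝ) ^ s)⁻¹) * Real.log (1 + c) ≤ Real.log (C * (s / (s - 1))) := by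
  have hT' : ∀ p ∈ T, p.Prime ∧ p ∈ Pr := fun p hp => ⟨(hT p hp).1, (hT p hp).2.1⟩
  have h2 := rk_prod_le a Pr h1 hmul C hC hB T hT' s hs
  have hc1 : (0 : ℝ) < 1 + c := by linarith
  -- `(1 + c)^y ≤ 1 + c y` for `0 ≤ y ≤ 1`
  have h3 : ∀ p ∈ T, (1 + c) ^ (((p : ℝ) ^ s)⁻¹) ≤ 1 + ‖a p‖ ^ 2 * ((p : ℝ) ^ s)⁻¹ := by
    intro p hp
    have hp1 : (1 : ℝ) ≤ p := by exact_mod_cast (hT p hp).1.one_lt.le
    have hy0 : 0 ≤ ((p : ℝ) ^ s)⁻¹ := by positivity
    have hy1 : ((p : ℝ) ^ s)⁻¹ ≤ 1 := by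
      rw [inv_le_one₀ (by positivity)]
      exact Real.one_le_rpow hp1 (by linarith)
    have h4 := _root_.rpow_one_add_le_one_add_mul_self (s := c) (by linarith) hy0 hy1
    refine h4.trans ?_
    have h5 := (hT p hp).2.2
    nlinarith
  have h6 : (1 + c) ^ (∑ p ∈ T, ((p : ℝ) ^ s)⁻¹) ≤ C * (s / (s - 1)) := by
    rw [Real.rpow_sum_of_pos hc1]
    exact (prod_le_prod (fun p _ => (Real.rpow_pos_of_pos hc1 _).le) h3).trans h2
  have h7 := Real.log_le_log (Real.rpow_pos_of_pos hc1 _) h6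
  rwa [Real.log_rpow hc1] at h7

include h1 hmul hC hB in
/-- Sharp form of Rankin's bound, for bounded coefficients. -/
theorem rk_sharp_le (A : ℝ) (T : Finset ℕ)
    (hT : ∀ p ∈ T, p.Prime ∧ p ∈ Pr ∧ ‖a p‖ ^ 2 ≤ A) (s : ℝ) (hs : 1 < s) :
    ∑ p ∈ T, ‖a p‖ ^ 2 * ((p : ℝ) ^ s)⁻¹ ≤ Real.log (C * (s / (s - 1))) + 2 * A ^ 2 := by
  classical
  have hT' : ∀ p ∈ T, p.Prime ∧ p ∈ Pr := fun p hp => ⟨(hT p hp).1, (hT p hp).2.1⟩
  have h2 := rk_prod_le a Pr h1 hmul C hC hB T hT' s hs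
  have hpos : ∀ p ∈ T, (0 : ℝ) < 1 + ‖a p‖ ^ 2 * ((p : ℝ) ^ s)⁻¹ := fun p _ => by positivity
  have h3 : ∑ p ∈ T, Real.log (1 + ‖a p‖ ^ 2 * ((p : ℝ) ^ s)⁻¹) ≤
      Real.log (C * (s / (s - 1))) := by
    rw [← Real.log_prod (fun p hp => (hpos p hp).ne')]
    exact Real.log_le_log (prod_pos hpos) h2
  have h4 : ∀ p ∈ T, ‖a p‖ ^ 2 * ((p : ℝ) ^ s)⁻¹ ≤
      Real.log (1 + ‖a p‖ ^ 2 * ((p : ℝ) ^ s)⁻¹) + A ^ 2 * ((p : ℝ) ^ (2 : ℝ))⁻¹ := by
    intro p hp
    have hp1 : (1 : ℝ) ≤ p := by exact_mod_cast (hT p hp).1.one_lt.le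
    have hp0 : (0 : ℝ) < p := by linarith
    have h5 := rk_log_one_add_ge (‖a p‖ ^ 2 * ((p : ℝ) ^ s)⁻¹) (by positivity)
    have h6 : (‖a p‖ ^ 2 * ((p : ℝ) ^ s)⁻¹) ^ 2 ≤ A ^ 2 * ((p : ℝ) ^ (2 : ℝ))⁻¹ := by
      rw [mul_pow]
      have h7 : (‖a p‖ ^ 2) ^ 2 ≤ A ^ 2 :=
        pow_le_pow_left₀ (by positivity) (hT p hp).2.2 2
      have h8 : (((p : ℝ) ^ s)⁻¹) ^ 2 ≤ ((p : ℝ) ^ (2 : ℝ))⁻¹ := by
        rw [inv_pow, inv_le_inv₀ (by positivity) (by positivity), Real.rpow_two]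
        have h9 : (p : ℝ) ≤ (p : ℝ) ^ s := by
          calc (p : ℝ) = (p : ℝ) ^ (1 : ℝ) := (Real.rpow_one _).symm
            _ ≤ (p : ℝ) ^ s := Real.rpow_le_rpow_of_exponent_le hp1 hs.le
        exact pow_le_pow_left₀ hp0.le h9 2
      exact mul_le_mul h7 h8 (by positivity) (by positivity)
    linarith
  have h10 : ∑ p ∈ T, ((p : ℝ) ^ (2 : ℝ))⁻¹ ≤ 2 := by
    have h11 : T ⊆ Icc 1 (∏ p ∈ T, p) := by
      intro p hp
      rw [mem_Icc]
      have hposT : 0 < ∏ p ∈ T, p := prod_pos fun q hq => (hT q hq).1.pos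
      exact ⟨(hT p hp).1.pos, Nat.le_of_dvd hposT (dvd_prod_of_mem _ hp)⟩
    refine (sum_le_sum_of_subset_of_nonneg h11 (fun n _ _ => by positivity)).trans ?_
    have := rk_sum_rpow_le 2 (by norm_num) (∏ p ∈ T, p)
    norm_num at this ⊢
    exact this
  calc ∑ p ∈ T, ‖a p‖ ^ 2 * ((p : ℝ) ^ s)⁻¹
      ≤ ∑ p ∈ T, (Real.log (1 + ‖a p‖ ^ 2 * ((p : ℝ) ^ s)⁻¹) + A ^ 2 * ((p : ℝ) ^ (2 : ℝ))⁻¹) :=
        sum_le_sum h4
    _ = ∑ p ∈ T, Real.log (1 + ‖a p‖ ^ 2 * ((p : ℝ) ^ s)⁻¹) +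
          A ^ 2 * ∑ p ∈ T, ((p : ℝ) ^ (2 : ℝ))⁻¹ := by
        rw [sum_add_distrib, mul_sum]
    _ ≤ Real.log (C * (s / (s - 1))) + A ^ 2 * 2 :=
        add_le_add h3 (mul_le_mul_of_nonneg_left h10 (sq_nonneg A))
    _ = Real.log (C * (s / (s - 1))) + 2 * A ^ 2 := by ring

end Abstract

section Forms

open CongruenceSubgroup ModularFormClass
open scoped MatrixGroups

variable (N : ℕ) [NeZero N] (ε : DirichletCharacter ℂ N) (f : CuspForm (Gamma1 N) 1)
  (hf₁ : ModularFormClass.qCoeff f 1 = 1)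
  (hT : ∀ p : ℕ, p.Prime → ¬ p ∣ N → ∀ n : ℕ,
      ModularFormClass.qCoeff f (p * n) +
          ε (p : ZMod N) * (if p ∣ n then ModularFormClass.qCoeff f (n / p) else 0) =
        ModularFormClass.qCoeff f p * ModularFormClass.qCoeff f n)

omit [NeZero N] in
include hT in
theorem rk_hmul_of_hT : ∀ p ∈ {p : ℕ | ¬ p ∣ N}, p.Prime → ∀ n : ℕ, ¬ p ∣ n →
    qCoeff f (p * n) = qCoeff f p * qCoeff f n := by
  intro p hpN hp n hpn
  have h := hT p hp hpN n
  rwa [if_neg hpn, mul_zero, add_zero] at h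

/-- The mean square bound in the form used by the abstract lemmas. -/
theorem rk_hB_Gamma1 : ∃ C : ℝ, 0 ≤ C ∧
    ∀ M, 1 ≤ M → ∑ n ∈ Icc 1 M, ‖qCoeff f n‖ ^ 2 ≤ C * M := by
  obtain ⟨C, hC0, hC⟩ := rk_sum_sq_le_Gamma1 N f
  refine ⟨C, hC0, fun M hM => le_trans ?_ (hC M hM)⟩
  refine sum_le_sum_of_subset_of_nonneg ?_ (fun n _ _ => by positivity)
  intro n hn
  rw [mem_Icc] at hn
  rw [mem_range]
  omega

include hf₁ hT in
/-- **Rankin's bound**, Euler product form. -/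
theorem rankin_prod_le : ∃ C : ℝ, 1 ≤ C ∧ ∀ T : Finset ℕ, (∀ p ∈ T, p.Prime ∧ ¬ p ∣ N) →
    ∀ s : ℝ, 1 < s →
      ∏ p ∈ T, (1 + ‖qCoeff f p‖ ^ 2 * ((p : ℝ) ^ s)⁻¹) ≤ C * (s / (s - 1)) := by
  obtain ⟨C, hC0, hB⟩ := rk_hB_Gamma1 N f
  have hC1 : 1 ≤ C := by
    have := hB 1 le_rfl
    simpa [hf₁] using this
  exact ⟨C, hC1, fun T hTp s hs =>
    rk_prod_le (fun n => qCoeff f n) {p : ℕ | ¬ p ∣ N} hf₁ (rk_hmul_of_hT N ε f hT) C hC0 hB T
      hTp s hs⟩

include hf₁ hT in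
/-- **Rankin's bound**, density form: the primes `p ∤ N` with `‖a p‖² ≥ c` have upper Dirichlet
density at most `1 / log (1 + c)`. -/
theorem rankin_density_le : ∃ C : ℝ, 1 ≤ C ∧ ∀ c : ℝ, 0 < c → ∀ T : Finset ℕ,
    (∀ p ∈ T, p.Prime ∧ ¬ p ∣ N ∧ c ≤ ‖qCoeff f p‖ ^ 2) → ∀ s : ℝ, 1 < s →
      (∑ p ∈ T, ((p : ℝ) ^ s)⁻¹) * Real.log (1 + c) ≤
        Real.log C + Real.log (s / (s - 1)) := by
  obtain ⟨C, hC0, hB⟩ := rk_hB_Gamma1 N f
  have hC1 : 1 ≤ C := by
    have := hB 1 le_rfl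
    simpa [hf₁] using this
  refine ⟨C, hC1, fun c hc T hTp s hs => ?_⟩
  have h := rk_density_le (fun n => qCoeff f n) {p : ℕ | ¬ p ∣ N} hf₁ (rk_hmul_of_hT N ε f hT)
    C hC0 hB c hc T hTp s hs
  have hs1 : 0 < s / (s - 1) := div_pos (by linarith) (by linarith)
  rwa [Real.log_mul (by linarith) hs1.ne'] at h

include hf₁ hT in
/-- **Rankin's bound**, sharp form for bounded coefficients:
`∑_{p ∈ T} ‖a p‖² p^{-s} ≤ log (s / (s - 1)) + O(1)`. -/
theorem rankin_sharp_le : ∃ C : ℝ, ∀ T : Finset ℕ,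
    (∀ p ∈ T, p.Prime ∧ ¬ p ∣ N ∧ ‖qCoeff f p‖ ≤ 2) → ∀ s : ℝ, 1 < s →
      ∑ p ∈ T, ‖qCoeff f p‖ ^ 2 * ((p : ℝ) ^ s)⁻¹ ≤ Real.log (s / (s - 1)) + C := by
  obtain ⟨C, hC0, hB⟩ := rk_hB_Gamma1 N f
  have hC1 : 1 ≤ C := by
    have := hB 1 le_rfl
    simpa [hf₁] using this
  refine ⟨Real.log C + 2 * 4 ^ 2, fun T hTp s hs => ?_⟩
  have hTp' : ∀ p ∈ T, p.Prime ∧ p ∈ {p : ℕ | ¬ p ∣ N} ∧ ‖(fun n => qCoeff f n) p‖ ^ 2 ≤ 4 := by
    intro p hp
    refine ⟨(hTp p hp).1, (hTp p hp).2.1, ?_⟩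
    have := (hTp p hp).2.2
    have h0 : 0 ≤ ‖qCoeff f p‖ := norm_nonneg _
    simp only
    nlinarith
  have h := rk_sharp_le (fun n => qCoeff f n) {p : ℕ | ¬ p ∣ N} hf₁ (rk_hmul_of_hT N ε f hT)
    C hC0 hB 4 T hTp' s hs
  have hs1 : 0 < s / (s - 1) := div_pos (by linarith) (by linarith)
  rw [Real.log_mul (by linarith) hs1.ne'] at h
  linarith

end Forms

end Fermat.Agent.S48
end MergeWrap_S48_Rankin

section MergeWrap_S48_Irred_Char -- from S48/Irred/Char.lean

/-!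
# S48 (IRR), group-theoretic part

A finite group `G` acting on `ℂ²` through `ι : G →* GL₂(ℂ)` with an invariant line `ℂ v`:
the trace is `χ + ψ` for two characters, hence `‖tr g‖ ≤ 2`, `‖tr g⁻¹‖ = ‖tr g‖` and
`∑_g ‖tr g‖² ≥ 2 |G|` (orthogonality of characters, `sum_hom_units`).
-/

set_option autoImplicit false
set_option linter.unusedSectionVars false

namespace Fermat.Agent.S48.Irr

open Matrix

/-- An eigenvalue of a `2 × 2` matrix is a root of `X² - tr X + det`. -/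
theorem eig_root (M : Matrix (Fin 2) (Fin 2) ℂ) (v : Fin 2 → ℂ) (hv : v ≠ 0) (c : ℂ)
    (h : M.mulVec v = c • v) : c ^ 2 - M.trace * c + M.det = 0 := by
  have h0 : (M - c • (1 : Matrix (Fin 2) (Fin 2) ℂ)).mulVec v = 0 := by
    rw [Matrix.sub_mulVec, h, Matrix.smul_mulVec, Matrix.one_mulVec, sub_self]
  have hdet : (M - c • (1 : Matrix (Fin 2) (Fin 2) ℂ)).det = 0 :=
    Matrix.exists_mulVec_eq_zero_iff.mp ⟨v, hv, h0⟩
  rw [Matrix.det_fin_two] at hdet
  rw [Matrix.trace_fin_two, Matrix.det_fin_two]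
  simp at hdet
  linear_combination hdet

section Group

variable {G : Type} [Group G] [Fintype G] (ι : G →* GL (Fin 2) ℂ) (v : Fin 2 → ℂ)
  (c : G → ℂ)

/-- the trace function -/
noncomputable def tr (g : G) : ℂ := ((ι g : GL (Fin 2) ℂ) : Matrix (Fin 2) (Fin 2) ℂ).trace

/-- the determinant function -/
noncomputable def dt (g : G) : ℂ := ((ι g : GL (Fin 2) ℂ) : Matrix (Fin 2) (Fin 2) ℂ).det

theorem dt_one : dt ι 1 = 1 := by simp [dt]

theorem dt_mul (g h : G) : dt ι (g * h) = dt ι g * dt ι h := by simp [dt]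

variable {ι v c}

theorem c_unique (hv : v ≠ 0) {a b : ℂ} (h : a • v = b • v) : a = b := by
  by_contra hab
  have : (a - b) • v = 0 := by rw [sub_smul, h, sub_self]
  rcases smul_eq_zero.mp this with h1 | h1
  · exact hab (sub_eq_zero.mp h1)
  · exact hv h1

theorem c_one (hv : v ≠ 0)
    (hc : ∀ g, ((ι g : GL (Fin 2) ℂ) : Matrix (Fin 2) (Fin 2) ℂ).mulVec v = c g • v) :
    c 1 = 1 := by
  apply c_unique hv
  rw [← hc 1]
  simp

theorem c_mul (hv : v ≠ 0)
    (hc : ∀ g, ((ι g : GL (Fin 2) ℂ) : Matrix (Fin 2) (Fin 2) ℂ).mulVec v = c g • v)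
    (g h : G) : c (g * h) = c g * c h := by
  apply c_unique hv
  rw [← hc (g * h), map_mul, Units.val_mul, ← Matrix.mulVec_mulVec, hc h, Matrix.mulVec_smul,
    hc g, smul_smul, mul_comm]

/-- `c` as a monoid homomorphism. -/
noncomputable def cHom (hv : v ≠ 0)
    (hc : ∀ g, ((ι g : GL (Fin 2) ℂ) : Matrix (Fin 2) (Fin 2) ℂ).mulVec v = c g • v) :
    G →* ℂ where
  toFun := c
  map_one' := c_one hv hc
  map_mul' := c_mul hv hc

/-- `det` as a monoid homomorphism. -/
noncomputable def dHom (ι : G →* GL (Fin 2) ℂ) : G →* ℂ where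
  toFun := dt ι
  map_one' := dt_one ι
  map_mul' := dt_mul ι

theorem norm_hom_eq_one (f : G →* ℂ) (g : G) : ‖f g‖ = 1 := by
  have h1 : f g ^ Fintype.card G = 1 := by
    rw [← map_pow, pow_card_eq_one, map_one]
  have h2 : ‖f g‖ ^ Fintype.card G = 1 := by
    rw [← norm_pow, h1, norm_one]
  exact (pow_eq_one_iff_of_nonneg (norm_nonneg _) Fintype.card_ne_zero).mp h2

theorem hom_ne_zero (f : G →* ℂ) (g : G) : f g ≠ 0 := by
  intro h
  have := norm_hom_eq_one f g
  rw [h, norm_zero] at this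
  exact zero_ne_one this

theorem hom_inv (f : G →* ℂ) (g : G) : f g⁻¹ = (f g)⁻¹ := by
  have h : f g⁻¹ * f g = 1 := by rw [← map_mul, inv_mul_cancel, map_one]
  exact eq_inv_of_mul_eq_one_left h

theorem hom_inv_conj (f : G →* ℂ) (g : G) : f g⁻¹ = (starRingEnd ℂ) (f g) := by
  rw [hom_inv, Complex.inv_eq_conj (norm_hom_eq_one f g)]

theorem tr_eq (hv : v ≠ 0)
    (hc : ∀ g, ((ι g : GL (Fin 2) ℂ) : Matrix (Fin 2) (Fin 2) ℂ).mulVec v = c g • v)
    (g : G) : tr ι g = c g + dt ι g / c g := by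
  have h := eig_root _ v hv (c g) (hc g)
  have hne : c g ≠ 0 := hom_ne_zero (cHom hv hc) g
  unfold tr dt
  field_simp
  linear_combination -h

theorem norm_tr_le (hv : v ≠ 0)
    (hc : ∀ g, ((ι g : GL (Fin 2) ℂ) : Matrix (Fin 2) (Fin 2) ℂ).mulVec v = c g • v)
    (g : G) : ‖tr ι g‖ ≤ 2 := by
  rw [tr_eq hv hc]
  have h1 : ‖c g‖ = 1 := norm_hom_eq_one (cHom hv hc) g
  have h2 : ‖dt ι g‖ = 1 := norm_hom_eq_one (dHom ι) g
  calc ‖c g + dt ι g / c g‖ ≤ ‖c g‖ + ‖dt ι g / c g‖ := norm_add_le _ _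
    _ = 2 := by rw [norm_div, h1, h2]; norm_num

theorem tr_inv (hv : v ≠ 0)
    (hc : ∀ g, ((ι g : GL (Fin 2) ℂ) : Matrix (Fin 2) (Fin 2) ℂ).mulVec v = c g • v)
    (g : G) : tr ι g⁻¹ = (starRingEnd ℂ) (tr ι g) := by
  rw [tr_eq hv hc, tr_eq hv hc, map_add, map_div₀]
  have h1 : c g⁻¹ = (starRingEnd ℂ) (c g) := hom_inv_conj (cHom hv hc) g
  have h2 : dt ι g⁻¹ = (starRingEnd ℂ) (dt ι g) := hom_inv_conj (dHom ι) g
  rw [h1, h2]

theorem norm_tr_inv (hv : v ≠ 0)
    (hc : ∀ g, ((ι g : GL (Fin 2) ℂ) : Matrix (Fin 2) (Fin 2) ℂ).mulVec v = c g • v)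
    (g : G) : ‖tr ι g⁻¹‖ = ‖tr ι g‖ := by
  rw [tr_inv hv hc, RCLike.norm_conj]

theorem tr_conj (ι : G →* GL (Fin 2) ℂ) (g h : G) : tr ι (h * g * h⁻¹) = tr ι g := by
  unfold tr
  rw [map_mul, map_mul, Units.val_mul, Units.val_mul, Matrix.trace_mul_comm, ← Units.val_mul,
    ← Units.val_mul, ← map_mul, ← map_mul, ← mul_assoc, inv_mul_cancel, one_mul]

/-- the ratio character `θ = χ² / det` -/
noncomputable def thetaHom (hv : v ≠ 0)
    (hc : ∀ g, ((ι g : GL (Fin 2) ℂ) : Matrix (Fin 2) (Fin 2) ℂ).mulVec v = c g • v) :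
    G →* ℂ where
  toFun g := c g ^ 2 / dt ι g
  map_one' := by rw [c_one hv hc, dt_one]; norm_num
  map_mul' g h := by rw [c_mul hv hc, dt_mul]; ring

theorem normSq_tr (hv : v ≠ 0)
    (hc : ∀ g, ((ι g : GL (Fin 2) ℂ) : Matrix (Fin 2) (Fin 2) ℂ).mulVec v = c g • v)
    (g : G) : ((‖tr ι g‖ ^ 2 : ℝ) : ℂ) = 2 + thetaHom hv hc g + thetaHom hv hc g⁻¹ := by
  have h0 : ((‖tr ι g‖ ^ 2 : ℝ) : ℂ) = tr ι g * (starRingEnd ℂ) (tr ι g) := by
    rw [Complex.mul_conj, Complex.normSq_eq_norm_sq]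
  rw [h0, ← tr_inv hv hc, tr_eq hv hc, tr_eq hv hc]
  have h1 : c g⁻¹ = (c g)⁻¹ := hom_inv (cHom hv hc) g
  have h2 : dt ι g⁻¹ = (dt ι g)⁻¹ := hom_inv (dHom ι) g
  have hne : c g ≠ 0 := hom_ne_zero (cHom hv hc) g
  have hne' : dt ι g ≠ 0 := hom_ne_zero (dHom ι) g
  show _ = 2 + c g ^ 2 / dt ι g + c g⁻¹ ^ 2 / dt ι g⁻¹
  rw [h1, h2]
  field_simp
  ring

/-- **Orthogonality**: `∑_g ‖tr g‖² ≥ 2 |G|` when there is an invariant line. -/
theorem two_card_le_sum (hv : v ≠ 0)
    (hc : ∀ g, ((ι g : GL (Fin 2) ℂ) : Matrix (Fin 2) (Fin 2) ℂ).mulVec v = c g • v) :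
    2 * (Fintype.card G : ℝ) ≤ ∑ g : G, ‖tr ι g‖ ^ 2 := by
  classical
  have hsum : ((∑ g : G, ‖tr ι g‖ ^ 2 : ℝ) : ℂ)
      = 2 * (Fintype.card G : ℂ) + 2 * (if thetaHom hv hc = 1 then (Fintype.card G : ℂ) else 0) := by
    push_cast
    have : ∀ g : G, ((‖tr ι g‖ : ℂ)) ^ 2 = 2 + thetaHom hv hc g + thetaHom hv hc g⁻¹ := by
      intro g
      have := normSq_tr hv hc g
      push_cast at this
      exact this
    simp_rw [this]
    rw [Finset.sum_add_distrib, Finset.sum_add_distrib]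
    have e1 : ∑ g : G, thetaHom hv hc g⁻¹ = ∑ g : G, thetaHom hv hc g :=
      Fintype.sum_equiv (Equiv.inv G) _ _ (fun g => rfl)
    rw [e1, sum_hom_units]
    simp only [Finset.sum_const, Finset.card_univ, nsmul_eq_mul]
    split_ifs <;> push_cast <;> ring
  have hre := congrArg Complex.re hsum
  rw [Complex.ofReal_re] at hre
  rw [hre]
  split_ifs
  · simp only [Complex.add_re, Complex.mul_re, Complex.re_ofNat, Complex.natCast_re,
      Complex.im_ofNat, Complex.natCast_im, mul_zero, sub_zero]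
    have : (0 : ℝ) ≤ Fintype.card G := Nat.cast_nonneg _
    linarith
  · simp

end Group

end Fermat.Agent.S48.Irr
end MergeWrap_S48_Irred_Char

section MergeWrap_S48_Irred_Density -- from S48/Irred/Density.lean

/-!
# S48 (IRR), analytic part

The abstract contradiction: a finite group `G` with a class function `w ≥ 0` of mean `≥ 2`, whose
level sets have the Chebotarev lower density, against the sharp Rankin bound
`∑ a_p p^{-s} ≤ log (s/(s-1)) + C`.
-/

set_option autoImplicit false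

namespace Fermat.Agent.S48.Irr

open Finset

/-- `p^{-s} ≤ 1`. -/
theorem rpow_neg_le_one (p : ℕ) (hp : 1 ≤ p) (s : ℝ) (hs : 0 ≤ s) : (p : ℝ) ^ (-s) ≤ 1 := by
  apply Real.rpow_le_one_of_one_le_of_nonpos
  · exact_mod_cast hp
  · linarith

/-- dropping the primes dividing `N` costs at most `#divisors N`. -/
theorem sum_filter_ge (N : ℕ) (hN : N ≠ 0) (F : Finset ℕ) (hF : ∀ p ∈ F, p.Prime) (s : ℝ)
    (hs : 0 ≤ s) :
    ∑ p ∈ F, (p : ℝ) ^ (-s) - (N.divisors.card : ℝ)
      ≤ ∑ p ∈ F.filter (fun p => ¬ p ∣ N), (p : ℝ) ^ (-s) := by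
  classical
  have h1 := Finset.sum_filter_add_sum_filter_not F (fun p => ¬ p ∣ N) (fun p => (p : ℝ) ^ (-s))
  have h2 : ∑ p ∈ F.filter (fun p => ¬ ¬ p ∣ N), (p : ℝ) ^ (-s) ≤ (N.divisors.card : ℝ) := by
    calc ∑ p ∈ F.filter (fun p => ¬ ¬ p ∣ N), (p : ℝ) ^ (-s)
        ≤ ∑ p ∈ F.filter (fun p => ¬ ¬ p ∣ N), (1 : ℝ) := by
          apply Finset.sum_le_sum
          intro p hp
          exact rpow_neg_le_one p (hF p (Finset.mem_filter.mp hp).1).one_lt.le s hs
      _ = ((F.filter (fun p => ¬ ¬ p ∣ N)).card : ℝ) := by simp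
      _ ≤ (N.divisors.card : ℝ) := by
          have : F.filter (fun p => ¬ ¬ p ∣ N) ⊆ N.divisors := by
            intro p hp
            rw [Finset.mem_filter, not_not] at hp
            exact Nat.mem_divisors.mpr ⟨hp.2, hN⟩
          exact_mod_cast Finset.card_le_card this
  linarith

/-- the fibre count -/
theorem sum_eq_sum_fibre {G : Type} [Fintype G] (w : G → ℝ) :
    ∑ g, w g = ∑ c ∈ Finset.univ.image w, c * (Nat.card {g : G | w g = c} : ℝ) := by
  classical
  rw [Finset.sum_comp (fun x => x) w]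
  apply Finset.sum_congr rfl
  intro c _
  have : Nat.card {g : G | w g = c} = (Finset.univ.filter (fun g => w g = c)).card := by
    rw [Nat.card_eq_fintype_card, Fintype.card_subtype]
    rfl
  rw [this, nsmul_eq_mul, mul_comm]

/-- **The abstract contradiction.** -/
theorem density_contra {G : Type} [Fintype G] [Nonempty G] (w : G → ℝ) (hw0 : ∀ g, 0 ≤ w g)
    (hw4 : ∀ g, w g ≤ 4) (hsum : 2 * (Fintype.card G : ℝ) ≤ ∑ g, w g)
    (N : ℕ) (hN : N ≠ 0) (X : ℝ → Set ℕ) (a : ℕ → ℝ)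
    (H1 : ∀ c, LowerLogDensityGE (X c) ((Nat.card {g : G | w g = c} : ℝ) / Nat.card G))
    (H2 : ∀ c, ∀ p ∈ X c, p.Prime → ¬ p ∣ N → a p = c)
    (H3 : ∃ CR : ℝ, ∀ T : Finset ℕ, (∀ p ∈ T, p.Prime ∧ ¬ p ∣ N ∧ a p ≤ 4) → ∀ s : ℝ, 1 < s →
      ∑ p ∈ T, a p * ((p : ℝ) ^ s)⁻¹ ≤ Real.log (s / (s - 1)) + CR) : False := by
  classical
  set V : Finset ℝ := Finset.univ.image w with hVdef
  have hV : V.Nonempty := Finset.image_nonempty.mpr Finset.univ_nonempty
  have hV0 : ∀ c ∈ V, 0 ≤ c := by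
    intro c hc
    obtain ⟨g, -, rfl⟩ := Finset.mem_image.mp hc
    exact hw0 g
  have hV4 : ∀ c ∈ V, c ≤ 4 := by
    intro c hc
    obtain ⟨g, -, rfl⟩ := Finset.mem_image.mp hc
    exact hw4 g
  set S : ℝ := ∑ c ∈ V, c with hSdef
  have hS0 : 0 ≤ S := Finset.sum_nonneg hV0
  set ε : ℝ := 1 / (2 * (S + 1)) with hεdef
  have hε : 0 < ε := by positivity
  have hεS : ε * S ≤ 1 / 2 := by
    rw [hεdef, div_mul_eq_mul_div, one_mul, div_le_iff₀ (by positivity)]
    linarith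
  choose Cst s₀ hs₀ hF using fun c => H1 c ε hε
  obtain ⟨CR, hCR⟩ := H3
  set D : ℝ := (N.divisors.card : ℝ) with hDdef
  set K₁ : ℝ := ∑ c ∈ V, c * (Cst c + D) with hK₁def
  have hcardG : (0 : ℝ) < Fintype.card G := by exact_mod_cast Fintype.card_pos
  -- the mean of `w`
  have hmean : 2 ≤ ∑ c ∈ V, c * ((Nat.card {g : G | w g = c} : ℝ) / Nat.card G) := by
    have h1 : ∑ c ∈ V, c * ((Nat.card {g : G | w g = c} : ℝ) / Nat.card G)
        = (∑ g, w g) / Fintype.card G := by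
      rw [sum_eq_sum_fibre w, Finset.sum_div, Nat.card_eq_fintype_card]
      apply Finset.sum_congr rfl
      intro c _
      rw [mul_div_assoc]
    rw [h1, le_div_iff₀ hcardG]
    exact hsum
  -- the key inequality
  have key : ∀ s : ℝ, 1 < s → s < 2 → (∀ c ∈ V, s < s₀ c) →
      Real.log (1 / (s - 1)) ≤ 2 * (K₁ + Real.log 2 + CR) := by
    intro s hs1 hs2 hlt
    set L : ℝ := Real.log (1 / (s - 1)) with hLdef
    have hL0 : 0 ≤ L := by
      apply Real.log_nonneg
      rw [le_div_iff₀ (by linarith)]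
      linarith
    have hex : ∀ c : ℝ, ∃ F : Finset ℕ, c ∈ V → ((∀ p ∈ F, p.Prime ∧ p ∈ X c) ∧
        ((Nat.card {g : G | w g = c} : ℝ) / Nat.card G - ε) * L - Cst c
          ≤ ∑ p ∈ F, (p : ℝ) ^ (-s)) := by
      intro c
      by_cases hc : c ∈ V
      · obtain ⟨F, hF1, hF2⟩ := hF c s hs1 (hlt c hc)
        exact ⟨F, fun _ => ⟨hF1, hF2⟩⟩
      · exact ⟨∅, fun h => absurd h hc⟩
    choose F hFp using hex
    set F' : ℝ → Finset ℕ := fun c => (F c).filter (fun p => ¬ p ∣ N) with hF'def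
    have hF'a : ∀ c ∈ V, ∀ p ∈ F' c, p.Prime ∧ ¬ p ∣ N ∧ a p = c := by
      intro c hc p hp
      rw [hF'def, Finset.mem_filter] at hp
      have h1 := (hFp c hc).1 p hp.1
      exact ⟨h1.1, hp.2, H2 c p h1.2 h1.1 hp.2⟩
    set T : Finset ℕ := V.biUnion F' with hTdef
    have hT : ∀ p ∈ T, p.Prime ∧ ¬ p ∣ N ∧ a p ≤ 4 := by
      intro p hp
      obtain ⟨c, hc, hpc⟩ := Finset.mem_biUnion.mp hp
      obtain ⟨h1, h2, h3⟩ := hF'a c hc p hpc
      exact ⟨h1, h2, h3 ▸ hV4 c hc⟩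
    have hdisj : (V : Set ℝ).PairwiseDisjoint F' := by
      intro c hc c' hc' hne
      rw [Function.onFun, Finset.disjoint_left]
      intro p hp hp'
      exact hne ((hF'a c hc p hp).2.2.symm.trans (hF'a c' hc' p hp').2.2)
    have hsumT : ∑ p ∈ T, a p * ((p : ℝ) ^ s)⁻¹
        = ∑ c ∈ V, c * ∑ p ∈ F' c, (p : ℝ) ^ (-s) := by
      rw [hTdef, Finset.sum_biUnion hdisj]
      apply Finset.sum_congr rfl
      intro c hc
      rw [Finset.mul_sum]
      apply Finset.sum_congr rfl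
      intro p hp
      rw [(hF'a c hc p hp).2.2, Real.rpow_neg (Nat.cast_nonneg p)]
    have hlow : ∀ c ∈ V, c * (((Nat.card {g : G | w g = c} : ℝ) / Nat.card G - ε) * L
        - Cst c - D) ≤ c * ∑ p ∈ F' c, (p : ℝ) ^ (-s) := by
      intro c hc
      apply mul_le_mul_of_nonneg_left _ (hV0 c hc)
      have h1 := sum_filter_ge N hN (F c) (fun p hp => ((hFp c hc).1 p hp).1) s (by linarith)
      have h2 := (hFp c hc).2
      have : ∑ p ∈ F c, (p : ℝ) ^ (-s) - D ≤ ∑ p ∈ F' c, (p : ℝ) ^ (-s) := h1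
      linarith
    have hlow' : ∑ c ∈ V, c * (((Nat.card {g : G | w g = c} : ℝ) / Nat.card G - ε) * L
        - Cst c - D) ≤ ∑ p ∈ T, a p * ((p : ℝ) ^ s)⁻¹ := by
      rw [hsumT]
      exact Finset.sum_le_sum hlow
    have hexpand : ∑ c ∈ V, c * (((Nat.card {g : G | w g = c} : ℝ) / Nat.card G - ε) * L
        - Cst c - D)
        = L * (∑ c ∈ V, c * ((Nat.card {g : G | w g = c} : ℝ) / Nat.card G)) - ε * S * L
          - K₁ := by
      rw [hSdef, hK₁def, Finset.mul_sum, Finset.mul_sum, Finset.sum_mul, ← Finset.sum_sub_distrib,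
        ← Finset.sum_sub_distrib]
      apply Finset.sum_congr rfl
      intro c _
      ring
    have hR := hCR T hT s hs1
    have hlog : Real.log (s / (s - 1)) ≤ Real.log 2 + L := by
      have hs0 : (0 : ℝ) < s := by linarith
      have hs10 : (0 : ℝ) < s - 1 := by linarith
      have : s / (s - 1) = s * (1 / (s - 1)) := by ring
      rw [this, Real.log_mul hs0.ne' (by positivity)]
      have : Real.log s ≤ Real.log 2 := Real.log_le_log hs0 hs2.le
      linarith
    have hm : 2 * L ≤ L * (∑ c ∈ V, c * ((Nat.card {g : G | w g = c} : ℝ) / Nat.card G)) := by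
      rw [mul_comm 2 L]
      exact mul_le_mul_of_nonneg_left hmean hL0
    have hεL : ε * S * L ≤ 1 / 2 * L := mul_le_mul_of_nonneg_right hεS hL0
    linarith
  -- choose `s`
  set B : ℝ := 2 * (K₁ + Real.log 2 + CR) with hBdef
  set s₁ : ℝ := min 2 (V.inf' hV s₀) with hs₁def
  have hs₁ : 1 < s₁ := by
    rw [hs₁def, lt_min_iff]
    refine ⟨by norm_num, ?_⟩
    rw [Finset.lt_inf'_iff]
    intro c _
    exact hs₀ c
  set δ : ℝ := min ((s₁ - 1) / 2) (Real.exp (-(B + 1))) with hδdef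
  have hδ0 : 0 < δ := by
    rw [hδdef, lt_min_iff]
    exact ⟨by linarith, Real.exp_pos _⟩
  have hδ1 : δ ≤ (s₁ - 1) / 2 := min_le_left _ _
  have hδ2 : δ ≤ Real.exp (-(B + 1)) := min_le_right _ _
  have hs_lt : 1 + δ < s₁ := by linarith
  have h2 : 1 + δ < 2 := lt_of_lt_of_le hs_lt (min_le_left _ _)
  have hV' : ∀ c ∈ V, 1 + δ < s₀ c := by
    intro c hc
    refine lt_of_lt_of_le hs_lt ((min_le_right _ _).trans ?_)
    exact Finset.inf'_le s₀ hc
  have hk := key (1 + δ) (by linarith) h2 hV'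
  have hL : B + 1 ≤ Real.log (1 / (1 + δ - 1)) := by
    have : 1 + δ - 1 = δ := by ring
    rw [this, one_div, Real.log_inv]
    have := Real.log_le_log hδ0 hδ2
    rw [Real.log_exp] at this
    linarith
  linarith

end Fermat.Agent.S48.Irr
end MergeWrap_S48_Irred_Density

section MergeWrap_S48_Irred -- from S48/Irred.lean

/-!
# S48 (IRR): irreducibility of the Deligne–Serre representation

`irred_of : ChebotarevStatement → IrredStatement`.

If `ρ` (finite image `G`) had an invariant line, then `tr ρ = χ + ψ` for two characters of `G`,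
so `‖tr g‖ ≤ 2` and `∑_g ‖tr g‖² ≥ 2 |G|`.  Chebotarev (for the level sets of `‖tr‖²`, which are
stable under conjugation and inversion) gives `∑_{p} ‖a_p‖² p^{-s} ≥ (2 - 1/2) log (1/(s-1)) - C`,
against the sharp Rankin bound `≤ log (1/(s-1)) + C'`.
-/

set_option autoImplicit false
set_option linter.style.haveILetI false

open CongruenceSubgroup

namespace Fermat.Agent.S48.Irr

local notation "Γℚ" => (AlgebraicClosure ℚ ≃ₐ[ℚ] AlgebraicClosure ℚ)

/-- A homomorphism factoring through a finite level has finite range. -/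
theorem finite_range_of_factors {M : Type} [Group M] (ρ : Γℚ →* M)
    (h : GaloisFactorsThroughFiniteLevel ρ) : Finite ρ.range := by
  classical
  obtain ⟨L, hL, hρ⟩ := h
  let res : Γℚ → (L →ₐ[ℚ] AlgebraicClosure ℚ) := fun σ =>
    (σ : AlgebraicClosure ℚ →ₐ[ℚ] AlgebraicClosure ℚ).comp L.val
  have hfac : ∀ σ τ, res σ = res τ → ρ σ = ρ τ := by
    intro σ τ hst
    have h1 : ρ (τ⁻¹ * σ) = 1 := by
      apply hρ
      intro x hx
      have h2 : σ x = τ x := by
        exact DFunLike.congr_fun hst ⟨x, hx⟩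
      show τ⁻¹ (σ x) = x
      rw [h2]
      exact τ.symm_apply_apply x
    rw [map_mul, map_inv] at h1
    exact (inv_mul_eq_one.mp h1).symm
  have : Finite (L →ₐ[ℚ] AlgebraicClosure ℚ) := inferInstance
  have hfin : (Set.range ρ).Finite := by
    have : Set.range ρ = Set.range (fun x : Set.range res => ρ x.2.choose) := by
      ext m
      constructor
      · rintro ⟨σ, rfl⟩
        exact ⟨⟨res σ, σ, rfl⟩, hfac _ _ (Exists.choose_spec (⟨σ, rfl⟩ : ∃ y, res y = res σ))⟩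
      · rintro ⟨x, rfl⟩
        exact ⟨_, rfl⟩
    rw [this]
    exact Set.finite_range _
  rw [← MonoidHom.coe_range] at hfin
  exact hfin.to_subtype

/-- The core: no invariant line. -/
theorem no_invariant_line (hP5 : ChebotarevStatement) (N : ℕ) [NeZero N]
    (ε : DirichletCharacter ℂ N) (f : CuspForm (Gamma1 N) 1)
    (hf : HeckeRel N ε (fun n => ModularFormClass.qCoeff f n))
    (ρ : Γℚ →* GL (Fin 2) ℂ) (hfin : GaloisFactorsThroughFiniteLevel ρ)
    (htr : ∀ p : ℕ, p.Prime → ¬ p ∣ N →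
        ∀ A : ValuationSubring (AlgebraicClosure ℚ), A.LiesOverPrime p →
          ∀ σ : Γℚ, A.IsFrobeniusAt σ p →
            ((ρ σ : GL (Fin 2) ℂ) : Matrix (Fin 2) (Fin 2) ℂ).trace
              = ModularFormClass.qCoeff f p)
    (v : Fin 2 → ℂ) (hv : v ≠ 0)
    (hinv : ∀ σ : Γℚ, ∃ c : ℂ,
      ((ρ σ : GL (Fin 2) ℂ) : Matrix (Fin 2) (Fin 2) ℂ).mulVec v = c • v) : False := by
  classical
  haveI : Finite ρ.range := finite_range_of_factors ρ hfin
  letI : Fintype ρ.range := Fintype.ofFinite _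
  set ι : ρ.range →* GL (Fin 2) ℂ := ρ.range.subtype with hι
  set r : Γℚ →* ρ.range := ρ.rangeRestrict with hr
  have hsurj : Function.Surjective r := ρ.rangeRestrict_surjective
  have hfact : GaloisFactorsThroughFiniteLevel r := by
    obtain ⟨L, hL, hρ⟩ := hfin
    exact ⟨L, hL, fun σ hσ => Subtype.ext (hρ σ hσ)⟩
  have hinv' : ∀ g : ρ.range, ∃ c : ℂ,
      ((ι g : GL (Fin 2) ℂ) : Matrix (Fin 2) (Fin 2) ℂ).mulVec v = c • v := by
    rintro ⟨_, σ, rfl⟩
    exact hinv σ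
  choose c hc using hinv'
  have hιr : ∀ σ, ι (r σ) = ρ σ := fun σ => rfl
  refine density_contra (G := ρ.range) (fun g => ‖tr ι g‖ ^ 2) (fun g => by positivity)
    (fun g => ?_) (two_card_le_sum hv hc) N (NeZero.ne N)
    (fun x => frobPrimes r {g | ‖tr ι g‖ ^ 2 = x})
    (fun p => ‖ModularFormClass.qCoeff f p‖ ^ 2) ?_ ?_ ?_
  · have h := norm_tr_le hv hc g
    have h0 := norm_nonneg (tr ι g)
    nlinarith
  · intro x
    refine hP5 ρ.range r hsurj hfact {g | ‖tr ι g‖ ^ 2 = x} ?_ ?_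
    · intro g h hg
      simp only [Set.mem_ofPred_eq] at hg ⊢
      rw [tr_conj, hg]
    · intro g hg
      simp only [Set.mem_ofPred_eq] at hg ⊢
      rw [norm_tr_inv hv hc, hg]
  · intro x p hp hpp hpN
    obtain ⟨A, σ, hA, hσ⟩ := Fermat.Agent.FrobExists.exists_frobenius p hpp
    have h1 := hp.2 A hA σ hσ
    simp only [Set.mem_ofPred_eq] at h1
    rw [← h1]
    have h2 := htr p hpp hpN A hA σ hσ
    show ‖ModularFormClass.qCoeff f p‖ ^ 2 = ‖tr ι (r σ)‖ ^ 2
    rw [← h2]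
    rfl
  · obtain ⟨C, hC⟩ := rankin_sharp_le N ε f hf.1 hf.2
    refine ⟨C, fun T hT s hs => hC T (fun p hp => ⟨(hT p hp).1, (hT p hp).2.1, ?_⟩) s hs⟩
    have h := (hT p hp).2.2
    have h0 := norm_nonneg (ModularFormClass.qCoeff f p)
    by_contra hcon
    rw [not_le] at hcon
    nlinarith

end Fermat.Agent.S48.Irr

namespace Fermat.Agent.S48

local notation "Γℚ" => (AlgebraicClosure ℚ ≃ₐ[ℚ] AlgebraicClosure ℚ)

/-- **(IRR)** from Chebotarev. -/
theorem irred_of (hP5 : ChebotarevStatement) : IrredStatement := by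
  intro N _ ε f hf ρ hfin htr
  refine { exists_pair_ne := ⟨⊥, ⊤, ?_⟩, eq_bot_or_eq_top := fun W => ?_ }
  · intro h
    have h1 : (⊥ : Subrepresentation (Deformation.matrixRepresentation ρ)).toSubmodule
        = (⊤ : Subrepresentation (Deformation.matrixRepresentation ρ)).toSubmodule := by
      rw [h]
    exact bot_ne_top h1
  · by_contra hW
    rw [not_or] at hW
    obtain ⟨hbot, htop⟩ := hW
    have hbot' : W.toSubmodule ≠ ⊥ := fun h => hbot (Subrepresentation.toSubmodule_injective h)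
    have htop' : W.toSubmodule ≠ ⊤ := fun h => htop (Subrepresentation.toSubmodule_injective h)
    have hlt : Module.finrank ℂ W.toSubmodule < 2 := by
      have := Submodule.finrank_lt htop'
      simpa using this
    have hle : Module.finrank ℂ W.toSubmodule ≤ 1 := by omega
    obtain ⟨v₀, hv₀⟩ := finrank_le_one_iff.mp hle
    have hv₀ne : (v₀ : Fin 2 → ℂ) ≠ 0 := by
      intro h0
      apply hbot'
      rw [Submodule.eq_bot_iff]
      intro x hx
      obtain ⟨a, ha⟩ := hv₀ ⟨x, hx⟩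
      have := congrArg Subtype.val ha
      simp only [Submodule.coe_smul, h0, smul_zero] at this
      exact this.symm
    refine Irr.no_invariant_line hP5 N ε f hf ρ hfin htr (v₀ : Fin 2 → ℂ) hv₀ne (fun σ => ?_)
    have hmem := W.apply_mem_toSubmodule σ v₀.2
    obtain ⟨a, ha⟩ := hv₀ ⟨_, hmem⟩
    refine ⟨a, ?_⟩
    have := congrArg Subtype.val ha
    simp only [Submodule.coe_smul, Deformation.matrixRepresentation_apply,
      Matrix.mulVecLin_apply] at this
    exact this.symm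

end Fermat.Agent.S48
end MergeWrap_S48_Irred

section MergeWrap_S48_FV_AutExt -- from S48/FV/AutExt.lean

set_option autoImplicit false

noncomputable section

namespace Fermat.Agent.S48.FV

/-- Every ring automorphism of a subfield `K` of an algebraically closed field `L` extends to a
ring automorphism of `L`. -/
theorem exists_ringEquiv_extends {F L : Type} [Field F] [Field L] [Algebra F L] [IsAlgClosed L]
    (K : IntermediateField F L) (σ : K ≃+* K) :
    ∃ τ : L ≃+* L, ∀ x : K, τ (x : L) = (σ x : L) := by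
  obtain ⟨ι, v, hv⟩ := exists_isTranscendenceBasis' K L
  haveI : IsAlgClosure (Algebra.adjoin K (Set.range v)) L :=
    IsAlgClosed.isAlgClosure_of_transcendence_basis v hv
  let e0 : MvPolynomial ι K ≃ₐ[K] Algebra.adjoin K (Set.range v) := hv.1.aevalEquiv
  let θ : Algebra.adjoin K (Set.range v) ≃+* Algebra.adjoin K (Set.range v) :=
    e0.symm.toRingEquiv.trans ((MvPolynomial.mapEquiv ι σ).trans e0.toRingEquiv)
  refine ⟨IsAlgClosure.equivOfEquiv L L θ, fun x => ?_⟩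
  have h1 := IsAlgClosure.equivOfEquiv_algebraMap L L θ
    (algebraMap K (Algebra.adjoin K (Set.range v)) x)
  have h2 : θ (algebraMap K (Algebra.adjoin K (Set.range v)) x)
      = algebraMap K (Algebra.adjoin K (Set.range v)) (σ x) := by
    show e0 ((MvPolynomial.mapEquiv ι σ) (e0.symm (algebraMap K _ x))) = _
    rw [AlgEquiv.commutes, MvPolynomial.algebraMap_eq, MvPolynomial.mapEquiv_apply,
      MvPolynomial.map_C, ← MvPolynomial.algebraMap_eq, AlgEquiv.commutes]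
    rfl
  rw [h2] at h1
  exact h1

end Fermat.Agent.S48.FV
end
end MergeWrap_S48_FV_AutExt

section MergeWrap_S48_FV_Northcott -- from S48/FV/Northcott.lean

set_option autoImplicit false

noncomputable section

namespace Fermat.Agent.S48.FV

open IntermediateField

/-- **Northcott**, automorphism form. -/
theorem exists_auts_northcott (K : IntermediateField ℚ ℂ) [FiniteDimensional ℚ K] :
    ∃ (ι : Type) (_ : Fintype ι) (_ : Nonempty ι) (τ : ι → (ℂ ≃+* ℂ)), ∀ c : ℝ,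
      {a : ℂ | a ∈ K ∧ IsIntegral ℤ a ∧ ∀ i, ‖τ i a‖ ^ 2 < c}.Finite := by
  classical
  -- the normal closure
  have hsplit : ∀ x : K, ((minpoly ℚ x).map (algebraMap ℚ ℂ)).Splits := fun x =>
    IsAlgClosed.splits _
  haveI hnc : IsNormalClosure ℚ K (normalClosure ℚ K ℂ) :=
    Algebra.IsAlgebraic.isNormalClosure_normalClosure hsplit
  haveI hnormal : Normal ℚ (normalClosure ℚ K ℂ) := IsNormalClosure.normal (K := K)
  haveI hfd : FiniteDimensional ℚ (normalClosure ℚ K ℂ) := normalClosure.is_finiteDimensional ℚ K ℂ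
  haveI hnf : NumberField (normalClosure ℚ K ℂ) :=
    { to_charZero := inferInstance, to_finiteDimensional := hfd }
  have hle : K ≤ normalClosure ℚ K ℂ := le_normalClosure K
  -- extensions of the automorphisms
  have hext : ∀ σ : (normalClosure ℚ K ℂ) ≃ₐ[ℚ] (normalClosure ℚ K ℂ),
      ∃ τ : ℂ ≃+* ℂ, ∀ x : normalClosure ℚ K ℂ, τ (x : ℂ) = (σ x : ℂ) := fun σ =>
    exists_ringEquiv_extends (normalClosure ℚ K ℂ) σ.toRingEquiv
  choose τ hτ using hext
  refine ⟨(normalClosure ℚ K ℂ) ≃ₐ[ℚ] (normalClosure ℚ K ℂ), inferInstance, ⟨AlgEquiv.refl⟩, τ,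
    fun c => ?_⟩
  have hfin := NumberField.Embeddings.finite_of_norm_le (normalClosure ℚ K ℂ) ℂ (Real.sqrt c)
  refine (hfin.image (fun x : normalClosure ℚ K ℂ => (x : ℂ))).subset ?_
  rintro a ⟨haK, haint, hac⟩
  refine ⟨⟨a, hle haK⟩, ⟨?_, ?_⟩, rfl⟩
  · exact (isIntegral_algebraMap_iff
      (algebraMap (normalClosure ℚ K ℂ) ℂ).injective).mp haint
  · intro φ
    -- `φ` is an automorphism of the normal closure
    let φ' : (normalClosure ℚ K ℂ) →ₐ[ℚ] ℂ := φ.toRatAlgHom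
    let σ : (normalClosure ℚ K ℂ) ≃ₐ[ℚ] (normalClosure ℚ K ℂ) :=
      φ'.restrictNormal' (normalClosure ℚ K ℂ)
    have h1 : ((σ ⟨a, hle haK⟩ : normalClosure ℚ K ℂ) : ℂ) = φ ⟨a, hle haK⟩ :=
      AlgHom.restrictNormal_commutes φ' (normalClosure ℚ K ℂ) ⟨a, hle haK⟩
    have h2 : τ σ a = φ ⟨a, hle haK⟩ := by
      rw [← h1]
      exact hτ σ ⟨a, hle haK⟩
    rw [← h2]
    have h3 := hac σ
    have h4 : 0 ≤ c := le_trans (sq_nonneg _) h3.le
    exact Real.le_sqrt_of_sq_le h3.le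

end Fermat.Agent.S48.FV
end
end MergeWrap_S48_FV_Northcott

section MergeWrap_S48_FiniteValues -- from S48/FiniteValues.lean

set_option autoImplicit false

noncomputable section

namespace Fermat.Agent.S48

open CongruenceSubgroup ModularFormClass

/-- The Hecke relations are stable under conjugation. -/
theorem fv_heckeRel_conj {N : ℕ} (ε : DirichletCharacter ℂ N) (a b : ℕ → ℂ) (τ : ℂ →+* ℂ)
    (hb : ∀ n, b n = τ (a n)) (h : HeckeRel N ε a) : HeckeRel N (ε.ringHomComp τ) b := by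
  refine ⟨by rw [hb, h.1, map_one], fun p hp hpN n => ?_⟩
  have h1 := congrArg τ (h.2 p hp hpN n)
  rw [map_add, map_mul, map_mul, apply_ite τ, map_zero] at h1
  simp only [hb, MulChar.ringHomComp_apply]
  exact h1

/-- Rankin's density bound for one conjugate. -/
theorem fv_rankin_conj (hC : ConjStatement) (N : ℕ) [NeZero N] (ε : DirichletCharacter ℂ N)
    (f : CuspForm (Gamma1 N) 1) (hf : HeckeRel N ε (fun n => qCoeff f n)) (τ : ℂ →+* ℂ) :
    ∃ C : ℝ, 1 ≤ C ∧ ∀ c : ℝ, 0 < c → ∀ T : Finset ℕ,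
      (∀ p ∈ T, p.Prime ∧ ¬ p ∣ N ∧ c ≤ ‖τ (qCoeff f p)‖ ^ 2) → ∀ s : ℝ, 1 < s →
        (∑ p ∈ T, ((p : ℝ) ^ s)⁻¹) * Real.log (1 + c) ≤
          Real.log C + Real.log (s / (s - 1)) := by
  obtain ⟨g, hg⟩ := hC N f τ
  have hrel := fv_heckeRel_conj ε (fun n => qCoeff f n) (fun n => qCoeff g n) τ hg hf
  obtain ⟨C, hC1, hCb⟩ := rankin_density_le N (ε.ringHomComp τ) g hrel.1 hrel.2
  refine ⟨C, hC1, fun c hc T hT s hs => hCb c hc T (fun p hp => ?_) s hs⟩
  obtain ⟨h1, h2, h3⟩ := hT p hp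
  exact ⟨h1, h2, by rw [hg]; exact h3⟩

/-- **(Stage II)** finitely many values off a set of small density. -/
theorem finiteValues_of (hC : ConjStatement) (hI : IntegralStatement) :
    FiniteValuesStatement := by
  classical
  intro N _ ε f hf η hη
  obtain ⟨hint, K, hKfin, hK⟩ := hI N ε f hf
  haveI := hKfin
  obtain ⟨ι, hι, hne, τ, hfinY⟩ := FV.exists_auts_northcott K
  -- Rankin for the conjugates
  have hR := fun i => fv_rankin_conj hC N ε f hf (τ i).toRingHom
  choose Cσ hCσ1 hCσ using hR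
  -- the threshold
  set r : ℝ := (Fintype.card ι : ℝ) with hr
  have hr0 : 0 < r := by
    rw [hr]
    exact_mod_cast Fintype.card_pos
  set c : ℝ := Real.exp (r / η) with hc
  have hc0 : 0 < c := Real.exp_pos _
  have hL : r / η ≤ Real.log (1 + c) := by
    have h1 : Real.log c ≤ Real.log (1 + c) := Real.log_le_log hc0 (by linarith)
    rwa [hc, Real.log_exp] at h1
  have hL0 : 0 < Real.log (1 + c) := lt_of_lt_of_le (div_pos hr0 hη) hL
  have hrL : r / Real.log (1 + c) ≤ η := by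
    rw [div_le_iff₀ hL0]
    have := (div_le_iff₀ hη).mp hL
    linarith
  refine ⟨(hfinY c).toFinset,
    {p | p.Prime ∧ ¬ p ∣ N ∧ ∃ i, c ≤ ‖τ i (qCoeff f p)‖ ^ 2}, ?_, ?_⟩
  · -- the density bound
    refine ⟨(∑ i, Real.log (Cσ i) + r * Real.log 2) / Real.log (1 + c),
      fun s hs1 hs2 F hF => ?_⟩
    have hw : ∀ p : ℕ, (0 : ℝ) ≤ ((p : ℝ) ^ s)⁻¹ := fun p => by positivity
    have hrw : ∀ p : ℕ, (p : ℝ) ^ (-s) = ((p : ℝ) ^ s)⁻¹ := fun p =>
      Real.rpow_neg (Nat.cast_nonneg p) s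
    simp only [hrw]
    -- split `F` according to the conjugate which is large
    have h1 : ∑ p ∈ F, ((p : ℝ) ^ s)⁻¹ ≤
        ∑ i, ∑ p ∈ F.filter (fun p => c ≤ ‖τ i (qCoeff f p)‖ ^ 2), ((p : ℝ) ^ s)⁻¹ := by
      simp only [Finset.sum_filter]
      rw [Finset.sum_comm]
      refine Finset.sum_le_sum fun p hp => ?_
      obtain ⟨-, -, -, i, hi⟩ := hF p hp
      refine le_trans ?_ (Finset.single_le_sum (f := fun j =>
        if c ≤ ‖τ j (qCoeff f p)‖ ^ 2 then ((p : ℝ) ^ s)⁻¹ else 0)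
        (fun j _ => by
          show (0 : ℝ) ≤ if c ≤ ‖τ j (qCoeff f p)‖ ^ 2 then ((p : ℝ) ^ s)⁻¹ else 0
          split_ifs
          · exact hw p
          · exact le_rfl) (Finset.mem_univ i))
      show ((p : ℝ) ^ s)⁻¹ ≤ if c ≤ ‖τ i (qCoeff f p)‖ ^ 2 then ((p : ℝ) ^ s)⁻¹ else 0
      rw [if_pos hi]
    -- Rankin for each piece
    have h2 : ∀ i, ∑ p ∈ F.filter (fun p => c ≤ ‖τ i (qCoeff f p)‖ ^ 2), ((p : ℝ) ^ s)⁻¹
        ≤ (Real.log (Cσ i) + Real.log (s / (s - 1))) / Real.log (1 + c) := by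
      intro i
      rw [le_div_iff₀ hL0]
      refine hCσ i c hc0 _ (fun p hp => ?_) s hs1
      rw [Finset.mem_filter] at hp
      obtain ⟨h3, -, h4, -⟩ := hF p hp.1
      exact ⟨h3, h4, hp.2⟩
    have h5 : Real.log (s / (s - 1)) ≤ Real.log 2 + Real.log (1 / (s - 1)) := by
      have hs0 : 0 < s - 1 := by linarith
      rw [div_eq_mul_one_div s (s - 1), Real.log_mul (by linarith) (by positivity)]
      have : Real.log s ≤ Real.log 2 := Real.log_le_log (by linarith) hs2.le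
      linarith
    have h6 : 0 ≤ Real.log (1 / (s - 1)) := by
      apply Real.log_nonneg
      rw [le_div_iff₀ (by linarith)]
      linarith
    calc ∑ p ∈ F, ((p : ℝ) ^ s)⁻¹
        ≤ ∑ i, (Real.log (Cσ i) + Real.log (s / (s - 1))) / Real.log (1 + c) :=
          h1.trans (Finset.sum_le_sum fun i _ => h2 i)
      _ = (∑ i, Real.log (Cσ i) + r * Real.log (s / (s - 1))) / Real.log (1 + c) := by
          rw [← Finset.sum_div, Finset.sum_add_distrib, Finset.sum_const, Finset.card_univ,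
            nsmul_eq_mul]
      _ ≤ (∑ i, Real.log (Cσ i) + r * (Real.log 2 + Real.log (1 / (s - 1))))
            / Real.log (1 + c) := by
          apply div_le_div_of_nonneg_right _ hL0.le
          have := mul_le_mul_of_nonneg_left h5 hr0.le
          linarith
      _ = r / Real.log (1 + c) * Real.log (1 / (s - 1))
            + (∑ i, Real.log (Cσ i) + r * Real.log 2) / Real.log (1 + c) := by
          field_simp
          ring
      _ ≤ η * Real.log (1 / (s - 1))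
            + (∑ i, Real.log (Cσ i) + r * Real.log 2) / Real.log (1 + c) := by
          have := mul_le_mul_of_nonneg_right hrL h6
          linarith
  · -- the values
    intro p hp hpN hpX
    rw [Set.Finite.mem_toFinset]
    refine ⟨hK p hp hpN, hint p hp hpN, fun i => ?_⟩
    by_contra hcon
    exact hpX ⟨hp, hpN, i, not_lt.mp hcon⟩

end Fermat.Agent.S48
end
end MergeWrap_S48_FiniteValues

section MergeWrap_S48_End_Alg -- from S48/End/Alg.lean

set_option autoImplicit false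

namespace Fermat.Agent.S48.Endgame

open Matrix

section Lucas

variable {R : Type*} [CommRing R]

/-- The Lucas sequence `V_j(t, d)`: `V_0 = 2`, `V_1 = t`, `V_{j+2} = t V_{j+1} - d V_j`. -/
def lucV (t d : R) : ℕ → R
  | 0 => 2
  | 1 => t
  | (j + 2) => t * lucV t d (j + 1) - d * lucV t d j

@[simp] theorem lucV_zero (t d : R) : lucV t d 0 = 2 := by rw [lucV]

@[simp] theorem lucV_one (t d : R) : lucV t d 1 = t := by rw [lucV]

theorem lucV_succ_succ (t d : R) (j : ℕ) :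
    lucV t d (j + 2) = t * lucV t d (j + 1) - d * lucV t d j := by rw [lucV]

theorem map_lucV {S : Type*} [CommRing S] (φ : R →+* S) (t d : R) (j : ℕ) :
    φ (lucV t d j) = lucV (φ t) (φ d) j := by
  induction j using Nat.twoStepInduction with
  | zero => rw [lucV_zero, lucV_zero, map_ofNat]
  | one => simp
  | more j h1 h2 => rw [lucV_succ_succ, lucV_succ_succ, map_sub, map_mul, map_mul, h1, h2]

theorem lucV_add_mul (u v : R) (j : ℕ) : lucV (u + v) (u * v) j = u ^ j + v ^ j := by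
  induction j using Nat.twoStepInduction with
  | zero => simp; norm_num
  | one => simp
  | more j h1 h2 => rw [lucV_succ_succ, h1, h2]; ring

/-- Cayley–Hamilton for `2 × 2` matrices. -/
theorem sq_eq_trace_smul_sub (N : Matrix (Fin 2) (Fin 2) R) :
    N ^ 2 = N.trace • N - N.det • (1 : Matrix (Fin 2) (Fin 2) R) := by
  ext i j
  fin_cases i <;> fin_cases j <;>
    simp [pow_two, Matrix.mul_apply, Fin.sum_univ_two, Matrix.trace_fin_two, Matrix.det_fin_two] <;>
    ring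

theorem pow_succ_succ_eq (N : Matrix (Fin 2) (Fin 2) R) (j : ℕ) :
    N ^ (j + 2) = N.trace • N ^ (j + 1) - N.det • N ^ j := by
  rw [pow_add, sq_eq_trace_smul_sub, mul_sub, Matrix.mul_smul, Matrix.mul_smul, mul_one, pow_succ]

theorem trace_pow_eq_lucV (N : Matrix (Fin 2) (Fin 2) R) (j : ℕ) :
    (N ^ j).trace = lucV N.trace N.det j := by
  induction j using Nat.twoStepInduction with
  | zero => simp [Matrix.trace_one]
  | one => simp
  | more j h1 h2 =>
    rw [pow_succ_succ_eq, lucV_succ_succ, Matrix.trace_sub, Matrix.trace_smul, Matrix.trace_smul,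
      h1, h2, smul_eq_mul, smul_eq_mul]

theorem det_pow_eq (N : Matrix (Fin 2) (Fin 2) R) (j : ℕ) : (N ^ j).det = N.det ^ j :=
  Matrix.det_pow N j

/-- Trace and determinant of a `2 × 2` matrix from its characteristic polynomial. -/
theorem trace_det_of_charpoly [Nontrivial R] (N : Matrix (Fin 2) (Fin 2) R) (t d : R)
    (h : N.charpoly = Polynomial.X ^ 2 - Polynomial.C t * Polynomial.X + Polynomial.C d) :
    N.trace = t ∧ N.det = d := by
  rw [Matrix.charpoly_fin_two] at h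
  have h1 := congrArg (fun q => Polynomial.coeff q 1) h
  have h0 := congrArg (fun q => Polynomial.coeff q 0) h
  simp [Polynomial.coeff_X, Polynomial.coeff_C] at h1 h0
  exact ⟨h1, h0⟩

end Lucas

section Unipotent

variable {k : Type*} [Field k]

/-- A `2 × 2` matrix of finite order prime to the characteristic with trace `2` and determinant
`1` is the identity. -/
theorem eq_one_of_pow_eq_one (g : Matrix (Fin 2) (Fin 2) k) (M : ℕ) (hM : (M : k) ≠ 0)
    (hg : g ^ M = 1) (ht : g.trace = 2) (hd : g.det = 1) : g = 1 := by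
  have hsq : g ^ 2 = (2 : k) • g - 1 := by
    rw [sq_eq_trace_smul_sub, ht, hd, one_smul]
  have hn : (g - 1) * (g - 1) = 0 := by
    have : (g - 1) * (g - 1) = g ^ 2 - (2 : k) • g + 1 := by
      rw [pow_two, sub_mul, mul_sub, mul_one, one_mul, two_smul]
      abel
    rw [this, hsq]
    abel
  obtain ⟨n, hn'⟩ : ∃ n : Matrix (Fin 2) (Fin 2) k, n = g - 1 := ⟨_, rfl⟩
  rw [← hn'] at hn
  have hg' : g = 1 + n := by rw [hn']; abel
  have hpow : ∀ j : ℕ, (1 + n) ^ j = 1 + (j : k) • n := by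
    intro j
    induction j with
    | zero => simp
    | succ j ih =>
      rw [pow_succ, ih, add_mul, mul_add, mul_add, one_mul, mul_one, Matrix.smul_mul, hn,
        smul_zero, add_zero, Nat.cast_succ, add_smul, one_smul, one_mul, add_assoc,
        add_comm n]
  have h1 := hpow M
  rw [← hg'] at h1
  rw [hg] at h1
  have h2 : (M : k) • n = 0 := by
    have := h1
    rw [eq_comm, add_eq_left] at this
    exact this
  rcases smul_eq_zero.mp h2 with h | h
  · exact absurd h hM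
  · rw [hg', h, add_zero]

end Unipotent

section UPair

variable {R : Type*} [CommRing R]

/-- `t = u + v`, `d = u v` with `u ^ M = v ^ M = 1`. -/
def IsUPair (M : ℕ) (t d : R) : Prop :=
  ∃ u v : R, u ^ M = 1 ∧ v ^ M = 1 ∧ t = u + v ∧ d = u * v

theorem IsUPair.two_one (M : ℕ) : IsUPair M (2 : R) 1 :=
  ⟨1, 1, one_pow M, one_pow M, by norm_num, by simp⟩

theorem IsUPair.pow {M : ℕ} {t d : R} (h : IsUPair M t d) (j : ℕ) :
    IsUPair M (lucV t d j) (d ^ j) := by
  obtain ⟨u, v, hu, hv, rfl, rfl⟩ := h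
  refine ⟨u ^ j, v ^ j, ?_, ?_, lucV_add_mul u v j, mul_pow u v j⟩
  · rw [← pow_mul, mul_comm, pow_mul, hu, one_pow]
  · rw [← pow_mul, mul_comm, pow_mul, hv, one_pow]

/-- In a domain, `u + v = 2`, `u v = 1` forces `u = v = 1`. -/
theorem eq_one_of_add_eq_two [IsDomain R] {u v : R} (h1 : u + v = 2) (h2 : u * v = 1) :
    u = 1 ∧ v = 1 := by
  have h3 : (u - 1) * (v - 1) = 0 := by
    have : (u - 1) * (v - 1) = u * v - (u + v) + 1 := by ring
    rw [this, h1, h2]; ring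
  rcases mul_eq_zero.mp h3 with h | h
  · have hu : u = 1 := sub_eq_zero.mp h
    refine ⟨hu, ?_⟩
    rw [hu] at h2
    simpa using h2
  · have hv : v = 1 := sub_eq_zero.mp h
    refine ⟨?_, hv⟩
    rw [hv] at h2
    simpa using h2

/-- The values of a `U`-pair are determined by the trivial pair: if `t = 2` and `d = 1` for the
`j`-th power, ... (used through `eq_one_of_add_eq_two`). -/
theorem IsUPair.of_lucV_eq_two (M : ℕ) (hM : 0 < M) (t d : integralClosure ℤ ℂ)
    (h1 : lucV t d M = 2) (h2 : d ^ M = 1) : IsUPair M t d := by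
  -- roots of `X² - t X + d` in `ℂ`
  obtain ⟨s, hs⟩ := IsAlgClosed.exists_pow_nat_eq ((t : ℂ) ^ 2 - 4 * (d : ℂ)) (n := 2) (by norm_num)
  set α : ℂ := ((t : ℂ) + s) / 2 with hα
  set β : ℂ := ((t : ℂ) - s) / 2 with hβ
  have hsum : α + β = (t : ℂ) := by rw [hα, hβ]; ring
  have hprod : α * β = (d : ℂ) := by
    rw [hα, hβ]
    have : ((t : ℂ) + s) / 2 * (((t : ℂ) - s) / 2) = ((t : ℂ) ^ 2 - s ^ 2) / 4 := by ring
    rw [this, hs]; ring
  have h1' : lucV (t : ℂ) (d : ℂ) M = 2 := by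
    have := congrArg (algebraMap (integralClosure ℤ ℂ) ℂ) h1
    rw [map_lucV, map_ofNat] at this
    exact this
  have h2' : (d : ℂ) ^ M = 1 := by
    have := congrArg (algebraMap (integralClosure ℤ ℂ) ℂ) h2
    simpa using this
  have h3 : α ^ M + β ^ M = 2 := by
    rw [← lucV_add_mul, hsum, hprod, h1']
  have h4 : α ^ M * β ^ M = 1 := by
    rw [← mul_pow, hprod, h2']
  obtain ⟨hu, hv⟩ := eq_one_of_add_eq_two h3 h4
  have hαi : IsIntegral ℤ α := by
    refine IsIntegral.of_pow hM ?_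
    rw [hu]; exact isIntegral_one
  have hβi : IsIntegral ℤ β := by
    refine IsIntegral.of_pow hM ?_
    rw [hv]; exact isIntegral_one
  refine ⟨⟨α, hαi⟩, ⟨β, hβi⟩, Subtype.ext ?_, Subtype.ext ?_, Subtype.ext ?_, Subtype.ext ?_⟩
  · simpa using hu
  · simpa using hv
  · simpa using hsum.symm
  · simpa using hprod.symm

end UPair

end Fermat.Agent.S48.Endgame
end MergeWrap_S48_End_Alg

section MergeWrap_S48_Null_Abstract -- from S48/Null/Abstract.lean

set_option autoImplicit false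

namespace Fermat.Agent.S48.Null

open MvPolynomial

section Abstract

variable {R k K : Type*} [CommRing R] [Field k] [Field K] [Algebra R k] [Algebra k K]
  {σ ι : Type*}

/-- Clearing the denominators of one polynomial. -/
theorem exists_clear_one
    (hden : ∀ z : k, ∃ c r : R, algebraMap R k c ≠ 0 ∧ algebraMap R k r = algebraMap R k c * z)
    (H : MvPolynomial σ k) :
    ∃ (c : R) (H' : MvPolynomial σ R), algebraMap R k c ≠ 0 ∧
      MvPolynomial.map (algebraMap R k) H' = C (algebraMap R k c) * H := by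
  induction H using MvPolynomial.induction_on' with
  | monomial u a =>
    obtain ⟨c, r, hc, hr⟩ := hden a
    refine ⟨c, monomial u r, hc, ?_⟩
    rw [map_monomial, hr, C_mul_monomial]
  | add p q hp hq =>
    obtain ⟨c₁, P, hc₁, hP⟩ := hp
    obtain ⟨c₂, Q, hc₂, hQ⟩ := hq
    refine ⟨c₁ * c₂, C c₂ * P + C c₁ * Q, ?_, ?_⟩
    · rw [map_mul]
      exact mul_ne_zero hc₁ hc₂
    · rw [map_add, map_mul, map_mul, hP, hQ, map_C, map_C, map_mul, C_mul]
      ring

/-- Clearing the denominators of finitely many polynomials. -/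
theorem exists_clear_finset
    (hden : ∀ z : k, ∃ c r : R, algebraMap R k c ≠ 0 ∧ algebraMap R k r = algebraMap R k c * z)
    (s : Finset ι) (H : ι → MvPolynomial σ k) :
    ∃ (c : R) (H' : ι → MvPolynomial σ R), algebraMap R k c ≠ 0 ∧
      ∀ i ∈ s, MvPolynomial.map (algebraMap R k) (H' i) = C (algebraMap R k c) * H i := by
  classical
  induction s using Finset.induction_on with
  | empty => exact ⟨1, fun _ => 0, by rw [map_one]; exact one_ne_zero, by simp⟩
  | insert a s ha ih =>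
    obtain ⟨c, H', hc, hH'⟩ := ih
    obtain ⟨c₁, P, hc₁, hP⟩ := exists_clear_one hden (H a)
    refine ⟨c * c₁, fun i => if i = a then C c * P else C c₁ * H' i, ?_, ?_⟩
    · rw [map_mul]
      exact mul_ne_zero hc hc₁
    · intro i hi
      rw [Finset.mem_insert] at hi
      by_cases hia : i = a
      · subst hia
        simp only [if_true]
        rw [map_mul, hP, map_C, map_mul, C_mul]
        ring
      · rcases hi with hi | hi
        · exact absurd hi hia
        simp only [if_neg hia]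
        rw [map_mul, hH' i hi, map_C, map_mul, C_mul]
        ring

/-- **Nullstellensatz with denominators cleared**: if the equations `F i = 0` have no common
solution in the algebraically closed field `K`, a constant `c` of `R`, nonzero in `k`, lies in the
ideal generated by the `F i` over `R`. -/
theorem exists_const_mem_span [Algebra R K] [IsScalarTower R k K] [IsAlgClosed K] [Finite σ]
    [Fintype ι]
    (hinj : Function.Injective (algebraMap R k))
    (hden : ∀ z : k, ∃ c r : R, algebraMap R k c ≠ 0 ∧ algebraMap R k r = algebraMap R k c * z)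
    (F : ι → MvPolynomial σ R)
    (hno : ∀ x : σ → K, ∃ i, aeval x (F i) ≠ 0) :
    ∃ c : R, c ≠ 0 ∧ (C c : MvPolynomial σ R) ∈ Ideal.span (Set.range F) := by
  classical
  -- the ideal over `k`
  have hzero : zeroLocus K (Ideal.span (Set.range fun i => MvPolynomial.map (algebraMap R k) (F i)))
      = ∅ := by
    rw [Set.eq_empty_iff_forall_notMem]
    intro x hx
    obtain ⟨i, hi⟩ := hno x
    apply hi
    have h1 := hx (MvPolynomial.map (algebraMap R k) (F i))
      (Ideal.subset_span ⟨i, rfl⟩)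
    rw [aeval_def, eval₂_map, ← IsScalarTower.algebraMap_eq] at h1
    rw [aeval_def]
    exact h1
  have htop : Ideal.span (Set.range fun i => MvPolynomial.map (algebraMap R k) (F i))
      = (⊤ : Ideal (MvPolynomial σ k)) := by
    have h1 := vanishingIdeal_zeroLocus_eq_radical (K := K)
      (Ideal.span (Set.range fun i => MvPolynomial.map (algebraMap R k) (F i)))
    rw [hzero, vanishingIdeal_empty] at h1
    exact Ideal.radical_eq_top.mp h1.symm
  have hone : (1 : MvPolynomial σ k) ∈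
      Ideal.span (Set.range fun i => MvPolynomial.map (algebraMap R k) (F i)) := by
    rw [htop]
    exact Submodule.mem_top
  obtain ⟨H, hH⟩ := (Ideal.mem_span_range_iff_exists_fun).mp hone
  obtain ⟨c, H', hc, hH'⟩ := exists_clear_finset hden Finset.univ H
  refine ⟨c, fun h0 => hc (by rw [h0, map_zero]), ?_⟩
  have key : (C c : MvPolynomial σ R) = ∑ i, H' i * F i := by
    apply MvPolynomial.map_injective _ hinj
    rw [map_C, map_sum]
    calc (C (algebraMap R k c) : MvPolynomial σ k)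
        = C (algebraMap R k c) * ∑ i, H i * MvPolynomial.map (algebraMap R k) (F i) := by
          rw [hH, mul_one]
      _ = ∑ i, (C (algebraMap R k c) * H i) * MvPolynomial.map (algebraMap R k) (F i) := by
          rw [Finset.mul_sum]
          exact Finset.sum_congr rfl fun i _ => (mul_assoc _ _ _).symm
      _ = ∑ i, MvPolynomial.map (algebraMap R k) (H' i * F i) := by
          refine Finset.sum_congr rfl fun i hi => ?_
          rw [map_mul, hH' i hi]
  rw [key]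
  exact Ideal.sum_mem _ fun i _ => Ideal.mul_mem_left _ _ (Ideal.subset_span ⟨i, rfl⟩)

/-- A constant in the ideal of the equations is killed by every `φ : R → L` modulo which the
equations have a solution. -/
theorem map_const_eq_zero_of_solution {L : Type*} [CommRing L] (F : ι → MvPolynomial σ R) {c : R}
    (hc : (C c : MvPolynomial σ R) ∈ Ideal.span (Set.range F)) (φ : R →+* L) (x : σ → L)
    (hx : ∀ i, eval₂ φ x (F i) = 0) : φ c = 0 := by
  have hle : Ideal.span (Set.range F) ≤ RingHom.ker (eval₂Hom φ x) := by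
    rw [Ideal.span_le]
    rintro _ ⟨i, rfl⟩
    exact hx i
  have h1 := hle hc
  rw [RingHom.mem_ker] at h1
  simpa using h1

end Abstract

end Fermat.Agent.S48.Null
end MergeWrap_S48_Null_Abstract

section MergeWrap_S48_Null_Zbar -- from S48/Null/Zbar.lean

set_option autoImplicit false
set_option linter.style.haveILetI false

namespace Fermat.Agent.S48.Null

open MvPolynomial

/-- `ℤ̄ → 𝔸`, the algebraic integers inside the algebraic numbers of `ℂ`. -/
noncomputable def zbarToAlg : integralClosure ℤ ℂ →+* algebraicClosure ℚ ℂ where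
  toFun x := ⟨x.1, by
    rw [mem_algebraicClosure_iff]
    exact (x.2.tower_top (A := ℚ)).isAlgebraic⟩
  map_one' := rfl
  map_mul' _ _ := rfl
  map_zero' := rfl
  map_add' _ _ := rfl

theorem zbarToAlg_coe (x : integralClosure ℤ ℂ) : ((zbarToAlg x : algebraicClosure ℚ ℂ) : ℂ) = x :=
  rfl

theorem zbarToAlg_injective : Function.Injective zbarToAlg := by
  intro x y h
  apply Subtype.ext
  have := congrArg (fun z : algebraicClosure ℚ ℂ => (z : ℂ)) h
  exact this

/-- Every algebraic number is a quotient of an algebraic integer by a nonzero integer. -/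
theorem zbar_den (z : algebraicClosure ℚ ℂ) :
    ∃ c r : integralClosure ℤ ℂ, zbarToAlg c ≠ 0 ∧ zbarToAlg r = zbarToAlg c * z := by
  have hz : IsAlgebraic ℚ (z : ℂ) := mem_algebraicClosure_iff.mp z.2
  have hz' : IsAlgebraic ℤ (z : ℂ) := (IsFractionRing.isAlgebraic_iff ℤ ℚ ℂ).mpr hz
  obtain ⟨y, hy0, hy⟩ := hz'.exists_integral_multiple
  refine ⟨(y : integralClosure ℤ ℂ), ⟨y • (z : ℂ), hy⟩, ?_, ?_⟩
  · intro h0
    have h1 := congrArg (fun w : algebraicClosure ℚ ℂ => (w : ℂ)) h0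
    simp only [zbarToAlg_coe] at h1
    apply hy0
    have h2 : ((y : ℤ) : ℂ) = 0 := by simpa using h1
    exact_mod_cast h2
  · apply Subtype.ext
    show (y • (z : ℂ)) = (((y : integralClosure ℤ ℂ)) : ℂ) * (z : ℂ)
    rw [zsmul_eq_mul]
    simp

/-- A nonzero algebraic integer divides a nonzero rational integer. -/
theorem exists_int_multiple (c : integralClosure ℤ ℂ) (hc : c ≠ 0) :
    ∃ a : ℤ, a ≠ 0 ∧ ∃ b : integralClosure ℤ ℂ, (a : integralClosure ℤ ℂ) = c * b := by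
  have hc' : (c : ℂ) ≠ 0 := fun h => hc (Subtype.ext h)
  have halg : IsAlgebraic ℤ ((c : ℂ)⁻¹) := by
    have h1 : IsAlgebraic ℤ (c : ℂ) := c.2.isAlgebraic
    exact h1.inv
  obtain ⟨y, hy0, hy⟩ := halg.exists_integral_multiple
  refine ⟨y, hy0, ⟨y • (c : ℂ)⁻¹, hy⟩, ?_⟩
  apply Subtype.ext
  show ((y : integralClosure ℤ ℂ) : ℂ) = (c : ℂ) * (y • (c : ℂ)⁻¹)
  rw [zsmul_eq_mul]
  have h2 : ((y : integralClosure ℤ ℂ) : ℂ) = (y : ℂ) := by simp
  rw [h2]
  field_simp

/-- **Solutions in arbitrarily large characteristic give a complex solution.** -/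
theorem exists_complex_solution {σ ι : Type} [Finite σ] [Finite ι]
    (F : ι → MvPolynomial σ (integralClosure ℤ ℂ))
    (h : ∀ N : ℕ, ∃ ℓ : ℕ, N < ℓ ∧ ∃ (k : Type) (_ : CommRing k) (_ : CharP k ℓ)
      (φ : integralClosure ℤ ℂ →+* k) (x : σ → k), ∀ i, eval₂ φ x (F i) = 0) :
    ∃ x : σ → ℂ, ∀ i, aeval x (F i) = 0 := by
  classical
  by_contra hcon
  have hno : ∀ x : σ → ℂ, ∃ i, aeval x (F i) ≠ 0 := by
    intro x
    by_contra h1
    exact hcon ⟨x, fun i => by_contra fun h2 => h1 ⟨i, h2⟩⟩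
  haveI : Fintype ι := Fintype.ofFinite ι
  letI : Algebra (integralClosure ℤ ℂ) (algebraicClosure ℚ ℂ) := zbarToAlg.toAlgebra
  haveI : IsScalarTower (integralClosure ℤ ℂ) (algebraicClosure ℚ ℂ) ℂ :=
    IsScalarTower.of_algebraMap_eq fun _ => rfl
  obtain ⟨c, hc, hmem⟩ := exists_const_mem_span (R := integralClosure ℤ ℂ)
    (k := algebraicClosure ℚ ℂ) (K := ℂ) zbarToAlg_injective zbar_den F hno
  obtain ⟨a, ha, b, hab⟩ := exists_int_multiple c hc
  obtain ⟨ℓ, hℓ, k, _, _, φ, x, hx⟩ := h a.natAbs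
  have h1 : φ c = 0 := map_const_eq_zero_of_solution F hmem φ x hx
  have h2 : ((a : ℤ) : k) = 0 := by
    have h3 := congrArg φ hab
    rw [map_mul, h1, zero_mul, map_intCast] at h3
    exact h3
  have h4 : (ℓ : ℤ) ∣ a := (CharP.intCast_eq_zero_iff k ℓ a).mp h2
  have h5 : ℓ ∣ a.natAbs := Int.natCast_dvd.mp h4
  have h6 : ℓ ≤ a.natAbs := Nat.le_of_dvd (Int.natAbs_pos.mpr ha) h5
  omega

end Fermat.Agent.S48.Null
end MergeWrap_S48_Null_Zbar

section MergeWrap_S48_End_Primes -- from S48/End/Primes.lean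

set_option autoImplicit false

namespace Fermat.Agent.S48.Endgame

open Fermat.Agent.S48.Null

/-- A nonzero algebraic integer has nonzero image in every field of characteristic `ℓ`, for all
primes `ℓ` outside a finite set. -/
theorem exists_bad_primes_single (c : integralClosure ℤ ℂ) :
    ∃ Bad : Finset ℕ, c ≠ 0 → ∀ ℓ : ℕ, ℓ.Prime → ℓ ∉ Bad →
      ∀ (k : Type) [Field k] [CharP k ℓ] (φ : integralClosure ℤ ℂ →+* k), φ c ≠ 0 := by
  by_cases hc : c = 0
  · exact ⟨∅, fun h => absurd hc h⟩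
  obtain ⟨a, ha0, b, hab⟩ := exists_int_multiple c hc
  refine ⟨a.natAbs.primeFactors, fun _ ℓ hℓ hℓBad k _ _ φ hφ => hℓBad ?_⟩
  have h1 : φ (a : integralClosure ℤ ℂ) = 0 := by rw [hab, map_mul, hφ, zero_mul]
  rw [map_intCast] at h1
  have h2 : (ℓ : ℤ) ∣ a := (CharP.intCast_eq_zero_iff k ℓ a).mp h1
  rw [Nat.mem_primeFactors]
  exact ⟨hℓ, Int.natCast_dvd.mp h2, Int.natAbs_ne_zero.mpr ha0⟩

/-- A finite set of algebraic integers is mapped injectively into every field of characteristic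
`ℓ`, for all primes `ℓ` outside a finite set. -/
theorem exists_bad_primes (Z : Finset (integralClosure ℤ ℂ)) :
    ∃ Bad : Finset ℕ, ∀ ℓ : ℕ, ℓ.Prime → ℓ ∉ Bad →
      ∀ (k : Type) [Field k] [CharP k ℓ] (φ : integralClosure ℤ ℂ →+* k),
        ∀ x ∈ Z, ∀ y ∈ Z, φ x = φ y → x = y := by
  classical
  choose Bad hBad using exists_bad_primes_single
  refine ⟨(Z ×ˢ Z).biUnion fun xy => Bad (xy.1 - xy.2), ?_⟩
  intro ℓ hℓ hℓBad k _ _ φ x hx y hy hxy
  by_contra hne
  have h1 : x - y ≠ 0 := sub_ne_zero.mpr hne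
  have h2 : ℓ ∉ Bad (x - y) := by
    intro h
    apply hℓBad
    rw [Finset.mem_biUnion]
    exact ⟨(x, y), Finset.mem_product.mpr ⟨hx, hy⟩, h⟩
  apply hBad (x - y) h1 ℓ hℓ h2 k φ
  rw [map_sub, hxy, sub_self]

/-- Two algebraic integers with the same image in fields of characteristic `ℓ`, for primes `ℓ`
outside every finite set, are equal. -/
theorem eq_of_forall_exists_prime (x y : integralClosure ℤ ℂ)
    (h : ∀ T : Finset ℕ, ∃ ℓ : ℕ, ℓ.Prime ∧ ℓ ∉ T ∧
      ∃ (k : Type) (_ : Field k) (_ : CharP k ℓ) (φ : integralClosure ℤ ℂ →+* k), φ x = φ y) :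
    x = y := by
  classical
  obtain ⟨Bad, hBad⟩ := exists_bad_primes {x, y}
  obtain ⟨ℓ, hℓ, hℓBad, k, _, _, φ, hφ⟩ := h Bad
  exact hBad ℓ hℓ hℓBad k φ x (by simp) y (by simp) hφ

/-- There are primes outside every finite set and above every bound. -/
theorem exists_prime_notMem (T : Finset ℕ) (n : ℕ) : ∃ ℓ : ℕ, ℓ.Prime ∧ ℓ ∉ T ∧ n < ℓ := by
  obtain ⟨ℓ, hℓ, hprime⟩ := Nat.exists_infinite_primes (max n (T.sup id) + 1)
  refine ⟨ℓ, hprime, fun hT => ?_, ?_⟩
  · have h1 : ℓ ≤ T.sup id := Finset.le_sup (f := id) hT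
    have h2 : T.sup id ≤ max n (T.sup id) := le_max_right _ _
    omega
  · have h2 : n ≤ max n (T.sup id) := le_max_left _ _
    omega

/-- For every prime `ℓ` there is a ring homomorphism from the algebraic integers to an
algebraically closed field of characteristic `ℓ`. -/
theorem exists_residue_field (ℓ : ℕ) (hℓ : ℓ.Prime) :
    ∃ (k : Type) (_ : Field k) (_ : CharP k ℓ) (_ : IsAlgClosed k),
      Nonempty (integralClosure ℤ ℂ →+* k) := by
  have hirr : Irreducible (ℓ : ℤ) := (Nat.prime_iff_prime_int.mp hℓ).irreducible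
  have hmax : (Ideal.span {(ℓ : ℤ)}).IsMaximal :=
    PrincipalIdealRing.isMaximal_of_irreducible hirr
  have hker : RingHom.ker (algebraMap ℤ (integralClosure ℤ ℂ)) ≤ Ideal.span {(ℓ : ℤ)} := by
    intro x hx
    rw [RingHom.mem_ker] at hx
    have h1 : ((algebraMap ℤ (integralClosure ℤ ℂ) x : integralClosure ℤ ℂ) : ℂ) = 0 := by
      rw [hx]; rfl
    have h2 : (x : ℂ) = 0 := by simpa using h1
    have h3 : x = 0 := by exact_mod_cast h2
    rw [h3]
    exact Ideal.zero_mem _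
  obtain ⟨Q, hQmax, hQ⟩ :=
    Ideal.exists_ideal_over_maximal_of_isIntegral (S := integralClosure ℤ ℂ)
      (Ideal.span {(ℓ : ℤ)}) hker
  have := hQmax
  let _ : Field (integralClosure ℤ ℂ ⧸ Q) := Ideal.Quotient.field Q
  have hℓQ : (ℓ : integralClosure ℤ ℂ) ∈ Q := by
    have h1 : (ℓ : ℤ) ∈ Ideal.comap (algebraMap ℤ (integralClosure ℤ ℂ)) Q := by
      rw [hQ]
      exact Ideal.subset_span rfl
    rw [Ideal.mem_comap] at h1
    simpa using h1
  have hchar : CharP (integralClosure ℤ ℂ ⧸ Q) ℓ := by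
    rw [CharP.charP_iff_prime_eq_zero hℓ]
    have h1 : (Ideal.Quotient.mk Q) (ℓ : integralClosure ℤ ℂ) = 0 :=
      Ideal.Quotient.eq_zero_iff_mem.mpr hℓQ
    rw [map_natCast] at h1
    exact h1
  refine ⟨AlgebraicClosure (integralClosure ℤ ℂ ⧸ Q), inferInstance, ?_, inferInstance,
    ⟨(algebraMap (integralClosure ℤ ℂ ⧸ Q) (AlgebraicClosure (integralClosure ℤ ℂ ⧸ Q))).comp
      (Ideal.Quotient.mk Q)⟩⟩
  exact charP_of_injective_algebraMap
    (algebraMap (integralClosure ℤ ℂ ⧸ Q) (AlgebraicClosure (integralClosure ℤ ℂ ⧸ Q))).injective ℓ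

end Fermat.Agent.S48.Endgame
end MergeWrap_S48_End_Primes

section MergeWrap_S48_End_Datum -- from S48/End/Datum.lean

set_option autoImplicit false

namespace Fermat.Agent.S48.Endgame

open Polynomial

local notation "Γℚ" => (AlgebraicClosure ℚ ≃ₐ[ℚ] AlgebraicClosure ℚ)

/-- A mod-`ℓ` representation attached to `(a, ε)` with image of order at most `B`. -/
structure ModLDatum (N : ℕ) (ε : DirichletCharacter ℂ N) (a : ℕ → ℂ) (B ℓ : ℕ) : Type 1 where
  /-- the coefficient field -/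
  k : Type
  [instField : Field k]
  [instCharP : CharP k ℓ]
  /-- the reduction map -/
  φ : integralClosure ℤ ℂ →+* k
  /-- the representation -/
  ρ : ResidualGaloisRep k
  prime : ℓ.Prime
  attached : IsAttachedModL N ε a ℓ φ ρ
  card_le : Nat.card (Set.range ρ.ρ) ≤ B

attribute [instance] ModLDatum.instField ModLDatum.instCharP

namespace ModLDatum

variable {N : ℕ} {ε : DirichletCharacter ℂ N} {a : ℕ → ℂ} {B ℓ : ℕ}
variable (D : ModLDatum N ε a B ℓ)

/-- A basis of the representation space. -/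
noncomputable def basis : Module.Basis (Fin 2) D.k D.ρ.V :=
  Module.finBasisOfFinrankEq D.k D.ρ.V D.ρ.finrank_eq

/-- The representation in matrix form. -/
noncomputable def r : Γℚ →* Matrix (Fin 2) (Fin 2) D.k where
  toFun σ := LinearMap.toMatrix D.basis D.basis (D.ρ.ρ σ)
  map_one' := by rw [map_one]; exact LinearMap.toMatrix_one D.basis
  map_mul' σ τ := by rw [map_mul]; exact LinearMap.toMatrix_mul D.basis _ _

theorem r_apply (σ : Γℚ) : D.r σ = LinearMap.toMatrix D.basis D.basis (D.ρ.ρ σ) := rfl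

theorem r_eq_one_iff (σ : Γℚ) : D.r σ = 1 ↔ D.ρ.ρ σ = 1 := by
  rw [r_apply, ← LinearMap.toMatrix_one D.basis]
  exact (LinearMap.toMatrix D.basis D.basis).injective.eq_iff

theorem r_charpoly (σ : Γℚ) : (D.r σ).charpoly = LinearMap.charpoly (D.ρ.ρ σ) :=
  LinearMap.charpoly_toMatrix _ _

theorem not_dvd_mul (D : ModLDatum N ε a B ℓ) {p : ℕ} (hp : p.Prime) (hpN : ¬ p ∣ N)
    (hpℓ : p ≠ ℓ) : ¬ p ∣ N * ℓ := by
  intro h
  rcases hp.dvd_mul.mp h with h | h
  · exact hpN h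
  · exact hpℓ ((Nat.prime_dvd_prime_iff_eq hp D.prime).mp h)

/-- Trace and determinant at a Frobenius element. -/
theorem r_frob {p : ℕ} (hp : p.Prime) (hpN : ¬ p ∣ N) (hpℓ : p ≠ ℓ)
    (A : ValuationSubring (AlgebraicClosure ℚ)) (hA : A.LiesOverPrime p) (σ : Γℚ)
    (hσ : A.IsFrobeniusAt σ p) :
    ∃ t d : integralClosure ℤ ℂ, (t : ℂ) = a p ∧ (d : ℂ) = ε (p : ZMod N) ∧
      (D.r σ).trace = D.φ t ∧ (D.r σ).det = D.φ d := by
  obtain ⟨t, d, ht, hd, hcp⟩ := (D.attached p hp (D.not_dvd_mul hp hpN hpℓ)).2 A hA σ hσ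
  rw [← D.r_charpoly] at hcp
  exact ⟨t, d, ht, hd, trace_det_of_charpoly _ _ _ hcp⟩

/-- Trace and determinant at a Frobenius element, for given lifts. -/
theorem r_frob' {p : ℕ} (hp : p.Prime) (hpN : ¬ p ∣ N) (hpℓ : p ≠ ℓ)
    (A : ValuationSubring (AlgebraicClosure ℚ)) (hA : A.LiesOverPrime p) (σ : Γℚ)
    (hσ : A.IsFrobeniusAt σ p) (t d : integralClosure ℤ ℂ) (ht : (t : ℂ) = a p)
    (hd : (d : ℂ) = ε (p : ZMod N)) :
    (D.r σ).trace = D.φ t ∧ (D.r σ).det = D.φ d := by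
  obtain ⟨t', d', ht', hd', h1, h2⟩ := D.r_frob hp hpN hpℓ A hA σ hσ
  have e1 : t' = t := Subtype.ext (ht'.trans ht.symm)
  have e2 : d' = d := Subtype.ext (hd'.trans hd.symm)
  rw [← e1, ← e2]
  exact ⟨h1, h2⟩

/-- The representation is unramified outside `N ℓ`. -/
theorem r_inertia {p : ℕ} (hp : p.Prime) (hpN : ¬ p ∣ N) (hpℓ : p ≠ ℓ)
    (A : ValuationSubring (AlgebraicClosure ℚ)) (hA : A.LiesOverPrime p) (σ : Γℚ)
    (hσ : σ ∈ A.inertiaSubgroupIn ℚ) : D.r σ = 1 :=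
  (D.r_eq_one_iff σ).mpr ((D.attached p hp (D.not_dvd_mul hp hpN hpℓ)).1 A hA σ hσ)

/-- The kernel. -/
noncomputable def ker : Subgroup Γℚ := D.ρ.ρ.ker

instance : D.ker.Normal := MonoidHom.normal_ker _

theorem mem_ker (σ : Γℚ) : σ ∈ D.ker ↔ D.r σ = 1 := by
  rw [r_eq_one_iff]
  exact MonoidHom.mem_ker

theorem exists_level : ∃ L : IntermediateField ℚ (AlgebraicClosure ℚ), FiniteDimensional ℚ L ∧
    L.fixingSubgroup ≤ D.ker := by
  obtain ⟨L, hL, h⟩ := D.ρ.factorsThroughFiniteLevel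
  exact ⟨L, hL, fun σ hσ =>
    MonoidHom.mem_ker.mpr (h σ ((IntermediateField.mem_fixingSubgroup_iff L σ).mp hσ))⟩

theorem isOpen_ker : IsOpen (D.ker : Set Γℚ) := by
  obtain ⟨L, hL, h⟩ := D.exists_level
  exact Subgroup.isOpen_mono h L.fixingSubgroup_isOpen

theorem finite_quotient_ker : Finite (Γℚ ⧸ D.ker) := by
  have : IsGalois ℚ (AlgebraicClosure ℚ) := Fermat.Agent.FrobDensity.consumer_isGalois_Qb
  exact Subgroup.quotient_finite_of_isOpen D.ker D.isOpen_ker

/-- `r` is constant on the cosets of the kernel. -/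
theorem r_eq_of_mem_ker {σ τ : Γℚ} (h : σ⁻¹ * τ ∈ D.ker) : D.r τ = D.r σ := by
  have h1 : D.r (σ⁻¹ * τ) = 1 := (D.mem_ker _).mp h
  have h2 : τ = σ * (σ⁻¹ * τ) := by group
  rw [h2, map_mul, h1, mul_one]

theorem finite_range : (Set.range D.ρ.ρ).Finite := by
  have hfin := D.finite_quotient_ker
  refine (Set.finite_range fun q : Γℚ ⧸ D.ker => D.ρ.ρ (Quotient.out q)).subset ?_
  rintro _ ⟨σ, rfl⟩
  obtain ⟨h, hh⟩ := QuotientGroup.mk_out_eq_mul D.ker σ
  refine ⟨(σ : Γℚ ⧸ D.ker), ?_⟩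
  show D.ρ.ρ (Quotient.out (σ : Γℚ ⧸ D.ker)) = D.ρ.ρ σ
  rw [hh, map_mul, MonoidHom.mem_ker.mp h.2, mul_one]

theorem rho_pow_sub {σ : Γℚ} {i j : ℕ} (hij : i < j) (h : D.ρ.ρ (σ ^ i) = D.ρ.ρ (σ ^ j)) :
    D.ρ.ρ (σ ^ (j - i)) = 1 := by
  have h1 : σ ^ (j - i) = σ ^ j * (σ ^ i)⁻¹ := by
    rw [eq_mul_inv_iff_mul_eq, ← pow_add, Nat.sub_add_cancel hij.le]
  rw [h1, map_mul, ← h, ← map_mul, mul_inv_cancel, map_one]

/-- Every element of the image is killed by `B !`. -/
theorem r_pow (σ : Γℚ) : D.r σ ^ B.factorial = 1 := by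
  classical
  have hfin := D.finite_range
  have hcard : hfin.toFinset.card < (Finset.range (B + 1)).card := by
    rw [Finset.card_range, ← Set.ncard_eq_toFinset_card _ hfin, ← Nat.card_coe_set_eq]
    exact Nat.lt_succ_of_le D.card_le
  obtain ⟨i, hi, j, hj, hne, hij⟩ :=
    Finset.exists_ne_map_eq_of_card_lt_of_maps_to hcard (f := fun i : ℕ => D.ρ.ρ (σ ^ i))
      (fun i _ => by
        show D.ρ.ρ (σ ^ i) ∈ (hfin.toFinset : Set _)
        rw [Set.Finite.coe_toFinset]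
        exact ⟨_, rfl⟩)
  have key : ∀ i j : ℕ, i < j → j ≤ B → D.ρ.ρ (σ ^ i) = D.ρ.ρ (σ ^ j) →
      D.r σ ^ B.factorial = 1 := by
    intro i j hlt hjB h
    have h1 := D.rho_pow_sub hlt h
    have hdvd : (j - i) ∣ B.factorial := Nat.dvd_factorial (Nat.sub_pos_of_lt hlt) (by omega)
    obtain ⟨c, hc⟩ := hdvd
    rw [← map_pow, hc, pow_mul, map_pow, (D.r_eq_one_iff _).mpr h1, one_pow]
  rw [Finset.mem_range] at hi hj
  rcases Nat.lt_or_gt_of_ne hne with h | h
  · exact key i j h (by omega) hij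
  · exact key j i h (by omega) hij.symm

theorem factorial_ne_zero (hB : B < ℓ) : ((B.factorial : ℕ) : D.k) ≠ 0 := by
  intro h
  have h1 : ℓ ∣ B.factorial := (CharP.cast_eq_zero_iff D.k ℓ _).mp h
  exact absurd ((D.prime.dvd_factorial).mp h1) (by omega)

end ModLDatum

end Fermat.Agent.S48.Endgame
end MergeWrap_S48_End_Datum

section MergeWrap_S48_End_Kernel -- from S48/End/Kernel.lean

set_option autoImplicit false

namespace Fermat.Agent.S48.Endgame

open Polynomial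

local notation "Γℚ" => (AlgebraicClosure ℚ ≃ₐ[ℚ] AlgebraicClosure ℚ)

/-- Mod-`ℓ` data exist for all primes `ℓ` outside `S`. -/
def HasData (N : ℕ) (ε : DirichletCharacter ℂ N) (a : ℕ → ℂ) (B : ℕ) (S : Finset ℕ) : Prop :=
  ∀ ℓ : ℕ, ℓ.Prime → ℓ ∉ S → Nonempty (ModLDatum N ε a B ℓ)

theorem hasData_of_bounded {N : ℕ} {ε : DirichletCharacter ℂ N} {a : ℕ → ℂ} {B : ℕ}
    {S : Finset ℕ}
    (h : ∀ ℓ : ℕ, ℓ.Prime → ℓ ∉ S →
      ∀ (k : Type) [Field k] [CharP k ℓ] [IsAlgClosed k] (φ : integralClosure ℤ ℂ →+* k),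
        ∃ ρ : ResidualGaloisRep k, IsAttachedModL N ε a ℓ φ ρ ∧ Nat.card (Set.range ρ.ρ) ≤ B) :
    HasData N ε a B S := by
  intro ℓ hℓ hℓS
  obtain ⟨k, hk, hchar, hac, ⟨φ⟩⟩ := exists_residue_field ℓ hℓ
  obtain ⟨ρ, hatt, hcard⟩ := h ℓ hℓ hℓS k φ
  exact ⟨{ k := k, φ := φ, ρ := ρ, prime := hℓ, attached := hatt, card_le := hcard }⟩

variable {N : ℕ} {ε : DirichletCharacter ℂ N} {a : ℕ → ℂ} {B : ℕ} {S : Finset ℕ}

/-- For every prime `p ∤ N`: `a_p = u + v`, `ε(p) = u v` with `u ^ (B !) = v ^ (B !) = 1`. -/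
theorem isUPair_frob (hdat : HasData N ε a B S) {p : ℕ} (hp : p.Prime) (hpN : ¬ p ∣ N)
    (A : ValuationSubring (AlgebraicClosure ℚ)) (hA : A.LiesOverPrime p) (σ : Γℚ)
    (hσ : A.IsFrobeniusAt σ p) :
    ∃ t d : integralClosure ℤ ℂ, (t : ℂ) = a p ∧ (d : ℂ) = ε (p : ZMod N) ∧
      IsUPair B.factorial t d := by
  classical
  obtain ⟨ℓ₀, hℓ₀, hℓ₀S, -⟩ := exists_prime_notMem (S ∪ {p}) 0
  obtain ⟨D₀⟩ := hdat ℓ₀ hℓ₀ (fun h => hℓ₀S (Finset.mem_union_left _ h))
  have hpℓ₀ : p ≠ ℓ₀ := fun h => hℓ₀S (Finset.mem_union_right _ (by simp [h]))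
  obtain ⟨t, d, ht, hd, -, -⟩ := D₀.r_frob hp hpN hpℓ₀ A hA σ hσ
  refine ⟨t, d, ht, hd, IsUPair.of_lucV_eq_two _ (Nat.factorial_pos B) t d ?_ ?_⟩
  · apply eq_of_forall_exists_prime
    intro T
    obtain ⟨ℓ, hℓ, hℓT, -⟩ := exists_prime_notMem (T ∪ (S ∪ {p})) 0
    obtain ⟨D⟩ := hdat ℓ hℓ
      (fun h => hℓT (Finset.mem_union_right _ (Finset.mem_union_left _ h)))
    have hpℓ : p ≠ ℓ := fun h =>
      hℓT (Finset.mem_union_right _ (Finset.mem_union_right _ (by simp [h])))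
    obtain ⟨h1, h2⟩ := D.r_frob' hp hpN hpℓ A hA σ hσ t d ht hd
    refine ⟨ℓ, hℓ, fun h => hℓT (Finset.mem_union_left _ h), D.k, inferInstance, inferInstance,
      D.φ, ?_⟩
    rw [map_lucV, ← h1, ← h2, ← trace_pow_eq_lucV, D.r_pow, Matrix.trace_one, map_ofNat]
    simp
  · apply eq_of_forall_exists_prime
    intro T
    obtain ⟨ℓ, hℓ, hℓT, -⟩ := exists_prime_notMem (T ∪ (S ∪ {p})) 0
    obtain ⟨D⟩ := hdat ℓ hℓ
      (fun h => hℓT (Finset.mem_union_right _ (Finset.mem_union_left _ h)))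
    have hpℓ : p ≠ ℓ := fun h =>
      hℓT (Finset.mem_union_right _ (Finset.mem_union_right _ (by simp [h])))
    obtain ⟨h1, h2⟩ := D.r_frob' hp hpN hpℓ A hA σ hσ t d ht hd
    refine ⟨ℓ, hℓ, fun h => hℓT (Finset.mem_union_left _ h), D.k, inferInstance, inferInstance,
      D.φ, ?_⟩
    rw [map_pow, ← h2, ← Matrix.det_pow, D.r_pow, Matrix.det_one, map_one]

/-- The values of the `U`-pairs lie in a finite set. -/
theorem exists_finset_isUPair (M : ℕ) (hM : 0 < M) :
    ∃ Z : Finset (integralClosure ℤ ℂ), ∀ t d, IsUPair M t d → t ∈ Z ∧ d ∈ Z := by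
  classical
  let μ : Finset (integralClosure ℤ ℂ) := Polynomial.nthRootsFinset M (1 : integralClosure ℤ ℂ)
  refine ⟨(μ ×ˢ μ).image (fun uv => uv.1 + uv.2) ∪ (μ ×ˢ μ).image (fun uv => uv.1 * uv.2), ?_⟩
  rintro t d ⟨u, v, hu, hv, rfl, rfl⟩
  have hu' : u ∈ μ := (Polynomial.mem_nthRootsFinset hM 1).mpr hu
  have hv' : v ∈ μ := (Polynomial.mem_nthRootsFinset hM 1).mpr hv
  constructor
  · exact Finset.mem_union_left _
      (Finset.mem_image.mpr ⟨(u, v), Finset.mem_product.mpr ⟨hu', hv'⟩, rfl⟩)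
  · exact Finset.mem_union_right _
      (Finset.mem_image.mpr ⟨(u, v), Finset.mem_product.mpr ⟨hu', hv'⟩, rfl⟩)

/-- The kernels of the mod-`ℓ` representations are contained in each other, for `ℓ` outside a
finite set. -/
theorem exists_ker_le [NeZero N] (hdat : HasData N ε a B S) :
    ∃ T : Finset ℕ, S ⊆ T ∧ ∀ ℓ ℓ' : ℕ, ℓ ∉ T → ℓ' ∉ T →
      ∀ (D : ModLDatum N ε a B ℓ) (D' : ModLDatum N ε a B ℓ'), D.ker ≤ D'.ker := by
  classical
  obtain ⟨Z, hZ⟩ := exists_finset_isUPair B.factorial (Nat.factorial_pos B)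
  obtain ⟨Bad, hBad⟩ := exists_bad_primes Z
  refine ⟨S ∪ Bad ∪ Finset.range (B + 1), fun x hx =>
    Finset.mem_union_left _ (Finset.mem_union_left _ hx), ?_⟩
  intro ℓ ℓ' hℓ hℓ' D D' σ hσ
  rw [ModLDatum.mem_ker] at hσ ⊢
  have hℓBad : ℓ ∉ Bad := fun h => hℓ (Finset.mem_union_left _ (Finset.mem_union_right _ h))
  have hBℓ' : B < ℓ' := by
    by_contra h
    exact hℓ' (Finset.mem_union_right _ (Finset.mem_range.mpr (by omega)))
  have hU : IsOpen ((D.ker ⊓ D'.ker : Subgroup Γℚ) : Set Γℚ) := by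
    rw [Subgroup.coe_inf]
    exact D.isOpen_ker.inter D'.isOpen_ker
  obtain ⟨p, A, τ, k, j, hp, hpS, hA, hτ, -, h2⟩ :=
    Fermat.Agent.FrobDensity.frobenius_density_open (D.ker ⊓ D'.ker) hU σ
      (N.primeFactors ∪ {ℓ, ℓ'})
  have hpN : ¬ p ∣ N := fun h => hpS (Finset.mem_union_left _
    (Nat.mem_primeFactors.mpr ⟨hp, h, NeZero.ne N⟩))
  have hpℓ : p ≠ ℓ := fun h => hpS (Finset.mem_union_right _ (by simp [h]))
  have hpℓ' : p ≠ ℓ' := fun h => hpS (Finset.mem_union_right _ (by simp [h]))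
  obtain ⟨h2a, h2b⟩ := Subgroup.mem_inf.mp h2
  have e1 : D.r (τ ^ j) = D.r σ := D.r_eq_of_mem_ker h2a
  have e2 : D'.r (τ ^ j) = D'.r σ := D'.r_eq_of_mem_ker h2b
  obtain ⟨t, d, ht, hd, hup⟩ := isUPair_frob hdat hp hpN A hA τ hτ
  obtain ⟨h1, h1'⟩ := D.r_frob' hp hpN hpℓ A hA τ hτ t d ht hd
  obtain ⟨h3, h3'⟩ := D'.r_frob' hp hpN hpℓ' A hA τ hτ t d ht hd
  have hupj := hup.pow j
  have ea : D.φ (lucV t d j) = D.φ 2 := by
    rw [map_lucV, ← h1, ← h1', ← trace_pow_eq_lucV, ← map_pow, e1, hσ, Matrix.trace_one,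
      map_ofNat]
    simp
  have eb : D.φ (d ^ j) = D.φ 1 := by
    rw [map_pow, ← h1', ← Matrix.det_pow, ← map_pow, e1, hσ, Matrix.det_one, map_one]
  have f1 : lucV t d j = 2 :=
    hBad ℓ D.prime hℓBad D.k D.φ _ (hZ _ _ hupj).1 _ (hZ _ _ (IsUPair.two_one _)).1 ea
  have f2 : d ^ j = 1 :=
    hBad ℓ D.prime hℓBad D.k D.φ _ (hZ _ _ hupj).2 _ (hZ _ _ (IsUPair.two_one _)).2 eb
  apply eq_one_of_pow_eq_one (D'.r σ) B.factorial (D'.factorial_ne_zero hBℓ') (D'.r_pow σ)
  · rw [← e2, map_pow, trace_pow_eq_lucV, h3, h3', ← map_lucV, f1, map_ofNat]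
  · rw [← e2, map_pow, Matrix.det_pow, h3', ← map_pow, f2, map_one]

/-- The kernels of the mod-`ℓ` representations coincide, for `ℓ` outside a finite set. -/
theorem exists_ker_eq [NeZero N] (hdat : HasData N ε a B S) :
    ∃ T : Finset ℕ, S ⊆ T ∧ ∀ ℓ ℓ' : ℕ, ℓ ∉ T → ℓ' ∉ T →
      ∀ (D : ModLDatum N ε a B ℓ) (D' : ModLDatum N ε a B ℓ'), D.ker = D'.ker := by
  obtain ⟨T, hST, hT⟩ := exists_ker_le hdat
  exact ⟨T, hST, fun ℓ ℓ' hℓ hℓ' D D' => le_antisymm (hT ℓ ℓ' hℓ hℓ' D D') (hT ℓ' ℓ hℓ' hℓ D' D)⟩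

end Fermat.Agent.S48.Endgame
end MergeWrap_S48_End_Kernel

section MergeWrap_S48_Null_Rep -- from S48/Null/Rep.lean

set_option autoImplicit false

namespace Fermat.Agent.S48.Null

open MvPolynomial

section Rep

variable {G : Type} [Group G]

/-- The unknowns: the entries of the matrices `X_g`. -/
abbrev RepVar (G : Type) : Type := G × Fin 2 × Fin 2

/-- The equations: multiplicativity, unit, traces, determinants. -/
abbrev RepIdx (G : Type) : Type := (G × G × Fin 2 × Fin 2) ⊕ ((Fin 2 × Fin 2) ⊕ (G ⊕ G))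

/-- The system of equations of a representation with prescribed traces and determinants. -/
noncomputable def repEq {R : Type} [CommRing R] (t d : G → R) :
    RepIdx G → MvPolynomial (RepVar G) R
  | Sum.inl (g, h, i, j) => ∑ m : Fin 2, X (g, i, m) * X (h, m, j) - X (g * h, i, j)
  | Sum.inr (Sum.inl (i, j)) => X (1, i, j) - C (if i = j then 1 else 0)
  | Sum.inr (Sum.inr (Sum.inl g)) => X (g, 0, 0) + X (g, 1, 1) - C (t g)
  | Sum.inr (Sum.inr (Sum.inr g)) =>
      X (g, 0, 0) * X (g, 1, 1) - X (g, 0, 1) * X (g, 1, 0) - C (d g)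

/-- A family of matrices solves the system iff it is a representation with the prescribed traces
and determinants. -/
theorem repEq_solution_iff {R L : Type} [CommRing R] [CommRing L] (t d : G → R) (φ : R →+* L)
    (A : G → Matrix (Fin 2) (Fin 2) L) :
    (∀ e : RepIdx G, eval₂ φ (fun v : RepVar G => A v.1 v.2.1 v.2.2) (repEq t d e) = 0) ↔
      (∀ g h, A (g * h) = A g * A h) ∧ A 1 = 1 ∧ (∀ g, (A g).trace = φ (t g)) ∧
        ∀ g, (A g).det = φ (d g) := by
  constructor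
  · intro h
    refine ⟨fun g g' => ?_, ?_, fun g => ?_, fun g => ?_⟩
    · ext i j
      have h1 := h (Sum.inl (g, g', i, j))
      simp only [repEq, eval₂_sub, eval₂_sum, eval₂_mul, eval₂_X] at h1
      rw [Matrix.mul_apply]
      exact (sub_eq_zero.mp h1).symm
    · ext i j
      have h1 := h (Sum.inr (Sum.inl (i, j)))
      simp only [repEq, eval₂_sub, eval₂_X, eval₂_C] at h1
      rw [Matrix.one_apply, sub_eq_zero.mp h1]
      split_ifs <;> simp
    · have h1 := h (Sum.inr (Sum.inr (Sum.inl g)))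
      simp only [repEq, eval₂_sub, eval₂_add, eval₂_X, eval₂_C] at h1
      rw [Matrix.trace_fin_two]
      exact sub_eq_zero.mp h1
    · have h1 := h (Sum.inr (Sum.inr (Sum.inr g)))
      simp only [repEq, eval₂_sub, eval₂_mul, eval₂_X, eval₂_C] at h1
      rw [Matrix.det_fin_two]
      exact sub_eq_zero.mp h1
  · rintro ⟨hmul, hone, htr, hdet⟩ e
    rcases e with ⟨g, g', i, j⟩ | ⟨i, j⟩ | g | g
    · simp only [repEq, eval₂_sub, eval₂_sum, eval₂_mul, eval₂_X]
      rw [hmul, Matrix.mul_apply, sub_self]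
    · simp only [repEq, eval₂_sub, eval₂_X, eval₂_C]
      rw [hone, Matrix.one_apply]
      split_ifs <;> simp
    · simp only [repEq, eval₂_sub, eval₂_add, eval₂_X, eval₂_C]
      rw [← htr, Matrix.trace_fin_two, sub_self]
    · simp only [repEq, eval₂_sub, eval₂_mul, eval₂_X, eval₂_C]
      rw [← hdet, Matrix.det_fin_two, sub_self]

/-- **Residual representations in arbitrarily large characteristic give a complex
representation** with the prescribed traces and determinants. -/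
theorem exists_complex_rep [Finite G] (t d : G → integralClosure ℤ ℂ)
    (h : ∀ N : ℕ, ∃ ℓ : ℕ, N < ℓ ∧ ∃ (k : Type) (_ : Field k) (_ : CharP k ℓ)
      (φ : integralClosure ℤ ℂ →+* k) (r : G →* GL (Fin 2) k),
      ∀ g, (r g : Matrix (Fin 2) (Fin 2) k).trace = φ (t g) ∧
        (r g : Matrix (Fin 2) (Fin 2) k).det = φ (d g)) :
    ∃ ρ : G →* GL (Fin 2) ℂ, ∀ g,
      (ρ g : Matrix (Fin 2) (Fin 2) ℂ).trace = (t g : ℂ) ∧
        (ρ g : Matrix (Fin 2) (Fin 2) ℂ).det = (d g : ℂ) := by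
  classical
  have hsol : ∀ N : ℕ, ∃ ℓ : ℕ, N < ℓ ∧ ∃ (k : Type) (_ : CommRing k) (_ : CharP k ℓ)
      (φ : integralClosure ℤ ℂ →+* k) (x : RepVar G → k), ∀ e, eval₂ φ x (repEq t d e) = 0 := by
    intro N
    obtain ⟨ℓ, hℓ, k, hk, hchar, φ, r, hr⟩ := h N
    refine ⟨ℓ, hℓ, k, inferInstance, hchar, φ,
      fun v => (r v.1 : Matrix (Fin 2) (Fin 2) k) v.2.1 v.2.2, ?_⟩
    refine (repEq_solution_iff t d φ (fun g => (r g : Matrix (Fin 2) (Fin 2) k))).mpr
      ⟨fun g g' => ?_, ?_, fun g => (hr g).1, fun g => (hr g).2⟩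
    · rw [map_mul]; rfl
    · rw [map_one]; rfl
  obtain ⟨x, hx⟩ := exists_complex_solution (repEq t d) hsol
  have hx' : ∀ e : RepIdx G,
      eval₂ (algebraMap (integralClosure ℤ ℂ) ℂ)
        (fun v : RepVar G => (Matrix.of fun i j => x (v.1, i, j) : Matrix (Fin 2) (Fin 2) ℂ)
          v.2.1 v.2.2) (repEq t d e) = 0 := by
    intro e
    have := hx e
    rw [aeval_def] at this
    exact this
  obtain ⟨hmul, hone, htr, hdet⟩ := (repEq_solution_iff t d (algebraMap (integralClosure ℤ ℂ) ℂ)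
    (fun g => (Matrix.of fun i j => x (g, i, j) : Matrix (Fin 2) (Fin 2) ℂ))).mp hx'
  let A : G →* Matrix (Fin 2) (Fin 2) ℂ :=
    { toFun := fun g => Matrix.of fun i j => x (g, i, j)
      map_one' := hone
      map_mul' := hmul }
  refine ⟨A.toHomUnits, fun g => ⟨htr g, hdet g⟩⟩

end Rep

end Fermat.Agent.S48.Null
end MergeWrap_S48_Null_Rep

section MergeWrap_S48_End_Main -- from S48/End/Main.lean

set_option autoImplicit false

namespace Fermat.Agent.S48.Endgame

open Polynomial CongruenceSubgroup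

local notation "Γℚ" => (AlgebraicClosure ℚ ≃ₐ[ℚ] AlgebraicClosure ℚ)

variable {N : ℕ} {ε : DirichletCharacter ℂ N} {a : ℕ → ℂ} {B : ℕ} {S : Finset ℕ}

/-- Every element of the Galois group has a trace and a determinant in `ℤ̄`, compatible with
almost all the mod-`ℓ` representations. -/
theorem exists_trace_det [NeZero N] (hdat : HasData N ε a B S) (T : Finset ℕ) (hST : S ⊆ T)
    (hT : ∀ ℓ ℓ' : ℕ, ℓ ∉ T → ℓ' ∉ T →
      ∀ (D : ModLDatum N ε a B ℓ) (D' : ModLDatum N ε a B ℓ'), D.ker = D'.ker) (σ : Γℚ) :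
    ∃ (t d : integralClosure ℤ ℂ) (p : ℕ), ∀ ℓ : ℕ, ℓ ∉ T → ℓ ≠ p →
      ∀ D : ModLDatum N ε a B ℓ, (D.r σ).trace = D.φ t ∧ (D.r σ).det = D.φ d := by
  classical
  obtain ⟨ℓ₀, hℓ₀, hℓ₀T, -⟩ := exists_prime_notMem T 0
  obtain ⟨D₀⟩ := hdat ℓ₀ hℓ₀ (fun h => hℓ₀T (hST h))
  obtain ⟨p, A, τ, k, j, hp, hpS, hA, hτ, -, h2⟩ :=
    Fermat.Agent.FrobDensity.frobenius_density_open D₀.ker D₀.isOpen_ker σ N.primeFactors
  have hpN : ¬ p ∣ N := fun h => hpS (Nat.mem_primeFactors.mpr ⟨hp, h, NeZero.ne N⟩)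
  obtain ⟨t, d, ht, hd, -⟩ := isUPair_frob hdat hp hpN A hA τ hτ
  refine ⟨lucV t d j, d ^ j, p, fun ℓ hℓ hℓp D => ?_⟩
  have hker : D₀.ker = D.ker := hT ℓ₀ ℓ hℓ₀T hℓ D₀ D
  have e1 : D.r (τ ^ j) = D.r σ := D.r_eq_of_mem_ker (hker ▸ h2)
  obtain ⟨h1, h1'⟩ := D.r_frob' hp hpN (fun h => hℓp h.symm) A hA τ hτ t d ht hd
  constructor
  · rw [← e1, map_pow, trace_pow_eq_lucV, h1, h1', ← map_lucV]
  · rw [← e1, map_pow, Matrix.det_pow, h1', ← map_pow]

/-- The complex representation, from the mod-`ℓ` data. -/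
theorem complexRep_of_hasData [NeZero N] (hdat : HasData N ε a B S) :
    ∃ ρ : Γℚ →* GL (Fin 2) ℂ, GaloisFactorsThroughFiniteLevel ρ ∧
      ∀ p : ℕ, p.Prime → ¬ p ∣ N →
        ∀ A : ValuationSubring (AlgebraicClosure ℚ), A.LiesOverPrime p →
          (∀ σ ∈ A.inertiaSubgroupIn ℚ, ρ σ = 1) ∧
          ∀ σ : Γℚ, A.IsFrobeniusAt σ p →
            ((ρ σ : GL (Fin 2) ℂ) : Matrix (Fin 2) (Fin 2) ℂ).trace = a p ∧
            ((ρ σ : GL (Fin 2) ℂ) : Matrix (Fin 2) (Fin 2) ℂ).det = ε (p : ZMod N) := by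
  classical
  obtain ⟨T, hST, hT⟩ := exists_ker_eq hdat
  obtain ⟨ℓ₀, hℓ₀, hℓ₀T, -⟩ := exists_prime_notMem T 0
  obtain ⟨D₀⟩ := hdat ℓ₀ hℓ₀ (fun h => hℓ₀T (hST h))
  have hfin : Finite (Γℚ ⧸ D₀.ker) := D₀.finite_quotient_ker
  -- traces and determinants on the quotient
  have hTD : ∀ g : Γℚ ⧸ D₀.ker, ∃ (t d : integralClosure ℤ ℂ) (p : ℕ), ∀ ℓ : ℕ, ℓ ∉ T →
      ℓ ≠ p → ∀ D : ModLDatum N ε a B ℓ, ∀ σ : Γℚ, (σ : Γℚ ⧸ D₀.ker) = g →
        (D.r σ).trace = D.φ t ∧ (D.r σ).det = D.φ d := by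
    intro g
    obtain ⟨σ₀, rfl⟩ := QuotientGroup.mk_surjective g
    obtain ⟨t, d, p, h⟩ := exists_trace_det hdat T hST hT σ₀
    refine ⟨t, d, p, fun ℓ hℓ hℓp D σ hσ => ?_⟩
    have hker : D₀.ker = D.ker := hT ℓ₀ ℓ hℓ₀T hℓ D₀ D
    have hmem : σ₀⁻¹ * σ ∈ D.ker := by
      rw [← hker]
      exact QuotientGroup.eq.mp hσ.symm
    rw [D.r_eq_of_mem_ker hmem]
    exact h ℓ hℓ hℓp D
  choose t d pbad htd using hTD
  have hfintype : Fintype (Γℚ ⧸ D₀.ker) := Fintype.ofFinite _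
  -- the Nullstellensatz
  obtain ⟨ρ₀, hρ₀⟩ := Fermat.Agent.S48.Null.exists_complex_rep t d (by
    intro n
    obtain ⟨ℓ, hℓ, hℓT, hnℓ⟩ := exists_prime_notMem (T ∪ Finset.univ.image pbad) n
    have hℓT' : ℓ ∉ T := fun h => hℓT (Finset.mem_union_left _ h)
    obtain ⟨D⟩ := hdat ℓ hℓ (fun h => hℓT' (hST h))
    have hker : D₀.ker = D.ker := hT ℓ₀ ℓ hℓ₀T hℓT' D₀ D
    have hle : D₀.ker ≤ (D.r.toHomUnits).ker := by
      intro σ hσ
      rw [MonoidHom.mem_ker]
      apply Units.ext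
      rw [MonoidHom.coe_toHomUnits]
      exact (D.mem_ker σ).mp (hker ▸ hσ)
    refine ⟨ℓ, hnℓ, D.k, inferInstance, inferInstance, D.φ,
      QuotientGroup.lift D₀.ker D.r.toHomUnits hle, fun g => ?_⟩
    obtain ⟨σ, rfl⟩ := QuotientGroup.mk_surjective g
    have hp : ℓ ≠ pbad (σ : Γℚ ⧸ D₀.ker) := fun h =>
      hℓT (Finset.mem_union_right _ (Finset.mem_image.mpr ⟨_, Finset.mem_univ _, h.symm⟩))
    have h1 := htd (σ : Γℚ ⧸ D₀.ker) ℓ hℓT' hp D σ rfl
    rw [QuotientGroup.lift_mk, MonoidHom.coe_toHomUnits]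
    exact h1)
  have hmk1 : ∀ σ : Γℚ, σ ∈ D₀.ker → (ρ₀.comp (QuotientGroup.mk' D₀.ker)) σ = 1 := by
    intro σ hσ
    rw [MonoidHom.comp_apply, QuotientGroup.mk'_apply, (QuotientGroup.eq_one_iff σ).mpr hσ,
      map_one]
  refine ⟨ρ₀.comp (QuotientGroup.mk' D₀.ker), ?_, ?_⟩
  · obtain ⟨L, hL, h⟩ := D₀.exists_level
    exact ⟨L, hL, fun σ hσ =>
      hmk1 σ (h ((IntermediateField.mem_fixingSubgroup_iff L σ).mpr hσ))⟩
  · intro p hp hpN A hA
    constructor
    · intro σ hσ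
      obtain ⟨ℓ, hℓ, hℓT, -⟩ := exists_prime_notMem (T ∪ {p}) 0
      have hℓT' : ℓ ∉ T := fun h => hℓT (Finset.mem_union_left _ h)
      have hpℓ : p ≠ ℓ := fun h => hℓT (Finset.mem_union_right _ (by simp [h]))
      obtain ⟨D⟩ := hdat ℓ hℓ (fun h => hℓT' (hST h))
      have hker : D₀.ker = D.ker := hT ℓ₀ ℓ hℓ₀T hℓT' D₀ D
      apply hmk1
      rw [hker, D.mem_ker]
      exact D.r_inertia hp hpN hpℓ A hA σ hσ
    · intro σ hσ
      obtain ⟨h1, h2⟩ := hρ₀ (σ : Γℚ ⧸ D₀.ker)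
      obtain ⟨tp, dp, htp, hdp, -⟩ := isUPair_frob hdat hp hpN A hA σ hσ
      have key : ∀ T' : Finset ℕ, ∃ ℓ : ℕ, ℓ.Prime ∧ ℓ ∉ T' ∧
          ∃ (k : Type) (_ : Field k) (_ : CharP k ℓ) (φ : integralClosure ℤ ℂ →+* k),
            φ (t (σ : Γℚ ⧸ D₀.ker)) = φ tp ∧ φ (d (σ : Γℚ ⧸ D₀.ker)) = φ dp := by
        intro T'
        obtain ⟨ℓ, hℓ, hℓT, -⟩ :=
          exists_prime_notMem (T' ∪ (T ∪ {p, pbad (σ : Γℚ ⧸ D₀.ker)})) 0
        have hℓT' : ℓ ∉ T := fun h =>
          hℓT (Finset.mem_union_right _ (Finset.mem_union_left _ h))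
        have hpℓ : p ≠ ℓ := fun h =>
          hℓT (Finset.mem_union_right _ (Finset.mem_union_right _ (by simp [h])))
        have hℓbad : ℓ ≠ pbad (σ : Γℚ ⧸ D₀.ker) := fun h =>
          hℓT (Finset.mem_union_right _ (Finset.mem_union_right _ (by simp [h])))
        obtain ⟨D⟩ := hdat ℓ hℓ (fun h => hℓT' (hST h))
        obtain ⟨e1, e2⟩ := htd (σ : Γℚ ⧸ D₀.ker) ℓ hℓT' hℓbad D σ rfl
        obtain ⟨e3, e4⟩ := D.r_frob' hp hpN hpℓ A hA σ hσ tp dp htp hdp
        exact ⟨ℓ, hℓ, fun h => hℓT (Finset.mem_union_left _ h), D.k, inferInstance,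
          inferInstance, D.φ, e1.symm.trans e3, e2.symm.trans e4⟩
      have et : t (σ : Γℚ ⧸ D₀.ker) = tp := by
        apply eq_of_forall_exists_prime
        intro T'
        obtain ⟨ℓ, hℓ, hℓT', k, i1, i2, φ, h, -⟩ := key T'
        exact ⟨ℓ, hℓ, hℓT', k, i1, i2, φ, h⟩
      have ed : d (σ : Γℚ ⧸ D₀.ker) = dp := by
        apply eq_of_forall_exists_prime
        intro T'
        obtain ⟨ℓ, hℓ, hℓT', k, i1, i2, φ, -, h⟩ := key T'
        exact ⟨ℓ, hℓ, hℓT', k, i1, i2, φ, h⟩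
      constructor
      · rw [MonoidHom.comp_apply, QuotientGroup.mk'_apply, h1, et, htp]
      · rw [MonoidHom.comp_apply, QuotientGroup.mk'_apply, h2, ed, hdp]

/-- **(END)** `BoundedStatement → ComplexRepStatement`. -/
theorem complexRepStatement_of (h : BoundedStatement) : ComplexRepStatement := by
  intro N _ ε f hf
  obtain ⟨S, B, hSB⟩ := h N ε f hf
  exact complexRep_of_hasData (hasData_of_bounded hSB)

end Fermat.Agent.S48.Endgame
end MergeWrap_S48_End_Main

section MergeWrap_S48_Final -- from S48/Final.lean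

/-!
# S48 (Deligne–Serre): the final wiring of the DS-specific part (helper22)

`dsResult_of_leaves`: the statement of S48 from the leaves which are still open:

* `S48W.WallStatementFrom ℓ₀` (the wall, helper93),
* `NebStatement` (P1), `IntStructStatement` (S23G1), `IntegralStatement`, `AlgStatement` (P3),
* `ChebotarevStatement` (P5).

Everything else (Rankin, bounded image, finitely many values, the endgame, irreducibility) is
proved.
-/

set_option autoImplicit false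

open CongruenceSubgroup

namespace Fermat.Agent.S48

local notation "Γℚ" => (AlgebraicClosure ℚ ≃ₐ[ℚ] AlgebraicClosure ℚ)

/-- `ComplexRepStatement` from the open leaves. -/
theorem complexRep_of_leaves (ℓ₀ : ℕ) (hW : Fermat.Agent.S48W.WallStatementFrom ℓ₀)
    (hNeb : NebStatement) (hIS : IntStructStatement) (hInt : IntegralStatement)
    (hAlg : AlgStatement) (hP5 : ChebotarevStatement) : ComplexRepStatement :=
  Endgame.complexRepStatement_of
    (Bnd.boundedStatement_of (ModLSeat.modL_of_from ℓ₀ hW hNeb hAlg hInt)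
      (finiteValues_of (conj_of hIS) hInt) hP5)

/-- The statement of S48 from the open leaves. -/
theorem dsResult_of_leaves (ℓ₀ : ℕ) (hW : Fermat.Agent.S48W.WallStatementFrom ℓ₀)
    (hNeb : NebStatement) (hIS : IntStructStatement) (hInt : IntegralStatement)
    (hAlg : AlgStatement) (hP5 : ChebotarevStatement)
    (N : ℕ) [NeZero N] (ε : DirichletCharacter ℂ N) (f : CuspForm (Gamma1 N) 1)
    (hf₁ : ModularFormClass.qCoeff f 1 = 1)
    (hT : ∀ p : ℕ, p.Prime → ¬ p ∣ N → ∀ n : ℕ,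
        ModularFormClass.qCoeff f (p * n) +
            ε (p : ZMod N) * (if p ∣ n then ModularFormClass.qCoeff f (n / p) else 0) =
          ModularFormClass.qCoeff f p * ModularFormClass.qCoeff f n) :
    ∃ ρ : Γℚ →* GL (Fin 2) ℂ, GaloisFactorsThroughFiniteLevel ρ ∧
      (Deformation.matrixRepresentation ρ).IsIrreducible ∧
      ∀ p : ℕ, p.Prime → ¬ p ∣ N →
        ∀ A : ValuationSubring (AlgebraicClosure ℚ), A.LiesOverPrime p →
          (∀ σ ∈ A.inertiaSubgroupIn ℚ, ρ σ = 1) ∧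
          ∀ σ : Γℚ, A.IsFrobeniusAt σ p →
            ((ρ σ : GL (Fin 2) ℂ) : Matrix (Fin 2) (Fin 2) ℂ).trace = ModularFormClass.qCoeff f p ∧
            ((ρ σ : GL (Fin 2) ℂ) : Matrix (Fin 2) (Fin 2) ℂ).det = ε (p : ZMod N) :=
  dsResult_of (complexRep_of_leaves ℓ₀ hW hNeb hIS hInt hAlg hP5) (irred_of hP5) N ε f hf₁ hT

end Fermat.Agent.S48
end MergeWrap_S48_Final
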