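import Mathlib
import Fermat.Agent.MUL.Orig.S48.Conj
import Fermat.Agent.MUL.S48.W.Final

section MergeWrap_S48_EmbExt -- from S48/EmbExt.lean

set_option autoImplicit false

noncomputable section

namespace Fermat.Agent.S48

open Algebra

/-- a transcendence basis of `ℂ/ℚ` is a transcendence basis of `ℂ/K` for every subfield `K`
algebraic over `ℚ`. -/
theorem embExt_isTranscendenceBasis {ι : Type*} {v : ι → ℂ} (hv : IsTranscendenceBasis ℚ v)
    (K : IntermediateField ℚ ℂ) [Algebra.IsAlgebraic ℚ K] : IsTranscendenceBasis K v := by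
  rw [isTranscendenceBasis_iff_algebraicIndependent_isAlgebraic]
  refine ⟨hv.1.extendScalars K, ?_⟩
  let Rv := adjoin ℚ (Set.range v)
  let Sv := adjoin K (Set.range v)
  have le : Rv ≤ Sv.restrictScalars ℚ := by
    rw [Subalgebra.restrictScalars_adjoin]; exact le_sup_right
  letI : Algebra Rv Sv := (Subalgebra.inclusion le).toAlgebra
  have : IsScalarTower Rv Sv ℂ := .of_algebraMap_eq fun x ↦ rfl
  have := hv.isAlgebraic
  exact .extendScalars (Subalgebra.inclusion_injective le)

/-- **Extension of embeddings**: a ring homomorphism `φ : L → ℂ` from a subfield `L ⊆ ℂ`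
algebraic over `ℚ` extends to a ring automorphism of `ℂ`. -/
theorem exists_ringEquiv_extends (L : IntermediateField ℚ ℂ) [Algebra.IsAlgebraic ℚ L]
    (φ : L →+* ℂ) : ∃ τ : ℂ ≃+* ℂ, ∀ x : L, τ (x : ℂ) = φ x := by
  obtain ⟨ι, v, hv⟩ := exists_isTranscendenceBasis' ℚ ℂ
  let φa : L →ₐ[ℚ] ℂ := φ.toRatAlgHom
  let L' : IntermediateField ℚ ℂ := φa.fieldRange
  let e : L ≃ₐ[ℚ] L' := AlgEquiv.ofInjectiveField φa
  have : Algebra.IsAlgebraic ℚ L' := e.isAlgebraic
  have hvL : IsTranscendenceBasis L v := embExt_isTranscendenceBasis hv L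
  have hvL' : IsTranscendenceBasis L' v := embExt_isTranscendenceBasis hv L'
  have := IsAlgClosed.isAlgClosure_of_transcendence_basis v hvL
  have := IsAlgClosed.isAlgClosure_of_transcendence_basis v hvL'
  let E : adjoin L (Set.range v) ≃+* adjoin L' (Set.range v) :=
    hvL.1.aevalEquiv.symm.toRingEquiv.trans
      ((MvPolynomial.mapEquiv ι e.toRingEquiv).trans hvL'.1.aevalEquiv.toRingEquiv)
  refine ⟨IsAlgClosure.equivOfEquiv ℂ ℂ E, fun x => ?_⟩
  have h := IsAlgClosure.equivOfEquiv_algebraMap ℂ ℂ E (algebraMap L _ x)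
  have hE : E (algebraMap L _ x) = algebraMap L' _ (e x) := by
    show hvL'.1.aevalEquiv ((MvPolynomial.mapEquiv ι e.toRingEquiv)
      (hvL.1.aevalEquiv.symm (algebraMap L _ x))) = _
    rw [AlgEquiv.commutes, MvPolynomial.algebraMap_eq, MvPolynomial.mapEquiv_apply,
      MvPolynomial.map_C, ← MvPolynomial.algebraMap_eq, AlgEquiv.commutes]
    rfl
  rw [hE] at h
  exact h

/-- the same, as a ring endomorphism of `ℂ`. -/
theorem exists_ringHom_extends (L : IntermediateField ℚ ℂ) [Algebra.IsAlgebraic ℚ L]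
    (φ : L →+* ℂ) : ∃ τ : ℂ →+* ℂ, ∀ x : L, τ (x : ℂ) = φ x := by
  obtain ⟨τ, hτ⟩ := exists_ringEquiv_extends L φ
  exact ⟨τ.toRingHom, hτ⟩

/-- any two embeddings of a field `K` algebraic over `ℚ` into `ℂ` differ by a ring automorphism
of `ℂ`. -/
theorem exists_ringEquiv_comp_eq {K : Type*} [Field K] [Algebra ℚ K] [Algebra.IsAlgebraic ℚ K]
    (σ₁ σ₂ : K →+* ℂ) : ∃ τ : ℂ ≃+* ℂ, ∀ x : K, τ (σ₁ x) = σ₂ x := by
  let s₁ : K →ₐ[ℚ] ℂ := σ₁.toRatAlgHom
  let e : K ≃ₐ[ℚ] s₁.fieldRange := AlgEquiv.ofInjectiveField s₁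
  have : Algebra.IsAlgebraic ℚ s₁.fieldRange := e.isAlgebraic
  obtain ⟨τ, hτ⟩ := exists_ringEquiv_extends s₁.fieldRange (σ₂.comp e.symm.toRingEquiv.toRingHom)
  refine ⟨τ, fun x => ?_⟩
  have h := hτ (e x)
  have h1 : ((e x : s₁.fieldRange) : ℂ) = σ₁ x := rfl
  rw [h1] at h
  rw [h]
  show σ₂ (e.symm (e x)) = σ₂ x
  rw [AlgEquiv.symm_apply_apply]

end Fermat.Agent.S48
end
end MergeWrap_S48_EmbExt

section MergeWrap_S48_Int_Formal -- from S48/Int/Formal.lean

set_option autoImplicit false

noncomputable section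

namespace Fermat.Agent.S48Int

/-- **Integrality.**  If all `a n` lie in the `ℤ`-span of finitely many complex numbers,
`ζ` is a root of unity and `a (p n) + ζ [p ∣ n] a (n / p) = a p · a n`, then `a p` is an
algebraic integer. -/
theorem int_isIntegral_of_span {r : ℕ} (x : Fin r → ℂ) (a : ℕ → ℂ)
    (ha : ∀ n, a n ∈ Submodule.span ℤ (Set.range x))
    (ζ : ℂ) (n₀ : ℕ) (hn₀ : 0 < n₀) (hζ : ζ ^ n₀ = 1) (p : ℕ) (hp : 1 < p) (ha1 : a 1 = 1)
    (hrel : ∀ n, a (p * n) + ζ * (if p ∣ n then a (n / p) else 0) = a p * a n) :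
    IsIntegral ℤ (a p) := by
  classical
  -- the module `P` spanned by the `ζ^i a(p^k)`
  set P : Submodule ℤ ℂ := Submodule.span ℤ {y | ∃ i k : ℕ, y = ζ ^ i * a (p ^ k)} with hP
  set M' : Submodule ℤ ℂ :=
    Submodule.span ℤ (Set.range fun ij : Fin n₀ × Fin r => ζ ^ (ij.1 : ℕ) * x ij.2) with hM'
  have hM'fg : M'.FG := Submodule.fg_span (Set.finite_range _)
  have hζpow : ∀ i : ℕ, ζ ^ i = ζ ^ (i % n₀) := by
    intro i
    conv_lhs => rw [← Nat.div_add_mod i n₀, pow_add, pow_mul, hζ, one_pow, one_mul]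
  have hmul : ∀ (i : ℕ) (y : ℂ), y ∈ Submodule.span ℤ (Set.range x) → ζ ^ i * y ∈ M' := by
    intro i y hy
    induction hy using Submodule.span_induction with
    | mem y hy =>
      obtain ⟨j, rfl⟩ := hy
      rw [hζpow i]
      exact Submodule.subset_span ⟨(⟨i % n₀, Nat.mod_lt i hn₀⟩, j), rfl⟩
    | zero => rw [mul_zero]; exact zero_mem _
    | add y z _ _ hy hz => rw [mul_add]; exact add_mem hy hz
    | smul c y _ hy =>
      rw [mul_smul_comm]
      exact Submodule.smul_mem _ c hy
  have hPle : P ≤ M' := by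
    rw [hP, Submodule.span_le]
    rintro y ⟨i, k, rfl⟩
    exact hmul i _ (ha _)
  have hPfg : P.FG := Submodule.FG.of_le hM'fg hPle
  have hone : (1 : ℂ) ∈ P := by
    refine Submodule.subset_span ⟨0, 0, ?_⟩
    rw [pow_zero, pow_zero, ha1, one_mul]
  have hPne : P ≠ ⊥ := by
    intro h
    rw [h, Submodule.mem_bot] at hone
    exact one_ne_zero hone
  have hgen : ∀ i k : ℕ, ζ ^ i * a (p ^ k) ∈ P := fun i k => Submodule.subset_span ⟨i, k, rfl⟩
  have hstab : ∀ n ∈ P, a p • n ∈ P := by
    intro n hn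
    induction hn using Submodule.span_induction with
    | mem y hy =>
      obtain ⟨i, k, rfl⟩ := hy
      rw [smul_eq_mul, mul_left_comm, ← hrel]
      rcases k with _ | k
      · have h1 : ¬ p ∣ p ^ 0 := by
          rw [pow_zero, Nat.dvd_one]; omega
        rw [if_neg h1, mul_zero, add_zero]
        have : p * p ^ 0 = p ^ 1 := by rw [pow_zero, pow_one, mul_one]
        rw [this]
        exact hgen i 1
      · have h1 : p ∣ p ^ (k + 1) := dvd_pow_self p (Nat.succ_ne_zero k)
        have h2 : p ^ (k + 1) / p = p ^ k := by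
          rw [pow_succ, Nat.mul_div_cancel _ (by omega : 0 < p)]
        have h3 : p * p ^ (k + 1) = p ^ (k + 2) := by ring
        rw [if_pos h1, h2, h3, mul_add, ← mul_assoc, ← pow_succ]
        exact add_mem (hgen i (k + 2)) (hgen (i + 1) k)
    | zero => rw [smul_zero]; exact zero_mem _
    | add y z _ _ hy hz => rw [smul_add]; exact add_mem hy hz
    | smul c y _ hy =>
      rw [smul_comm]
      exact Submodule.smul_mem _ c hy
  exact isIntegral_of_smul_mem_submodule P hPne hPfg (a p) hstab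

/-- the formal Hecke operator `T_p^ψ` on sequences:
`(T b) n = b (p n) + ψ [p ∣ n] b (n / p)`. -/
def heckeSeq (p : ℕ) (ψ : ℂ) : (ℕ → ℂ) →ₗ[ℂ] (ℕ → ℂ) where
  toFun b n := b (p * n) + ψ * (if p ∣ n then b (n / p) else 0)
  map_add' b c := by
    funext n
    simp only [Pi.add_apply]
    split_ifs <;> ring
  map_smul' c b := by
    funext n
    simp only [Pi.smul_apply, smul_eq_mul, RingHom.id_apply]
    split_ifs <;> ring

theorem heckeSeq_apply (p : ℕ) (ψ : ℂ) (b : ℕ → ℂ) (n : ℕ) :
    heckeSeq p ψ b n = b (p * n) + ψ * (if p ∣ n then b (n / p) else 0) := rfl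

/-- **Independence of eigen-sequences**: nonzero simultaneous eigenvectors of a family of
operators with pairwise distinct systems of eigenvalues are linearly independent. -/
theorem int_linearIndependent {V ι κ : Type*} [AddCommGroup V] [Module ℂ V]
    (T : κ → V →ₗ[ℂ] V) (b : ι → V) (lam : ι → κ → ℂ)
    (hb : ∀ i, b i ≠ 0) (heig : ∀ i q, T q (b i) = lam i q • b i)
    (hne : ∀ i j, i ≠ j → ∃ q, lam i q ≠ lam j q) : LinearIndependent ℂ b := by
  classical
  rw [linearIndependent_iff']
  intro s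
  induction s using Finset.induction_on with
  | empty => intro g _ i hi; simp at hi
  | insert i₀ s hi₀ ih =>
    intro g hg i hi
    have key : ∀ j ∈ s, g j = 0 := by
      intro j hj
      have hji : j ≠ i₀ := fun h => hi₀ (h ▸ hj)
      obtain ⟨q, hq⟩ := hne j i₀ hji
      have h1 : ∑ l ∈ s, (g l * (lam l q - lam i₀ q)) • b l = 0 := by
        have h2 := congrArg (fun v => T q v - lam i₀ q • v) hg
        simp only [map_sum, map_smul, heig, smul_zero, sub_zero, Finset.smul_sum,
          map_zero] at h2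
        rw [← Finset.sum_sub_distrib, Finset.sum_insert hi₀] at h2
        simp only [smul_smul] at h2
        rw [mul_comm (lam i₀ q) (g i₀), sub_self, zero_add] at h2
        rw [← h2]
        refine Finset.sum_congr rfl fun l _ => ?_
        rw [← sub_smul]
        congr 1
        ring
      have h3 := ih _ h1 j hj
      rcases mul_eq_zero.mp h3 with h | h
      · exact h
      · exact absurd (sub_eq_zero.mp h) hq
    rcases Finset.mem_insert.mp hi with rfl | hi
    · rw [Finset.sum_insert hi₀, Finset.sum_eq_zero (fun l hl => by rw [key l hl, zero_smul]),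
        add_zero] at hg
      rcases smul_eq_zero.mp hg with h | h
      · exact h
      · exact absurd h (hb _)
    · exact key i hi

end Fermat.Agent.S48Int
end
end MergeWrap_S48_Int_Formal

section MergeWrap_S48_Int_Decomp -- from S48/Int/Decomp.lean

set_option autoImplicit false

noncomputable section

namespace Fermat.Agent.S48Int

open CongruenceSubgroup ModularFormClass UpperHalfPlane Fermat.Agent.S48

/-- the `q`-coefficients of a form in the span of integral forms are `ℂ`-combinations of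
finitely many integer sequences. -/
theorem int_exists_decomp (hIS : IntStructStatement) (N : ℕ) [NeZero N]
    (f : CuspForm (Gamma1 N) 1) :
    ∃ (r : ℕ) (x : Fin r → ℂ) (m : Fin r → ℕ → ℤ),
      ∀ n : ℕ, qCoeff (⇑f) n = ∑ i, x i * (m i n : ℂ) := by
  classical
  obtain ⟨r, x, g, hg⟩ := Submodule.mem_span_set'.mp (hIS N f)
  have hm : ∀ i : Fin r, ∃ m : ℕ → ℤ, ∀ n, qCoeff (⇑(g i : CuspForm (Gamma1 N) 1)) n = (m n : ℂ) :=
    fun i => ⟨fun n => Classical.choose ((g i).2 n), fun n => Classical.choose_spec ((g i).2 n)⟩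
  choose m hm using hm
  refine ⟨r, x, m, fun n => ?_⟩
  have h1 : qCoeffLin N n f = ∑ i, x i * qCoeffLin N n (g i : CuspForm (Gamma1 N) 1) := by
    rw [← hg, map_sum]
    refine Finset.sum_congr rfl fun i _ => ?_
    rw [map_smul, smul_eq_mul]
  rw [qCoeffLin_apply] at h1
  rw [h1]
  refine Finset.sum_congr rfl fun i _ => ?_
  rw [qCoeffLin_apply, hm]

/-- a combination of integer sequences has values in the `ℤ`-span of the coefficients. -/
theorem int_mem_span {r : ℕ} (x : Fin r → ℂ) (m : Fin r → ℤ) :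
    ∑ i, x i * (m i : ℂ) ∈ Submodule.span ℤ (Set.range x) := by
  refine Submodule.sum_mem _ fun i _ => ?_
  have : x i * (m i : ℂ) = m i • x i := by
    rw [zsmul_eq_mul, mul_comm]
  rw [this]
  exact Submodule.smul_mem _ _ (Submodule.subset_span ⟨i, rfl⟩)

/-- the values of a Dirichlet character at units are roots of unity. -/
theorem int_char_pow_eq_one {N : ℕ} [NeZero N] (ε : DirichletCharacter ℂ N) (u : (ZMod N)ˣ) :
    ε (u : ZMod N) ^ Fintype.card (ZMod N)ˣ = 1 := by
  rw [← map_pow, ← Units.val_pow_eq_pow_val, pow_card_eq_one, Units.val_one, map_one]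

/-- all values `z` of a Dirichlet character satisfy `z ^ (n₀ + 1) = z`. -/
theorem int_char_pow_succ {N : ℕ} [NeZero N] (ε : DirichletCharacter ℂ N) (z : ZMod N) :
    ε z ^ (Fintype.card (ZMod N)ˣ + 1) = ε z := by
  by_cases hz : IsUnit z
  · obtain ⟨u, rfl⟩ := hz
    rw [pow_succ, int_char_pow_eq_one, one_mul]
  · rw [MulChar.map_nonunit ε hz, zero_pow (Nat.succ_ne_zero _)]

/-- the value of `ε` at a prime not dividing the level is a root of unity. -/
theorem int_char_prime_pow {N : ℕ} [NeZero N] (ε : DirichletCharacter ℂ N) {p : ℕ}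
    (hp : p.Prime) (hpN : ¬ p ∣ N) : ε (p : ZMod N) ^ Fintype.card (ZMod N)ˣ = 1 := by
  have hcop : Nat.Coprime p N := (Nat.Prime.coprime_iff_not_dvd hp).mpr hpN
  have h := int_char_pow_eq_one ε (ZMod.unitOfCoprime p hcop)
  rwa [ZMod.coe_unitOfCoprime] at h

/-- **INT, part 1**: the `a_p` are algebraic integers. -/
theorem int_isIntegral (N : ℕ) [NeZero N] (ε : DirichletCharacter ℂ N) (a : ℕ → ℂ)
    (hH : HeckeRel N ε a) {r : ℕ} (x : Fin r → ℂ) (m : Fin r → ℕ → ℤ)
    (ham : ∀ n, a n = ∑ i, x i * (m i n : ℂ)) {p : ℕ} (hp : p.Prime) (hpN : ¬ p ∣ N) :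
    IsIntegral ℤ (a p) := by
  refine int_isIntegral_of_span x a (fun n => ?_) (ε (p : ZMod N)) (Fintype.card (ZMod N)ˣ)
    Fintype.card_pos (int_char_prime_pow ε hp hpN) p hp.one_lt hH.1 (hH.2 p hp hpN)
  rw [ham n]
  exact int_mem_span x fun i => m i n

end Fermat.Agent.S48Int
end
end MergeWrap_S48_Int_Decomp

section MergeWrap_S48_Int_Field -- from S48/Int/Field.lean

set_option autoImplicit false

noncomputable section

namespace Fermat.Agent.S48Int

open CongruenceSubgroup Fermat.Agent.S48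

/-- two ring homomorphisms on `ℚ(S)` which agree on `S` are equal. -/
theorem int_ringHom_ext {S : Set ℂ} (φ φ' : IntermediateField.adjoin ℚ S →+* ℂ)
    (h : ∀ x (hx : x ∈ S), φ ⟨x, IntermediateField.subset_adjoin ℚ S hx⟩ =
      φ' ⟨x, IntermediateField.subset_adjoin ℚ S hx⟩) : φ = φ' := by
  ext ⟨y, hy⟩
  induction hy using IntermediateField.adjoin_induction with
  | mem x hx => exact h x hx
  | algebraMap q =>
    have : (⟨algebraMap ℚ ℂ q, IntermediateField.algebraMap_mem _ q⟩ :
        IntermediateField.adjoin ℚ S) = ((q : ℚ) : IntermediateField.adjoin ℚ S) := by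
      apply Subtype.ext
      simp
    rw [this, map_ratCast, map_ratCast]
  | add x y hx hy ihx ihy =>
    have : (⟨x + y, add_mem hx hy⟩ : IntermediateField.adjoin ℚ S) = ⟨x, hx⟩ + ⟨y, hy⟩ := rfl
    rw [this, map_add, map_add, ihx, ihy]
  | inv x hx ih =>
    have : (⟨x⁻¹, inv_mem hx⟩ : IntermediateField.adjoin ℚ S) = (⟨x, hx⟩)⁻¹ := rfl
    rw [this, map_inv₀, map_inv₀, ih]
  | mul x y hx hy ihx ihy =>
    have : (⟨x * y, mul_mem hx hy⟩ : IntermediateField.adjoin ℚ S) = ⟨x, hx⟩ * ⟨y, hy⟩ := rfl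
    rw [this, map_mul, map_mul, ihx, ihy]

section Data

variable (N : ℕ) [NeZero N] (ε : DirichletCharacter ℂ N) (a : ℕ → ℂ)

open Classical in
/-- the generators: the values of `ε` and the `a p`, `p ∈ T` a prime not dividing `N`. -/
def intGens (T : Finset ℕ) : Finset ℂ :=
  (Finset.univ.image fun z : ZMod N => ε z) ∪
    ((T.filter fun p => p.Prime ∧ ¬ p ∣ N).image a)

/-- the field `ℚ(ε, a_p : p ∈ T)`. -/
def intField (T : Finset ℕ) : IntermediateField ℚ ℂ :=
  IntermediateField.adjoin ℚ (intGens N ε a T : Set ℂ)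

variable {N ε a}

theorem int_char_mem (T : Finset ℕ) (z : ZMod N) : ε z ∈ intField N ε a T := by
  classical
  refine IntermediateField.subset_adjoin ℚ _ ?_
  rw [intGens, Finset.coe_union]
  exact Or.inl (Finset.mem_coe.mpr (Finset.mem_image_of_mem _ (Finset.mem_univ z)))

theorem int_coeff_mem {T : Finset ℕ} {p : ℕ} (hpT : p ∈ T) (hp : p.Prime) (hpN : ¬ p ∣ N) :
    a p ∈ intField N ε a T := by
  classical
  refine IntermediateField.subset_adjoin ℚ _ ?_
  rw [intGens, Finset.coe_union]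
  exact Or.inr (Finset.mem_coe.mpr
    (Finset.mem_image_of_mem _ (Finset.mem_filter.mpr ⟨hpT, hp, hpN⟩)))

theorem int_field_mono {T T' : Finset ℕ} (h : T ⊆ T') :
    intField N ε a T ≤ intField N ε a T' := by
  classical
  refine IntermediateField.adjoin.mono ℚ _ _ ?_
  intro y hy
  rw [intGens, Finset.coe_union] at hy ⊢
  rcases hy with hy | hy
  · exact Or.inl hy
  · refine Or.inr ?_
    obtain ⟨p, hp, rfl⟩ := Finset.mem_image.mp (Finset.mem_coe.mp hy)
    obtain ⟨hpT, hp'⟩ := Finset.mem_filter.mp hp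
    exact Finset.mem_coe.mpr (Finset.mem_image_of_mem _ (Finset.mem_filter.mpr ⟨h hpT, hp'⟩))

theorem int_char_isIntegral (z : ZMod N) : IsIntegral ℤ (ε z) := by
  by_cases hz : IsUnit z
  · obtain ⟨u, rfl⟩ := hz
    refine IsIntegral.of_pow (Fintype.card_pos (α := (ZMod N)ˣ)) ?_
    rw [int_char_pow_eq_one]
    exact isIntegral_one
  · rw [MulChar.map_nonunit ε hz]
    exact isIntegral_zero

theorem int_field_finiteDimensional (hint : ∀ p : ℕ, p.Prime → ¬ p ∣ N → IsIntegral ℤ (a p))
    (T : Finset ℕ) : FiniteDimensional ℚ (intField N ε a T) := by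
  classical
  haveI : Finite (↑(intGens N ε a T : Set ℂ)) := (intGens N ε a T).finite_toSet.to_subtype
  refine IntermediateField.finiteDimensional_adjoin fun y hy => ?_
  rw [intGens, Finset.coe_union] at hy
  rcases hy with hy | hy
  · obtain ⟨z, -, rfl⟩ := Finset.mem_image.mp (Finset.mem_coe.mp hy)
    exact (int_char_isIntegral z).tower_top
  · obtain ⟨p, hp, rfl⟩ := Finset.mem_image.mp (Finset.mem_coe.mp hy)
    obtain ⟨-, hp1, hp2⟩ := Finset.mem_filter.mp hp
    exact (hint p hp1 hp2).tower_top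

end Data

section Bound

variable {N : ℕ} [NeZero N] {ε : DirichletCharacter ℂ N} {a : ℕ → ℂ}

/-- a finite set containing all conjugates of the values of the Dirichlet characters mod `N`. -/
def intVals (N : ℕ) [NeZero N] : Finset ℂ :=
  insert 0 (Polynomial.nthRootsFinset (Fintype.card (ZMod N)ˣ) (1 : ℂ))

theorem int_conj_char_mem (τ : ℂ →+* ℂ) (z : ZMod N) : τ (ε z) ∈ intVals N := by
  by_cases hz : IsUnit z
  · obtain ⟨u, rfl⟩ := hz
    refine Finset.mem_insert_of_mem ?_
    rw [Polynomial.mem_nthRootsFinset Fintype.card_pos, ← map_pow, int_char_pow_eq_one, map_one]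
  · rw [MulChar.map_nonunit ε hz, map_zero]
    exact Finset.mem_insert_self _ _

/-- the conjugate sequence is an eigen-sequence of the formal Hecke operators of the conjugate
character. -/
theorem int_conj_eigen (hH : HeckeRel N ε a) (τ : ℂ →+* ℂ) {q : ℕ} (hq : q.Prime)
    (hqN : ¬ q ∣ N) :
    heckeSeq q (τ (ε (q : ZMod N))) (fun n => τ (a n)) = τ (a q) • fun n => τ (a n) := by
  funext n
  rw [heckeSeq_apply, Pi.smul_apply, smul_eq_mul, ← map_mul, ← hH.2 q hq hqN n, map_add, map_mul]
  split_ifs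
  · rfl
  · rw [map_zero]

theorem int_conj_mem_span {r : ℕ} (x : Fin r → ℂ) (m : Fin r → ℕ → ℤ)
    (ham : ∀ n, a n = ∑ i, x i * (m i n : ℂ)) (τ : ℂ →+* ℂ) :
    (fun n => τ (a n)) ∈
      Submodule.span ℂ (Set.range fun i : Fin r => fun n : ℕ => (m i n : ℂ)) := by
  have : (fun n => τ (a n)) = ∑ i, τ (x i) • (fun n : ℕ => (m i n : ℂ)) := by
    funext n
    rw [ham n, map_sum, Finset.sum_apply]
    refine Finset.sum_congr rfl fun i _ => ?_
    rw [map_mul, map_intCast, Pi.smul_apply, smul_eq_mul]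
  rw [this]
  exact Submodule.sum_mem _ fun i _ => Submodule.smul_mem _ _ (Submodule.subset_span ⟨i, rfl⟩)

/-- **the degrees of the fields `ℚ(ε, a_p : p ∈ T)` are bounded**. -/
theorem int_finrank_le (hH : HeckeRel N ε a) {r : ℕ} (x : Fin r → ℂ) (m : Fin r → ℕ → ℤ)
    (ham : ∀ n, a n = ∑ i, x i * (m i n : ℂ))
    (hint : ∀ p : ℕ, p.Prime → ¬ p ∣ N → IsIntegral ℤ (a p)) (T : Finset ℕ) :
    Module.finrank ℚ (intField N ε a T) ≤
      r * (Fintype.piFinset fun _ : ZMod N => intVals N).card := by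
  classical
  haveI := int_field_finiteDimensional (ε := ε) hint T
  haveI : NumberField (intField N ε a T) :=
    { to_charZero := inferInstance, to_finiteDimensional := inferInstance }
  rw [← NumberField.Embeddings.card (intField N ε a T) ℂ, ← Finset.card_univ]
  have hext : ∀ φ : intField N ε a T →+* ℂ,
      ∃ τ : ℂ →+* ℂ, ∀ y : intField N ε a T, τ (y : ℂ) = φ y :=
    fun φ => exists_ringHom_extends _ φ
  choose τ hτ using hext
  let f : (intField N ε a T →+* ℂ) → (ZMod N → ℂ) := fun φ z => τ φ (ε z)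
  have hf : ∀ φ ∈ (Finset.univ : Finset (intField N ε a T →+* ℂ)),
      f φ ∈ Fintype.piFinset fun _ : ZMod N => intVals N := by
    intro φ _
    rw [Fintype.mem_piFinset]
    exact fun z => int_conj_char_mem (τ φ) z
  refine Finset.card_le_mul_card_image_of_maps_to hf r fun ψ _ => ?_
  set F := (Finset.univ.filter fun φ : intField N ε a T →+* ℂ => f φ = ψ) with hF
  have hli : LinearIndependent ℂ (fun φ : F => fun n => τ φ.1 (a n)) := by
    refine int_linearIndependent (κ := {q : ℕ // q.Prime ∧ ¬ q ∣ N})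
      (fun q => heckeSeq q.1 (ψ (q.1 : ZMod N))) _ (fun φ q => τ φ.1 (a q.1)) ?_ ?_ ?_
    · intro φ h
      have h1 := congrFun h 1
      simp only [Pi.zero_apply] at h1
      rw [hH.1, map_one] at h1
      exact one_ne_zero h1
    · intro φ q
      have hφ : f φ.1 = ψ := (Finset.mem_filter.mp φ.2).2
      rw [← hφ]
      exact int_conj_eigen hH (τ φ.1) q.2.1 q.2.2
    · intro φ φ' hne
      by_contra hall
      push_neg at hall
      apply hne
      apply Subtype.ext
      refine int_ringHom_ext (S := (intGens N ε a T : Set ℂ)) φ.1 φ'.1 fun y hy => ?_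
      refine (hτ φ.1 ⟨y, IntermediateField.subset_adjoin ℚ _ hy⟩).symm.trans
        (Eq.trans ?_ (hτ φ'.1 ⟨y, IntermediateField.subset_adjoin ℚ _ hy⟩))
      show τ φ.1 y = τ φ'.1 y
      rw [intGens, Finset.coe_union] at hy
      rcases hy with hy | hy
      · obtain ⟨z, -, rfl⟩ := Finset.mem_image.mp (Finset.mem_coe.mp hy)
        have h1 : f φ.1 = ψ := (Finset.mem_filter.mp φ.2).2
        have h2 : f φ'.1 = ψ := (Finset.mem_filter.mp φ'.2).2
        exact (congrFun h1 z).trans (congrFun h2 z).symm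
      · obtain ⟨p, hp, rfl⟩ := Finset.mem_image.mp (Finset.mem_coe.mp hy)
        obtain ⟨-, hp1, hp2⟩ := Finset.mem_filter.mp hp
        exact hall ⟨p, hp1, hp2⟩
  have hle := linearIndependent_le_span' _ hli
    (Set.range fun i : Fin r => fun n : ℕ => (m i n : ℂ)) (by
      rintro _ ⟨φ, rfl⟩
      exact int_conj_mem_span x m ham (τ φ.1))
  rw [Cardinal.mk_coe_finset] at hle
  have h2 : Fintype.card (Set.range fun i : Fin r => fun n : ℕ => (m i n : ℂ)) ≤ r := by
    simpa using Fintype.card_range_le (fun i : Fin r => fun n : ℕ => (m i n : ℂ))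
  exact (Nat.cast_le.mp hle).trans h2

/-- **INT, part 2**: the `a_p`, `p ∤ N`, lie in a number field. -/
theorem int_exists_field (hH : HeckeRel N ε a) {r : ℕ} (x : Fin r → ℂ) (m : Fin r → ℕ → ℤ)
    (ham : ∀ n, a n = ∑ i, x i * (m i n : ℂ))
    (hint : ∀ p : ℕ, p.Prime → ¬ p ∣ N → IsIntegral ℤ (a p)) :
    ∃ K : IntermediateField ℚ ℂ, FiniteDimensional ℚ K ∧
      ∀ p : ℕ, p.Prime → ¬ p ∣ N → a p ∈ K := by
  classical
  set B := r * (Fintype.piFinset fun _ : ZMod N => intVals N).card with hB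
  let P : ℕ → Prop := fun k => ∃ T : Finset ℕ, Module.finrank ℚ (intField N ε a T) = k
  have hP0 : P (Module.finrank ℚ (intField N ε a ∅)) := ⟨∅, rfl⟩
  have hle0 : Module.finrank ℚ (intField N ε a ∅) ≤ B := int_finrank_le hH x m ham hint ∅
  obtain ⟨T₀, hT₀⟩ := Nat.findGreatest_spec (P := P) hle0 hP0
  have hmax : ∀ T, Module.finrank ℚ (intField N ε a T) ≤ Nat.findGreatest P B := fun T =>
    Nat.le_findGreatest (int_finrank_le hH x m ham hint T) ⟨T, rfl⟩
  refine ⟨intField N ε a T₀, int_field_finiteDimensional hint T₀, fun p hp hpN => ?_⟩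
  have hmono : intField N ε a T₀ ≤ intField N ε a (insert p T₀) :=
    int_field_mono (Finset.subset_insert _ _)
  have := int_field_finiteDimensional (ε := ε) hint (insert p T₀)
  have heq : intField N ε a T₀ = intField N ε a (insert p T₀) :=
    IntermediateField.eq_of_le_of_finrank_le hmono (by rw [hT₀]; exact hmax _)
  rw [heq]
  exact int_coeff_mem (Finset.mem_insert_self _ _) hp hpN

end Bound

end Fermat.Agent.S48Int
end
end MergeWrap_S48_Int_Field

section MergeWrap_S48_Integral -- from S48/Integral.lean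

set_option autoImplicit false

namespace Fermat.Agent.S48

open CongruenceSubgroup

/-- **INT**: integrality of the eigenvalues, and the number field. -/
theorem integralStatement_of (hIS : IntStructStatement) : IntegralStatement := by
  intro N _ ε f hH
  obtain ⟨r, x, m, ham⟩ := Fermat.Agent.S48Int.int_exists_decomp hIS N f
  have hint : ∀ p : ℕ, p.Prime → ¬ p ∣ N → IsIntegral ℤ (ModularFormClass.qCoeff (⇑f) p) :=
    fun p hp hpN => Fermat.Agent.S48Int.int_isIntegral N ε _ hH x m ham hp hpN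
  exact ⟨hint, Fermat.Agent.S48Int.int_exists_field hH x m ham hint⟩

end Fermat.Agent.S48
end MergeWrap_S48_Integral
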