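import Mathlib
import Fermat.Prelude.Def_FLTPrelim_Modularity
import Fermat.Agent.MUL.S24.Assembly
import Fermat.Agent.MUL.Orig.S48.Neb.Key
import Fermat.Agent.MUL.S48.Neb.Main
import Fermat.Agent.MUL.Orig.S48.Defs
import Fermat.Agent.MUL.Orig.S48.Conj
import Fermat.Agent.MUL.Orig.S48.AlgCore
import Fermat.Agent.MUL.S48.Final
import Fermat.Agent.MUL.S48.Integral
import Fermat.Agent.MUL.S48.G1.Main
import Fermat.Agent.MUL.S48.Cheb.Main
import Fermat.Agent.MUL.S48.W.R.AsmAt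
import Fermat.Agent.MUL.S48.W.P.Main
import Fermat.Agent.MUL.S48.Eis1.Final
import Fermat.Agent.MUL.S48.W.H.GaloisComm
import Fermat.Agent.MUL.S48.G1.ThetaDone
import Fermat.Agent.MUL.S48.W.Final
import Fermat.Agent.MUL.S48.W.A.Top
import Fermat.Agent.MUL.S48.W.A.Final
import Fermat.Agent.MUL.S48.W.G.Kron.Final
import Fermat.Agent.MUL.S48.W.G.Red.Igusa.LeafDefs
import Fermat.Agent.MUL.S48.W.G.Red.Igusa.DatDefs
import Fermat.Agent.MUL.S48.W.G.Red.Int
import Fermat.Agent.MUL.S48.W.G.Red.Igusa.AbsRed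
import Fermat.Agent.MUL.S48.W.G.Red.Igusa.AbsCore
import Fermat.Agent.MUL.S48.W.G.Red.Igusa.J0
import Fermat.Agent.MUL.S48.W.A1.Final
import Fermat.Agent.MUL.S48.W.G.Red.Igusa.FExp
import Fermat.Agent.MUL.S48.W.A1.XExp
import Fermat.Agent.MUL.S48.W.A1.Wire
import Fermat.Agent.MUL.S48.W.G.Red.Fund
import Fermat.Agent.MUL.S48.W.G.Red.Model
import Fermat.Agent.MUL.S48.W.G.Red.Res
import Fermat.Agent.MUL.Orig.S48.W.G.Kron.EmbAbs
import Fermat.Agent.MUL.S48.W.G.Kron.FrickeAmb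
import Fermat.Agent.MUL.S24.GensExp
import Fermat.Agent.MUL.Orig.S24.GaloisDatum
import Fermat.Agent.MUL.S24.EmbFStab
import Fermat.Agent.MUL.S48.W.G.Red.Igusa.ClusterB
import Fermat.Agent.MUL.S48.W.G.Red.Asm5
import Fermat.Agent.MUL.S48.W.G.Red.Branch.EmbA
import Fermat.Agent.MUL.S48.W.A.Dict.D3Final
import Fermat.Agent.MUL.S36.Ig.EpsGen
import Fermat.Agent.MUL.S24.ValInf
import Fermat.Agent.MUL.S24.Periods
import Fermat.Agent.MUL.S48.W.G.Red.Branch.Count
import Fermat.Agent.MUL.S24.Comb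
import Fermat.Agent.MUL.S48.W.G.Red.Igusa.DistF
import Fermat.Agent.MUL.S48.W.G.P23.Final

section MergeWrap_F3_Dict_ValSmul -- from F3/Dict/ValSmul.lean

set_option autoImplicit false

noncomputable section

namespace Fermat.Agent.F3Places

open UpperHalfPlane Fermat.Agent.S24
open scoped MatrixGroups Manifold Topology

/-- one inequality: `ord_{γ⁻¹ τ₀} f ≤ ord_{τ₀} (γ • f)`. -/
theorem ordAt_inv_smul_le_ordAt_smul {f : Fun} (hf : IsHol f) (γ : SL(2, ℤ)) (τ₀ : ℍ) :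
    ordAt (γ⁻¹ • τ₀) f ≤ ordAt τ₀ (γ • f) := by
  set m : ℂ → ℂ := fun z => ((γ⁻¹ • ofComplex z : ℍ) : ℂ) with hm
  have hm0 : m (τ₀ : ℂ) = ((γ⁻¹ • τ₀ : ℍ) : ℂ) := by
    simp only [hm, ofComplex_apply]
  have hma : AnalyticAt ℂ m (τ₀ : ℂ) := (isHol_coe_sl_smul γ⁻¹).analyticAt τ₀
  have hcomp : (fun z : ℂ => (γ • f) (ofComplex z)) = (fun z : ℂ => f (ofComplex z)) ∘ m := by
    funext z
    simp only [Function.comp_apply, hm, ofComplex_apply, Fun.sl_smul_apply]
  have hfa : AnalyticAt ℂ (fun z : ℂ => f (ofComplex z)) (m (τ₀ : ℂ)) := by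
    rw [hm0]; exact hf.analyticAt (γ⁻¹ • τ₀)
  have key := hfa.analyticOrderAt_comp hma
  rw [hm0] at key
  have hk : 1 ≤ analyticOrderAt (fun z => m z - ((γ⁻¹ • τ₀ : ℍ) : ℂ)) (τ₀ : ℂ) := by
    rw [Order.one_le_iff_ne_zero]
    have ha : AnalyticAt ℂ (fun z => m z - ((γ⁻¹ • τ₀ : ℍ) : ℂ)) (τ₀ : ℂ) :=
      hma.sub analyticAt_const
    rw [ha.analyticOrderAt_ne_zero, hm0, sub_self]
  rw [ordAt, ordAt, hcomp, key]
  exact le_mul_of_one_le_right zero_le hk

/-- `ord_{τ₀} (γ • f) = ord_{γ⁻¹ τ₀} f` for holomorphic `f`. -/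
theorem ordAt_smul_eq {f : Fun} (hf : IsHol f) (γ : SL(2, ℤ)) (τ₀ : ℍ) :
    ordAt τ₀ (γ • f) = ordAt (γ⁻¹ • τ₀) f := by
  refine le_antisymm ?_ (ordAt_inv_smul_le_ordAt_smul hf γ τ₀)
  have h := ordAt_inv_smul_le_ordAt_smul (hf.sl_smul γ) γ⁻¹ (γ⁻¹ • τ₀)
  rwa [inv_inv, smul_inv_smul, inv_smul_smul] at h

theorem valAL_smul_eq (M : ℕ) (γ : SL(2, ℤ)) (τ₀ : ℍ) (f : AL M) :
    valAL M τ₀ (γ • f) = valAL M (γ⁻¹ • τ₀) f := by
  rw [valAL_apply, valAL_apply, AL.coe_smul, ordAt_smul_eq (isHol_of_mem_AL f.2) γ τ₀]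

/-- **(C1)** the valuations `valLL M τ` are permuted by `SL(2,ℤ)`:
`valLL M τ (γ • x) = valLL M (γ⁻¹ • τ) x`. -/
theorem valLL_smul_eq (M : ℕ) (γ : SL(2, ℤ)) (τ₀ : ℍ) (x : LL M) :
    valLL M τ₀ (γ • x) = valLL M (γ⁻¹ • τ₀) x := by
  obtain ⟨a, b, hb, rfl⟩ := IsFractionRing.div_surjective (A := AL M) x
  rw [smul_div₀', LL.smul_algebraMap, LL.smul_algebraMap, map_div₀, map_div₀,
    valLL_algebraMap, valLL_algebraMap, valLL_algebraMap, valLL_algebraMap,
    valAL_smul_eq M γ τ₀, valAL_smul_eq M γ τ₀]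

/-- variant: `valLL M (γ • τ) x = valLL M τ (γ⁻¹ • x)`. -/
theorem valLL_smul_point (M : ℕ) (γ : SL(2, ℤ)) (τ₀ : ℍ) (x : LL M) :
    valLL M (γ • τ₀) x = valLL M τ₀ (γ⁻¹ • x) := by
  rw [valLL_smul_eq, inv_inv]

end Fermat.Agent.F3Places
end
end MergeWrap_F3_Dict_ValSmul

section MergeWrap_S48_Neb_Final -- from S48/Neb/Final.lean

/-!
# S48 (P1) nebentypus: `nebStatement : NebStatement`

Assembly of `Neb/Key.lean` (helper6: steps 1-2, the key identity) and `Neb/Main.lean`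
(helper10: steps 3-4, decay and Dirichlet).
-/

set_option autoImplicit false

namespace Fermat.Agent.S48

theorem neb_keyProp : Fermat.Agent.S48.Neb.KeyProp := by
  intro N _ ε g a h p hp hpN σ σ' hσ hσp hσ' hσ'p
  exact neb_key hp hpN (neb_inv_coe g) (neb_star ε g a h hp hpN) hσ hσp hσ' hσ'p

/-- **(P1) Nebentypus**, unconditional. -/
theorem nebStatement : NebStatement :=
  Fermat.Agent.S48.Neb.neb_of_key neb_keyProp

end Fermat.Agent.S48
end MergeWrap_S48_Neb_Final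

section MergeWrap_S48_Alg -- from S48/Alg.lean

set_option autoImplicit false

noncomputable section

namespace Fermat.Agent.S48

open CongruenceSubgroup ModularFormClass UpperHalfPlane
open scoped BigOperators

/-- the `q`-expansion principle on `S₁(Γ₁(N))`. -/
theorem eq_zero_of_qCoeff_g1 {N : ℕ} (f : CuspForm (Gamma1 N) 1)
    (h : ∀ n, qCoeff (⇑f) n = 0) : f = 0 := by
  have hq : qExpansion 1 (⇑f) = 0 := by
    ext n
    rw [map_zero]
    exact h n
  have hcusp : Fact (IsCusp OnePoint.infty (Gamma1 N : Subgroup (GL (Fin 2) ℝ))) :=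
    ⟨Subgroup.isCusp_of_mem_strictPeriods one_pos (one_mem_strictPeriods_Gamma1_conj N)⟩
  have := (qExpansion_eq_zero_iff (h := 1) one_pos
    (SlashInvariantFormClass.periodic_comp_ofComplex f (one_mem_strictPeriods_Gamma1_conj N))
    (ModularFormClass.holo f) (ModularFormClass.bdd_at_infty f)).mp hq
  exact DFunLike.coe_injective this

/-- the values of a Dirichlet character are algebraic. -/
theorem isIntegral_dirichlet_value {N : ℕ} [NeZero N] (ε : DirichletCharacter ℂ N)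
    (a : ZMod N) : IsIntegral ℚ (ε a) := by
  by_cases ha : IsUnit a
  · obtain ⟨u, rfl⟩ := ha
    have h1 : (ε (u : ZMod N)) ^ (Nat.totient N) = 1 := by
      rw [← map_pow, ← Units.val_pow_eq_pow_val, ZMod.pow_totient, Units.val_one, map_one]
    have hpos : 0 < Nat.totient N := Nat.totient_pos.mpr (NeZero.pos N)
    exact IsIntegral.of_pow hpos (h1 ▸ isIntegral_one)
  · rw [MulChar.map_nonunit ε ha]
    exact isIntegral_zero

/-- **ALG**: the algebraic eigenvector, from the integral structure and the number field of the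
eigenvalues. -/
theorem alg_of (h1 : IntStructStatement) (h2 : IntegralStatement) : AlgStatement := by
  classical
  intro N _ ε f hf
  obtain ⟨-, K₀, hK₀, haK₀⟩ := h2 N ε f hf
  -- the number field `K`
  haveI : Finite (Set.range ε) := (Set.finite_range ε).to_subtype
  haveI hK₁ : FiniteDimensional ℚ (IntermediateField.adjoin ℚ (Set.range ε)) :=
    IntermediateField.finiteDimensional_adjoin fun x hx => by
      obtain ⟨a, rfl⟩ := hx
      exact isIntegral_dirichlet_value ε a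
  obtain ⟨K, hKfd, hK₀K, hεK⟩ : ∃ K : IntermediateField ℚ ℂ, FiniteDimensional ℚ K ∧
      K₀ ≤ K ∧ ∀ a : ZMod N, ε a ∈ K :=
    ⟨K₀ ⊔ IntermediateField.adjoin ℚ (Set.range ε), IntermediateField.finiteDimensional_sup K₀ _,
      le_sup_left, fun a => (le_sup_right : _ ≤ K₀ ⊔ IntermediateField.adjoin ℚ (Set.range ε))
        (IntermediateField.subset_adjoin ℚ _ ⟨a, rfl⟩)⟩
  have haK : ∀ p : ℕ, p.Prime → ¬ p ∣ N → qCoeff (⇑f) p ∈ K := fun p hp hpN =>
    hK₀K (haK₀ p hp hpN)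
  -- a finite linearly independent family of integral forms spanning `f`
  obtain ⟨T, hTS, hfT⟩ := Submodule.mem_span_finite_of_mem_span (h1 N f)
  obtain ⟨b, hbT, hbspan, hbli⟩ := exists_linearIndependent ℂ (T : Set (CuspForm (Gamma1 N) 1))
  have hbfin : b.Finite := T.finite_toSet.subset hbT
  haveI : Fintype b := hbfin.fintype
  have hfb : f ∈ Submodule.span ℂ (Set.range ((↑) : b → CuspForm (Gamma1 N) 1)) := by
    rw [Subtype.range_coe, hbspan]
    exact hfT
  obtain ⟨x, hx⟩ := (Submodule.mem_span_range_iff_exists_fun ℂ).mp hfb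
  have hint : ∀ (i : b) (n : ℕ), ∃ m : ℤ,
      qCoeff (⇑(i : CuspForm (Gamma1 N) 1)) n = (m : ℂ) := fun i n => hTS (hbT i.2) n
  choose c hc using hint
  have hqsum : ∀ (w : b → ℂ) (n : ℕ),
      qCoeff (⇑(∑ i, w i • (i : CuspForm (Gamma1 N) 1))) n = ∑ i, w i * (c i n : ℂ) := by
    intro w n
    have h := map_sum (qCoeffLin N n) (fun i : b => w i • (i : CuspForm (Gamma1 N) 1))
      Finset.univ
    rw [qCoeffLin_apply] at h
    rw [h]
    refine Finset.sum_congr rfl fun i _ => ?_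
    rw [map_smul, qCoeffLin_apply, smul_eq_mul, hc]
  have hfa : ∀ n : ℕ, qCoeff (⇑f) n = ∑ i, x i * (c i n : ℂ) := by
    intro n
    rw [← hx]
    exact hqsum x n
  -- `x ≠ 0`
  have hx0 : x ≠ 0 := by
    intro h0
    have h1' := hf.1
    simp only at h1'
    rw [hfa 1, h0] at h1'
    simp at h1'
  -- the linear system
  set r : ℕ × ℕ → b → K := fun j i =>
    if h : j.1.Prime ∧ ¬ j.1 ∣ N then
      ((c i (j.1 * j.2) : ℤ) : K)
        + (⟨ε (j.1 : ZMod N), hεK _⟩ : K) * (if j.1 ∣ j.2 then ((c i (j.2 / j.1) : ℤ) : K) else 0)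
        - (⟨qCoeff (⇑f) j.1, haK j.1 h.1 h.2⟩ : K) * ((c i j.2 : ℤ) : K)
    else 0 with hr
  have hrgood : ∀ (p n : ℕ) (hp : p.Prime) (hpN : ¬ p ∣ N) (i : b),
      ((r (p, n) i : K) : ℂ) = (c i (p * n) : ℂ)
        + ε (p : ZMod N) * (if p ∣ n then (c i (n / p) : ℂ) else 0)
        - qCoeff (⇑f) p * (c i n : ℂ) := by
    intro p n hp hpN i
    have h : (p, n).1.Prime ∧ ¬ (p, n).1 ∣ N := ⟨hp, hpN⟩
    simp only [hr, dif_pos h]
    by_cases hpn : p ∣ n
    · simp only [if_pos hpn]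
      push_cast
      rfl
    · simp only [if_neg hpn]
      push_cast
      rfl
  have hrsum : ∀ (v : b → ℂ) (p n : ℕ), p.Prime → ¬ p ∣ N →
      ∑ i, ((r (p, n) i : K) : ℂ) * v i
        = (∑ i, v i * (c i (p * n) : ℂ))
          + ε (p : ZMod N) * (if p ∣ n then ∑ i, v i * (c i (n / p) : ℂ) else 0)
          - qCoeff (⇑f) p * ∑ i, v i * (c i n : ℂ) := by
    intro v p n hp hpN
    by_cases hpn : p ∣ n
    · simp only [if_pos hpn, Finset.mul_sum]
      rw [← Finset.sum_add_distrib, ← Finset.sum_sub_distrib]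
      refine Finset.sum_congr rfl fun i _ => ?_
      rw [hrgood p n hp hpN i, if_pos hpn]
      ring
    · simp only [if_neg hpn, Finset.mul_sum, mul_zero, add_zero]
      rw [← Finset.sum_sub_distrib]
      refine Finset.sum_congr rfl fun i _ => ?_
      rw [hrgood p n hp hpN i, if_neg hpn]
      ring
  have hsol : ∀ j, ∑ i, ((r j i : K) : ℂ) * x i = 0 := by
    rintro ⟨p, n⟩
    by_cases h : p.Prime ∧ ¬ p ∣ N
    · have hrel := hf.2 p h.1 h.2 n
      simp only at hrel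
      rw [hrsum x p n h.1 h.2, ← hfa (p * n), ← hfa n]
      by_cases hpn : p ∣ n
      · rw [if_pos hpn, ← hfa (n / p)]
        rw [if_pos hpn] at hrel
        rw [hrel, sub_self]
      · rw [if_neg hpn]
        rw [if_neg hpn] at hrel
        rw [hrel, sub_self]
    · refine Finset.sum_eq_zero fun i _ => ?_
      have : r (p, n) i = 0 := by
        simp only [hr]
        rw [dif_neg h]
      rw [this, IntermediateField.coe_zero, zero_mul]
  obtain ⟨y, hy0, hy⟩ := exists_rational_solution K r x hx0 hsol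
  -- a common denominator
  haveI : Algebra.IsAlgebraic ℤ ℚ := IsLocalization.isAlgebraic ℚ (nonZeroDivisors ℤ)
  haveI : Algebra.IsAlgebraic ℚ K := Algebra.IsAlgebraic.of_finite ℚ K
  haveI : Algebra.IsAlgebraic ℤ K := Algebra.IsAlgebraic.trans ℤ ℚ K
  obtain ⟨d, hd0, hdint⟩ := Algebra.IsAlgebraic.exists_integral_multiples ℤ
    (Finset.univ.image y)
  have hdy : ∀ i : b, IsIntegral ℤ (((d • y i : K) : K) : ℂ) := by
    intro i
    have h := hdint (y i) (Finset.mem_image_of_mem y (Finset.mem_univ i))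
    exact h.map (IsScalarTower.toAlgHom ℤ K ℂ)
  set w : b → ℂ := fun i => ((d • y i : K) : ℂ) with hw
  have hcint : ∀ n : ℕ, IsIntegral ℤ (∑ i, w i * (c i n : ℂ)) := fun n =>
    IsIntegral.sum _ fun i _ => (hdy i).mul isIntegral_algebraMap
  have hwK : ∀ n : ℕ, (∑ i, w i * (c i n : ℂ)) ∈ K := fun n =>
    sum_mem fun i _ => mul_mem (d • y i : K).2 (intCast_mem K _)
  have hw0 : w ≠ 0 := by
    intro h0
    apply hy0
    funext i
    have hi : w i = 0 := congrFun h0 i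
    have hi' : (d • y i : K) = 0 := by
      apply Subtype.ext
      exact hi
    rcases smul_eq_zero.mp hi' with h | h
    · exact absurd h hd0
    · exact h
  refine ⟨∑ i, w i • (i : CuspForm (Gamma1 N) 1),
    fun n => ⟨∑ i, w i * (c i n : ℂ), hcint n⟩, fun n => (hqsum w n).symm, ?_, ⟨K, hKfd, hwK⟩, ?_⟩
  · -- nonzero
    by_contra hall
    push Not at hall
    have hg0 : ∑ i, w i • (i : CuspForm (Gamma1 N) 1) = 0 := by
      apply eq_zero_of_qCoeff_g1
      intro n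
      rw [hqsum w n]
      exact congrArg Subtype.val (hall n)
    have := Fintype.linearIndependent_iff.mp hbli w hg0
    exact hw0 (funext this)
  · -- the Hecke relations
    intro p hp hpN n
    have hyj := hy (p, n)
    have hyC : ∑ i, ((r (p, n) i : K) : ℂ) * w i = 0 := by
      have h := congrArg (fun z : K => ((d • z : K) : ℂ)) hyj
      simp only [smul_zero, IntermediateField.coe_zero] at h
      rw [← h, Finset.smul_sum]
      push_cast
      refine Finset.sum_congr rfl fun i _ => ?_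
      simp only [hw, zsmul_eq_mul]
      push_cast
      ring
    show (∑ i, w i * (c i (p * n) : ℂ)) + ε (p : ZMod N) *
        (if p ∣ n then (∑ i, w i * (c i (n / p) : ℂ)) else 0)
      = qCoeff (⇑f) p * ∑ i, w i * (c i n : ℂ)
    have e2 := hrsum w p n hp hpN
    rw [hyC] at e2
    exact sub_eq_zero.mp e2.symm

end Fermat.Agent.S48
end
end MergeWrap_S48_Alg

section MergeWrap_S48_Wire -- from S48/Wire.lean

/-!
# S48 (Deligne–Serre): the statement from the three leaves which are still open (helper22)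

`dsResult_of_three ℓ₀ : S48W.WallStatementFrom ℓ₀ → S48G1.ThetaStatement → ChebotarevStatement →
[statement of S48]`.

* `S48W.WallStatementFrom ℓ₀`: the wall (mod-`ℓ` representations, helper93);
* `S48G1.ThetaStatement`: the primitive elements of `Γ₁(N)` (THETA1, helper92 + helper1);
* `ChebotarevStatement`: P5 (helper8).
-/

set_option autoImplicit false

open CongruenceSubgroup

namespace Fermat.Agent.S48

local notation "Γℚ" => (AlgebraicClosure ℚ ≃ₐ[ℚ] AlgebraicClosure ℚ)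

/-- The statement of S48 from the wall, the primitive elements and Chebotarev. -/
theorem dsResult_of_three (ℓ₀ : ℕ) (hW : Fermat.Agent.S48W.WallStatementFrom ℓ₀)
    (hθ : Fermat.Agent.S48G1.ThetaStatement) (hP5 : ChebotarevStatement)
    (N : ℕ) [NeZero N] (ε : DirichletCharacter ℂ N) (f : CuspForm (Gamma1 N) 1)
    (hf₁ : ModularFormClass.qCoeff f 1 = 1)
    (hT : ∀ p : ℕ, p.Prime → ¬ p ∣ N → ∀ n : ℕ,
        ModularFormClass.qCoeff f (p * n) +
            ε (p : ZMod N) * (if p ∣ n then ModularFormClass.qCoeff f (n / p) else 0) =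
          ModularFormClass.qCoeff f p * ModularFormClass.qCoeff f n) :
    ∃ ρ : Γℚ →* GL (Fin 2) ℂ, GaloisFactorsThroughFiniteLevel ρ ∧
      (Deformation.matrixRepresentation ρ).IsIrreducible ∧
      ∀ p : ℕ, p.Prime → ¬ p ∣ N →
        ∀ A : ValuationSubring (AlgebraicClosure ℚ), A.LiesOverPrime p →
          (∀ σ ∈ A.inertiaSubgroupIn ℚ, ρ σ = 1) ∧
          ∀ σ : Γℚ, A.IsFrobeniusAt σ p →
            ((ρ σ : GL (Fin 2) ℂ) : Matrix (Fin 2) (Fin 2) ℂ).trace = ModularFormClass.qCoeff f p ∧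
            ((ρ σ : GL (Fin 2) ℂ) : Matrix (Fin 2) (Fin 2) ℂ).det = ε (p : ZMod N) :=
  have hIS : IntStructStatement := Fermat.Agent.S48G1.intStruct_of_theta hθ
  have hInt : IntegralStatement := integralStatement_of hIS
  dsResult_of_leaves ℓ₀ hW nebStatement hIS hInt (alg_of hIS hInt) hP5 N ε f hf₁ hT

end Fermat.Agent.S48
end MergeWrap_S48_Wire

section MergeWrap_S48_Wire2 -- from S48/Wire2.lean

/-!
# S48 (Deligne–Serre): the statement from the two leaves which are still open (helper22)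

`dsResult_of_two ℓ₀ : S48W.WallStatementFrom ℓ₀ → S48G1.ThetaStatement → [statement of S48]`.
-/

set_option autoImplicit false

open CongruenceSubgroup

namespace Fermat.Agent.S48

local notation "Γℚ" => (AlgebraicClosure ℚ ≃ₐ[ℚ] AlgebraicClosure ℚ)

/-- The statement of S48 from the wall and the primitive elements. -/
theorem dsResult_of_two (ℓ₀ : ℕ) (hW : Fermat.Agent.S48W.WallStatementFrom ℓ₀)
    (hθ : Fermat.Agent.S48G1.ThetaStatement)
    (N : ℕ) [NeZero N] (ε : DirichletCharacter ℂ N) (f : CuspForm (Gamma1 N) 1)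
    (hf₁ : ModularFormClass.qCoeff f 1 = 1)
    (hT : ∀ p : ℕ, p.Prime → ¬ p ∣ N → ∀ n : ℕ,
        ModularFormClass.qCoeff f (p * n) +
            ε (p : ZMod N) * (if p ∣ n then ModularFormClass.qCoeff f (n / p) else 0) =
          ModularFormClass.qCoeff f p * ModularFormClass.qCoeff f n) :
    ∃ ρ : Γℚ →* GL (Fin 2) ℂ, GaloisFactorsThroughFiniteLevel ρ ∧
      (Deformation.matrixRepresentation ρ).IsIrreducible ∧
      ∀ p : ℕ, p.Prime → ¬ p ∣ N →
        ∀ A : ValuationSubring (AlgebraicClosure ℚ), A.LiesOverPrime p →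
          (∀ σ ∈ A.inertiaSubgroupIn ℚ, ρ σ = 1) ∧
          ∀ σ : Γℚ, A.IsFrobeniusAt σ p →
            ((ρ σ : GL (Fin 2) ℂ) : Matrix (Fin 2) (Fin 2) ℂ).trace = ModularFormClass.qCoeff f p ∧
            ((ρ σ : GL (Fin 2) ℂ) : Matrix (Fin 2) (Fin 2) ℂ).det = ε (p : ZMod N) :=
  dsResult_of_three ℓ₀ hW hθ Fermat.Agent.S48Cheb.chebotarevStatement N ε f hf₁ hT

end Fermat.Agent.S48
end MergeWrap_S48_Wire2

section MergeWrap_S48_W_Top -- from S48/W/Top.lean

set_option autoImplicit false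

noncomputable section

namespace Fermat.Agent.S48W

/-- **Block P**. -/
theorem productEigen_top : ProductEigen :=
  productEigen_of_eis1 Fermat.Agent.S48.Eis1.eis1Statement

/-- **Block P** (form `ProductEigenStatement`). -/
theorem productEigenStatement_top : ProductEigenStatement :=
  productEigenStatement_of_eis1 Fermat.Agent.S48.Eis1.eis1Statement

/-- **the wall from blocks G and A**: `WallStatementFrom ℓ₀` from the interface propositions
IF-G1, IF-G2 (good reduction) and IF-A (eigen-class) at the pairs `(M, ℓ)` with `ℓ` prime,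
`ℓ₀ ≤ ℓ`, `ℓ ∣ M`. -/
theorem wallStatementFrom_top (ℓ₀ : ℕ)
    (hU : ∀ (M : ℕ) [NeZero M] (ℓ : ℕ), ℓ.Prime → ℓ₀ ≤ ℓ → ℓ ∣ M → TorsionUnramifiedOneAt M ℓ)
    (hQ : ∀ (M : ℕ) [NeZero M] (ℓ : ℕ), ℓ.Prime → ℓ₀ ≤ ℓ → ℓ ∣ M → TorsionFrobQuadraticOneAt M ℓ)
    (hE : ∀ (M : ℕ) [NeZero M] (ℓ : ℕ), ℓ.Prime → ℓ₀ ≤ ℓ → ℓ ∣ M → EigenclassOneAt M ℓ) :
    WallStatementFrom ℓ₀ :=
  wallStatementFrom_of_at ℓ₀ productEigen_top hU hQ (fun M _ _ => Fermat.Agent.S48WH.heckeGaloisCommOne (M := M)) hE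

end Fermat.Agent.S48W
end
end MergeWrap_S48_W_Top

section MergeWrap_S48_Wire3 -- from S48/Wire3.lean

/-!
# S48 (Deligne–Serre): the statement from the wall alone (helper22)

All leaves of the Deligne–Serre side are proved; what is left is the wall (W), and inside the
wall the interface propositions of blocks G (good reduction) and A (eigen-classes):

* `dsResult_of_wall ℓ₀ : S48W.WallStatementFrom ℓ₀ → [statement of S48]`;
* `dsResult_of_GA ℓ₀ : (IF-G1 at (M, ℓ)) → (IF-G2 at (M, ℓ)) → (IF-A at (M, ℓ)) → [statement of S48]`.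
-/

set_option autoImplicit false

open CongruenceSubgroup

namespace Fermat.Agent.S48

local notation "Γℚ" => (AlgebraicClosure ℚ ≃ₐ[ℚ] AlgebraicClosure ℚ)

/-- The statement of S48 from the wall. -/
theorem dsResult_of_wall (ℓ₀ : ℕ) (hW : Fermat.Agent.S48W.WallStatementFrom ℓ₀)
    (N : ℕ) [NeZero N] (ε : DirichletCharacter ℂ N) (f : CuspForm (Gamma1 N) 1)
    (hf₁ : ModularFormClass.qCoeff f 1 = 1)
    (hT : ∀ p : ℕ, p.Prime → ¬ p ∣ N → ∀ n : ℕ,
        ModularFormClass.qCoeff f (p * n) +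
            ε (p : ZMod N) * (if p ∣ n then ModularFormClass.qCoeff f (n / p) else 0) =
          ModularFormClass.qCoeff f p * ModularFormClass.qCoeff f n) :
    ∃ ρ : Γℚ →* GL (Fin 2) ℂ, GaloisFactorsThroughFiniteLevel ρ ∧
      (Deformation.matrixRepresentation ρ).IsIrreducible ∧
      ∀ p : ℕ, p.Prime → ¬ p ∣ N →
        ∀ A : ValuationSubring (AlgebraicClosure ℚ), A.LiesOverPrime p →
          (∀ σ ∈ A.inertiaSubgroupIn ℚ, ρ σ = 1) ∧
          ∀ σ : Γℚ, A.IsFrobeniusAt σ p →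
            ((ρ σ : GL (Fin 2) ℂ) : Matrix (Fin 2) (Fin 2) ℂ).trace = ModularFormClass.qCoeff f p ∧
            ((ρ σ : GL (Fin 2) ℂ) : Matrix (Fin 2) (Fin 2) ℂ).det = ε (p : ZMod N) :=
  dsResult_of_two ℓ₀ hW Fermat.Agent.S48G1.ThetaQ.thetaStatement_proved N ε f hf₁ hT

/-- The statement of S48 from the interface propositions of blocks G and A of the wall. -/
theorem dsResult_of_GA (ℓ₀ : ℕ)
    (hU : ∀ (M : ℕ) [NeZero M] (ℓ : ℕ), ℓ.Prime → ℓ₀ ≤ ℓ → ℓ ∣ M →
      Fermat.Agent.S48W.TorsionUnramifiedOneAt M ℓ)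
    (hQ : ∀ (M : ℕ) [NeZero M] (ℓ : ℕ), ℓ.Prime → ℓ₀ ≤ ℓ → ℓ ∣ M →
      Fermat.Agent.S48W.TorsionFrobQuadraticOneAt M ℓ)
    (hE : ∀ (M : ℕ) [NeZero M] (ℓ : ℕ), ℓ.Prime → ℓ₀ ≤ ℓ → ℓ ∣ M →
      Fermat.Agent.S48W.EigenclassOneAt M ℓ)
    (N : ℕ) [NeZero N] (ε : DirichletCharacter ℂ N) (f : CuspForm (Gamma1 N) 1)
    (hf₁ : ModularFormClass.qCoeff f 1 = 1)
    (hT : ∀ p : ℕ, p.Prime → ¬ p ∣ N → ∀ n : ℕ,
        ModularFormClass.qCoeff f (p * n) +
            ε (p : ZMod N) * (if p ∣ n then ModularFormClass.qCoeff f (n / p) else 0) =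
          ModularFormClass.qCoeff f p * ModularFormClass.qCoeff f n) :
    ∃ ρ : Γℚ →* GL (Fin 2) ℂ, GaloisFactorsThroughFiniteLevel ρ ∧
      (Deformation.matrixRepresentation ρ).IsIrreducible ∧
      ∀ p : ℕ, p.Prime → ¬ p ∣ N →
        ∀ A : ValuationSubring (AlgebraicClosure ℚ), A.LiesOverPrime p →
          (∀ σ ∈ A.inertiaSubgroupIn ℚ, ρ σ = 1) ∧
          ∀ σ : Γℚ, A.IsFrobeniusAt σ p →
            ((ρ σ : GL (Fin 2) ℂ) : Matrix (Fin 2) (Fin 2) ℂ).trace = ModularFormClass.qCoeff f p ∧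
            ((ρ σ : GL (Fin 2) ℂ) : Matrix (Fin 2) (Fin 2) ℂ).det = ε (p : ZMod N) :=
  dsResult_of_wall ℓ₀ (Fermat.Agent.S48W.wallStatementFrom_top ℓ₀ hU hQ hE) N ε f hf₁ hT

end Fermat.Agent.S48
end MergeWrap_S48_Wire3

section MergeWrap_S48_Wire4 -- from S48/Wire4.lean

/-!
# S48 (Deligne–Serre): the FRONTIER (helper22)

The statement of S48 from the propositions of the wall (W) which are still open, on top of
helper93's `S48WFinal.wallStatementFrom_of_leaves`: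

* `dsResult_of_leavesW` : from `IgusaOneStatement`, `GoodRedOne M` and `NormProductOne M` at the
  levels `M` with `4 ∣ M` or `9 ∣ M`, and (IF-A) `EigenclassOneAt M ℓ`;
* `dsResult_of_blocks` : the same with (IF-A) in the form `EigenclassOne M` (`5 ≤ M`), which is
  the deliverable of block A (`S48WA.eigenclassOne_top'`).
-/

set_option autoImplicit false

open CongruenceSubgroup

namespace Fermat.Agent.S48

local notation "Γℚ" => (AlgebraicClosure ℚ ≃ₐ[ℚ] AlgebraicClosure ℚ)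

/-- The statement of S48 from the open leaves of the wall. -/
theorem dsResult_of_leavesW (hIg : Fermat.Agent.S48WG.IgusaOneStatement)
    (hGR : ∀ (M : ℕ) [NeZero M], (4 ∣ M ∨ 9 ∣ M) → Fermat.Agent.S48WG.GoodRedOne M)
    (hNP : ∀ (M : ℕ) [NeZero M], (4 ∣ M ∨ 9 ∣ M) → Fermat.Agent.S48WPort.NormProductOne M)
    (hE : ∀ (M : ℕ) [NeZero M] (ℓ : ℕ), ℓ.Prime → 5 ≤ ℓ → ℓ ∣ M →
      Fermat.Agent.S48W.EigenclassOneAt M ℓ)
    (N : ℕ) [NeZero N] (ε : DirichletCharacter ℂ N) (f : CuspForm (Gamma1 N) 1)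
    (hf₁ : ModularFormClass.qCoeff f 1 = 1)
    (hT : ∀ p : ℕ, p.Prime → ¬ p ∣ N → ∀ n : ℕ,
        ModularFormClass.qCoeff f (p * n) +
            ε (p : ZMod N) * (if p ∣ n then ModularFormClass.qCoeff f (n / p) else 0) =
          ModularFormClass.qCoeff f p * ModularFormClass.qCoeff f n) :
    ∃ ρ : Γℚ →* GL (Fin 2) ℂ, GaloisFactorsThroughFiniteLevel ρ ∧
      (Deformation.matrixRepresentation ρ).IsIrreducible ∧
      ∀ p : ℕ, p.Prime → ¬ p ∣ N →
        ∀ A : ValuationSubring (AlgebraicClosure ℚ), A.LiesOverPrime p →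
          (∀ σ ∈ A.inertiaSubgroupIn ℚ, ρ σ = 1) ∧
          ∀ σ : Γℚ, A.IsFrobeniusAt σ p →
            ((ρ σ : GL (Fin 2) ℂ) : Matrix (Fin 2) (Fin 2) ℂ).trace = ModularFormClass.qCoeff f p ∧
            ((ρ σ : GL (Fin 2) ℂ) : Matrix (Fin 2) (Fin 2) ℂ).det = ε (p : ZMod N) :=
  dsResult_of_wall 5 (Fermat.Agent.S48WFinal.wallStatementFrom_of_leaves hIg hGR hNP hE)
    N ε f hf₁ hT

/-- The statement of S48 from the deliverables of the blocks G and A of the wall. -/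
theorem dsResult_of_blocks (hIg : Fermat.Agent.S48WG.IgusaOneStatement)
    (hGR : ∀ (M : ℕ) [NeZero M], (4 ∣ M ∨ 9 ∣ M) → Fermat.Agent.S48WG.GoodRedOne M)
    (hNP : ∀ (M : ℕ) [NeZero M], (4 ∣ M ∨ 9 ∣ M) → Fermat.Agent.S48WPort.NormProductOne M)
    (hE : ∀ (M : ℕ) [NeZero M], 5 ≤ M → Fermat.Agent.S48W.EigenclassOne M)
    (N : ℕ) [NeZero N] (ε : DirichletCharacter ℂ N) (f : CuspForm (Gamma1 N) 1)
    (hf₁ : ModularFormClass.qCoeff f 1 = 1)
    (hT : ∀ p : ℕ, p.Prime → ¬ p ∣ N → ∀ n : ℕ,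
        ModularFormClass.qCoeff f (p * n) +
            ε (p : ZMod N) * (if p ∣ n then ModularFormClass.qCoeff f (n / p) else 0) =
          ModularFormClass.qCoeff f p * ModularFormClass.qCoeff f n) :
    ∃ ρ : Γℚ →* GL (Fin 2) ℂ, GaloisFactorsThroughFiniteLevel ρ ∧
      (Deformation.matrixRepresentation ρ).IsIrreducible ∧
      ∀ p : ℕ, p.Prime → ¬ p ∣ N →
        ∀ A : ValuationSubring (AlgebraicClosure ℚ), A.LiesOverPrime p →
          (∀ σ ∈ A.inertiaSubgroupIn ℚ, ρ σ = 1) ∧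
          ∀ σ : Γℚ, A.IsFrobeniusAt σ p →
            ((ρ σ : GL (Fin 2) ℂ) : Matrix (Fin 2) (Fin 2) ℂ).trace = ModularFormClass.qCoeff f p ∧
            ((ρ σ : GL (Fin 2) ℂ) : Matrix (Fin 2) (Fin 2) ℂ).det = ε (p : ZMod N) :=
  dsResult_of_leavesW hIg hGR hNP
    (fun M _ ℓ hℓ h1 h2 => Fermat.Agent.S48W.eigenclassOneAt_of
      (hE M (h1.trans (Nat.le_of_dvd (Nat.pos_of_ne_zero (NeZero.ne M)) h2))) hℓ)
    N ε f hf₁ hT

end Fermat.Agent.S48
end MergeWrap_S48_Wire4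

section MergeWrap_S48_Wire5 -- from S48/Wire5.lean

/-!
# S48 (Deligne–Serre): the frontier after block A (helper22)

`dsResult_of_d3` : the statement of S48 from
* `DictD3Primes M` (`5 ≤ M`): (D3) for the Hecke correspondences (block A2-D3), the only open input
  of block A (`S48WA.eigenclassOneAt_of_d3`);
* `IgusaOneStatement`, `GoodRedOne M`, `NormProductOne M` (levels with `4 ∣ M` or `9 ∣ M`): block G.

`dsResult_of_d3_goodRed` : the same with `NormProductOne` plugged in (`S48WKron.normProductOne`,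
helper37): the frontier is `DictD3Primes`, `IgusaOneStatement`, `GoodRedOne`.
-/

set_option autoImplicit false

open CongruenceSubgroup

namespace Fermat.Agent.S48

local notation "Γℚ" => (AlgebraicClosure ℚ ≃ₐ[ℚ] AlgebraicClosure ℚ)

/-- The statement of S48 from (D3) for the `T_p` and the deliverables of block G. -/
theorem dsResult_of_d3
    (hD3 : ∀ (M : ℕ) [NeZero M], 5 ≤ M → Fermat.Agent.S48WA.DictD3Primes M)
    (hIg : Fermat.Agent.S48WG.IgusaOneStatement)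
    (hGR : ∀ (M : ℕ) [NeZero M], (4 ∣ M ∨ 9 ∣ M) → Fermat.Agent.S48WG.GoodRedOne M)
    (hNP : ∀ (M : ℕ) [NeZero M], (4 ∣ M ∨ 9 ∣ M) → Fermat.Agent.S48WPort.NormProductOne M)
    (N : ℕ) [NeZero N] (ε : DirichletCharacter ℂ N) (f : CuspForm (Gamma1 N) 1)
    (hf₁ : ModularFormClass.qCoeff f 1 = 1)
    (hT : ∀ p : ℕ, p.Prime → ¬ p ∣ N → ∀ n : ℕ,
        ModularFormClass.qCoeff f (p * n) +
            ε (p : ZMod N) * (if p ∣ n then ModularFormClass.qCoeff f (n / p) else 0) =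
          ModularFormClass.qCoeff f p * ModularFormClass.qCoeff f n) :
    ∃ ρ : Γℚ →* GL (Fin 2) ℂ, GaloisFactorsThroughFiniteLevel ρ ∧
      (Deformation.matrixRepresentation ρ).IsIrreducible ∧
      ∀ p : ℕ, p.Prime → ¬ p ∣ N →
        ∀ A : ValuationSubring (AlgebraicClosure ℚ), A.LiesOverPrime p →
          (∀ σ ∈ A.inertiaSubgroupIn ℚ, ρ σ = 1) ∧
          ∀ σ : Γℚ, A.IsFrobeniusAt σ p →
            ((ρ σ : GL (Fin 2) ℂ) : Matrix (Fin 2) (Fin 2) ℂ).trace = ModularFormClass.qCoeff f p ∧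
            ((ρ σ : GL (Fin 2) ℂ) : Matrix (Fin 2) (Fin 2) ℂ).det = ε (p : ZMod N) :=
  dsResult_of_leavesW hIg hGR hNP (Fermat.Agent.S48WA.eigenclassOneAt_of_d3 hD3) N ε f hf₁ hT

/-- The statement of S48 from (D3) for the `T_p`, `IgusaOneStatement` and `GoodRedOne`. -/
theorem dsResult_of_d3_goodRed
    (hD3 : ∀ (M : ℕ) [NeZero M], 5 ≤ M → Fermat.Agent.S48WA.DictD3Primes M)
    (hIg : Fermat.Agent.S48WG.IgusaOneStatement)
    (hGR : ∀ (M : ℕ) [NeZero M], (4 ∣ M ∨ 9 ∣ M) → Fermat.Agent.S48WG.GoodRedOne M)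
    (N : ℕ) [NeZero N] (ε : DirichletCharacter ℂ N) (f : CuspForm (Gamma1 N) 1)
    (hf₁ : ModularFormClass.qCoeff f 1 = 1)
    (hT : ∀ p : ℕ, p.Prime → ¬ p ∣ N → ∀ n : ℕ,
        ModularFormClass.qCoeff f (p * n) +
            ε (p : ZMod N) * (if p ∣ n then ModularFormClass.qCoeff f (n / p) else 0) =
          ModularFormClass.qCoeff f p * ModularFormClass.qCoeff f n) :
    ∃ ρ : Γℚ →* GL (Fin 2) ℂ, GaloisFactorsThroughFiniteLevel ρ ∧
      (Deformation.matrixRepresentation ρ).IsIrreducible ∧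
      ∀ p : ℕ, p.Prime → ¬ p ∣ N →
        ∀ A : ValuationSubring (AlgebraicClosure ℚ), A.LiesOverPrime p →
          (∀ σ ∈ A.inertiaSubgroupIn ℚ, ρ σ = 1) ∧
          ∀ σ : Γℚ, A.IsFrobeniusAt σ p →
            ((ρ σ : GL (Fin 2) ℂ) : Matrix (Fin 2) (Fin 2) ℂ).trace = ModularFormClass.qCoeff f p ∧
            ((ρ σ : GL (Fin 2) ℂ) : Matrix (Fin 2) (Fin 2) ℂ).det = ε (p : ZMod N) :=
  dsResult_of_d3 hD3 hIg hGR (fun M _ _ => Fermat.Agent.S48WKron.normProductOne M) N ε f hf₁ hT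

end Fermat.Agent.S48
end MergeWrap_S48_Wire5

section MergeWrap_S48_W_G_Red_Igusa_GroupT -- from S48/W/G/Red/Igusa/GroupT.lean

set_option autoImplicit false

namespace Fermat.Agent.S48WG

open Matrix Matrix.SpecialLinearGroup ModularGroup CongruenceSubgroup
open scoped MatrixGroups

/-- `S⁻¹ = T (S T S⁻¹) T`. -/
theorem igGrp_S_inv : (S : SL(2, ℤ))⁻¹ = T * (S * T * S⁻¹) * T := by
  ext i j
  fin_cases i <;> fin_cases j <;>
    simp [ModularGroup.S, ModularGroup.T, Matrix.SpecialLinearGroup.coe_inv,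
      Matrix.adjugate_fin_two, Matrix.mul_apply, Fin.sum_univ_two]

/-- **the conjugates of `T` generate `SL(2,ℤ)`**. -/
theorem igGrp_normalClosure_T :
    Subgroup.normalClosure ({T} : Set SL(2, ℤ)) = ⊤ := by
  rw [eq_top_iff, ← SpecialLinearGroup.SL2Z_generators, Subgroup.closure_le]
  have hT : T ∈ Subgroup.normalClosure ({T} : Set SL(2, ℤ)) :=
    Subgroup.subset_normalClosure (Set.mem_singleton T)
  have hn : (Subgroup.normalClosure ({T} : Set SL(2, ℤ))).Normal := Subgroup.normalClosure_normal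
  rintro x (rfl | rfl)
  · have h1 : S * T * S⁻¹ ∈ Subgroup.normalClosure ({T} : Set SL(2, ℤ)) := hn.conj_mem T hT S
    have h2 : (S : SL(2, ℤ))⁻¹ ∈ Subgroup.normalClosure ({T} : Set SL(2, ℤ)) := by
      rw [igGrp_S_inv]
      exact mul_mem (mul_mem hT h1) hT
    have := inv_mem h2
    rwa [inv_inv] at this
  · exact hT

/-- the conjugates of the image of `T` generate every quotient of `SL(2,ℤ)`. -/
theorem igGrp_normalClosure_map {G : Type*} [Group G] (π : SL(2, ℤ) →* G)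
    (hπ : Function.Surjective π) : Subgroup.normalClosure ({π T} : Set G) = ⊤ := by
  have h := Subgroup.map_normalClosure ({T} : Set SL(2, ℤ)) π hπ
  rw [igGrp_normalClosure_T, Subgroup.map_top_of_surjective π hπ, Set.image_singleton] at h
  exact h.symm

/-- **`h T h⁻¹ ≡ T^(a²)` modulo `Γ(M)`** for `h ∈ Γ₀(M)`, `a = h₀₀`. -/
theorem igGrp_conj_T_mem (M : ℕ) (h : SL(2, ℤ)) (hh : h ∈ Gamma0 M) :
    (T ^ (h 0 0 ^ 2 : ℤ))⁻¹ * (h * T * h⁻¹) ∈ Gamma M := by
  have hc : ((h 1 0 : ℤ) : ZMod M) = 0 := Gamma0_mem.mp hh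
  have hdet : h 0 0 * h 1 1 - h 0 1 * h 1 0 = 1 := by
    have := h.det_coe
    rw [Matrix.det_fin_two] at this
    exact this
  have hdet' : ((h 0 0 : ℤ) : ZMod M) * ((h 1 1 : ℤ) : ZMod M) = 1 := by
    have := congrArg (fun z : ℤ => (z : ZMod M)) hdet
    simp only [Int.cast_sub, Int.cast_mul, Int.cast_one, hc, mul_zero, sub_zero] at this
    exact this
  rw [Gamma_mem]
  have hTinv : ((T ^ (h 0 0 ^ 2 : ℤ))⁻¹ : SL(2, ℤ)) = T ^ (-(h 0 0 ^ 2 : ℤ)) := by
    rw [_root_.zpow_neg]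
  rw [hTinv]
  have hmat : ((T ^ (-(h 0 0 ^ 2 : ℤ)) * (h * T * h⁻¹) : SL(2, ℤ)) : Matrix (Fin 2) (Fin 2) ℤ)
      = (!![1, -(h 0 0 ^ 2 : ℤ); 0, 1] : Matrix (Fin 2) (Fin 2) ℤ) *
          ((h : Matrix (Fin 2) (Fin 2) ℤ) * !![1, 1; 0, 1] *
            !![h 1 1, -h 0 1; -h 1 0, h 0 0]) := by
    rw [Matrix.SpecialLinearGroup.coe_mul, Matrix.SpecialLinearGroup.coe_mul,
      Matrix.SpecialLinearGroup.coe_mul, ModularGroup.coe_T_zpow, ModularGroup.coe_T,
      Matrix.SpecialLinearGroup.coe_inv, Matrix.adjugate_fin_two]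
  have hent : ∀ i j : Fin 2, ((T ^ (-(h 0 0 ^ 2 : ℤ)) * (h * T * h⁻¹) : SL(2, ℤ)) i j : ℤ)
      = (((!![1, -(h 0 0 ^ 2 : ℤ); 0, 1] : Matrix (Fin 2) (Fin 2) ℤ) *
          ((h : Matrix (Fin 2) (Fin 2) ℤ) * !![1, 1; 0, 1] *
            !![h 1 1, -h 0 1; -h 1 0, h 0 0]) : Matrix (Fin 2) (Fin 2) ℤ)) i j :=
    fun i j => by rw [← hmat]
  have e : ((h 0 0 : ℤ) : ZMod M) * ((h 1 1 : ℤ) : ZMod M) = 1 := hdet'
  refine ⟨?_, ?_, ?_, ?_⟩
  · rw [hent]
    simp only [Matrix.mul_apply, Fin.sum_univ_two, Matrix.of_apply, Matrix.cons_val',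
      Matrix.cons_val_zero, Matrix.cons_val_one, Matrix.cons_val_fin_one]
    push_cast
    simp only [hc]
    linear_combination e
  · rw [hent]
    simp only [Matrix.mul_apply, Fin.sum_univ_two, Matrix.of_apply, Matrix.cons_val',
      Matrix.cons_val_zero, Matrix.cons_val_one, Matrix.cons_val_fin_one]
    push_cast
    simp only [hc]
    linear_combination (-(((h 0 0 : ℤ) : ZMod M) ^ 2)) * e
  · rw [hent]
    simp only [Matrix.mul_apply, Fin.sum_univ_two, Matrix.of_apply, Matrix.cons_val',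
      Matrix.cons_val_zero, Matrix.cons_val_one, Matrix.cons_val_fin_one]
    push_cast
    simp only [hc]
    ring
  · rw [hent]
    simp only [Matrix.mul_apply, Fin.sum_univ_two, Matrix.of_apply, Matrix.cons_val',
      Matrix.cons_val_zero, Matrix.cons_val_one, Matrix.cons_val_fin_one]
    push_cast
    simp only [hc]
    linear_combination e

/-- `h T h⁻¹` acts as `T^(a²)` wherever `Γ(M)` acts trivially (`h ∈ Γ₀(M)`, `a = h₀₀`). -/
theorem igGrp_conj_T_smul {X : Type*} [MulAction SL(2, ℤ) X] (M : ℕ)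
    (hΓ : ∀ γ ∈ Gamma M, ∀ x : X, γ • x = x) (h : SL(2, ℤ)) (hh : h ∈ Gamma0 M) (x : X) :
    (h * T * h⁻¹) • x = (T ^ (h 0 0 ^ 2 : ℤ)) • x := by
  have hmem := igGrp_conj_T_mem M h hh
  have e : h * T * h⁻¹ = T ^ (h 0 0 ^ 2 : ℤ) * ((T ^ (h 0 0 ^ 2 : ℤ))⁻¹ * (h * T * h⁻¹)) := by
    group
  rw [e, mul_smul, hΓ _ hmem]

end Fermat.Agent.S48WG
end MergeWrap_S48_W_G_Red_Igusa_GroupT

section MergeWrap_S48_W_G_Red_Igusa_DatGroup -- from S48/W/G/Red/Igusa/DatGroup.lean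

set_option autoImplicit false

noncomputable section

namespace Fermat.Agent.S48WG

open UpperHalfPlane ModularCurve
open Fermat.Agent.S24 Fermat.Agent.S48WKron Fermat.Agent.GaussInt
open scoped MatrixGroups

/-- the image of `T` in `GW M = SL₂(ℤ) / Γ(M)`. -/
def tW (M : ℕ) : GW M := (QuotientGroup.mk ModularGroup.T : GW M)

theorem tW_smul (M : ℕ) [NeZero M] (f : AHb M) : tW M • f = ModularGroup.T • f := rfl

/-! ### (a) -/

theorem gw_smul_jAHb (M : ℕ) [NeZero M] : ∀ g : GW M, g • jAHb M = jAHb M := by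
  intro g
  induction g using QuotientGroup.induction_on with
  | H γ => rw [GW.mk_smul]; exact smul_jAHb M γ

/-! ### (b) -/

theorem exp_jAHb (M : ℕ) [NeZero M] :
    expAHb M (jAHb M) = qExpand Kbar M (jqModC Kbar) := by
  have h := expLHb_jdLHb M 1 (one_dvd M)
  rw [jdLHb_one, jLHb, expLHb_algebraMap] at h
  rw [h]
  exact qExpand_congr (mul_one M) _

theorem isIntK_jqModC {K : Type*} [Field K] (A : ValuationSubring K) : IsIntK A (jqModC K) := by
  intro n
  rw [coeff_jqModC_eq_intCast]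
  exact intCast_mem A _

theorem isIntK_qExpand {K : Type*} [Field K] (A : ValuationSubring K) (N : ℕ) [NeZero N]
    {f : LaurentSeries K} (hf : IsIntK A f) : IsIntK A (qExpand K N f) := by
  intro n
  by_cases hdvd : (N : ℤ) ∣ n
  · obtain ⟨j, rfl⟩ := hdvd
    rw [qExpand_coeff_mul]
    exact hf j
  · rw [qExpand_coeff_of_not_dvd N f hdvd]
    exact A.zero_mem

theorem isIntK_exp_jAHb (A : ValuationSubring Kbar) (M : ℕ) [NeZero M] :
    IsIntK A (expAHb M (jAHb M)) := by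
  rw [exp_jAHb]
  exact isIntK_qExpand A M (isIntK_jqModC A)

/-- the order of `f(q^N)`. -/
theorem igDat_order_qExpand {L : Type*} [Field L] (N : ℕ) [NeZero N] {f : LaurentSeries L}
    (hf : f ≠ 0) : (qExpand L N f).order = (N : ℤ) * f.order := by
  have hcoeff' : (qExpand L N f).coeff ((N : ℤ) * f.order) ≠ 0 := by
    rw [qExpand_coeff_mul]
    exact fun h0 => hf (HahnSeries.coeff_order_eq_zero.mp h0)
  have hne : qExpand L N f ≠ 0 := HahnSeries.ne_zero_of_coeff_ne_zero hcoeff'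
  have hbelow : ∀ k : ℤ, k < (N : ℤ) * f.order → (qExpand L N f).coeff k = 0 := by
    intro k hk
    by_cases hdvd : (N : ℤ) ∣ k
    · obtain ⟨j, rfl⟩ := hdvd
      rw [qExpand_coeff_mul]
      refine HahnSeries.coeff_eq_zero_of_lt_order ?_
      have hp : (0 : ℤ) < (N : ℤ) := by exact_mod_cast Nat.pos_of_ne_zero (NeZero.ne N)
      exact lt_of_mul_lt_mul_left hk hp.le
    · exact qExpand_coeff_of_not_dvd N f hdvd
  refine le_antisymm (HahnSeries.order_le_of_coeff_ne_zero hcoeff') ?_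
  by_contra hlt
  rw [not_le] at hlt
  exact hne (HahnSeries.coeff_order_eq_zero.mp (hbelow _ hlt))

theorem igDat_order_jqModC (L : Type*) [Field L] : (jqModC L).order = -1 := by
  have h1 : (jqModC L).coeff (-1 : ℤ) ≠ 0 := by
    rw [coeff_jqModC_neg_one]
    exact one_ne_zero
  have hle : (jqModC L).order ≤ -1 := HahnSeries.order_le_of_coeff_ne_zero h1
  refine le_antisymm hle ?_
  by_contra hlt
  rw [not_le] at hlt
  have hne : jqModC L ≠ 0 := jqModC_ne_zero_of_nontrivial L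
  exact hne (HahnSeries.coeff_order_eq_zero.mp (coeff_jqModC_of_lt L hlt))

theorem order_qExpand_jqModC (L : Type*) [Field L] (M : ℕ) [NeZero M] :
    (qExpand L M (jqModC L)).order = -(M : ℤ) := by
  rw [igDat_order_qExpand M (jqModC_ne_zero_of_nontrivial L), igDat_order_jqModC]
  ring

theorem order_exp_jAHb (M : ℕ) [NeZero M] : (expAHb M (jAHb M)).order < 0 := by
  rw [exp_jAHb, order_qExpand_jqModC]
  have : (0 : ℤ) < (M : ℤ) := by exact_mod_cast Nat.pos_of_ne_zero (NeZero.ne M)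
  linarith

theorem leadingCoeff_exp_jAHb (M : ℕ) [NeZero M] :
    (expAHb M (jAHb M)).leadingCoeff = 1 := by
  rw [exp_jAHb, HahnSeries.leadingCoeff_eq, order_qExpand_jqModC]
  have h : (-(M : ℤ)) = (M : ℤ) * (-1) := by ring
  rw [h, qExpand_coeff_mul, coeff_jqModC_neg_one]

/-! ### (c) -/

theorem gw_invariant (M : ℕ) [NeZero M] :
    ∀ f : AHb M, (∀ g : GW M, g • f = f) →
      ∃ P : Polynomial Kbar, f = Polynomial.aeval (jAHb M) P := by
  intro f hf
  obtain ⟨P, hP⟩ := exists_aeval_jAHb_of_invariant M f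
    (fun γ => by have := hf (QuotientGroup.mk γ); rwa [GW.mk_smul] at this)
  exact ⟨P, hP.symm⟩

/-! ### (d) -/

theorem gw_T_stable (A : ValuationSubring Kbar) (M : ℕ) [NeZero M] :
    ∀ b ∈ igSub A (GW M) (expAHb M), IsRedZero A (expAHb M b) →
      IsRedZero A (expAHb M (tW M • b)) := by
  intro b _ hb
  obtain ⟨b', hb', ζ, hζ, hcoeff⟩ := (hasExp_expAHb b).T_smul
  have e : expAHb M (tW M • b) = b' := expAHb_eq (f := tW M • b) hb'
  have hζM : ζ ^ M = 1 := by
    apply iota_injective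
    rw [map_pow, hζ, map_one, ← Complex.exp_nat_mul]
    have hM : (M : ℂ) ≠ 0 := by exact_mod_cast NeZero.ne M
    have : (M : ℂ) * (2 * Real.pi * Complex.I / M) = 2 * Real.pi * Complex.I := by
      field_simp
    rw [this]
    exact Complex.exp_two_pi_mul_I
  have hv : A.valuation ζ = 1 := igu_val_zeta A hζM
  intro n
  rw [e, hcoeff n, map_mul, map_zpow₀, map_inv₀, hv, inv_one, one_zpow, one_mul]
  exact hb n

/-! ### (e) -/

theorem gw_normalClosure (M : ℕ) (_h : IgNCStatement) :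
    Subgroup.normalClosure {tW M} = ⊤ :=
  igGrp_normalClosure_map (QuotientGroup.mk' (CongruenceSubgroup.Gamma M))
    (QuotientGroup.mk'_surjective _)

/-! ### (f) -/

theorem gw_conj (M : ℕ) [NeZero M] (_h : IgConjStatement) :
    ∀ h ∈ (CongruenceSubgroup.Gamma0 M).map (QuotientGroup.mk' (CongruenceSubgroup.Gamma M)),
      ∃ n : ℤ, ∀ b : AHb M, (h * tW M * h⁻¹) • b = tW M ^ n • b := by
  rintro _ ⟨h, hh, rfl⟩
  refine ⟨h 0 0 ^ 2, fun b => ?_⟩
  have h1 := igGrp_conj_T_smul (X := AHb M) M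
    (fun γ hγ x => Subtype.ext (smul_eq_of_mem_AHb x.2 hγ)) h hh b
  have e1 : (QuotientGroup.mk' (CongruenceSubgroup.Gamma M)) h * tW M *
      ((QuotientGroup.mk' (CongruenceSubgroup.Gamma M)) h)⁻¹
      = (QuotientGroup.mk (h * ModularGroup.T * h⁻¹) : GW M) := rfl
  have e2 : tW M ^ (h 0 0 ^ 2 : ℤ) = (QuotientGroup.mk (ModularGroup.T ^ (h 0 0 ^ 2 : ℤ)) : GW M) :=
    (map_zpow (QuotientGroup.mk' (CongruenceSubgroup.Gamma M)) ModularGroup.T _).symm
  rw [e1, e2, GW.mk_smul, GW.mk_smul]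
  exact h1

/-! ### (g) -/

theorem gw_index (M : ℕ) (H : Subgroup SL(2, ℤ)) (hH : CongruenceSubgroup.Gamma M ≤ H) :
    (H.map (QuotientGroup.mk' (CongruenceSubgroup.Gamma M))).index = H.index := by
  refine Subgroup.index_map_eq H (QuotientGroup.mk'_surjective _) ?_
  rw [QuotientGroup.ker_mk']
  exact hH

end Fermat.Agent.S48WG
end
end MergeWrap_S48_W_G_Red_Igusa_DatGroup

section MergeWrap_S48_W_G_Red_Igusa_GroupNC -- from S48/W/G/Red/Igusa/GroupNC.lean

set_option autoImplicit false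

namespace Fermat.Agent.S48WG

/-- **(IG-NC)**. -/
theorem igNC : IgNCStatement :=
  igGrp_normalClosure_T

end Fermat.Agent.S48WG
end MergeWrap_S48_W_G_Red_Igusa_GroupNC

section MergeWrap_S48_W_G_Red_Igusa_GroupConj -- from S48/W/G/Red/Igusa/GroupConj.lean

set_option autoImplicit false

namespace Fermat.Agent.S48WG

open scoped MatrixGroups

/-- **(IG-CONJ)**, explicit exponent `n = (h 0 0)²`. -/
theorem igConj_explicit (M : ℕ) (h : SL(2, ℤ)) (hh : h ∈ CongruenceSubgroup.Gamma0 M) :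
    h * ModularGroup.T * h⁻¹ * (ModularGroup.T ^ (h 0 0 ^ 2 : ℤ))⁻¹ ∈ CongruenceSubgroup.Gamma M := by
  have hmem := igGrp_conj_T_mem M h hh
  have hn : (CongruenceSubgroup.Gamma M).Normal := CongruenceSubgroup.Gamma_normal M
  have h2 := hn.conj_mem _ hmem (ModularGroup.T ^ (h 0 0 ^ 2 : ℤ))
  have e : ModularGroup.T ^ (h 0 0 ^ 2 : ℤ) *
      ((ModularGroup.T ^ (h 0 0 ^ 2 : ℤ))⁻¹ * (h * ModularGroup.T * h⁻¹)) *
        (ModularGroup.T ^ (h 0 0 ^ 2 : ℤ))⁻¹
      = h * ModularGroup.T * h⁻¹ * (ModularGroup.T ^ (h 0 0 ^ 2 : ℤ))⁻¹ := by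
    group
  rwa [e] at h2

/-- **(IG-CONJ)**. -/
theorem igConj : IgConjStatement := fun M _ h hh => ⟨h 0 0 ^ 2, igConj_explicit M h hh⟩

end Fermat.Agent.S48WG
end MergeWrap_S48_W_G_Red_Igusa_GroupConj

section MergeWrap_S48_W_G_Red_Igusa_Inst -- from S48/W/G/Red/Igusa/Inst.lean

set_option autoImplicit false
set_option synthInstance.maxHeartbeats 400000

noncomputable section

namespace Fermat.Agent.S48WG

open UpperHalfPlane ModularCurve AlgebraicCurve IntermediateField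
open Fermat.Agent.S24 Fermat.Agent.S48W Fermat.Agent.S48WA1 Fermat.Agent.S48WKron
open Fermat.Agent.GaussInt Fermat.Agent.RR
open scoped MatrixGroups Real

/-- (IG-DAT-G) the group-side hypotheses of Dedekind's argument for `AHb M`. -/
def IgDatGStatement : Prop :=
  ∀ (M : ℕ) [NeZero M] (A : ValuationSubring Kbar),
    (∀ g : GW M, g • jAHb M = jAHb M) ∧
    expAHb M (jAHb M) = qExpand Kbar M (jqModC Kbar) ∧
    IsIntK A (qExpand Kbar M (jqModC Kbar)) ∧
    (qExpand Kbar M (jqModC Kbar)).order < 0 ∧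
    (qExpand Kbar M (jqModC Kbar)).leadingCoeff = 1 ∧
    (∀ f : AHb M, (∀ g : GW M, g • f = f) →
      ∃ P : Polynomial Kbar, f = Polynomial.aeval (jAHb M) P) ∧
    (∀ b ∈ igSub A (GW M) (expAHb M), IsRedZero A (expAHb M b) →
      IsRedZero A (expAHb M (tW M • b))) ∧
    Subgroup.normalClosure {tW M} = ⊤ ∧
    (∀ h ∈ (CongruenceSubgroup.Gamma0 M).map (QuotientGroup.mk' (CongruenceSubgroup.Gamma M)),
      ∃ n : ℤ, ∀ b : AHb M, (h * tW M * h⁻¹) • b = tW M ^ n • b) ∧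
    (CongruenceSubgroup.Gamma M ≤ CongruenceSubgroup.Gamma0 M) ∧
    ∀ H : Subgroup SL(2, ℤ), CongruenceSubgroup.Gamma M ≤ H →
      (H.map (QuotientGroup.mk' (CongruenceSubgroup.Gamma M))).index = H.index

/-- `Γ(M) ≤ Γ₀(M)`. -/
theorem gamma_le_gamma0W (M : ℕ) :
    CongruenceSubgroup.Gamma M ≤ CongruenceSubgroup.Gamma0 M := by
  intro γ hγ
  rw [CongruenceSubgroup.Gamma_mem] at hγ
  rw [CongruenceSubgroup.Gamma0_mem]
  exact hγ.2.2.1

/-- **IG-DAT-G** (helper24's `DatGroup.lean`, bundled). -/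
theorem igDatG : IgDatGStatement := fun M _ A =>
  ⟨gw_smul_jAHb M, exp_jAHb M, by rw [← exp_jAHb]; exact isIntK_exp_jAHb A M,
    by rw [← exp_jAHb]; exact order_exp_jAHb M, by rw [← exp_jAHb]; exact leadingCoeff_exp_jAHb M,
    gw_invariant M, gw_T_stable A M, gw_normalClosure M igNC, gw_conj M igConj,
    gamma_le_gamma0W M, fun H hH => gw_index M H hH⟩

/-- `j(q^M)` lies in `ℚ̄ F₁(M)`. -/
theorem jM_mem_FOneBar (M : ℕ) [NeZero M] :
    qExpand Kbar M (jqModC Kbar) ∈ laurentBaseChange Kbar (FOne M) := by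
  have h1 : qExpand ℚ M jq ∈ FOne M := full_le_FOne M (jqd_mem_full M (dvd_refl M))
  have h2 := coeffEmb_mem_laurentBaseChange Kbar h1
  have h3 : coeffEmb Kbar (qExpand ℚ M jq) = qExpand Kbar M (jqModC Kbar) := by
    unfold coeffEmb
    rw [coeffMap_qExpand, ← jqModC_rat, coeffMap_jqModC]
  rw [← h3]
  exact h2

/-- `y₁`'s expansion lies in `ℚ̄ F₁(M)`. -/
theorem yOneExp_mem_FOneBar (M : ℕ) [NeZero M] (hM : 2 ≤ M) :
    HahnSeries.C (12⁻¹ : Kbar) * (coeffEmb Kbar (fricke M 1) - qExpand Kbar M (jqModC Kbar)) ∈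
      laurentBaseChange Kbar (FOne M) := by
  have h1 : (1 : ZMod M) ≠ 0 := by
    have : Fact (1 < M) := ⟨hM⟩
    exact one_ne_zero
  have h2 : coeffEmb Kbar (fricke M 1) ∈ laurentBaseChange Kbar (FOne M) :=
    coeffEmb_mem_laurentBaseChange Kbar (fricke_mem M h1)
  have h3 : HahnSeries.C (12⁻¹ : Kbar) ∈ laurentBaseChange Kbar (FOne M) := by
    have e : HahnSeries.C (12⁻¹ : Kbar) = algebraMap Kbar (LaurentSeries Kbar) (12⁻¹ : Kbar) := by
      rw [ig_algebraMap_eq_single]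
      rfl
    rw [e]
    exact (laurentBaseChange Kbar (FOne M)).algebraMap_mem (12⁻¹ : Kbar)
  exact mul_mem h3 (sub_mem h2 (jM_mem_FOneBar M))

/-- **IG-INST**: the assembly of G-IGUSA. -/
theorem igusaOne_of (hAbs : IgAbsStatement) (hG : IgDatGStatement) (hJ : IgDatJStatement)
    (hB : IgBStatement) (hY : IgDatYStatement) (hD : IgDeg0Statement) (hGl : IgGlueStatement) :
    IgusaOneStatement := by
  intro M _ hM p hp hpM A hA
  obtain ⟨y₀, hy₀exp, hy₀⟩ := hJ M p hp hpM A hA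
  obtain ⟨y₁, hy₁fun, hy₁exp, hy₁⟩ := hY M hM p hp hpM A hA
  obtain ⟨hBsep, hBdeg⟩ := hB M p hp hpM A hA
  obtain ⟨ga, gb, gc, gd, ge, gf, gg, gh, gi, gj, gk⟩ := hG M A
  -- the stabiliser of `y₁` contains `Γ(M)`
  have hstab : CongruenceSubgroup.Gamma M ≤ MulAction.stabilizer SL(2, ℤ) (yOneFun M) := by
    intro γ hγ
    rw [MulAction.mem_stabilizer_iff, ← hy₁fun]
    exact smul_eq_of_mem_AHb (y₁ ()).2 hγ
  -- Dedekind
  have e₀ : (fun i => expAHb M (y₀ i)) = jdFamExp M := funext hy₀exp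
  have key := hAbs Kbar A (AHb M) (GW M) (expAHb M) (jAHb M) (tW M) (Fin M) y₀
    ((CongruenceSubgroup.Gamma0 M).map (QuotientGroup.mk' (CongruenceSubgroup.Gamma M)))
    Unit y₁
    ((MulAction.stabilizer SL(2, ℤ) (yOneFun M)).map
      (QuotientGroup.mk' (CongruenceSubgroup.Gamma M)))
    ga (by rw [gb]; exact gc) (by rw [gb]; exact gd) (by rw [gb]; exact ge) gf gg gh hy₀ gi
    (by rw [gb, e₀]; exact hBsep)
    (by rw [gb, e₀, gk _ gj]; exact hBdeg)
    hy₁
  rw [gb, gk _ hstab] at key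
  obtain ⟨hsep, hfin, hdeg⟩ := key
  -- the base function
  have hxF := jM_mem_FOneBar M
  have hxint : IsIntK A (qExpand Kbar M (jqModC Kbar)) := gc
  have hx : qExpand Kbar M (jqModC Kbar) ∈ gaussSub A (laurentBaseChange Kbar (FOne M)) := by
    obtain ⟨Y, hY⟩ := isIntK_iff_mem_range.mp hxint
    rw [← hY]
    exact emb_mem_gaussSub (by rw [hY]; exact hxF)
  refine ⟨_, hx, rfl, ?_⟩
  obtain ⟨hD1, hD2⟩ := hD M hM (barElt hx) rfl
  have hy₁int : IsIntK A (expAHb M (y₁ ())) := isIntK_of_mem_igSub A (hy₁.1 ())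
  exact hGl A (FOne M) p hp hA (isIntGen_FOne (A := A) M) _ hx hxint gd ge Unit
    (fun i => expAHb M (y₁ i))
    (fun i => by
      cases i
      rw [hy₁exp]
      exact yOneExp_mem_FOneBar M hM)
    (fun i => by cases i; exact hy₁int)
    (MulAction.stabilizer SL(2, ℤ) (yOneFun M)).index hD1 hD2 hsep hfin hdeg

end Fermat.Agent.S48WG
end
end MergeWrap_S48_W_G_Red_Igusa_Inst

section MergeWrap_S48_W_G_Red_Igusa_Abs -- from S48/W/G/Red/Igusa/Abs.lean

set_option autoImplicit false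
set_option linter.style.haveILetI false

noncomputable section

namespace Fermat.Agent.S48WG

open ModularCurve HahnSeries Polynomial IntermediateField Fermat.Agent.GaussInt

section

variable {K : Type} [Field K] (A : ValuationSubring K) {R : Type} [CommRing R] [Algebra K R]
  {G : Type} [Group G] [MulSemiringAction G R] [SMulCommClass G K R]
  (ex : R →ₐ[K] LaurentSeries K) (j : R) (hjinv : ∀ g : G, g • j = j) (hj : IsIntK A (ex j))

/-- the reductions of the polynomials in `j` lie in `k(x̄)`. -/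
theorem igRed_igPoly_mem (P₀ : Polynomial A) :
    igRed A ex (igPoly A ex j hjinv hj P₀) ∈
      Subfield.closure (Set.range (algebraMap (IsLocalRing.ResidueField A)
        (LaurentSeries (IsLocalRing.ResidueField A))) ∪ {redSer A (ex j)}) := by
  induction P₀ using Polynomial.induction_on' with
  | add p q hp hq =>
    rw [map_add, map_add]
    exact add_mem hp hq
  | monomial n a =>
    rw [← Polynomial.C_mul_X_pow_eq_monomial, map_mul, map_pow, map_mul, map_pow,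
      igRed_igPoly_C, igRed_igPoly_X]
    have h1 : algebraMap (IsLocalRing.ResidueField A)
        (LaurentSeries (IsLocalRing.ResidueField A)) (IsLocalRing.residue A a) ∈
        Subfield.closure (Set.range (algebraMap (IsLocalRing.ResidueField A)
          (LaurentSeries (IsLocalRing.ResidueField A))) ∪ {redSer A (ex j)}) :=
      Subfield.subset_closure (Set.mem_union_left _ ⟨_, rfl⟩)
    have h2 : redSer A (ex j) ∈
        Subfield.closure (Set.range (algebraMap (IsLocalRing.ResidueField A)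
          (LaurentSeries (IsLocalRing.ResidueField A))) ∪ {redSer A (ex j)}) :=
      Subfield.subset_closure (Set.mem_union_right _ (Set.mem_singleton _))
    exact mul_mem h1 (pow_mem h2 n)

/-- the subfield generated by the reductions of the polynomials in `j` is `k(x̄)`. -/
theorem ig_closure_igPoly :
    Subfield.closure (Set.range ((igRed A ex).comp (igPoly A ex j hjinv hj))) =
      Subfield.closure (Set.range (algebraMap (IsLocalRing.ResidueField A)
        (LaurentSeries (IsLocalRing.ResidueField A))) ∪ {redSer A (ex j)}) := by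
  apply le_antisymm
  · rw [Subfield.closure_le]
    rintro _ ⟨P₀, rfl⟩
    exact igRed_igPoly_mem A ex j hjinv hj P₀
  · rw [Subfield.closure_le]
    rintro z (⟨c, rfl⟩ | hz)
    · obtain ⟨a, rfl⟩ := IsLocalRing.residue_surjective c
      apply Subfield.subset_closure
      exact ⟨Polynomial.C a, igRed_igPoly_C A ex j hjinv hj a⟩
    · rw [Set.mem_singleton_iff] at hz
      rw [hz]
      apply Subfield.subset_closure
      exact ⟨Polynomial.X, igRed_igPoly_X A ex j hjinv hj⟩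

/-- the image of `k(x̄)` in `k((u))`. -/
theorem ig_range_base :
    Set.range (algebraMap ↥((IsLocalRing.ResidueField A)⟮redSer A (ex j)⟯)
      (LaurentSeries (IsLocalRing.ResidueField A))) =
    ↑(Subfield.closure (Set.range ((igRed A ex).comp (igPoly A ex j hjinv hj)))) := by
  rw [ig_closure_igPoly, ← IntermediateField.adjoin_toSubfield]
  ext z
  constructor
  · rintro ⟨x, rfl⟩
    exact x.2
  · intro hz
    exact ⟨⟨z, hz⟩, rfl⟩

end

/-- **IG-ABS**: the abstract Dedekind argument, inside `k((u))`. -/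
theorem igAbs : IgAbsStatement := by
  intro K _ A R _ _ G _ _ _ _ ex j t ι₀ _ y₀ H₀ ι₁ _ y₁ H₁ hjinv hj hord hlead hinv ht hnc hD₀
    hconj hsep hdeg hD₁
  letI alg : Algebra (Polynomial A) ↥(igSub A G ex) := (igPoly A ex j hjinv hj).toAlgebra
  have hcomm : SMulCommClass G (Polynomial A) ↥(igSub A G ex) := ⟨fun g P b => by
    rw [Algebra.smul_def, Algebra.smul_def, smul_mul']
    congr 1
    exact smul_igPoly A ex j hjinv hj g P⟩
  have hinvt : Algebra.IsInvariant (Polynomial A) ↥(igSub A G ex) G := ⟨fun b hb => by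
    obtain ⟨P₀, hP₀⟩ := (ig_inv_sub A ex j hjinv hj hord hlead hinv b.1).mp
      ⟨b.2, fun g => congrArg Subtype.val (hb g)⟩
    exact ⟨P₀, Subtype.ext hP₀.symm⟩⟩
  have hF : Set.range (algebraMap ↥((IsLocalRing.ResidueField A)⟮redSer A (ex j)⟯)
      (LaurentSeries (IsLocalRing.ResidueField A))) =
      ↑(Subfield.closure (Set.range ((igRed A ex).comp
        (algebraMap (Polynomial A) ↥(igSub A G ex))))) :=
    ig_range_base A ex j hjinv hj
  have ht' : ∀ b : ↥(igSub A G ex), igRed A ex b = 0 → igRed A ex (t • b) = 0 := by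
    intro b hb
    rw [igRed_eq_zero_iff] at hb ⊢
    exact ht b.1 b.2 hb
  have hconj' : ∀ h ∈ H₀, ∃ n : ℤ, ∀ b : ↥(igSub A G ex), (h * t * h⁻¹) • b = t ^ n • b := by
    intro h hh
    obtain ⟨n, hn⟩ := hconj h hh
    exact ⟨n, fun b => Subtype.ext (hn b.1)⟩
  have hdist : ∀ (ι : Type) (y : ι → R) (H : Subgroup G) (hD : IgDistinct A ex y H),
      DistinctRed G (RingHom.ker (igRed A ex)) (fun i => (⟨y i, hD.1 i⟩ : ↥(igSub A G ex)))
        H := by
    intro ι y H hD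
    refine ⟨fun h hh i => Subtype.ext (hD.2.1 h hh i), fun g g' hgg' => ?_⟩
    apply hD.2.2 g g'
    intro i
    have h1 := (mem_ker_igRed A ex _).mp (hgg' i)
    rw [← map_sub]
    exact h1
  exact ig_core (Polynomial A) ↥(igSub A G ex) G (LaurentSeries (IsLocalRing.ResidueField A))
    (igRed A ex) ↥((IsLocalRing.ResidueField A)⟮redSer A (ex j)⟯) hF t
    ι₀ (fun i => (⟨y₀ i, hD₀.1 i⟩ : ↥(igSub A G ex))) H₀
    ι₁ (fun i => (⟨y₁ i, hD₁.1 i⟩ : ↥(igSub A G ex))) H₁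
    ht' hnc (hdist ι₀ y₀ H₀ hD₀) hconj' hsep hdeg (hdist ι₁ y₁ H₁ hD₁)

end Fermat.Agent.S48WG
end
end MergeWrap_S48_W_G_Red_Igusa_Abs

section MergeWrap_S48_W_G_Red_Igusa_DatJ -- from S48/W/G/Red/Igusa/DatJ.lean

set_option autoImplicit false
set_option synthInstance.maxHeartbeats 400000

noncomputable section

namespace Fermat.Agent.S48WG

open UpperHalfPlane ModularCurve AlgebraicCurve IntermediateField
open Fermat.Agent.S24 Fermat.Agent.S24.GensExp Fermat.Agent.S48W Fermat.Agent.S48WA1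
open Fermat.Agent.S48WKron Fermat.Agent.GaussInt
open scoped MatrixGroups Real

theorem igDatJ_jd_congr {d d' : ℕ} [NeZero d] [NeZero d'] (h : d = d') : jd d = jd d' := by
  subst h
  rfl

theorem igDatJ_hasExp_zero (M : ℕ) : HasExp M (0 : Fun) (0 : LaurentSeries Kbar) := by
  have h := HasExp.algebraMap M (0 : Kbar)
  rwa [map_zero, map_zero] at h

theorem igDatJ_jdFam_mem (M : ℕ) [NeZero M] (i : Fin M) : IsAHb M (jdFam M i) := by
  unfold jdFam
  split_ifs with h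
  · exact AL_le_AHb M (jd_mem_AL h)
  · exact (AHb M).zero_mem

theorem igDatJ_hasExp (M : ℕ) [NeZero M] (i : Fin M) :
    HasExp M (jdFam M i) (jdFamExp M i) := by
  unfold jdFam jdFamExp
  split_ifs with h
  · exact hasExp_jd M (i.val + 1) h
  · exact igDatJ_hasExp_zero M

/-- `Γ₀(M)` fixes `j_d` for `d ∣ M`. -/
theorem igDatJ_smul_jd {M d : ℕ} [NeZero d] (hd : d ∣ M) {γ : SL(2, ℤ)}
    (hγ : γ ∈ CongruenceSubgroup.Gamma0 M) : γ • jd d = jd d := by
  rw [smul_jd_eq_iff]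
  apply EmbFStab.mem_Gamma0_of_dvd
  exact (Int.natCast_dvd_natCast.2 hd).trans (EmbFStab.dvd_of_mem_Gamma0 hγ)

/-- **IG-DAT-J**, from IG-J0. -/
theorem igDatJ_of : IgJ0Statement → IgDatJStatement := by
  intro hJ M _ p hp hpM A hA
  obtain ⟨hint, hdist⟩ := hJ M p hp hpM A hA
  have hM0 : 0 < M := Nat.pos_of_ne_zero (NeZero.ne M)
  set y : Fin M → AHb M := fun i => ⟨jdFam M i, igDatJ_jdFam_mem M i⟩ with hy
  have hcoe : ∀ (γ : SL(2, ℤ)) (i : Fin M), ((γ • y i : AHb M) : Fun) = γ • jdFam M i :=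
    fun γ i => rfl
  refine ⟨y, fun i => expAHb_eq (f := y i) (igDatJ_hasExp M i), ?_, ?_, ?_⟩
  · -- all conjugates have `A`-integral expansions
    intro i g
    induction g using QuotientGroup.induction_on with
    | H γ =>
      rw [GW.mk_smul]
      have h := hasExp_expAHb (γ • y i)
      rw [hcoe] at h
      by_cases hd : (i.val + 1) ∣ M
      · have e : jdFam M i = jd (i.val + 1) := if_pos hd
        rw [e] at h
        exact hint (i.val + 1) hd γ _ h
      · have e : jdFam M i = 0 := if_neg hd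
        rw [e, smul_zero] at h
        rw [h.unique (igDatJ_hasExp_zero M)]
        intro n
        rw [HahnSeries.coeff_zero]
        exact A.zero_mem
  · -- fixed by `H₀`
    rintro h ⟨γ, hγ, rfl⟩ i
    show (QuotientGroup.mk γ : GW M) • y i = y i
    rw [GW.mk_smul]
    apply Subtype.ext
    rw [hcoe]
    show γ • jdFam M i = jdFam M i
    by_cases hd : (i.val + 1) ∣ M
    · have e : jdFam M i = jd (i.val + 1) := if_pos hd
      rw [e]
      exact igDatJ_smul_jd hd hγ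
    · have e : jdFam M i = 0 := if_neg hd
      rw [e, smul_zero]
  · -- distinct reductions on different cosets
    intro g g' hgg'
    induction g using QuotientGroup.induction_on with
    | H γ =>
      induction g' using QuotientGroup.induction_on with
      | H γ' =>
        have hi : M - 1 < M := by omega
        have hval : (⟨M - 1, hi⟩ : Fin M).val + 1 = M := by
          show M - 1 + 1 = M
          omega
        have e₀ : jdFam M ⟨M - 1, hi⟩ = jd M := by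
          have e1 : jdFam M ⟨M - 1, hi⟩ = jd ((⟨M - 1, hi⟩ : Fin M).val + 1) :=
            if_pos (by rw [hval])
          rw [e1]
          exact igDatJ_jd_congr hval
        have h0 := hgg' ⟨M - 1, hi⟩
        rw [GW.mk_smul, GW.mk_smul] at h0
        have ha := hasExp_expAHb (γ • y ⟨M - 1, hi⟩)
        have ha' := hasExp_expAHb (γ' • y ⟨M - 1, hi⟩)
        rw [hcoe, e₀] at ha ha'
        have hmem : γ⁻¹ * γ' ∈ CongruenceSubgroup.Gamma0 M := hdist γ γ' _ _ ha ha' h0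
        exact ⟨γ⁻¹ * γ', hmem, rfl⟩

/-- **IG-DAT-J**. -/
theorem igDatJ : IgDatJStatement := igDatJ_of igJ0

end Fermat.Agent.S48WG
end
end MergeWrap_S48_W_G_Red_Igusa_DatJ

section MergeWrap_S48_W_G_Red_Igusa_DatY -- from S48/W/G/Red/Igusa/DatY.lean

set_option autoImplicit false
set_option synthInstance.maxHeartbeats 400000

noncomputable section

namespace Fermat.Agent.S48WG

open UpperHalfPlane ModularCurve AlgebraicCurve IntermediateField
open Fermat.Agent.S24 Fermat.Agent.S48W Fermat.Agent.S48WA1 Fermat.Agent.S48WKron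
open Fermat.Agent.GaussInt
open scoped MatrixGroups Real

/-- the expansion of `y₁ = (F_{(1,0)} - j)/12` at `∞`. -/
theorem igDatY_hasExp (M : ℕ) [NeZero M] (hM : 2 ≤ M) :
    HasExp M (yOneFun M)
      (HahnSeries.C (12⁻¹ : Kbar) *
        (coeffEmb Kbar (fricke M 1) - qExpand Kbar M (jqModC Kbar))) := by
  have h1 := (frickeExp M).2 1 one_pos (by exact_mod_cast hM)
  rw [Int.cast_one] at h1
  have h2 := Fermat.Agent.S24Inv.hasExp_jFun M
  have h3 := (HasExp.algebraMap M (12⁻¹ : Kbar)).mul (h1.sub h2)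
  have e : algebraMap Kbar (LaurentSeries Kbar) (12⁻¹ : Kbar) = HahnSeries.C (12⁻¹ : Kbar) := by
    rw [Fermat.Agent.S24Inv.algebraMap_eq_single]
    rfl
  rw [e] at h3
  exact h3

/-- **IG-DAT-Y.** -/
theorem igDatY : IgF1Statement → IgDatYStatement := by
  intro hF M _ hM p hp hpM A hA
  obtain ⟨hAH, hrest⟩ := hF M hM
  obtain ⟨hint, hdist⟩ := hrest p hp hpM A hA
  set y : AHb M := ⟨yOneFun M, hAH⟩ with hy
  have hcoe : ∀ γ : SL(2, ℤ), ((γ • y : AHb M) : Fun) = γ • yOneFun M := fun γ => rfl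
  refine ⟨fun _ => y, rfl, ?_, ?_, ?_, ?_⟩
  · exact expAHb_eq (f := y) (igDatY_hasExp M hM)
  · -- all conjugates have `A`-integral expansions
    intro i g
    induction g using QuotientGroup.induction_on with
    | H γ =>
      rw [GW.mk_smul]
      have h := hasExp_expAHb (γ • y)
      rw [hcoe] at h
      exact hint γ _ h
  · -- fixed by `H₁`
    rintro h ⟨γ, hγ, rfl⟩ i
    have h1 : γ • yOneFun M = yOneFun M := hγ
    show (QuotientGroup.mk γ : GW M) • y = y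
    rw [GW.mk_smul]
    exact Subtype.ext ((hcoe γ).trans h1)
  · -- distinct reductions on different cosets
    intro g g' hgg'
    induction g using QuotientGroup.induction_on with
    | H γ =>
      induction g' using QuotientGroup.induction_on with
      | H γ' =>
        have h0 := hgg' ()
        rw [GW.mk_smul, GW.mk_smul] at h0
        have ha := hasExp_expAHb (γ • y)
        have ha' := hasExp_expAHb (γ' • y)
        rw [hcoe] at ha ha'
        have heq : γ • yOneFun M = γ' • yOneFun M := hdist γ γ' _ _ ha ha' h0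
        have hmem : γ⁻¹ * γ' ∈ MulAction.stabilizer SL(2, ℤ) (yOneFun M) := by
          rw [MulAction.mem_stabilizer_iff, mul_smul, ← heq, inv_smul_smul]
        exact ⟨γ⁻¹ * γ', hmem, rfl⟩

end Fermat.Agent.S48WG
end
end MergeWrap_S48_W_G_Red_Igusa_DatY

section MergeWrap_S48_W_G_Red_Igusa_DistY -- from S48/W/G/Red/Igusa/DistY.lean

set_option autoImplicit false

noncomputable section

namespace Fermat.Agent.S48WG

open ModularCurve HahnSeries Finset Fermat.Agent.S48W Fermat.Agent.GaussInt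

/-! ### formal series with integer coefficients -/

/-- `S_k = Σ_{n ≥ 1} σ_k(n) qⁿ`. -/
def igySig (k : ℕ) : PowerSeries ℤ :=
  PowerSeries.mk fun n => if n = 0 then 0 else ∑ d ∈ n.divisors, (d : ℤ) ^ k

/-- `E₂ = 1 - 24 Σ σ₁(n) qⁿ`. -/
def igyE2 : PowerSeries ℤ := 1 - 24 * igySig 1

/-- `(E₆ E₂ - E₄²) / 12`. -/
def igyR : PowerSeries ℤ :=
  -2 * igySig 1 - 42 * igySig 5 + 1008 * (igySig 1 * igySig 5) - 40 * igySig 3
    - 4800 * igySig 3 ^ 2

theorem igy_coeff_ofNat_mul (c : ℕ) [c.AtLeastTwo] (f : PowerSeries ℤ) (n : ℕ) :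
    PowerSeries.coeff n ((OfNat.ofNat c : PowerSeries ℤ) * f)
      = (OfNat.ofNat c : ℤ) * PowerSeries.coeff n f := by
  have h : (OfNat.ofNat c : PowerSeries ℤ) = PowerSeries.C (OfNat.ofNat c : ℤ) :=
    (map_ofNat (PowerSeries.C (R := ℤ)) c).symm
  rw [h, PowerSeries.coeff_C_mul]

theorem igy_eisenstein4 : eisenstein4 = 1 + 240 * igySig 3 := by
  ext n
  rw [map_add, igy_coeff_ofNat_mul, PowerSeries.coeff_one]
  unfold eisenstein4 igySig
  rw [PowerSeries.coeff_mk, PowerSeries.coeff_mk]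
  split_ifs <;> simp

theorem igy_eis6 : eis6 = 1 - 504 * igySig 5 := by
  ext n
  rw [map_sub, igy_coeff_ofNat_mul, PowerSeries.coeff_one]
  unfold eis6 igySig
  rw [PowerSeries.coeff_mk, PowerSeries.coeff_mk]
  split_ifs <;> simp

theorem igy_ramanujan : eis6 * igyE2 - eisenstein4 ^ 2 = 12 * igyR := by
  rw [igy_eis6, igy_eisenstein4, igyE2, igyR]
  ring

/-- `((E₄ / Δ) R)(q)` in `ℚ((q))`. -/
def igyT : LaurentSeries ℚ :=
  HahnSeries.single (-1 : ℤ) 1 *
    HahnSeries.ofPowerSeries ℤ ℚ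
      ((eisenstein4 * dedekindEtaUnitInv * igyR).map (Int.castRingHom ℚ))

theorem igy_T :
    eisQuot * HahnSeries.ofPowerSeries ℤ ℚ (igyE2.map (Int.castRingHom ℚ)) - jq = 12 * igyT := by
  have e : eisenstein4 * eis6 * dedekindEtaUnitInv * igyE2 - jNum
      = 12 * (eisenstein4 * dedekindEtaUnitInv * igyR) := by
    have h := igy_ramanujan
    unfold jNum
    linear_combination (eisenstein4 * dedekindEtaUnitInv) * h
  have e2 := congrArg (fun f : PowerSeries ℤ =>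
    HahnSeries.ofPowerSeries ℤ ℚ (f.map (Int.castRingHom ℚ))) e
  simp only [map_sub, map_mul, map_ofNat] at e2
  unfold eisQuot jq igyT jNumQ
  simp only [map_mul]
  linear_combination (HahnSeries.single (-1 : ℤ) (1 : ℚ)) * e2

/-- `E₂(q^M)` as a power series. -/
def igyE2M (M : ℕ) : PowerSeries ℤ :=
  PowerSeries.mk fun n => (if n = 0 then 1 else 0)
    - 24 * (if n ≠ 0 ∧ M ∣ n then ∑ d ∈ (n / M).divisors, (d : ℤ) else 0)

theorem igy_coeff_igyE2 (m : ℕ) :
    PowerSeries.coeff m igyE2 = (if m = 0 then 1 else 0)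
      - 24 * (if m = 0 then 0 else ∑ d ∈ m.divisors, (d : ℤ)) := by
  unfold igyE2 igySig
  rw [map_sub, igy_coeff_ofNat_mul, PowerSeries.coeff_one, PowerSeries.coeff_mk]
  simp

theorem igy_coeff_igyE2M_mul (M : ℕ) [NeZero M] (m : ℕ) :
    PowerSeries.coeff (M * m) (igyE2M M) = PowerSeries.coeff m igyE2 := by
  have hM : 0 < M := Nat.pos_of_ne_zero (NeZero.ne M)
  rw [igy_coeff_igyE2]
  unfold igyE2M
  rw [PowerSeries.coeff_mk, Nat.mul_div_cancel_left m hM]
  have h0 : M * m = 0 ↔ m = 0 := by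
    constructor
    · intro h
      rcases Nat.mul_eq_zero.1 h with h | h
      · omega
      · exact h
    · rintro rfl
      simp
  by_cases hm : m = 0
  · subst hm
    simp
  · have h1 : M * m ≠ 0 := fun h => hm (h0.1 h)
    simp [hm, h1]

theorem igy_coeff_igyE2M_of_not_dvd (M : ℕ) {n : ℕ} (hn : ¬ M ∣ n) :
    PowerSeries.coeff n (igyE2M M) = 0 := by
  unfold igyE2M
  rw [PowerSeries.coeff_mk]
  have h0 : n ≠ 0 := by
    rintro rfl
    exact hn (dvd_zero M)
  simp [h0, hn]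

/-! ### the series `W_v` -/

section W

variable {K : Type*} [Field K]

/-- the constant term of `W_v`. -/
def igWConst (M : ℕ) (ζ : K) (r s : ZMod M) : K :=
  if r = 0 then ζ ^ s.val / (1 - ζ ^ s.val) ^ 2 else 0

/-- the coefficients of `W_v = (wp_v - E₂(q^M)) / 12`. -/
def igWCoeff (M : ℕ) (ζ : K) (r s : ZMod M) (n : ℕ) : K :=
  (if n = 0 then igWConst M ζ r s else 0) + ∑ d ∈ n.divisors, igTerm M ζ r s n d

/-- `W_v` as a power series in `q`. -/
def igW (M : ℕ) (ζ : K) (r s : ZMod M) : PowerSeries K := PowerSeries.mk (igWCoeff M ζ r s)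

@[simp] theorem coeff_igW (M : ℕ) (ζ : K) (r s : ZMod M) (n : ℕ) :
    PowerSeries.coeff n (igW M ζ r s) = igWCoeff M ζ r s n := by
  simp [igW]

theorem igCoeff_eq_igWCoeff (M : ℕ) (ζ : K) (r s : ZMod M) (n : ℕ) :
    igCoeff M ζ r s n
      = ((PowerSeries.coeff n (igyE2M M) : ℤ) : K) + 12 * igWCoeff M ζ r s n := by
  unfold igCoeff igWCoeff igConst igWConst igyE2M
  rw [PowerSeries.coeff_mk]
  by_cases hn : n = 0
  · subst hn
    by_cases hr : r = 0
    · simp [hr]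
    · simp [hr]
  · by_cases hM : M ∣ n
    · simp [hn, hM]
    · simp [hn, hM]

theorem igX_eq_igW (M : ℕ) (ζ : K) (r s : ZMod M) :
    igX M ζ r s = (igyE2M M).map (Int.castRingHom K) + PowerSeries.C (12 : K) * igW M ζ r s := by
  ext n
  rw [coeff_igX, map_add, PowerSeries.coeff_map, PowerSeries.coeff_C_mul, coeff_igW,
    igCoeff_eq_igWCoeff]
  rfl

end W

/-! ### the identity `igY v = igE · W_v + ((E₄ / Δ) R)(q^M)` -/

section identity

variable {K : Type*} [Field K] [Algebra ℚ K]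

variable (K) in
theorem igy_ofPowerSeries_igyE2M (M : ℕ) [NeZero M] :
    HahnSeries.ofPowerSeries ℤ K ((igyE2M M).map (Int.castRingHom K))
      = coeffEmb K (qExpand ℚ M
          (HahnSeries.ofPowerSeries ℤ ℚ (igyE2.map (Int.castRingHom ℚ)))) := by
  ext k
  rw [coeffEmb_coeff, PowerSeries.coeff_coe]
  have hM : (0 : ℤ) < M := by exact_mod_cast Nat.pos_of_ne_zero (NeZero.ne M)
  by_cases hk : (M : ℤ) ∣ k
  · obtain ⟨m, rfl⟩ := hk
    rw [qExpand_coeff_mul, PowerSeries.coeff_coe]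
    by_cases hm : m < 0
    · have h2 : (M : ℤ) * m < 0 := mul_neg_of_pos_of_neg hM hm
      rw [if_pos h2, if_pos hm, map_zero]
    · have hm' : 0 ≤ m := not_lt.1 hm
      have h2 : ¬ (M : ℤ) * m < 0 := not_lt.2 (mul_nonneg hM.le hm')
      rw [if_neg h2, if_neg hm]
      obtain ⟨m', rfl⟩ := Int.eq_ofNat_of_zero_le hm'
      have h3 : ((M : ℤ) * (m' : ℤ)).natAbs = M * m' := by
        rw [← Nat.cast_mul, Int.natAbs_natCast]
      rw [h3, Int.natAbs_natCast, PowerSeries.coeff_map, PowerSeries.coeff_map,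
        igy_coeff_igyE2M_mul]
      simp
  · rw [qExpand_coeff_of_not_dvd M _ hk, map_zero]
    split_ifs with h
    · rfl
    · rw [PowerSeries.coeff_map, igy_coeff_igyE2M_of_not_dvd, map_zero]
      intro hd
      apply hk
      have h4 : (k.natAbs : ℤ) = k := Int.natAbs_of_nonneg (not_lt.1 h)
      rw [← h4]
      exact Int.natCast_dvd_natCast.2 hd

/-- **the identity**: `(igF v - j(q^M)) / 12 = igE · W_v + ((E₄ / Δ) R)(q^M)`. -/
theorem igY_eq (M : ℕ) [NeZero M] (ζ : K) (r s : ZMod M) :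
    igY M ζ r s = igE K M * HahnSeries.ofPowerSeries ℤ K (igW M ζ r s)
      + coeffEmb K (qExpand ℚ M igyT) := by
  have _hc : CharZero K := algebraRat.charZero K
  have h12' : (12 : LaurentSeries K) = HahnSeries.C (12 : K) :=
    (map_ofNat (HahnSeries.C (Γ := ℤ) (R := K)) 12).symm
  have h1 : igE K M * HahnSeries.ofPowerSeries ℤ K ((igyE2M M).map (Int.castRingHom K))
      - coeffEmb K (qExpand ℚ M jq) = HahnSeries.C (12 : K) * coeffEmb K (qExpand ℚ M igyT) := by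
    rw [igy_ofPowerSeries_igyE2M]
    unfold igE
    rw [← map_mul, ← map_mul, ← map_sub, ← map_sub, igy_T, map_mul, map_mul, map_ofNat,
      map_ofNat, h12']
  have hC : HahnSeries.ofPowerSeries ℤ K (PowerSeries.C (12 : K)) = HahnSeries.C (12 : K) :=
    HahnSeries.ofPowerSeries_C 12
  have h12 : (HahnSeries.C (12⁻¹ : K) : LaurentSeries K) * HahnSeries.C (12 : K) = 1 := by
    rw [← map_mul, inv_mul_cancel₀ (by norm_num : (12 : K) ≠ 0), map_one]
  unfold igY igF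
  rw [igX_eq_igW, map_add, map_mul, hC]
  linear_combination (HahnSeries.C (12⁻¹ : K)) * h1
    + (igE K M * HahnSeries.ofPowerSeries ℤ K (igW M ζ r s)
        + coeffEmb K (qExpand ℚ M igyT)) * h12

theorem igY_sub (M : ℕ) [NeZero M] (ζ : K) (r s r' s' : ZMod M) :
    igY M ζ r s - igY M ζ r' s' = igE K M * (HahnSeries.ofPowerSeries ℤ K (igW M ζ r s)
      - HahnSeries.ofPowerSeries ℤ K (igW M ζ r' s')) := by
  rw [igY_eq, igY_eq]
  ring

end identity

/-! ### integrality -/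

section mem

variable {K : Type*} [Field K] (A : ValuationSubring K) {M : ℕ} [NeZero M] {ζ : K}

theorem igWConst_mem (hζ : IsPrimitiveRoot ζ M) (hM : A.valuation (M : K) = 1)
    {r s : ZMod M} (hv : ¬ (r = 0 ∧ s = 0)) : igWConst M ζ r s ∈ A := by
  unfold igWConst
  split_ifs with h
  · have hs : s ≠ 0 := fun hs => hv ⟨h, hs⟩
    exact A.mem_of_valuation_le_one _ (igu_val_frac A hζ hM hs).le
  · exact A.zero_mem

theorem igWCoeff_mem (hζ : IsPrimitiveRoot ζ M) (hM : A.valuation (M : K) = 1)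
    {r s : ZMod M} (hv : ¬ (r = 0 ∧ s = 0)) (n : ℕ) : igWCoeff M ζ r s n ∈ A := by
  unfold igWCoeff
  refine add_mem ?_ (sum_mem fun d _ => igTerm_mem A hζ.pow_eq_one r s n d)
  split_ifs
  · exact igWConst_mem A hζ hM hv
  · exact A.zero_mem

theorem igW_isIntK (hζ : IsPrimitiveRoot ζ M) (hM : A.valuation (M : K) = 1)
    {r s : ZMod M} (hv : ¬ (r = 0 ∧ s = 0)) :
    IsIntK A (HahnSeries.ofPowerSeries ℤ K (igW M ζ r s)) := by
  intro n
  have h : (HahnSeries.ofPowerSeries ℤ K (igW M ζ r s)).coeff n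
      = if n < 0 then 0 else PowerSeries.coeff n.natAbs (igW M ζ r s) :=
    PowerSeries.coeff_coe (igW M ζ r s) n
  rw [h]
  split_ifs
  · exact A.zero_mem
  · rw [coeff_igW]
    exact igWCoeff_mem A hζ hM hv _

theorem igyT_isIntK [Algebra ℚ K] (M : ℕ) [NeZero M] :
    IsIntK A (coeffEmb K (qExpand ℚ M igyT)) := fun n =>
  isIntQ_qExpand (A := A) M
    ((isIntQ_single_one A (-1)).mul (isIntQ_ofPowerSeries_intCast A _)) n

end mem

/-! ### distinctness -/

section distinct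

variable {K : Type*} [Field K] [Algebra ℚ K] (A : ValuationSubring K) {M : ℕ} [NeZero M] {ζ : K}

omit [Algebra ℚ K] [NeZero M] in
theorem igWCoeff_zero (r s : ZMod M) : igWCoeff M ζ r s 0 = igWConst M ζ r s := by
  unfold igWCoeff
  simp

omit [NeZero M] in
theorem igy_cancel {a b : K} (e : ℤ) (h : (e : K) + 12 * a = (e : K) + 12 * b) : a = b := by
  have _hc : CharZero K := algebraRat.charZero K
  have h2 : (12 : K) * a = 12 * b := add_left_cancel h
  exact mul_left_cancel₀ (by norm_num : (12 : K) ≠ 0) h2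

theorem igWCoeff_neg (hζ : ζ ^ M = 1) (r s : ZMod M) (n : ℕ) :
    igWCoeff M ζ (-r) (-s) n = igWCoeff M ζ r s n := by
  have h := igCoeff_neg hζ r s n
  rw [igCoeff_eq_igWCoeff, igCoeff_eq_igWCoeff] at h
  exact igy_cancel _ h

theorem igWCoeff_lead {r s : ZMod M} {n : ℕ} (hn : 0 < n) (hnr : n ≤ r.val)
    (hr : 2 * r.val ≤ M) :
    igWCoeff M ζ r s n = (if r.val = n then
      (if 2 * n = M then ζ ^ s.val + ζ ^ (-s).val else ζ ^ s.val) else 0) := by
  have h := igCoeff_lead (ζ := ζ) (s := s) hn hnr hr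
  rw [igCoeff_eq_igWCoeff] at h
  have hrM : r.val < M := ZMod.val_lt r
  have hnM : ¬ M ∣ n := fun h => by
    have := Nat.le_of_dvd hn h
    omega
  rw [igy_coeff_igyE2M_of_not_dvd M hnM] at h
  have h2 : ((0 : ℤ) : K) + 12 * igWCoeff M ζ r s n = ((0 : ℤ) : K) + 12 * (if r.val = n then
      (if 2 * n = M then ζ ^ s.val + ζ ^ (-s).val else ζ ^ s.val) else 0) := by
    rw [h, Int.cast_zero, zero_add]
  exact igy_cancel _ h2

/-- distinctness, normalised case `r ≤ r' ≤ M / 2`. -/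
theorem igW_distinct_norm (hζ : IsPrimitiveRoot ζ M) (hM : A.valuation (M : K) = 1)
    {r s r' s' : ZMod M} (hv : ¬ (r = 0 ∧ s = 0)) (hv' : ¬ (r' = 0 ∧ s' = 0))
    (hr : 2 * r.val ≤ M) (hr' : 2 * r'.val ≤ M) (hle : r.val ≤ r'.val)
    (H : ∀ n, A.valuation (igWCoeff M ζ r s n - igWCoeff M ζ r' s' n) < 1) :
    (r = r' ∧ s = s') ∨ (r = -r' ∧ s = -s') := by
  have h1 : ζ ^ M = 1 := hζ.pow_eq_one
  by_cases hr0 : r = 0
  · -- the constant terms
    subst hr0
    have hs : s ≠ 0 := fun h => hv ⟨rfl, h⟩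
    have H0 := H 0
    rw [igWCoeff_zero, igWCoeff_zero] at H0
    by_cases hr0' : r' = 0
    · subst hr0'
      have hs' : s' ≠ 0 := fun h => hv' ⟨rfl, h⟩
      by_cases e1 : s = s'
      · exact Or.inl ⟨rfl, e1⟩
      by_cases e2 : s = -s'
      · exact Or.inr ⟨neg_zero.symm, e2⟩
      exfalso
      have e : igWConst M ζ 0 s - igWConst M ζ 0 s'
          = ζ ^ s.val / (1 - ζ ^ s.val) ^ 2 - ζ ^ s'.val / (1 - ζ ^ s'.val) ^ 2 := by
        unfold igWConst
        rw [if_pos rfl, if_pos rfl]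
      rw [e, igu_val_frac_sub A hζ hM hs hs' e1 e2] at H0
      exact lt_irrefl _ H0
    · exfalso
      have e : igWConst M ζ 0 s - igWConst M ζ r' s' = ζ ^ s.val / (1 - ζ ^ s.val) ^ 2 := by
        unfold igWConst
        rw [if_pos rfl, if_neg hr0', sub_zero]
      rw [e, igu_val_frac A hζ hM hs] at H0
      exact lt_irrefl _ H0
  · -- the coefficient of `q ^ r.val`
    have hpos : 0 < r.val := ig_val_pos hr0
    have Hn := H r.val
    rw [igWCoeff_lead hpos le_rfl hr, igWCoeff_lead hpos hle hr', if_pos rfl] at Hn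
    by_cases hrr : r'.val = r.val
    · have hrr' : r = r' := (ZMod.val_injective M hrr).symm
      rw [if_pos hrr] at Hn
      by_cases h2 : 2 * r.val = M
      · rw [if_pos h2, if_pos h2] at Hn
        by_cases e1 : s = s'
        · exact Or.inl ⟨hrr', e1⟩
        by_cases e2 : s = -s'
        · refine Or.inr ⟨?_, e2⟩
          rw [← hrr']
          apply ZMod.val_injective M
          rw [ig_val_neg hr0]
          omega
        exfalso
        rw [igu_val_trace_sub A hζ hM e1 e2] at Hn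
        exact lt_irrefl _ Hn
      · rw [if_neg h2, if_neg h2] at Hn
        by_cases e1 : s = s'
        · exact Or.inl ⟨hrr', e1⟩
        exfalso
        rw [igu_val_sub A hζ hM e1] at Hn
        exact lt_irrefl _ Hn
    · exfalso
      have h2 : 2 * r.val ≠ M := by omega
      rw [if_neg hrr, sub_zero, if_neg h2, igu_val_pow A h1] at Hn
      exact lt_irrefl _ Hn

/-- **distinctness of the `W_v`** modulo the maximal ideal of `A` (`M` a unit of `A`). -/
theorem igW_distinct (hζ : IsPrimitiveRoot ζ M) (hM : A.valuation (M : K) = 1)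
    {r s r' s' : ZMod M} (hv : ¬ (r = 0 ∧ s = 0)) (hv' : ¬ (r' = 0 ∧ s' = 0))
    (H : ∀ n, A.valuation (igWCoeff M ζ r s n - igWCoeff M ζ r' s' n) < 1) :
    (r = r' ∧ s = s') ∨ (r = -r' ∧ s = -s') := by
  have h1 : ζ ^ M = 1 := hζ.pow_eq_one
  obtain ⟨r₁, s₁, hn₁, h₁⟩ := ig_exists_norm r s
  obtain ⟨r₂, s₂, hn₂, h₂⟩ := ig_exists_norm r' s'
  have e₁ : ∀ n, igWCoeff M ζ r₁ s₁ n = igWCoeff M ζ r s n := by
    rcases h₁ with ⟨rfl, rfl⟩ | ⟨rfl, rfl⟩
    · intro n; rfl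
    · intro n; exact igWCoeff_neg h1 r s n
  have e₂ : ∀ n, igWCoeff M ζ r₂ s₂ n = igWCoeff M ζ r' s' n := by
    rcases h₂ with ⟨rfl, rfl⟩ | ⟨rfl, rfl⟩
    · intro n; rfl
    · intro n; exact igWCoeff_neg h1 r' s' n
  have hv₁ : ¬ (r₁ = 0 ∧ s₁ = 0) := by
    rcases h₁ with ⟨rfl, rfl⟩ | ⟨rfl, rfl⟩
    · exact hv
    · simpa using hv
  have hv₂ : ¬ (r₂ = 0 ∧ s₂ = 0) := by
    rcases h₂ with ⟨rfl, rfl⟩ | ⟨rfl, rfl⟩
    · exact hv'
    · simpa using hv'
  have key : (r₁ = r₂ ∧ s₁ = s₂) ∨ (r₁ = -r₂ ∧ s₁ = -s₂) := by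
    rcases le_total r₁.val r₂.val with hle | hle
    · exact igW_distinct_norm A hζ hM hv₁ hv₂ hn₁ hn₂ hle
        (fun n => by rw [e₁, e₂]; exact H n)
    · have := igW_distinct_norm A hζ hM hv₂ hv₁ hn₂ hn₁ hle
        (fun n => by rw [e₂, e₁, ← Valuation.map_neg, neg_sub]; exact H n)
      rcases this with ⟨a, b⟩ | ⟨a, b⟩
      · exact Or.inl ⟨a.symm, b.symm⟩
      · exact Or.inr ⟨by rw [a, neg_neg], by rw [b, neg_neg]⟩
  rcases h₁ with ⟨rfl, rfl⟩ | ⟨rfl, rfl⟩ <;> rcases h₂ with ⟨rfl, rfl⟩ | ⟨rfl, rfl⟩ <;>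
    rcases key with ⟨a, b⟩ | ⟨a, b⟩
  · exact Or.inl ⟨a, b⟩
  · exact Or.inr ⟨a, b⟩
  · exact Or.inr ⟨a, b⟩
  · exact Or.inl ⟨by simpa using a, by simpa using b⟩
  · exact Or.inr ⟨neg_eq_iff_eq_neg.1 a, neg_eq_iff_eq_neg.1 b⟩
  · exact Or.inl ⟨neg_inj.1 a, neg_inj.1 b⟩
  · exact Or.inl ⟨neg_inj.1 a, neg_inj.1 b⟩
  · exact Or.inr ⟨neg_eq_iff_eq_neg.1 (by simpa using a), neg_eq_iff_eq_neg.1 (by simpa using b)⟩

end distinct

/-- **IG-Y**: `igY v = (igF v - j(q^M)) / 12` is `A`-integral, and `v ↦ igY v` is injective modulo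
`±` and modulo the maximal ideal of `A`, whenever `M` is a unit of `A`. -/
theorem igYStatement : IgYStatement := by
  intro K _ _ A M _ ζ hζ hM
  refine ⟨fun r s hv => ?_, fun r s r' s' hv hv' H => ?_⟩
  · rw [igY_eq]
    exact ((igE_isIntK A).mul (igW_isIntK A hζ hM hv)).add (igyT_isIntK A M)
  · have H' : ∀ n, A.valuation ((igY M ζ r s - igY M ζ r' s').coeff n) < 1 := H
    rw [igY_sub] at H'
    have hD : IsIntK A (HahnSeries.ofPowerSeries ℤ K (igW M ζ r s)
        - HahnSeries.ofPowerSeries ℤ K (igW M ζ r' s')) :=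
      (igW_isIntK A hζ hM hv).sub (igW_isIntK A hζ hM hv')
    have hG := ig_gauss A (igE_isIntK A) hD ⟨-(M : ℤ), by rw [igE_coeff_neg, map_one]⟩ H'
    refine igW_distinct A hζ hM hv hv' fun n => ?_
    have h := hG (n : ℤ)
    rw [HahnSeries.coeff_sub, HahnSeries.ofPowerSeries_apply_coeff,
      HahnSeries.ofPowerSeries_apply_coeff, coeff_igW, coeff_igW] at h
    exact h

end Fermat.Agent.S48WG
end
end MergeWrap_S48_W_G_Red_Igusa_DistY

section MergeWrap_S48_W_G_Red_Igusa_F1 -- from S48/W/G/Red/Igusa/F1.lean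

set_option autoImplicit false

noncomputable section

namespace Fermat.Agent.S48WG

open UpperHalfPlane ModularCurve IntermediateField
open Fermat.Agent.S24 Fermat.Agent.S48W Fermat.Agent.S48WA1 Fermat.Agent.S48WKron
open Fermat.Agent.GaussInt
open scoped MatrixGroups Real

/-! ### the vector `(1, 0) g⁻¹` -/

/-- the first entry of `(1, 0) γ`. -/
theorem igF1_actL (γ : SL(2, ℤ)) : actL γ 1 0 = γ 0 0 := by
  unfold actL
  ring

/-- the second entry of `(1, 0) γ`. -/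
theorem igF1_actR (γ : SL(2, ℤ)) : actR γ 1 0 = γ 0 1 := by
  unfold actR
  ring

/-- the first row of a matrix of determinant one is primitive. -/
theorem igF1_isNZ {M : ℕ} (hM : 2 ≤ M) (γ : SL(2, ℤ)) : IsNZ M (γ 0 0) (γ 0 1) := by
  rintro ⟨⟨a, ha⟩, ⟨b, hb⟩⟩
  have hdet : γ 0 0 * γ 1 1 - γ 0 1 * γ 1 0 = 1 := by
    have := γ.2
    rw [Matrix.det_fin_two] at this
    exact this
  have h1 : (M : ℤ) ∣ 1 :=
    ⟨a * γ 1 1 - b * γ 1 0, by linear_combination (-1 : ℤ) * hdet + γ 1 1 * ha - γ 1 0 * hb⟩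
  have h2 : (M : ℤ) ≤ 1 := Int.le_of_dvd one_pos h1
  omega

/-- `F_v` depends only on `v` modulo `M`. -/
theorem igF1_frickeFun_congr {M : ℕ} [NeZero M] {r s r' s' : ℤ}
    (hr : (r : ZMod M) = (r' : ZMod M)) (hs : (s : ZMod M) = (s' : ZMod M)) :
    frickeFun M r s = frickeFun M r' s' := by
  obtain ⟨k, hk⟩ : (M : ℤ) ∣ r' - r := by
    rw [← ZMod.intCast_zmod_eq_zero_iff_dvd, Int.cast_sub, hr, sub_self]
  obtain ⟨l, hl⟩ : (M : ℤ) ∣ s' - s := by
    rw [← ZMod.intCast_zmod_eq_zero_iff_dvd, Int.cast_sub, hs, sub_self]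
  have e1 : r' = r + M * k := by rw [← hk]; ring
  have e2 : s' = s + M * l := by rw [← hl]; ring
  rw [e1, e2, frickeFun_add]

/-- `F_{-v} = F_v`. -/
theorem igF1_frickeFun_neg (M : ℕ) (r s : ℤ) : frickeFun M (-r) (-s) = frickeFun M r s := by
  unfold frickeFun
  rw [xFun_neg]

/-- `F_v` depends only on `± v` modulo `M`. -/
theorem igF1_frickeFun_congr_neg {M : ℕ} [NeZero M] {r s r' s' : ℤ}
    (hr : (r : ZMod M) = -(r' : ZMod M)) (hs : (s : ZMod M) = -(s' : ZMod M)) :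
    frickeFun M r s = frickeFun M r' s' := by
  rw [← igF1_frickeFun_neg M r' s']
  exact igF1_frickeFun_congr (by rw [hr, Int.cast_neg]) (by rw [hs, Int.cast_neg])

/-! ### the translates of `y₁` -/

/-- `g • y₁ = (F_{(1,0) g⁻¹} - j) / 12`. -/
theorem igF1_smul_yOneFun (M : ℕ) [NeZero M] (g : SL(2, ℤ)) :
    g • yOneFun M
      = algebraMap Kbar Fun (12⁻¹ : Kbar) * (frickeFun M (g⁻¹ 0 0) (g⁻¹ 0 1) - jFun) := by
  have hc : g • (algebraMap Kbar Fun (12⁻¹ : Kbar)) = algebraMap Kbar Fun (12⁻¹ : Kbar) := by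
    ext τ
    simp
  unfold yOneFun
  rw [smul_mul', smul_sub, hc, jFun_smul, frickeSmul M 1 0 g, igF1_actL, igF1_actR]

/-- the expansion of `(F_v - j) / 12` is `igY M ζ v`. -/
theorem igF1_hasExp_aux (hFE : IgFExpStatement) (M : ℕ) [NeZero M] (ζ : Kbar)
    (hζ : iota ζ = Complex.exp (2 * π * Complex.I / M)) {r s : ℤ} (h : IsNZ M r s) :
    HasExp M (algebraMap Kbar Fun (12⁻¹ : Kbar) * (frickeFun M r s - jFun))
      (igY M ζ ((r : ℤ) : ZMod M) ((s : ℤ) : ZMod M)) := by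
  have h1 := HasExp.algebraMap M (12⁻¹ : Kbar)
  have h2 := (hFE M ζ hζ r s h).sub (Fermat.Agent.S24Inv.hasExp_jFun M)
  have h3 := h1.mul h2
  have e : igY M ζ ((r : ℤ) : ZMod M) ((s : ℤ) : ZMod M)
      = algebraMap Kbar (LaurentSeries Kbar) (12⁻¹ : Kbar)
        * (igF M ζ ((r : ℤ) : ZMod M) ((s : ℤ) : ZMod M)
          - qExpand Kbar M (jqModC Kbar)) := by
    unfold igY
    rw [coeffEmb_jqM_a1, HahnSeries.algebraMap_apply', ← HahnSeries.ofPowerSeries_C]
    rfl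
  rw [e]
  exact h3

/-- the expansion of `g • y₁` is `igY M ζ v`, `v = (1, 0) g⁻¹`. -/
theorem igF1_hasExp (hFE : IgFExpStatement) {M : ℕ} [NeZero M] (hM : 2 ≤ M) (ζ : Kbar)
    (hζ : iota ζ = Complex.exp (2 * π * Complex.I / M)) (g : SL(2, ℤ)) :
    HasExp M (g • yOneFun M)
      (igY M ζ ((g⁻¹ 0 0 : ℤ) : ZMod M) ((g⁻¹ 0 1 : ℤ) : ZMod M)) := by
  rw [igF1_smul_yOneFun]
  exact igF1_hasExp_aux hFE M ζ hζ (igF1_isNZ hM g⁻¹)

/-- `v ≢ 0` modulo `M`, in `ZMod M`. -/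
theorem igF1_ne_zero {M : ℕ} {r s : ℤ} (h : IsNZ M r s) :
    ¬ (((r : ℤ) : ZMod M) = 0 ∧ ((s : ℤ) : ZMod M) = 0) := by
  rintro ⟨h1, h2⟩
  exact h ⟨(ZMod.intCast_zmod_eq_zero_iff_dvd r M).1 h1,
    (ZMod.intCast_zmod_eq_zero_iff_dvd s M).1 h2⟩

/-- a primitive `M`-th root of unity in `ℚ̄`. -/
theorem igF1_isPrimitiveRoot {M : ℕ} [NeZero M] {ζ : Kbar}
    (hζ : iota ζ = Complex.exp (2 * π * Complex.I / M)) : IsPrimitiveRoot ζ M := by
  have h := Complex.isPrimitiveRoot_exp M (NeZero.ne M)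
  rw [← hζ] at h
  exact h.of_map_of_injective iota_injective

/-! ### IG-F1 -/

/-- **IG-F1**: `y₁ ∈ AHb M`, its translates have `A`-integral expansions, and different
translates have different reductions. -/
theorem igF1_of (hX : XExpStatement) (hFE : IgFExpStatement) (hY : IgYStatement) :
    IgF1Statement := by
  intro M _ hM
  obtain ⟨ζ, hζ⟩ := HasExp.exists_iota_eq_exp M
  have hprim : IsPrimitiveRoot ζ M := igF1_isPrimitiveRoot hζ
  refine ⟨⟨?_, ?_, fun γ => ⟨_, igF1_hasExp hFE hM ζ hζ γ⟩⟩, ?_⟩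
  · -- holomorphic
    have hNZ : IsNZ M 1 0 := by
      have := igF1_isNZ hM (1 : SL(2, ℤ))
      simpa using this
    exact (isHol_algebraMap _).mul
      (isHol_sub_a1 (a1_frickeHol_of hX M 1 0 hNZ) isHol_jFun)
  · -- invariant under `Γ(M)`
    intro γ hγ
    have hγ' : γ⁻¹ ∈ CongruenceSubgroup.Gamma M := inv_mem hγ
    rw [CongruenceSubgroup.Gamma_mem] at hγ'
    rw [igF1_smul_yOneFun]
    have e : frickeFun M (γ⁻¹ 0 0) (γ⁻¹ 0 1) = frickeFun M 1 0 :=
      igF1_frickeFun_congr (by rw [hγ'.1, Int.cast_one]) (by rw [hγ'.2.1, Int.cast_zero])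
    rw [e]
    rfl
  · intro p hp hpM A hA
    have hA' : A.valuation ((p : ℕ) : Kbar) < 1 := by
      exact A.mem_nonunits_iff.1 hA
    have hMu : A.valuation ((M : ℕ) : Kbar) = 1 := ig_val_natCast_eq_one A hp hA' hpM
    obtain ⟨hint, hdist⟩ := hY Kbar A M ζ hprim hMu
    refine ⟨fun g a ha => ?_, fun g g' a a' ha ha' hred => ?_⟩
    · have e : a = igY M ζ ((g⁻¹ 0 0 : ℤ) : ZMod M) ((g⁻¹ 0 1 : ℤ) : ZMod M) :=
        ha.unique (igF1_hasExp hFE hM ζ hζ g)
      have hv := igF1_ne_zero (igF1_isNZ hM g⁻¹)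
      have h := hint ((g⁻¹ 0 0 : ℤ) : ZMod M) ((g⁻¹ 0 1 : ℤ) : ZMod M) hv
      rw [e]
      exact h
    · have e : a = igY M ζ ((g⁻¹ 0 0 : ℤ) : ZMod M) ((g⁻¹ 0 1 : ℤ) : ZMod M) :=
        ha.unique (igF1_hasExp hFE hM ζ hζ g)
      have e' : a' = igY M ζ ((g'⁻¹ 0 0 : ℤ) : ZMod M) ((g'⁻¹ 0 1 : ℤ) : ZMod M) :=
        ha'.unique (igF1_hasExp hFE hM ζ hζ g')
      rw [e, e'] at hred
      have hF : frickeFun M (g⁻¹ 0 0) (g⁻¹ 0 1) = frickeFun M (g'⁻¹ 0 0) (g'⁻¹ 0 1) := by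
        rcases hdist _ _ _ _ (igF1_ne_zero (igF1_isNZ hM g⁻¹))
          (igF1_ne_zero (igF1_isNZ hM g'⁻¹)) hred with ⟨h1, h2⟩ | ⟨h1, h2⟩
        · exact igF1_frickeFun_congr h1 h2
        · exact igF1_frickeFun_congr_neg h1 h2
      rw [igF1_smul_yOneFun, igF1_smul_yOneFun, hF]

/-- **IG-F1**, unconditional. -/
theorem igF1 : IgF1Statement := igF1_of xExp igFExp igYStatement

end Fermat.Agent.S48WG
end
end MergeWrap_S48_W_G_Red_Igusa_F1

section MergeWrap_S48_W_G_Red_Igusa_Glue -- from S48/W/G/Red/Igusa/Glue.lean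

set_option autoImplicit false
set_option synthInstance.maxHeartbeats 400000

noncomputable section

namespace Fermat.Agent.S48WG

open IntermediateField ModularCurve Fermat.Agent.GaussInt Fermat.Agent.S24

section transfer

variable {k L : Type*} [Field k] [Field L] [Algebra k L]

/-- the base field `k(z) ⊆ L` against `k(z) ⊆ F` for `z ∈ F`. -/
def igGlueBaseEquiv (Fk : IntermediateField k L) {z : L} (hz : z ∈ Fk) :
    ↥(k⟮z⟯) ≃+* ↥(k⟮(⟨z, hz⟩ : ↥Fk)⟯) where
  toFun w := ⟨⟨w.1, (adjoin_simple_le_iff.mpr hz) w.2⟩, by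
    have hl : lift (k⟮(⟨z, hz⟩ : ↥Fk)⟯) = k⟮z⟯ := lift_adjoin_simple k Fk ⟨z, hz⟩
    have hw : (w : L) ∈ lift (k⟮(⟨z, hz⟩ : ↥Fk)⟯) := by
      rw [hl]
      exact w.2
    exact (mem_lift (⟨w.1, (adjoin_simple_le_iff.mpr hz) w.2⟩ : ↥Fk)).1 hw⟩
  invFun w := ⟨((w : ↥Fk) : L), by
    have hl : lift (k⟮(⟨z, hz⟩ : ↥Fk)⟯) = k⟮z⟯ := lift_adjoin_simple k Fk ⟨z, hz⟩
    rw [← hl]
    exact (mem_lift (w : ↥Fk)).2 w.2⟩
  left_inv _ := rfl
  right_inv _ := rfl
  map_mul' _ _ := rfl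
  map_add' _ _ := rfl

/-- the top field: `F` over `k(z) ⊆ L` against `F` over `k(z) ⊆ F`. -/
def igGlueTopEquiv (Fk : IntermediateField k L) {z : L} (hz : z ∈ Fk) :
    ↥(extendScalars (adjoin_simple_le_iff.mpr hz : k⟮z⟯ ≤ Fk)) ≃+* ↥Fk where
  toFun w := ⟨w.1, w.2⟩
  invFun w := ⟨w.1, w.2⟩
  left_inv _ := rfl
  right_inv _ := rfl
  map_mul' _ _ := rfl
  map_add' _ _ := rfl

theorem igGlue_compat (Fk : IntermediateField k L) {z : L} (hz : z ∈ Fk) :
    (algebraMap ↥(k⟮(⟨z, hz⟩ : ↥Fk)⟯) ↥Fk).comp (igGlueBaseEquiv Fk hz).toRingHom =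
      (igGlueTopEquiv Fk hz).toRingHom.comp
        (algebraMap ↥(k⟮z⟯) ↥(extendScalars (adjoin_simple_le_iff.mpr hz : k⟮z⟯ ≤ Fk))) := by
  ext w
  rfl

/-- **the squeeze**, generic form: if `F / k(z)` has degree `≤ n` and the subfield `k(z)(S) ⊆ F`
is separable of degree `≥ n` over `k(z)`, then `F / k(z)` is separable of degree `≥ n`. -/
theorem igGlue_squeeze (Fk : IntermediateField k L) {z : L} (hz : z ∈ Fk) (S : Set L)
    (hS : S ⊆ Fk) (n : ℕ)
    (hfin : FiniteDimensional ↥(k⟮(⟨z, hz⟩ : ↥Fk)⟯) ↥Fk)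
    (hle : Module.finrank ↥(k⟮(⟨z, hz⟩ : ↥Fk)⟯) ↥Fk ≤ n)
    (hsep : Algebra.IsSeparable ↥(k⟮z⟯) ↥(adjoin ↥(k⟮z⟯) S))
    (hn : n ≤ Module.finrank ↥(k⟮z⟯) ↥(adjoin ↥(k⟮z⟯) S)) :
    Algebra.IsSeparable ↥(k⟮(⟨z, hz⟩ : ↥Fk)⟯) ↥Fk ∧
      n ≤ Module.finrank ↥(k⟮(⟨z, hz⟩ : ↥Fk)⟯) ↥Fk := by
  have hE : k⟮z⟯ ≤ Fk := adjoin_simple_le_iff.mpr hz
  have hc := igGlue_compat Fk hz
  have hrk : Module.finrank ↥(k⟮z⟯) ↥(extendScalars hE) =
      Module.finrank ↥(k⟮(⟨z, hz⟩ : ↥Fk)⟯) ↥Fk :=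
    Algebra.finrank_eq_of_equiv_equiv (igGlueBaseEquiv Fk hz) (igGlueTopEquiv Fk hz) hc
  have hfin' : FiniteDimensional ↥(k⟮z⟯) ↥(extendScalars hE) := by
    refine Module.Finite.of_equiv_equiv (igGlueBaseEquiv Fk hz).symm (igGlueTopEquiv Fk hz).symm ?_
    ext w
    rfl
  have hRle : adjoin ↥(k⟮z⟯) S ≤ extendScalars hE := by
    rw [adjoin_le_iff]
    intro s hs
    exact hS hs
  have h1 : Module.finrank ↥(k⟮z⟯) ↥(adjoin ↥(k⟮z⟯) S) ≤
      Module.finrank ↥(k⟮z⟯) ↥(extendScalars hE) := finrank_le_of_le_right hRle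
  have heq : adjoin ↥(k⟮z⟯) S = extendScalars hE :=
    eq_of_le_of_finrank_le hRle (by omega)
  have hsep' : Algebra.IsSeparable ↥(k⟮z⟯) ↥(extendScalars hE) := by
    rw [← heq]
    exact hsep
  refine ⟨Algebra.IsSeparable.of_equiv_equiv (igGlueBaseEquiv Fk hz) (igGlueTopEquiv Fk hz) hc,
    by omega⟩

end transfer

section pole

variable {K : Type*} [Field K]

/-- a series with a pole and leading coefficient `1` is transcendental over the constants. -/
theorem igGlue_transcendental {J : LaurentSeries K} (hord : J.order < 0)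
    (hlead : J.leadingCoeff = 1) : Transcendental K J := by
  rw [transcendental_iff]
  intro P hP
  by_contra hP0
  have h := ig_coeff_aeval_natDegree hord hlead P
  rw [hP, HahnSeries.coeff_zero] at h
  exact hP0 (Polynomial.leadingCoeff_eq_zero.mp h.symm)

/-- an element of a subfield of `L` which is transcendental in `L` is transcendental. -/
theorem igGlue_transcendental_of_coe {k L : Type*} [Field k] [Field L] [Algebra k L]
    (E : IntermediateField k L) (y : E) (h : Transcendental k (y : L)) : Transcendental k y := by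
  intro halg
  apply h
  have := halg.algebraMap (A := L)
  exact this

variable (A : ValuationSubring K)

/-- the reduction of an integral series with leading coefficient `1` has the same order. -/
theorem igGlue_order_red {X : LaurentSeries A} (hlead : (emb A X).leadingCoeff = 1) :
    (red A X).order = (emb A X).order := by
  have hx0 : emb A X ≠ 0 := by
    intro h0
    rw [h0, HahnSeries.leadingCoeff_zero] at hlead
    exact zero_ne_one hlead
  have hc : (X.coeff (emb A X).order : K) = 1 := by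
    rw [← emb_coeff, ← HahnSeries.leadingCoeff_eq]
    exact hlead
  have hc1 : (red A X).coeff (emb A X).order = 1 := by
    rw [red_coeff]
    have : X.coeff (emb A X).order = 1 := Subtype.ext hc
    rw [this, map_one]
  have hne : (red A X).coeff (emb A X).order ≠ 0 := by
    rw [hc1]
    exact one_ne_zero
  refine le_antisymm (HahnSeries.order_le_of_coeff_ne_zero hne) ?_
  by_contra hlt
  rw [not_le] at hlt
  have hr0 : red A X ≠ 0 := by
    intro h0
    rw [h0, HahnSeries.coeff_zero] at hne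
    exact hne rfl
  have h1 : (red A X).coeff (red A X).order ≠ 0 := fun h => hr0 (HahnSeries.coeff_order_eq_zero.mp h)
  apply h1
  rw [red_coeff]
  have h2 : (emb A X).coeff (red A X).order = 0 := HahnSeries.coeff_eq_zero_of_lt_order hlt
  rw [emb_coeff] at h2
  have : X.coeff (red A X).order = 0 := Subtype.ext h2
  rw [this, map_zero]

theorem igGlue_leadingCoeff_red {X : LaurentSeries A} (hlead : (emb A X).leadingCoeff = 1) :
    (red A X).leadingCoeff = 1 := by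
  rw [HahnSeries.leadingCoeff_eq, igGlue_order_red A hlead, red_coeff]
  have hc : (X.coeff (emb A X).order : K) = 1 := by
    rw [← emb_coeff, ← HahnSeries.leadingCoeff_eq]
    exact hlead
  have : X.coeff (emb A X).order = 1 := Subtype.ext hc
  rw [this, map_one]

/-- the residue of an integral series does not depend on the field. -/
theorem igGlue_redSer_emb (X : LaurentSeries A) : redSer A (emb A X) = red A X :=
  gaussResFun_emb (F := (⊤ : IntermediateField K (LaurentSeries K))) (y := X)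
    IntermediateField.mem_top

theorem igGlue_redSer_eq (F : IntermediateField K (LaurentSeries K)) {f : LaurentSeries K}
    (hf : IsIntK A f) (hfF : f ∈ F) : redSer A f = gaussResFun A F f := by
  obtain ⟨X, rfl⟩ := isIntK_iff_mem_range.mp hf
  rw [igGlue_redSer_emb]
  exact (gaussResFun_emb hfF).symm

theorem igGlue_mem_gaussSub (F : IntermediateField K (LaurentSeries K)) {f : LaurentSeries K}
    (hf : IsIntK A f) (hfF : f ∈ F) : f ∈ gaussSub A F := by
  obtain ⟨X, rfl⟩ := isIntK_iff_mem_range.mp hf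
  exact emb_mem_gaussSub hfF

end pole

/-- **IG-GLUE**. -/
theorem igGlue : IgGlueStatement := by
  intro A F₀ ℓ hℓ hA hI x hx hxI hord hlead ι _ y hyF hyI n hfin hdeg hsep hfinR hn
  have hxF : x ∈ laurentBaseChange Kbar F₀ := mem_of_mem_gaussSub hx
  -- the residue of `x`
  have hredx : redSer A x = gaussResFun A (laurentBaseChange Kbar F₀) x :=
    igGlue_redSer_eq A _ hxI hxF
  have hz : redSer A x ∈ resField A F₀ := by
    rw [hredx]
    exact gaussResFun_mem_resField x hx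
  have hres : resElt hx = ⟨redSer A x, hz⟩ := Subtype.ext hredx.symm
  -- the pole of the residue
  obtain ⟨X, hX⟩ := isIntK_iff_mem_range.mp hxI
  have hX' : emb A X = x := hX
  have hlead' : (emb A X).leadingCoeff = 1 := by rw [hX']; exact hlead
  have hordb : (redSer A x).order < 0 := by
    rw [← hX', igGlue_redSer_emb, igGlue_order_red A hlead', hX']
    exact hord
  have hleadb : (redSer A x).leadingCoeff = 1 := by
    rw [← hX', igGlue_redSer_emb]
    exact igGlue_leadingCoeff_red A hlead'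
  -- transcendence
  have htr : Transcendental Kbar (barElt hx) :=
    igGlue_transcendental_of_coe _ (barElt hx) (igGlue_transcendental hord hlead)
  have htrb : Transcendental (IsLocalRing.ResidueField A) (resElt hx) := by
    rw [hres]
    exact igGlue_transcendental_of_coe _ _ (igGlue_transcendental hordb hleadb)
  -- the fundamental inequality
  have hfund := fund_of_barElt hx (redModel (redHyp hℓ hA hI) (resSurj A F₀) hx htrb) rfl rfl hfin
  -- the squeeze
  have hS : Set.range (fun i => redSer A (y i)) ⊆ (resField A F₀ :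
      Set (LaurentSeries (IsLocalRing.ResidueField A))) := by
    rintro _ ⟨i, rfl⟩
    show redSer A (y i) ∈ resField A F₀
    rw [igGlue_redSer_eq A _ (hyI i) (hyF i)]
    exact gaussResFun_mem_resField (y i) (igGlue_mem_gaussSub A _ (hyI i) (hyF i))
  have hfund' : FiniteDimensional
        ↥((IsLocalRing.ResidueField A)⟮(⟨redSer A x, hz⟩ : ↥(resField A F₀))⟯) ↥(resField A F₀) ∧
      Module.finrank
        ↥((IsLocalRing.ResidueField A)⟮(⟨redSer A x, hz⟩ : ↥(resField A F₀))⟯) ↥(resField A F₀) ≤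
        Module.finrank ↥(Kbar⟮barElt hx⟯) ↥(laurentBaseChange Kbar F₀) := by
    rw [← hres]
    exact hfund
  have hsq := igGlue_squeeze (resField A F₀) hz (Set.range (fun i => redSer A (y i))) hS n
    hfund'.1 (hfund'.2.trans hdeg) hsep hn
  rw [← hres] at hsq
  exact ⟨htr, hfin, htrb, hfund.1, hsq.1, hdeg.trans hsq.2⟩

end Fermat.Agent.S48WG
end
end MergeWrap_S48_W_G_Red_Igusa_Glue

section MergeWrap_S48_W_G_Red_Igusa_Emb -- from S48/W/G/Red/Igusa/Emb.lean

set_option autoImplicit false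
set_option linter.style.haveILetI false

noncomputable section

namespace Fermat.Agent.S48WG

open UpperHalfPlane ModularCurve IntermediateField
open Fermat.Agent.S24 Fermat.Agent.S48W Fermat.Agent.S48WA1 Fermat.Agent.S48WKron
open scoped MatrixGroups

/-- `coeffEmb` of `j(q^d)`. -/
theorem igEmb_coeffEmb_jqd (d : ℕ) [NeZero d] :
    coeffEmb Kbar (qExpand ℚ d jq) = qExpand Kbar d (jqModC Kbar) := by
  unfold coeffEmb
  rw [coeffMap_qExpand, ← jqModC_rat, coeffMap_jqModC]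

/-- `(S • j_{d'})(τ) = j(τ/d')` has the expansion `j(u^d)` in `u = e(τ/(d' d))`. -/
theorem igEmb_hasExp_S_smul_jd (M d d' : ℕ) [NeZero d] [NeZero d'] (h : d' * d = M) :
    HasExp M (ModularGroup.S • jd d') (qExpand Kbar d (jqModC Kbar)) := by
  subst h
  haveI : NeZero (d' * d) := ⟨mul_ne_zero (NeZero.ne d') (NeZero.ne d)⟩
  exact (hasExp_S_smul_jd d').qExpand d

/-- `S • j_{d'}` lies in the ambient ring, `d' ∣ M`. -/
theorem igEmb_isAHb_S_smul_jd (M d' : ℕ) [NeZero M] [NeZero d'] (h : d' ∣ M) :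
    IsAHb M (ModularGroup.S • jd d') :=
  AL_le_AHb M (smul_mem_AL M ModularGroup.S (jd_mem_AL h))

/-- the generators of `FOne M` are expansions of elements of `LHb M`. -/
theorem igGenInRange (M : ℕ) [NeZero M] :
    GenInRange (expLHb M) (AlgHom.id Kbar (LaurentSeries Kbar)) (genOne M) := by
  rintro g (⟨d, hd0, hd, rfl⟩ | ⟨a, ha, rfl⟩)
  · -- `j(q^d)`
    obtain ⟨d', hd'⟩ := hd
    have hd'0 : d' ≠ 0 := by
      rintro rfl
      rw [mul_zero] at hd'
      exact NeZero.ne M hd'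
    haveI : NeZero d' := ⟨hd'0⟩
    have hM : d' * d = M := by rw [hd', mul_comm]
    have h1 := igEmb_hasExp_S_smul_jd M d d' hM
    have h2 := igEmb_isAHb_S_smul_jd M d' (Dvd.intro _ hM)
    rw [AlgHom.id_apply, igEmb_coeffEmb_jqd]
    exact AlgHom.mem_fieldRange.mpr ⟨LHb.ofFun _ h2, expLHb_ofFun _ h2 h1⟩
  · -- `fricke M a`
    have hv0 : 0 < a.val := Nat.pos_of_ne_zero (fun h => ha ((ZMod.val_eq_zero a).mp h))
    have hvM : a.val < M := ZMod.val_lt a
    have hcast : (((a.val : ℕ) : ℤ) : ZMod M) = a := by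
      rw [Int.cast_natCast, ZMod.natCast_zmod_val]
    have hndvd : ¬ (M : ℤ) ∣ ((a.val : ℕ) : ℤ) := by
      intro h
      have := Int.natCast_dvd_natCast.mp h
      exact absurd (Nat.le_of_dvd hv0 this) (not_le.mpr hvM)
    have h1 := (frickeExp M).2 ((a.val : ℕ) : ℤ) (by exact_mod_cast hv0) (by exact_mod_cast hvM)
    rw [hcast] at h1
    have h2 := isAHb_frickeFun M ((a.val : ℕ) : ℤ) 0 (isNZ_zero_right hndvd)
    rw [AlgHom.id_apply]
    exact AlgHom.mem_fieldRange.mpr ⟨LHb.ofFun _ h2, expLHb_ofFun _ h2 h1⟩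

/-- **the embedding** of `ℚ̄ F₁(M)` in the ambient field `LHb M` (convention of hub A1). -/
def igEmb (M : ℕ) [NeZero M] : ↥(FOneBar M) →ₐ[Kbar] LHb M :=
  embAbs (e := expLHb M) (θ := AlgHom.id Kbar (LaurentSeries Kbar)) (G := genOne M)
    (igGenInRange M)

/-- `expLHb M (igEmb M y) = y`. -/
theorem expLHb_igEmb (M : ℕ) [NeZero M] (y : ↥(FOneBar M)) :
    expLHb M (igEmb M y) = (y : LaurentSeries Kbar) :=
  e_embAbs (e := expLHb M) (θ := AlgHom.id Kbar (LaurentSeries Kbar)) (G := genOne M)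
    (igGenInRange M) y

/-- `igEmb M y = z` iff the expansion of `z` is `y`. -/
theorem igEmb_eq_iff (M : ℕ) [NeZero M] (y : ↥(FOneBar M)) (z : LHb M) :
    igEmb M y = z ↔ expLHb M z = (y : LaurentSeries Kbar) := by
  constructor
  · rintro rfl
    exact expLHb_igEmb M y
  · intro h
    apply expLHb_injective M
    rw [expLHb_igEmb, h]

/-- the expansion of `j` is `j(u^M)`. -/
theorem igEmb_expLHb_jLHb (M : ℕ) [NeZero M] :
    expLHb M (jLHb M) = qExpand Kbar M (jqModC Kbar) := by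
  have h := igEmb_hasExp_S_smul_jd M M 1 (one_mul M)
  have hS : (ModularGroup.S • jd 1 : Fun) = jFun := by
    rw [EmbFHom.jd_one, jFun_smul]
  rw [hS] at h
  exact expLHb_ofFun jFun (jAHb M).2 h

/-- `igEmb M` maps `j(q^M)` to `j`. -/
theorem igEmb_x (M : ℕ) [NeZero M] (x : ↥(FOneBar M))
    (hx : (x : LaurentSeries Kbar) = qExpand Kbar M (jqModC Kbar)) : igEmb M x = jLHb M := by
  rw [igEmb_eq_iff, hx]
  exact igEmb_expLHb_jLHb M

/-- the value of `igEmb M` on `j(q^d)`, `d' d = M`. -/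
theorem igEmb_jqd (M d d' : ℕ) [NeZero M] [NeZero d] [NeZero d'] (h : d' * d = M)
    (y : ↥(FOneBar M)) (hy : (y : LaurentSeries Kbar) = qExpand Kbar d (jqModC Kbar)) :
    igEmb M y = LHb.ofFun (ModularGroup.S • jd d')
      (igEmb_isAHb_S_smul_jd M d' (Dvd.intro _ h)) := by
  rw [igEmb_eq_iff, hy]
  exact expLHb_ofFun _ _ (igEmb_hasExp_S_smul_jd M d d' h)

/-- the value of `igEmb M` on a Fricke function. -/
theorem igEmb_fricke (M : ℕ) [NeZero M] (a : ℤ) (ha : ¬ (M : ℤ) ∣ a)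
    (y : ↥(FOneBar M))
    (hy : (y : LaurentSeries Kbar) = coeffEmb Kbar (fricke M ((a : ℤ) : ZMod M))) :
    igEmb M y = LHb.ofFun (frickeFun M a 0) (isAHb_frickeFun M a 0 (isNZ_zero_right ha)) := by
  rw [igEmb_eq_iff, hy]
  -- reduce to the representative `a % M`
  have hr : 0 < a % (M : ℤ) ∧ a % (M : ℤ) < M := by
    have hM : (0 : ℤ) < M := by exact_mod_cast Nat.pos_of_ne_zero (NeZero.ne M)
    refine ⟨lt_of_le_of_ne (Int.emod_nonneg a hM.ne') ?_, Int.emod_lt_of_pos a hM⟩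
    intro h
    exact ha (Int.dvd_of_emod_eq_zero h.symm)
  have h1 := (frickeExp M).2 (a % (M : ℤ)) hr.1 hr.2
  have hc : (((a % (M : ℤ) : ℤ)) : ZMod M) = ((a : ℤ) : ZMod M) := by
    rw [ZMod.intCast_mod]
  rw [hc] at h1
  have hF : frickeFun M (a % (M : ℤ)) 0 = frickeFun M a 0 := by
    have h2 := frickeFun_add M a 0 (-(a / (M : ℤ))) 0
    have e1 : a + (M : ℤ) * -(a / (M : ℤ)) = a % (M : ℤ) := by
      have := Int.emod_add_mul_ediv a (M : ℤ)
      linarith
    rw [e1, mul_zero, add_zero] at h2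
    exact h2
  rw [hF] at h1
  exact expLHb_ofFun _ _ h1

end Fermat.Agent.S48WG
end
end MergeWrap_S48_W_G_Red_Igusa_Emb

section MergeWrap_S48_W_G_Red_Igusa_Deg0Core -- from S48/W/G/Red/Igusa/Deg0Core.lean

set_option autoImplicit false
set_option linter.style.haveILetI false
set_option synthInstance.maxHeartbeats 400000

noncomputable section

namespace Fermat.Agent.S48WG

open UpperHalfPlane ModularCurve IntermediateField
open Fermat.Agent.S24 Fermat.Agent.S48W Fermat.Agent.S48WA1 Fermat.Agent.S48WKron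
open scoped MatrixGroups

/-- (S) the stabiliser of `y₁` fixes the functions `F_{(a,0)}` and `S • j_d` (`d ∣ M`). -/
def IgDeg0StabStatement : Prop :=
  ∀ (M : ℕ) [NeZero M], 2 ≤ M → ∀ γ ∈ MulAction.stabilizer SL(2, ℤ) (yOneFun M),
    (∀ a : ℤ, γ • frickeFun M a 0 = frickeFun M a 0) ∧
      ∀ (d : ℕ) [NeZero d], d ∣ M → γ • (ModularGroup.S • jd d) = ModularGroup.S • jd d

/-- the fixer of the image of `igEmb M`. -/
def igFixer (M : ℕ) [NeZero M] : Subgroup SL(2, ℤ) where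
  carrier := {g | ∀ y : ↥(FOneBar M), g • igEmb M y = igEmb M y}
  one_mem' := fun y => one_smul _ _
  mul_mem' := fun {a b} ha hb y => by rw [mul_smul, hb y, ha y]
  inv_mem' := fun {a} ha y => by rw [inv_smul_eq_iff, ha y]

theorem mem_igFixer {M : ℕ} [NeZero M] (g : SL(2, ℤ)) :
    g ∈ igFixer M ↔ ∀ y : ↥(FOneBar M), g • igEmb M y = igEmb M y := Iff.rfl

theorem ofFun_congr_deg0 {M : ℕ} [NeZero M] {f f' : Fun} (hf : IsAHb M f) (hf' : IsAHb M f')
    (e : f = f') : LHb.ofFun f hf = LHb.ofFun f' hf' := by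
  subst e
  rfl

/-- `Γ(M)` fixes `y₁`. -/
theorem gamma_le_stabilizer_yOneFun (M : ℕ) [NeZero M] (hM : 2 ≤ M) :
    CongruenceSubgroup.Gamma M ≤ MulAction.stabilizer SL(2, ℤ) (yOneFun M) := by
  intro γ hγ
  rw [MulAction.mem_stabilizer_iff]
  have hNZ : IsNZ M 1 0 := by
    apply isNZ_zero_right
    intro h
    have h1 : (M : ℤ) ≤ 1 := Int.le_of_dvd one_pos h
    omega
  have hF := (isAHb_frickeFun M 1 0 hNZ).2.1 γ hγ
  have hc : γ • (algebraMap Kbar Fun (12⁻¹ : Kbar)) = algebraMap Kbar Fun (12⁻¹ : Kbar) := by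
    ext τ
    simp
  unfold yOneFun
  rw [smul_mul', smul_sub, hc, jFun_smul, hF]

/-- the stabiliser of `y₁` fixes the image of `igEmb M`. -/
theorem stabilizer_le_igFixer (hS : IgDeg0StabStatement) (M : ℕ) [NeZero M] (hM : 2 ≤ M) :
    MulAction.stabilizer SL(2, ℤ) (yOneFun M) ≤ igFixer M := by
  intro γ hγ
  obtain ⟨hSF, hSJ⟩ := hS M hM γ hγ
  rw [mem_igFixer]
  refine (smul_embAbs_iff (e := expLHb M) (θ := AlgHom.id Kbar (LaurentSeries Kbar))
    (G := genOne M) (igGenInRange M) γ).mpr ?_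
  rintro y ⟨g, (⟨d, hd0, hd, rfl⟩ | ⟨a, ha, rfl⟩), hy⟩
  · -- `j(q^d)`
    obtain ⟨d', hd'⟩ := hd
    have hd'0 : d' ≠ 0 := by
      rintro rfl
      rw [mul_zero] at hd'
      exact NeZero.ne M hd'
    haveI : NeZero d' := ⟨hd'0⟩
    have hM' : d' * d = M := by rw [hd', mul_comm]
    have h1 := igEmb_hasExp_S_smul_jd M d d' hM'
    have h2 := igEmb_isAHb_S_smul_jd M d' (Dvd.intro _ hM')
    rw [AlgHom.id_apply, igEmb_coeffEmb_jqd] at hy
    have hyeq : y = LHb.ofFun _ h2 := by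
      apply expLHb_injective M
      rw [hy, expLHb_ofFun _ h2 h1]
    rw [hyeq, LHb.smul_ofFun]
    exact ofFun_congr_deg0 _ _ (hSJ d' (Dvd.intro _ hM'))
  · -- `fricke M a`
    have hv0 : 0 < a.val := Nat.pos_of_ne_zero (fun h => ha ((ZMod.val_eq_zero a).mp h))
    have hvM : a.val < M := ZMod.val_lt a
    have hcast : (((a.val : ℕ) : ℤ) : ZMod M) = a := by
      rw [Int.cast_natCast, ZMod.natCast_zmod_val]
    have hndvd : ¬ (M : ℤ) ∣ ((a.val : ℕ) : ℤ) := by
      intro h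
      have := Int.natCast_dvd_natCast.mp h
      exact absurd (Nat.le_of_dvd hv0 this) (not_le.mpr hvM)
    have h1 := (frickeExp M).2 ((a.val : ℕ) : ℤ) (by exact_mod_cast hv0) (by exact_mod_cast hvM)
    rw [hcast] at h1
    have h2 := isAHb_frickeFun M ((a.val : ℕ) : ℤ) 0 (isNZ_zero_right hndvd)
    rw [AlgHom.id_apply] at hy
    have hyeq : y = LHb.ofFun _ h2 := by
      apply expLHb_injective M
      rw [hy, expLHb_ofFun _ h2 h1]
    rw [hyeq, LHb.smul_ofFun]
    exact ofFun_congr_deg0 _ _ (hSF _)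

/-- **Artin**: `[ℚ̄ F₁(M) : ℚ̄(x)] = [SL₂(ℤ) : igFixer M]`, `x = j(q^M)`. -/
theorem finrank_eq_index_igFixer (M : ℕ) [NeZero M] (x : ↥(FOneBar M))
    (hx : (x : LaurentSeries Kbar) = qExpand Kbar M (jqModC Kbar)) :
    FiniteDimensional ↥(Kbar⟮x⟯) ↥(FOneBar M) ∧
      Module.finrank ↥(Kbar⟮x⟯) ↥(FOneBar M) = (igFixer M).index := by
  letI : Algebra ↥(FOneBar M) (LHb M) := (igEmb M).toRingHom.toAlgebra
  haveI : IsScalarTower Kbar ↥(FOneBar M) (LHb M) :=
    IsScalarTower.of_algebraMap_eq (fun a => ((igEmb M).commutes a).symm)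
  have hmap : ∀ y : ↥(FOneBar M), algebraMap ↥(FOneBar M) (LHb M) y = igEmb M y := fun _ => rfl
  have hxj : algebraMap ↥(FOneBar M) (LHb M) x = jLHb M := by
    rw [hmap]
    exact igEmb_x M x hx
  refine Fermat.Agent.S24Gal.finrank_eq_index (Γ := SL(2, ℤ)) (L := LHb M) (K := Kbar)
    (F := ↥(FOneBar M)) x (exists_finiteIndex_fixing_LHb M) ?_ ?_ (igFixer M) ?_
  · intro g
    rw [hxj]
    exact smul_jLHb M g
  · intro z hz
    rw [hxj]
    exact mem_adjoin_jLHb_of_invariant M z hz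
  · intro g
    exact mem_igFixer g

/-- **IG-DEG0** from the stabiliser statement (S). -/
theorem igDeg0_of (hS : IgDeg0StabStatement) : IgDeg0Statement := by
  intro M _ hM x hx
  obtain ⟨hfd, hrank⟩ := finrank_eq_index_igFixer M x hx
  refine ⟨hfd, ?_⟩
  rw [hrank]
  have hle := stabilizer_le_igFixer hS M hM
  have hdvd := Subgroup.index_dvd_of_le hle
  have hfin : (MulAction.stabilizer SL(2, ℤ) (yOneFun M)).FiniteIndex :=
    Subgroup.finiteIndex_of_le (gamma_le_stabilizer_yOneFun M hM)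
  exact Nat.le_of_dvd (Nat.pos_of_ne_zero hfin.index_ne_zero) hdvd

end Fermat.Agent.S48WG
end
end MergeWrap_S48_W_G_Red_Igusa_Deg0Core

section MergeWrap_S48_W_G_Red_Igusa_Deg0Stab -- from S48/W/G/Red/Igusa/Deg0Stab.lean

set_option autoImplicit false

noncomputable section

namespace Fermat.Agent.S48WG

open UpperHalfPlane ModularCurve IntermediateField
open Fermat.Agent.S24 Fermat.Agent.S48W Fermat.Agent.S48WA1 Fermat.Agent.S48WKron
open Fermat.Agent.GaussInt
open scoped MatrixGroups Real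

/-- at the trivial valuation ring every nonzero element is a unit. -/
theorem igDeg0_val_top {K : Type*} [Field K] {x : K} (hx : x ≠ 0) :
    (⊤ : ValuationSubring K).valuation x = 1 := by
  apply le_antisymm
  · exact ((⊤ : ValuationSubring K).valuation_le_one_iff x).2 (ValuationSubring.mem_top x)
  · have h : (⊤ : ValuationSubring K).valuation x⁻¹ ≤ 1 :=
      ((⊤ : ValuationSubring K).valuation_le_one_iff x⁻¹).2 (ValuationSubring.mem_top _)
    rw [map_inv₀] at h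
    have h0 : (⊤ : ValuationSubring K).valuation x ≠ 0 := (Valuation.ne_zero_iff _).2 hx
    exact (inv_le_one₀ (zero_lt_iff.2 h0)).1 h

theorem igDeg0_inv_apply_zero_one (γ : SL(2, ℤ)) : (γ⁻¹ : SL(2, ℤ)) 0 1 = - γ 0 1 := by
  simp [Matrix.SpecialLinearGroup.SL2_inv_expl]

theorem igDeg0_conj_S_apply (γ : SL(2, ℤ)) :
    (ModularGroup.S⁻¹ * γ * ModularGroup.S : SL(2, ℤ)) 1 0 = - γ 0 1 := by
  have hS : (ModularGroup.S : Matrix (Fin 2) (Fin 2) ℤ) = !![0, -1; 1, 0] := ModularGroup.coe_S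
  have hSi : ((ModularGroup.S⁻¹ : SL(2, ℤ)) : Matrix (Fin 2) (Fin 2) ℤ) = !![0, 1; -1, 0] := by
    ext i j
    fin_cases i <;> fin_cases j <;> simp [Matrix.SpecialLinearGroup.SL2_inv_expl]
  rw [Matrix.SpecialLinearGroup.coe_mul, Matrix.SpecialLinearGroup.coe_mul, hS, hSi]
  simp [Matrix.mul_apply, Fin.sum_univ_two, Matrix.vecMul, dotProduct]

/-- the first row of `γ⁻¹` is `± (1, 0)` modulo `M` for `γ` in the stabiliser of `y₁`. -/
theorem igDeg0_stab_row (M : ℕ) [NeZero M] (hM : 2 ≤ M) (γ : SL(2, ℤ))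
    (hγ : γ ∈ MulAction.stabilizer SL(2, ℤ) (yOneFun M)) :
    ((((γ⁻¹ : SL(2, ℤ)) 0 0 : ℤ) : ZMod M) = 1 ∧ (((γ⁻¹ : SL(2, ℤ)) 0 1 : ℤ) : ZMod M) = 0) ∨
    ((((γ⁻¹ : SL(2, ℤ)) 0 0 : ℤ) : ZMod M) = -1 ∧
      (((γ⁻¹ : SL(2, ℤ)) 0 1 : ℤ) : ZMod M) = 0) := by
  obtain ⟨ζ, hζ⟩ := HasExp.exists_iota_eq_exp M
  have hprim : IsPrimitiveRoot ζ M := igF1_isPrimitiveRoot hζ
  have h1 := igF1_hasExp igFExp hM ζ hζ γ
  have h2 := igF1_hasExp igFExp hM ζ hζ 1
  rw [MulAction.mem_stabilizer_iff.1 hγ] at h1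
  rw [one_smul] at h2
  have e := h1.unique h2
  have hM0 : ((M : ℕ) : Kbar) ≠ 0 := Nat.cast_ne_zero.2 (NeZero.ne M)
  obtain ⟨-, hdist⟩ := igYStatement Kbar (⊤ : ValuationSubring Kbar) M ζ hprim
    (igDeg0_val_top hM0)
  have hred : IsRedZero (⊤ : ValuationSubring Kbar)
      (igY M ζ (((γ⁻¹ : SL(2, ℤ)) 0 0 : ℤ) : ZMod M) (((γ⁻¹ : SL(2, ℤ)) 0 1 : ℤ) : ZMod M)
        - igY M ζ ((((1 : SL(2, ℤ))⁻¹ : SL(2, ℤ)) 0 0 : ℤ) : ZMod M)
            ((((1 : SL(2, ℤ))⁻¹ : SL(2, ℤ)) 0 1 : ℤ) : ZMod M)) := by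
    rw [e, sub_self]
    intro n
    rw [HahnSeries.coeff_zero, map_zero]
    exact zero_lt_one
  have h := hdist _ _ _ _ (igF1_ne_zero (igF1_isNZ hM γ⁻¹))
    (igF1_ne_zero (igF1_isNZ hM (1 : SL(2, ℤ))⁻¹)) hred
  have e00 : ((((1 : SL(2, ℤ))⁻¹ : SL(2, ℤ)) 0 0 : ℤ) : ZMod M) = 1 := by simp
  have e01 : ((((1 : SL(2, ℤ))⁻¹ : SL(2, ℤ)) 0 1 : ℤ) : ZMod M) = 0 := by simp
  rw [e00, e01, neg_zero] at h
  exact h

/-- the stabiliser of `y₁` fixes the Fricke functions `F_{(a,0)}`. -/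
theorem igDeg0_stab_fricke (M : ℕ) [NeZero M] (hM : 2 ≤ M) (γ : SL(2, ℤ))
    (hγ : γ ∈ MulAction.stabilizer SL(2, ℤ) (yOneFun M)) (a : ℤ) :
    γ • frickeFun M a 0 = frickeFun M a 0 := by
  rw [frickeSmul M a 0 γ]
  have hL : actL γ⁻¹ a 0 = a * (γ⁻¹ : SL(2, ℤ)) 0 0 := by
    unfold actL
    ring
  have hR : actR γ⁻¹ a 0 = a * (γ⁻¹ : SL(2, ℤ)) 0 1 := by
    unfold actR
    ring
  rw [hL, hR]
  rcases igDeg0_stab_row M hM γ hγ with ⟨h1, h2⟩ | ⟨h1, h2⟩
  · apply igF1_frickeFun_congr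
    · rw [Int.cast_mul, h1, mul_one]
    · rw [Int.cast_mul, h2, mul_zero, Int.cast_zero]
  · apply igF1_frickeFun_congr_neg
    · rw [Int.cast_mul, h1, mul_neg, mul_one]
    · rw [Int.cast_mul, h2, mul_zero, Int.cast_zero, neg_zero]

/-- the stabiliser of `y₁` fixes `S • j_d` (whose expansion is `j(u^{M/d})`), `d ∣ M`. -/
theorem igDeg0_stab_jd (M : ℕ) [NeZero M] (hM : 2 ≤ M) (γ : SL(2, ℤ))
    (hγ : γ ∈ MulAction.stabilizer SL(2, ℤ) (yOneFun M)) (d : ℕ) [NeZero d] (hd : d ∣ M) :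
    γ • (ModularGroup.S • jd d) = ModularGroup.S • jd d := by
  have hb : (M : ℤ) ∣ γ 0 1 := by
    have h2 : ((((γ⁻¹ : SL(2, ℤ)) 0 1 : ℤ)) : ZMod M) = 0 := by
      rcases igDeg0_stab_row M hM γ hγ with ⟨-, h2⟩ | ⟨-, h2⟩ <;> exact h2
    rw [igDeg0_inv_apply_zero_one, Int.cast_neg, neg_eq_zero,
      ZMod.intCast_zmod_eq_zero_iff_dvd] at h2
    exact h2
  have hmem : ModularGroup.S⁻¹ * γ * ModularGroup.S ∈ CongruenceSubgroup.Gamma0 d := by
    apply EmbFStab.mem_Gamma0_of_dvd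
    rw [igDeg0_conj_S_apply]
    exact (dvd_neg.2 ((Int.natCast_dvd_natCast.2 hd).trans hb))
  have h := (smul_jd_eq_iff d _).2 hmem
  calc γ • (ModularGroup.S • jd d)
      = ModularGroup.S • ((ModularGroup.S⁻¹ * γ * ModularGroup.S) • jd d) := by
        rw [← mul_smul, ← mul_smul]
        congr 1
        group
    _ = ModularGroup.S • jd d := by rw [h]

end Fermat.Agent.S48WG
end
end MergeWrap_S48_W_G_Red_Igusa_Deg0Stab

section MergeWrap_S48_W_G_Red_Igusa_Deg0 -- from S48/W/G/Red/Igusa/Deg0.lean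

set_option autoImplicit false

noncomputable section

namespace Fermat.Agent.S48WG

open scoped MatrixGroups

/-- (S), unconditional (helper9). -/
theorem igDeg0Stab : IgDeg0StabStatement := fun M _ hM γ hγ =>
  ⟨fun a => igDeg0_stab_fricke M hM γ hγ a, fun d _ hd => igDeg0_stab_jd M hM γ hγ d hd⟩

/-- **IG-DEG0**. -/
theorem igDeg0 : IgDeg0Statement := igDeg0_of igDeg0Stab

end Fermat.Agent.S48WG
end
end MergeWrap_S48_W_G_Red_Igusa_Deg0

section MergeWrap_S48_W_G_Red_Igusa_Final -- from S48/W/G/Red/Igusa/Final.lean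

set_option autoImplicit false
set_option synthInstance.maxHeartbeats 400000

noncomputable section

namespace Fermat.Agent.S48WG

/-- **G-IGUSA** from the characteristic zero degree bound IG-DEG0. -/
theorem igusaOne_of_deg0 (hD : IgDeg0Statement) : IgusaOneStatement :=
  igusaOne_of igAbs igDatG igDatJ igB (igDatY igF1) hD igGlue

/-- **G-RED at `p ≥ 5`** from IG-DEG0. -/
theorem goodRedOneFive_of_deg0 (hD : IgDeg0Statement) (M : ℕ) [NeZero M] (hM : 2 ≤ M) :
    GoodRedOneFive M :=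
  gAsmFive (igusaOne_of_deg0 hD) branchOne M hM

/-- **G-IGUSA, UNCONDITIONAL**: `x = j(q^M)` is a base function of the Gauss ring of `ℚ̄ F₁(M)`
(`M ≥ 2`) at every place over a prime `p ∤ M` (including `p = 2, 3`). -/
theorem igusaOne : IgusaOneStatement := igusaOne_of_deg0 igDeg0

/-- **G-RED at `p ≥ 5`, UNCONDITIONAL**: the good reduction input `RedInput A (FOne M)` at every
place over a prime `p ≥ 5`, `p ∤ M` (`M ≥ 2`). -/
theorem goodRedOneFive (M : ℕ) [NeZero M] (hM : 2 ≤ M) : GoodRedOneFive M :=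
  goodRedOneFive_of_deg0 igDeg0 M hM

end Fermat.Agent.S48WG
end
end MergeWrap_S48_W_G_Red_Igusa_Final

section MergeWrap_S48_Wire6 -- from S48/Wire6.lean

/-!
# S48 (Deligne–Serre): the frontier is G-23 (helper22)

Block A is closed (`dictD3One_main`, helper78), G-IGUSA is closed (`igDeg0`, helper1;
`goodRedOneFive_of_deg0`, helper59), Kronecker is closed (`normProductOne`, helper37).
What is left is the good reduction input of `X₁(M)` at the primes `2` and `3`:

* `GoodRedTwoThree` : `RedInput A (FOne M)` at the places over `p = 3` when `4 ∣ M`, and at the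
  places over `p = 2` when `9 ∣ M` (`p ∤ M`);
* `goodRedOne_of_twoThree` : `GoodRedOne M` at the levels with `4 ∣ M` or `9 ∣ M`;
* `dsResult_of_twoThree : GoodRedTwoThree → [statement of S48]`.
-/

set_option autoImplicit false

open CongruenceSubgroup

namespace Fermat.Agent.S48

local notation "Γℚ" => (AlgebraicClosure ℚ ≃ₐ[ℚ] AlgebraicClosure ℚ)

/-- **(G-23)** the good reduction input of `X₁(M)` at `3` (if `4 ∣ M`) and at `2` (if `9 ∣ M`). -/
def GoodRedTwoThree : Prop :=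
  ∀ (M : ℕ) [NeZero M] (p : ℕ), p.Prime → ¬ p ∣ M →
    ((p = 3 ∧ 4 ∣ M) ∨ (p = 2 ∧ 9 ∣ M)) →
    ∀ A : ValuationSubring (AlgebraicClosure ℚ), A.LiesOverPrime p →
      Fermat.Agent.S48WG.RedInput A (Fermat.Agent.S48W.FOne M)

/-- (D3) for the Hecke correspondences (block A2-D3, closed). -/
theorem dictD3Primes_main (M : ℕ) [NeZero M] (hM : 5 ≤ M) :
    Fermat.Agent.S48WA.DictD3Primes M := fun p hpM =>
  haveI : NeZero (p : ℕ) := ⟨p.2.ne_zero⟩
  Fermat.Agent.S48WA2.dictD3One_main M (p : ℕ) (by omega) p.2 hpM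

/-- `GoodRedOne M` at the levels of the gluing, from the input at `2` and `3`. -/
theorem goodRedOne_of_twoThree (h : GoodRedTwoThree) (M : ℕ) [NeZero M]
    (h49 : 4 ∣ M ∨ 9 ∣ M) : Fermat.Agent.S48WG.GoodRedOne M := by
  intro p hp hpM A hA
  have hM0 : 0 < M := Nat.pos_of_ne_zero (NeZero.ne M)
  have hM2 : 2 ≤ M := by
    rcases h49 with h4 | h9
    · have := Nat.le_of_dvd hM0 h4; omega
    · have := Nat.le_of_dvd hM0 h9; omega
  rcases Nat.lt_or_ge p 5 with hlt | hge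
  · -- `p = 2` or `p = 3`
    have hp23 : p = 2 ∨ p = 3 := by
      have h2 := hp.two_le
      have h4 : p ≠ 4 := by
        rintro rfl
        exact absurd hp (by decide)
      omega
    rcases hp23 with rfl | rfl
    · -- `p = 2`: then `4 ∤ M`, so `9 ∣ M`
      rcases h49 with h4 | h9
      · exact absurd (Dvd.dvd.trans (by norm_num : (2 : ℕ) ∣ 4) h4) hpM
      · exact h M 2 hp hpM (Or.inr ⟨rfl, h9⟩) A hA
    · -- `p = 3`: then `9 ∤ M`, so `4 ∣ M`
      rcases h49 with h4 | h9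
      · exact h M 3 hp hpM (Or.inl ⟨rfl, h4⟩) A hA
      · exact absurd (Dvd.dvd.trans (by norm_num : (3 : ℕ) ∣ 9) h9) hpM
  · exact Fermat.Agent.S48WG.goodRedOneFive_of_deg0 Fermat.Agent.S48WG.igDeg0 M hM2 p hp hge hpM
      A hA

/-- **The statement of S48 from the good reduction input at `2` and `3`** (G-23). -/
theorem dsResult_of_twoThree (h : GoodRedTwoThree)
    (N : ℕ) [NeZero N] (ε : DirichletCharacter ℂ N) (f : CuspForm (Gamma1 N) 1)
    (hf₁ : ModularFormClass.qCoeff f 1 = 1)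
    (hT : ∀ p : ℕ, p.Prime → ¬ p ∣ N → ∀ n : ℕ,
        ModularFormClass.qCoeff f (p * n) +
            ε (p : ZMod N) * (if p ∣ n then ModularFormClass.qCoeff f (n / p) else 0) =
          ModularFormClass.qCoeff f p * ModularFormClass.qCoeff f n) :
    ∃ ρ : Γℚ →* GL (Fin 2) ℂ, GaloisFactorsThroughFiniteLevel ρ ∧
      (Deformation.matrixRepresentation ρ).IsIrreducible ∧
      ∀ p : ℕ, p.Prime → ¬ p ∣ N →
        ∀ A : ValuationSubring (AlgebraicClosure ℚ), A.LiesOverPrime p →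
          (∀ σ ∈ A.inertiaSubgroupIn ℚ, ρ σ = 1) ∧
          ∀ σ : Γℚ, A.IsFrobeniusAt σ p →
            ((ρ σ : GL (Fin 2) ℂ) : Matrix (Fin 2) (Fin 2) ℂ).trace = ModularFormClass.qCoeff f p ∧
            ((ρ σ : GL (Fin 2) ℂ) : Matrix (Fin 2) (Fin 2) ℂ).det = ε (p : ZMod N) :=
  dsResult_of_d3_goodRed (fun M _ hM => dictD3Primes_main M hM)
    (Fermat.Agent.S48WG.igusaOne_of_deg0 Fermat.Agent.S48WG.igDeg0)
    (fun M _ h49 => goodRedOne_of_twoThree h M h49) N ε f hf₁ hT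

end Fermat.Agent.S48
end MergeWrap_S48_Wire6

section MergeWrap_S48_W_G_Red_Branch_AmbValB -- from S48/W/G/Red/Branch/AmbValB.lean

set_option autoImplicit false

noncomputable section

namespace Fermat.Agent.S48WGVal

open UpperHalfPlane ModularGroup Fermat.Agent.S24 Fermat.Agent.S48WKron
open scoped MatrixGroups Manifold

/-! ### the order at a point of `ℍ` -/

/-- The valuation `exp (- ord_{τ₀})` of `AHb M`. -/
def valAHb (M : ℕ) [NeZero M] (τ₀ : ℍ) : Valuation (AHb M) (WithZero (Multiplicative ℤ)) where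
  toFun f := expNeg (ordAt τ₀ (f : Fun))
  map_zero' := by
    show expNeg (ordAt τ₀ (0 : Fun)) = 0
    rw [ordAt_zero, expNeg_top]
  map_one' := by
    show expNeg (ordAt τ₀ (1 : Fun)) = 1
    rw [ordAt_one, expNeg_zero]
  map_mul' f g := by
    show expNeg (ordAt τ₀ ((f : Fun) * (g : Fun))) = _
    rw [(isHol_of_mem_AHb f.2).ordAt_mul (isHol_of_mem_AHb g.2), expNeg_add]
  map_add_le_max' f g := by
    show expNeg (ordAt τ₀ ((f : Fun) + (g : Fun))) ≤ _
    exact expNeg_le_max_of_min_le (min_ordAt_le_add _ _ τ₀)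

theorem valAHb_apply (M : ℕ) [NeZero M] (τ₀ : ℍ) (f : AHb M) :
    valAHb M τ₀ f = expNeg (ordAt τ₀ (f : Fun)) := rfl

theorem valAHb_eq_zero_iff (M : ℕ) [NeZero M] (τ₀ : ℍ) (f : AHb M) : valAHb M τ₀ f = 0 ↔ f = 0 := by
  rw [valAHb_apply, expNeg_eq_zero_iff, (isHol_of_mem_AHb f.2).ordAt_eq_top_iff]
  exact ⟨fun h => Subtype.ext h, fun h => congrArg Subtype.val h⟩

theorem valAHb_smul (M : ℕ) [NeZero M] {τ₀ : ℍ} (γ : SL(2, ℤ)) (hγ : γ • τ₀ = τ₀) (f : AHb M) :
    valAHb M τ₀ (γ • f) = valAHb M τ₀ f := by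
  rw [valAHb_apply, valAHb_apply, AHb.coe_smul, (isHol_of_mem_AHb f.2).ordAt_smul γ hγ]

theorem valAHb_smul_eq (M : ℕ) [NeZero M] (γ : SL(2, ℤ)) (τ₀ : ℍ) (f : AHb M) :
    valAHb M τ₀ (γ • f) = valAHb M (γ⁻¹ • τ₀) f := by
  rw [valAHb_apply, valAHb_apply, AHb.coe_smul, Fermat.Agent.F3Places.ordAt_smul_eq (isHol_of_mem_AHb f.2) γ τ₀]

theorem nonZeroDivisors_le_valAHb_supp (M : ℕ) [NeZero M] (τ₀ : ℍ) :
    nonZeroDivisors (AHb M) ≤ (valAHb M τ₀).supp.primeCompl := by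
  intro f hf hmem
  rw [SetLike.mem_coe, Valuation.mem_supp_iff, valAHb_eq_zero_iff] at hmem
  exact nonZeroDivisors.ne_zero hf hmem

/-- **The valuation `exp (- ord_{τ₀})` of `LHb M`.** -/
def valLHb (M : ℕ) [NeZero M] (τ₀ : ℍ) : Valuation (LHb M) (WithZero (Multiplicative ℤ)) :=
  (valAHb M τ₀).extendToLocalization (nonZeroDivisors_le_valAHb_supp M τ₀) (LHb M)

@[simp] theorem valLHb_algebraMap (M : ℕ) [NeZero M] (τ₀ : ℍ) (f : AHb M) :
    valLHb M τ₀ (algebraMap (AHb M) (LHb M) f) = valAHb M τ₀ f :=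
  Valuation.extendToLocalization_apply_map_apply _ _ _ f

theorem valLHb_ofFun (M : ℕ) [NeZero M] (τ₀ : ℍ) (f : Fun) (hf : IsAHb M f) :
    valLHb M τ₀ (LHb.ofFun f hf) = expNeg (ordAt τ₀ f) :=
  valLHb_algebraMap M τ₀ ⟨f, hf⟩

theorem valLHb_smul (M : ℕ) [NeZero M] {τ₀ : ℍ} (γ : SL(2, ℤ)) (hγ : γ • τ₀ = τ₀) (x : LHb M) :
    valLHb M τ₀ (γ • x) = valLHb M τ₀ x := by
  obtain ⟨a, b, hb, rfl⟩ := IsFractionRing.div_surjective (A := AHb M) x
  rw [smul_div₀', LHb.smul_algebraMap, LHb.smul_algebraMap, map_div₀, map_div₀,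
    valLHb_algebraMap, valLHb_algebraMap, valLHb_algebraMap, valLHb_algebraMap,
    valAHb_smul M γ hγ, valAHb_smul M γ hγ]

/-- the valuations `valLHb M τ` are permuted by `SL(2,ℤ)`. -/
theorem valLHb_smul_eq (M : ℕ) [NeZero M] (γ : SL(2, ℤ)) (τ₀ : ℍ) (x : LHb M) :
    valLHb M τ₀ (γ • x) = valLHb M (γ⁻¹ • τ₀) x := by
  obtain ⟨a, b, hb, rfl⟩ := IsFractionRing.div_surjective (A := AHb M) x
  rw [smul_div₀', LHb.smul_algebraMap, LHb.smul_algebraMap, map_div₀, map_div₀,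
    valLHb_algebraMap, valLHb_algebraMap, valLHb_algebraMap, valLHb_algebraMap,
    valAHb_smul_eq M γ τ₀, valAHb_smul_eq M γ τ₀]

theorem valLHb_algebraMap_K (M : ℕ) [NeZero M] (τ₀ : ℍ) {a : Kbar} (ha : a ≠ 0) :
    valLHb M τ₀ (algebraMap Kbar (LHb M) a) = 1 := by
  rw [IsScalarTower.algebraMap_apply Kbar (AHb M) (LHb M), valLHb_algebraMap, valAHb_apply]
  show expNeg (ordAt τ₀ (algebraMap Kbar Fun a)) = 1
  rw [ordAt_algebraMap τ₀ ha, expNeg_zero]

/-- The valuation of `j - c` at `τ₀` from the analytic order. -/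
theorem valLHb_jLHb_sub (M : ℕ) [NeZero M] (τ₀ : ℍ) (c : Kbar) (k : ℕ)
    (h : analyticOrderAt (fun z : ℂ => jFun (ofComplex z) - iota c) (τ₀ : ℂ) = (k : ℕ∞)) :
    valLHb M τ₀ (jLHb M - algebraMap Kbar (LHb M) c) = WithZero.exp (-(k : ℤ)) := by
  have e : jLHb M - algebraMap Kbar (LHb M) c
      = algebraMap (AHb M) (LHb M) (jAHb M - algebraMap Kbar (AHb M) c) := by
    rw [map_sub, ← IsScalarTower.algebraMap_apply Kbar (AHb M) (LHb M)]
    rfl
  rw [e, valLHb_algebraMap, valAHb_apply]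
  have h' : ordAt τ₀ ((jAHb M - algebraMap Kbar (AHb M) c : AHb M) : Fun) = (k : ℕ∞) := h
  rw [h', expNeg_coe]

/-! ### the order at `∞` -/

/-- The order at `∞` as a valuation of `AHb M`. -/
def winfAHb (M : ℕ) [NeZero M] : Valuation (AHb M) (WithZero (Multiplicative ℤ)) :=
  (Valued.v : Valuation (LaurentSeries Kbar) (WithZero (Multiplicative ℤ))).comap
    (expAHb M).toRingHom

theorem winfAHb_apply (M : ℕ) [NeZero M] (f : AHb M) : winfAHb M f = Valued.v (expAHb M f) := rfl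

theorem winfAHb_eq_zero_iff (M : ℕ) [NeZero M] (f : AHb M) : winfAHb M f = 0 ↔ f = 0 := by
  rw [winfAHb_apply, Valuation.zero_iff]
  exact map_eq_zero_iff _ (expAHb_injective M)

theorem nonZeroDivisors_le_winfAHb_supp (M : ℕ) [NeZero M] :
    nonZeroDivisors (AHb M) ≤ (winfAHb M).supp.primeCompl := by
  intro f hf hmem
  rw [SetLike.mem_coe, Valuation.mem_supp_iff, winfAHb_eq_zero_iff] at hmem
  exact nonZeroDivisors.ne_zero hf hmem

theorem winfAHb_T_smul (M : ℕ) [NeZero M] (f : AHb M) :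
    winfAHb M (ModularGroup.T • f) = winfAHb M f := by
  obtain ⟨b, hb, ζ, hζ, hcoeff⟩ := (hasExp_expAHb f).T_smul
  have hb' : HasExp M ((ModularGroup.T • f : AHb M) : Fun) b := hb
  rw [winfAHb_apply, winfAHb_apply, expAHb_eq hb']
  have hζ0 : ζ ≠ 0 := by
    rintro rfl
    rw [map_zero] at hζ
    exact Complex.exp_ne_zero _ hζ.symm
  refine laurent_valuation_eq_of_coeff_iff fun n => ?_
  rw [hcoeff n]
  constructor
  · intro h
    exact (mul_eq_zero.mp h).resolve_left (zpow_ne_zero n (inv_ne_zero hζ0))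
  · intro h
    rw [h, mul_zero]

/-- **The order at `∞` (in `u = exp(2πiτ/M)`) as a valuation of `LHb M`.** -/
def winfHb (M : ℕ) [NeZero M] : Valuation (LHb M) (WithZero (Multiplicative ℤ)) :=
  (winfAHb M).extendToLocalization (nonZeroDivisors_le_winfAHb_supp M) (LHb M)

theorem winfHb_algebraMap (M : ℕ) [NeZero M] (f : AHb M) :
    winfHb M (algebraMap (AHb M) (LHb M) f) = winfAHb M f :=
  Valuation.extendToLocalization_apply_map_apply _ _ _ f

theorem winfHb_ofFun (M : ℕ) [NeZero M] (f : Fun) (hf : IsAHb M f) {a : LaurentSeries Kbar}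
    (h : HasExp M f a) : winfHb M (LHb.ofFun f hf) = Valued.v a := by
  unfold LHb.ofFun
  rw [winfHb_algebraMap, winfAHb_apply, expAHb_eq h]

/-- `winfHb` is the `u`-adic valuation of the expansion. -/
theorem winfHb_eq_valued_expLHb (M : ℕ) [NeZero M] (x : LHb M) :
    winfHb M x = Valued.v (expLHb M x) := by
  obtain ⟨a, b, hb, rfl⟩ := IsFractionRing.div_surjective (A := AHb M) x
  rw [map_div₀, map_div₀, winfHb_algebraMap, winfHb_algebraMap, expLHb_algebraMap,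
    expLHb_algebraMap, map_div₀, winfAHb_apply, winfAHb_apply]

theorem winfHb_T_smul (M : ℕ) [NeZero M] (x : LHb M) :
    winfHb M (ModularGroup.T • x) = winfHb M x := by
  obtain ⟨a, b, hb, rfl⟩ := IsFractionRing.div_surjective (A := AHb M) x
  rw [smul_div₀', LHb.smul_algebraMap, LHb.smul_algebraMap, map_div₀, map_div₀,
    winfHb_algebraMap, winfHb_algebraMap, winfHb_algebraMap, winfHb_algebraMap,
    winfAHb_T_smul, winfAHb_T_smul]

theorem winfHb_algebraMap_K (M : ℕ) [NeZero M] {a : Kbar} (ha : a ≠ 0) :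
    winfHb M (algebraMap Kbar (LHb M) a) = 1 := by
  rw [IsScalarTower.algebraMap_apply Kbar (AHb M) (LHb M), winfHb_algebraMap, winfAHb_apply,
    AlgHom.commutes]
  have h := laurent_valuation_eq_of_coeff (f := algebraMap Kbar (LaurentSeries Kbar) a) (D := 0)
    (by simpa [LaurentSeries.algebraMap_apply] using ha)
    (fun n hn => by
      rw [LaurentSeries.algebraMap_apply]
      show (HahnSeries.single (0 : ℤ) a).coeff n = 0
      exact HahnSeries.coeff_single_of_ne hn.ne)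
  simpa using h

theorem winfHb_jLHb (M : ℕ) [NeZero M] : winfHb M (jLHb M) = WithZero.exp (M : ℤ) := by
  rw [winfHb_eq_valued_expLHb, ← jdLHb_one, expLHb_jdLHb, ModularCurve.qExpand_congr (mul_one M),
    laurent_valuation_qExpand_jqModC]


/-! ### the embedding `LL M → LHb M` -/

theorem inclAHb_injective (M : ℕ) [NeZero M] : Function.Injective (inclAHb M) :=
  Subalgebra.inclusion_injective (AL_le_AHb M)

theorem inclAHb_smul (M : ℕ) [NeZero M] (γ : SL(2, ℤ)) (f : AL M) :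
    inclAHb M (γ • f) = γ • inclAHb M f := rfl

/-- `AL M → AHb M → LHb M`. -/
def embALb (M : ℕ) [NeZero M] : AL M →ₐ[Kbar] LHb M :=
  (IsScalarTower.toAlgHom Kbar (AHb M) (LHb M)).comp (inclAHb M)

theorem embALb_apply (M : ℕ) [NeZero M] (f : AL M) :
    embALb M f = algebraMap (AHb M) (LHb M) (inclAHb M f) := rfl

theorem embALb_injective (M : ℕ) [NeZero M] : Function.Injective (embALb M) :=
  (IsFractionRing.injective (AHb M) (LHb M)).comp (inclAHb_injective M)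

/-- **the field `LL M` of cluster A inside the ambient field `LHb M`.** -/
def embLLb (M : ℕ) [NeZero M] : LL M →ₐ[Kbar] LHb M :=
  IsFractionRing.liftAlgHom (embALb_injective M)

theorem embLLb_algebraMap (M : ℕ) [NeZero M] (f : AL M) :
    embLLb M (algebraMap (AL M) (LL M) f) = algebraMap (AHb M) (LHb M) (inclAHb M f) := by
  unfold embLLb
  rw [IsFractionRing.liftAlgHom_apply]
  exact IsFractionRing.lift_algebraMap _ _

theorem embLLb_injective (M : ℕ) [NeZero M] : Function.Injective (embLLb M) :=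
  (embLLb M).toRingHom.injective

theorem embLLb_smul (M : ℕ) [NeZero M] (γ : SL(2, ℤ)) (x : LL M) :
    embLLb M (γ • x) = γ • embLLb M x := by
  obtain ⟨a, b, -, rfl⟩ := IsFractionRing.div_surjective (A := AL M) x
  rw [smul_div₀', LL.smul_algebraMap, LL.smul_algebraMap, map_div₀, map_div₀, smul_div₀',
    embLLb_algebraMap, embLLb_algebraMap, embLLb_algebraMap, embLLb_algebraMap,
    LHb.smul_algebraMap, LHb.smul_algebraMap, inclAHb_smul, inclAHb_smul]

theorem embLLb_jLL (M : ℕ) [NeZero M] : embLLb M (jLL M) = jLHb M := by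
  unfold jLL
  rw [embLLb_algebraMap]
  rfl

/-- an element fixing `LHb M` pointwise fixes `LL M` pointwise. -/
theorem smul_eq_LL_of_smul_eq_LHb (M : ℕ) [NeZero M] (γ : SL(2, ℤ))
    (h : ∀ x : LHb M, γ • x = x) (x : LL M) : γ • x = x := by
  apply embLLb_injective M
  rw [embLLb_smul, h]

/-! ### the periods of `S`, `S * T`, `T` -/

/-- The subgroup of `SL(2,ℤ)` acting trivially on `LHb M`. -/
def fixerLHb (M : ℕ) [NeZero M] : Subgroup SL(2, ℤ) where
  carrier := {γ | ∀ x : LHb M, γ • x = x}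
  one_mem' x := one_smul _ x
  mul_mem' {a b} ha hb x := by rw [mul_smul, hb x, ha x]
  inv_mem' {a} ha x := by
    rw [inv_smul_eq_iff, ha x]

theorem mem_fixerLHb {M : ℕ} [NeZero M] {γ : SL(2, ℤ)} :
    γ ∈ fixerLHb M ↔ ∀ x : LHb M, γ • x = x := Iff.rfl

theorem fixerLHb_le_fixer (M : ℕ) [NeZero M] : fixerLHb M ≤ Periods.fixer M :=
  fun γ h => smul_eq_LL_of_smul_eq_LHb M γ h

/-- An element acting trivially on the upper half plane acts trivially on `LHb M`. -/
theorem mem_fixerLHbb_of_forall_smul (M : ℕ) [NeZero M] (γ : SL(2, ℤ)) (h : ∀ τ : ℍ, γ • τ = τ) :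
    γ ∈ fixerLHb M := by
  have hFun : ∀ f : Fun, γ • f = f := by
    intro f
    ext τ
    rw [Fun.sl_smul_apply]
    congr 1
    rw [inv_smul_eq_iff, h τ]
  have hAH : ∀ f : AHb M, γ • f = f := fun f => Subtype.ext (hFun f)
  intro x
  obtain ⟨a, b, -, rfl⟩ := IsFractionRing.div_surjective (A := AHb M) x
  rw [smul_div₀', LHb.smul_algebraMap, LHb.smul_algebraMap, hAH a, hAH b]

theorem S_sq_mem_fixerLHbb (M : ℕ) [NeZero M] : ModularGroup.S ^ 2 ∈ fixerLHb M := by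
  apply mem_fixerLHbb_of_forall_smul
  intro τ
  rw [pow_two, mul_smul, Periods.S_smul_S_smul]

theorem ST_cube_mem_fixerLHbb (M : ℕ) [NeZero M] :
    (ModularGroup.S * ModularGroup.T) ^ 3 ∈ fixerLHb M := by
  apply mem_fixerLHbb_of_forall_smul
  intro τ
  rw [Periods.ST_pow_three, ModularGroup.SL_neg_smul, one_smul]

theorem S_zpow_smul_eq_iff_LHb (M : ℕ) [NeZero M] (hM : 2 ≤ M) (k : ℤ) :
    (∀ x : LHb M, (ModularGroup.S ^ k) • x = x) ↔ (2 : ℤ) ∣ k :=
  Periods.zpow_mem_iff_of_prime (fixerLHb M) ModularGroup.S 2 Nat.prime_two (S_sq_mem_fixerLHbb M)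
    (fun h => Periods.S_not_mem_fixer M hM (fixerLHb_le_fixer M h)) k

theorem ST_zpow_smul_eq_iff_LHb (M : ℕ) [NeZero M] (hM : 2 ≤ M) (k : ℤ) :
    (∀ x : LHb M, ((ModularGroup.S * ModularGroup.T) ^ k) • x = x) ↔ (3 : ℤ) ∣ k :=
  Periods.zpow_mem_iff_of_prime (fixerLHb M) (ModularGroup.S * ModularGroup.T) 3 Nat.prime_three
    (ST_cube_mem_fixerLHbb M)
    (fun h => Periods.ST_not_mem_fixer M hM (fixerLHb_le_fixer M h)) k

theorem T_zpow_smul_eq_iff_LHb (M : ℕ) [NeZero M] (k : ℤ) :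
    (∀ x : LHb M, (ModularGroup.T ^ k) • x = x) ↔ (M : ℤ) ∣ k := by
  constructor
  · intro h
    exact (T_zpow_smul_eq_iff M k).mp (smul_eq_LL_of_smul_eq_LHb M _ h)
  · intro hk x
    apply Gamma_smul_eq_LHb M
    have := CongruenceSubgroup.ModularGroup_T_pow_mem_Gamma (M : ℤ) k hk
    simpa using this


/-! ### the local data -/

theorem coe_jAHb_sub_algebraMap (M : ℕ) [NeZero M] (c : Kbar) (τ : ℍ) :
    ((jAHb M - algebraMap Kbar (AHb M) c : AHb M) : Fun) τ = jFun τ - iota c := rfl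

/-- **(LD) for `LHb M`.**  The local datum above `j = c`. -/
theorem exists_local_datum_LHb (M : ℕ) [NeZero M] (hM : 2 ≤ M) (c : Kbar) :
    ∃ (w : Valuation (LHb M) (WithZero (Multiplicative ℤ))) (s : ℕ) (g : SL(2, ℤ)),
      (∀ a : Kbar, a ≠ 0 → w (algebraMap Kbar (LHb M) a) = 1) ∧ 0 < s ∧
      w (jLHb M - algebraMap Kbar (LHb M) c) = WithZero.exp (-(s : ℤ)) ∧
      (∀ x : LHb M, w (g • x) = w x) ∧
      (∀ k : ℤ, (∀ x : LHb M, (g ^ k) • x = x) ↔ (s : ℤ) ∣ k) ∧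
      (c = 1728 → g = ModularGroup.S ∧ s = 2) ∧
      (c = 0 → g = ModularGroup.S * ModularGroup.T ∧ s = 3) ∧
      (c ≠ 0 → c ≠ 1728 → s = 1 ∧ g = 1) := by
  have h1728 : (1728 : Kbar) ≠ 0 := by norm_num
  by_cases hc1 : c = 1728
  · -- the elliptic point `i`
    subst hc1
    refine ⟨valLHb M UpperHalfPlane.I, 2, ModularGroup.S,
      fun a ha => valLHb_algebraMap_K M _ ha, by norm_num, ?_,
      fun x => valLHb_smul M _ JLocal.S_smul_I' x, ?_, fun _ => ⟨rfl, rfl⟩,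
      fun h => absurd h h1728, fun _ h => absurd rfl h⟩
    · refine valLHb_jLHb_sub M _ _ 2 ?_
      rw [iota_ofNat_1728]
      exact JLocal.analyticOrderAt_jFun_I
    · intro k
      rw [S_zpow_smul_eq_iff_LHb M hM k]
      norm_num
  by_cases hc0 : c = 0
  · -- the elliptic point `ρ`
    subst hc0
    refine ⟨valLHb M UpperHalfPlane.ρ, 3, ModularGroup.S * ModularGroup.T,
      fun a ha => valLHb_algebraMap_K M _ ha, by norm_num, ?_,
      fun x => valLHb_smul M _ JLocal.ST_smul_rho x, ?_, fun h => absurd h hc1,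
      fun _ => ⟨rfl, rfl⟩, fun h _ => absurd rfl h⟩
    · refine valLHb_jLHb_sub M _ _ 3 ?_
      simp only [map_zero, sub_zero]
      exact JLocal.analyticOrderAt_jFun_rho
    · intro k
      rw [ST_zpow_smul_eq_iff_LHb M hM k]
      norm_num
  · -- a generic point
    obtain ⟨τ₀, hτ₀⟩ := JLocal.jFun_surjective (iota c)
    have h0 : jFun τ₀ ≠ 0 := by
      rw [hτ₀]
      exact (map_ne_zero iota).mpr hc0
    have h1 : jFun τ₀ ≠ 1728 := by
      rw [hτ₀, ← iota_ofNat_1728]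
      exact fun h => hc1 (iota.injective h)
    refine ⟨valLHb M τ₀, 1, 1, fun a ha => valLHb_algebraMap_K M _ ha, by norm_num, ?_,
      fun x => by rw [one_smul], ?_, fun h => absurd h hc1, fun h => absurd h hc0,
      fun _ _ => ⟨rfl, rfl⟩⟩
    · refine valLHb_jLHb_sub M _ _ 1 ?_
      rw [← hτ₀]
      exact_mod_cast JLocal.analyticOrderAt_jFun_sub τ₀ h0 h1
    · intro k
      simp

/-- **the datum at `∞` for `LHb M`.** -/
theorem exists_inf_datum_LHb (M : ℕ) [NeZero M] :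
    ∃ (winf : Valuation (LHb M) (WithZero (Multiplicative ℤ))),
      (∀ a : Kbar, a ≠ 0 → winf (algebraMap Kbar (LHb M) a) = 1) ∧
      winf (jLHb M) = WithZero.exp (M : ℤ) ∧
      (∀ x : LHb M, winf (ModularGroup.T • x) = winf x) ∧
      (∀ k : ℤ, (∀ x : LHb M, (ModularGroup.T ^ k) • x = x) ↔ (M : ℤ) ∣ k) :=
  ⟨winfHb M, fun _ ha => winfHb_algebraMap_K M ha, winfHb_jLHb M, winfHb_T_smul M,
    T_zpow_smul_eq_iff_LHb M⟩

/-! ### `j` is transcendental -/

/-- `j` is transcendental over `ℚ̄` in `LHb M` (it has a pole at `∞`). -/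
theorem transcendental_jLHb (M : ℕ) [NeZero M] : Transcendental Kbar (jLHb M) := by
  intro halg
  have hint : IsIntegral Kbar (jLHb M) := halg.isIntegral
  have hirr := minpoly.irreducible hint
  have hdeg := IsAlgClosed.degree_eq_one_of_irreducible Kbar hirr
  obtain ⟨c, hc⟩ := minpoly.mem_range_of_degree_eq_one Kbar (jLHb M) hdeg
  have h1 := winfHb_jLHb M
  rw [← hc] at h1
  by_cases h0 : c = 0
  · rw [h0, map_zero, map_zero] at h1
    exact WithZero.exp_ne_zero h1.symm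
  · rw [winfHb_algebraMap_K M h0, ← WithZero.exp_zero] at h1
    have h2 : (0 : ℤ) = (M : ℤ) := WithZero.exp_injective h1
    have h3 : M = 0 := by exact_mod_cast h2.symm
    exact NeZero.ne M h3

end Fermat.Agent.S48WGVal
end
end MergeWrap_S48_W_G_Red_Branch_AmbValB

section MergeWrap_S48_W_G_Red_Branch_Ell -- from S48/W/G/Red/Branch/Ell.lean

set_option autoImplicit false
set_option linter.style.haveILetI false

noncomputable section

namespace Fermat.Agent.S48WG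

open UpperHalfPlane AlgebraicCurve IntermediateField Fermat.Agent.S24 Fermat.Agent.S48WKron
open Fermat.Agent.GoodRedBranch
open scoped MatrixGroups

/-! ### orbit counts of an element acting freely on the cosets -/

section Orbits

variable (H : Subgroup SL(2, ℤ))

theorem br_smul_mk_ne (g : SL(2, ℤ)) (hfree : ∀ γ : SL(2, ℤ), γ⁻¹ * g * γ ∉ H)
    (y : SL(2, ℤ) ⧸ H) : g • y ≠ y := by
  obtain ⟨γ, rfl⟩ := QuotientGroup.mk_surjective y
  intro h
  have h1 : ((g * γ : SL(2, ℤ)) : SL(2, ℤ) ⧸ H) = (γ : SL(2, ℤ) ⧸ H) := h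
  rw [QuotientGroup.eq] at h1
  have h2 := H.inv_mem h1
  apply hfree γ
  have e : ((g * γ)⁻¹ * γ)⁻¹ = γ⁻¹ * g * γ := by group
  rwa [e] at h2

/-- `3 · #orbits(S T) = [SL₂(ℤ) : H]` if `S T` has no fixed coset. -/
theorem br_three_mul_orbCount [H.FiniteIndex] (hneg : (-1 : SL(2, ℤ)) ∈ H)
    (hfree : ∀ γ : SL(2, ℤ), γ⁻¹ * (ModularGroup.S * ModularGroup.T) * γ ∉ H) :
    3 * orbCount H (ModularGroup.S * ModularGroup.T) = H.index := by
  classical
  haveI : Finite (SL(2, ℤ) ⧸ H) := Subgroup.finite_quotient_of_finiteIndex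
  letI : Fintype (SL(2, ℤ) ⧸ H) := Fintype.ofFinite _
  have h := three_mul_card_orbits (X := SL(2, ℤ) ⧸ H) (ModularGroup.S * ModularGroup.T)
    (smul_ST_ST_ST H hneg)
  haveI : IsEmpty {y : SL(2, ℤ) ⧸ H // (ModularGroup.S * ModularGroup.T) • y = y} :=
    ⟨fun y => br_smul_mk_ne H _ hfree y.1 y.2⟩
  have hz : Fintype.card {y : SL(2, ℤ) ⧸ H // (ModularGroup.S * ModularGroup.T) • y = y} = 0 :=
    Fintype.card_eq_zero
  rw [hz, mul_zero, add_zero, ← Nat.card_eq_fintype_card] at h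
  exact h

/-- `2 · #orbits(S) = [SL₂(ℤ) : H]` if `S` has no fixed coset. -/
theorem br_two_mul_orbCount [H.FiniteIndex] (hneg : (-1 : SL(2, ℤ)) ∈ H)
    (hfree : ∀ γ : SL(2, ℤ), γ⁻¹ * ModularGroup.S * γ ∉ H) :
    2 * orbCount H ModularGroup.S = H.index := by
  classical
  haveI : Finite (SL(2, ℤ) ⧸ H) := Subgroup.finite_quotient_of_finiteIndex
  letI : Fintype (SL(2, ℤ) ⧸ H) := Fintype.ofFinite _
  have h := two_mul_card_orbits (X := SL(2, ℤ) ⧸ H) ModularGroup.S (smul_S_S H hneg)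
  haveI : IsEmpty {y : SL(2, ℤ) ⧸ H // ModularGroup.S • y = y} :=
    ⟨fun y => br_smul_mk_ne H _ hfree y.1 y.2⟩
  have hz : Fintype.card {y : SL(2, ℤ) ⧸ H // ModularGroup.S • y = y} = 0 :=
    Fintype.card_eq_zero
  rw [hz, add_zero, ← Nat.card_eq_fintype_card] at h
  exact h

end Orbits

/-! ### traces -/

section Trace

theorem br_trace_conj (g γ : SL(2, ℤ)) :
    Matrix.trace ((γ⁻¹ * g * γ : SL(2, ℤ)) : Matrix (Fin 2) (Fin 2) ℤ) =
      Matrix.trace (g : Matrix (Fin 2) (Fin 2) ℤ) := by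
  have h1 : ((γ⁻¹ * g * γ : SL(2, ℤ)) : Matrix (Fin 2) (Fin 2) ℤ) =
      (γ⁻¹ : SL(2, ℤ)).1 * (g.1 * γ.1) := by
    rw [mul_assoc]
    rfl
  rw [h1, Matrix.trace_mul_comm, mul_assoc]
  have h2 : γ.1 * (γ⁻¹ : SL(2, ℤ)).1 = 1 := by
    have := congrArg Subtype.val (mul_inv_cancel γ)
    exact this
  rw [h2, mul_one]

theorem br_trace_S : Matrix.trace ((ModularGroup.S : SL(2, ℤ)) : Matrix (Fin 2) (Fin 2) ℤ) = 0 := by
  simp [ModularGroup.S, Matrix.trace_fin_two]

theorem br_trace_ST :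
    Matrix.trace ((ModularGroup.S * ModularGroup.T : SL(2, ℤ)) : Matrix (Fin 2) (Fin 2) ℤ)
      = 1 := by
  rw [Matrix.SpecialLinearGroup.coe_mul, Matrix.trace_fin_two]
  simp [ModularGroup.S, ModularGroup.T, Matrix.mul_apply, Fin.sum_univ_two]

/-- every element of `H` has trace `≡ ± 2` modulo `M`. -/
def BrTracePM (M : ℕ) (H : Subgroup SL(2, ℤ)) : Prop :=
  ∀ g ∈ H, (M : ℤ) ∣ Matrix.trace (g : Matrix (Fin 2) (Fin 2) ℤ) - 2 ∨
    (M : ℤ) ∣ Matrix.trace (g : Matrix (Fin 2) (Fin 2) ℤ) + 2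

theorem br_free_S_of_trace {M : ℕ} (hM : 3 ≤ M) {H : Subgroup SL(2, ℤ)} (hH : BrTracePM M H)
    (γ : SL(2, ℤ)) : γ⁻¹ * ModularGroup.S * γ ∉ H := by
  intro h
  have h3 : (3 : ℤ) ≤ M := by exact_mod_cast hM
  rcases hH _ h with h1 | h1 <;> rw [br_trace_conj, br_trace_S] at h1
  · have := Int.le_of_dvd (by norm_num) ((dvd_neg (a := (M : ℤ)) (b := 2)).mp (by simpa using h1))
    omega
  · have := Int.le_of_dvd (by norm_num) (show (M : ℤ) ∣ 2 by simpa using h1)
    omega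

theorem br_free_ST_of_trace {M : ℕ} (hM : 4 ≤ M) {H : Subgroup SL(2, ℤ)} (hH : BrTracePM M H)
    (γ : SL(2, ℤ)) : γ⁻¹ * (ModularGroup.S * ModularGroup.T) * γ ∉ H := by
  intro h
  have h4 : (4 : ℤ) ≤ M := by exact_mod_cast hM
  rcases hH _ h with h1 | h1 <;> rw [br_trace_conj, br_trace_ST] at h1
  · have := Int.le_of_dvd (by norm_num) ((dvd_neg (a := (M : ℤ)) (b := 1)).mp (by
      have e : (1 : ℤ) - 2 = -1 := by norm_num
      rwa [e] at h1))
    omega
  · have := Int.le_of_dvd (by norm_num) (show (M : ℤ) ∣ 3 by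
      have e : (1 : ℤ) + 2 = 3 := by norm_num
      rwa [e] at h1)
    omega

end Trace

/-! ### the elliptic fibres -/

variable {F : Type} [Field F] [Algebra Kbar F] {M : ℕ} [NeZero M]

/-- `-1` acts trivially. -/
theorem br_neg_one_mem_brStab (φ : F →ₐ[Kbar] LHb M) :
    (-1 : SL(2, ℤ)) ∈ brStab (Γ := SL(2, ℤ)) φ := by
  intro y
  refine Fermat.Agent.S48WGVal.mem_fixerLHbb_of_forall_smul M (-1) (fun τ => ?_) (φ y)
  rw [ModularGroup.SL_neg_smul, one_smul]

theorem br_finiteIndex_brStab (φ : F →ₐ[Kbar] LHb M) :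
    (brStab (Γ := SL(2, ℤ)) φ).FiniteIndex := by
  obtain ⟨Γ', hΓ', h⟩ := exists_finiteIndex_fixing_LHb M
  exact Subgroup.finiteIndex_of_le (H := Γ') (fun g hg y => h g hg (φ y))

/-- `[F : ℚ̄(x)] = [SL₂(ℤ) : Stab(φ F)]`. -/
theorem br_finrank_eq_index (φ : F →ₐ[Kbar] LHb M) (x : F) (hφx : φ x = jLHb M) :
    Module.finrank Kbar⟮x⟯ F = (brStab (Γ := SL(2, ℤ)) φ).index :=
  (card_fibre_of_hom φ x (jLHb M) hφx (br_transcendental_jLHb M)
    (exists_finiteIndex_fixing_LHb M) (smul_jLHb M) (mem_adjoin_jLHb_of_invariant M)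
    (brStab (Γ := SL(2, ℤ)) φ) (fun _ => Iff.rfl)).1

/-- the fibre of `x` over `0` is the set of orbits of `S T` on the cosets of the stabiliser. -/
theorem br_card_zero_eq_orbCount (hM : 2 ≤ M) (φ : F →ₐ[Kbar] LHb M) (x : F)
    (hφx : φ x = jLHb M) :
    Nat.card {v : Place Kbar F // 0 < v.ord x} =
      orbCount (brStab (Γ := SL(2, ℤ)) φ) (ModularGroup.S * ModularGroup.T) := by
  obtain ⟨w, s, g, hwK, hs, hw, hg, hper, -, h0, -⟩ :=
    Fermat.Agent.S48WGVal.exists_local_datum_LHb M hM 0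
  obtain ⟨rfl, rfl⟩ := h0 rfl
  have h := ((card_fibre_of_hom φ x (jLHb M) hφx (br_transcendental_jLHb M)
    (exists_finiteIndex_fixing_LHb M) (smul_jLHb M) (mem_adjoin_jLHb_of_invariant M)
    (brStab (Γ := SL(2, ℤ)) φ) (fun _ => Iff.rfl)).2.1 0 w 3
      (ModularGroup.S * ModularGroup.T) hwK hs hw hg hper).1
  simpa using h

/-- the fibre of `x` over `1728` is the set of orbits of `S` on the cosets of the stabiliser. -/
theorem br_card_1728_eq_orbCount (hM : 2 ≤ M) (φ : F →ₐ[Kbar] LHb M) (x : F)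
    (hφx : φ x = jLHb M) :
    Nat.card {v : Place Kbar F // 0 < v.ord (x - algebraMap Kbar F 1728)} =
      orbCount (brStab (Γ := SL(2, ℤ)) φ) ModularGroup.S := by
  obtain ⟨w, s, g, hwK, hs, hw, hg, hper, h1, -, -⟩ :=
    Fermat.Agent.S48WGVal.exists_local_datum_LHb M hM 1728
  obtain ⟨rfl, rfl⟩ := h1 rfl
  exact ((card_fibre_of_hom φ x (jLHb M) hφx (br_transcendental_jLHb M)
    (exists_finiteIndex_fixing_LHb M) (smul_jLHb M) (mem_adjoin_jLHb_of_invariant M)
    (brStab (Γ := SL(2, ℤ)) φ) (fun _ => Iff.rfl)).2.1 1728 w 2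
      ModularGroup.S hwK hs hw hg hper).1

/-- **(ELL, places form)** if no conjugate of `S T`, `S` fixes `φ F`, then
`3 · #fibre(0) = 2 · #fibre(1728) = [F : ℚ̄(x)]`. -/
theorem br_ell_of_free (hM : 2 ≤ M) (φ : F →ₐ[Kbar] LHb M) (x : F) (hφx : φ x = jLHb M)
    (h3 : ∀ γ : SL(2, ℤ),
      γ⁻¹ * (ModularGroup.S * ModularGroup.T) * γ ∉ brStab (Γ := SL(2, ℤ)) φ)
    (h2 : ∀ γ : SL(2, ℤ), γ⁻¹ * ModularGroup.S * γ ∉ brStab (Γ := SL(2, ℤ)) φ) :
    3 * Nat.card {v : Place Kbar F // 0 < v.ord x} = Module.finrank Kbar⟮x⟯ F ∧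
    2 * Nat.card {v : Place Kbar F // 0 < v.ord (x - algebraMap Kbar F 1728)} =
      Module.finrank Kbar⟮x⟯ F := by
  haveI := br_finiteIndex_brStab φ
  rw [br_card_zero_eq_orbCount hM φ x hφx, br_card_1728_eq_orbCount hM φ x hφx,
    br_finrank_eq_index φ x hφx]
  exact ⟨br_three_mul_orbCount _ (br_neg_one_mem_brStab φ) h3,
    br_two_mul_orbCount _ (br_neg_one_mem_brStab φ) h2⟩

/-- **(ELL, places form)** if every element fixing `φ F` has trace `≡ ± 2` modulo `M ≥ 4`, then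
`3 · #fibre(0) = 2 · #fibre(1728) = [F : ℚ̄(x)]`. -/
theorem br_ell_of_trace (hM : 4 ≤ M) (φ : F →ₐ[Kbar] LHb M) (x : F) (hφx : φ x = jLHb M)
    (htr : BrTracePM M (brStab (Γ := SL(2, ℤ)) φ)) :
    3 * Nat.card {v : Place Kbar F // 0 < v.ord x} = Module.finrank Kbar⟮x⟯ F ∧
    2 * Nat.card {v : Place Kbar F // 0 < v.ord (x - algebraMap Kbar F 1728)} =
      Module.finrank Kbar⟮x⟯ F :=
  br_ell_of_free (by omega) φ x hφx (br_free_ST_of_trace hM htr)
    (br_free_S_of_trace (by omega) htr)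

/-- **(ELL, `fibreCard` form)**. -/
theorem br_ell_fibreCard_of_free (hM : 2 ≤ M) (φ : F →ₐ[Kbar] LHb M) (x : F)
    (hφx : φ x = jLHb M)
    (h3 : ∀ γ : SL(2, ℤ),
      γ⁻¹ * (ModularGroup.S * ModularGroup.T) * γ ∉ brStab (Γ := SL(2, ℤ)) φ)
    (h2 : ∀ γ : SL(2, ℤ), γ⁻¹ * ModularGroup.S * γ ∉ brStab (Γ := SL(2, ℤ)) φ) :
    3 * Fermat.Agent.GoodRed.fibreCard Kbar x 0 = Module.finrank Kbar⟮x⟯ F ∧
    2 * Fermat.Agent.GoodRed.fibreCard Kbar x 1728 = Module.finrank Kbar⟮x⟯ F := by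
  haveI := br_finiteDimensional_of_emb φ x hφx
  haveI := br_isSeparable_of_emb φ x hφx
  have hx := br_transcendental_of_emb φ x hφx
  rw [Fermat.Agent.GoodRed.fibreCard_eq_card_zeros hx 0,
    Fermat.Agent.GoodRed.fibreCard_eq_card_zeros hx 1728]
  have h := br_ell_of_free hM φ x hφx h3 h2
  simpa using h

/-- **(ELL, `fibreCard` form)**, from the traces. -/
theorem br_ell_fibreCard_of_trace (hM : 4 ≤ M) (φ : F →ₐ[Kbar] LHb M) (x : F)
    (hφx : φ x = jLHb M) (htr : BrTracePM M (brStab (Γ := SL(2, ℤ)) φ)) :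
    3 * Fermat.Agent.GoodRed.fibreCard Kbar x 0 = Module.finrank Kbar⟮x⟯ F ∧
    2 * Fermat.Agent.GoodRed.fibreCard Kbar x 1728 = Module.finrank Kbar⟮x⟯ F :=
  br_ell_fibreCard_of_free (by omega) φ x hφx (br_free_ST_of_trace hM htr)
    (br_free_S_of_trace (by omega) htr)

end Fermat.Agent.S48WG
end
end MergeWrap_S48_W_G_Red_Branch_Ell

section MergeWrap_S48_W_G_Red_Igusa_DistA1 -- from S48/W/G/Red/Igusa/DistA1.lean

set_option autoImplicit false

noncomputable section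

namespace Fermat.Agent.S48WG

open ModularCurve HahnSeries Fermat.Agent.S48W Fermat.Agent.GaussInt Fermat.Agent.S48WA1

local notation "Kb" => AlgebraicClosure ℚ

section zpow

variable {K : Type*} [Field K] {M : ℕ} [NeZero M] {ζ : K}

/-- `ζ ^ s` (integer power) is `ζ ^ (s mod M)`. -/
theorem ig_pow_val_intCast (hζ : ζ ^ M = 1) (s : ℤ) : ζ ^ ((s : ZMod M)).val = ζ ^ s := by
  have hζ0 : ζ ≠ 0 := by
    intro h
    rw [h, zero_pow (NeZero.ne M)] at hζ
    exact zero_ne_one hζ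
  have h1 : (((s : ZMod M).val : ℕ) : ℤ) = s % (M : ℤ) := ZMod.val_intCast s
  have h2 : s = s % (M : ℤ) + (M : ℤ) * (s / (M : ℤ)) := (Int.emod_add_mul_ediv s M).symm
  conv_rhs => rw [h2]
  rw [zpow_add₀ hζ0, zpow_mul, zpow_natCast, hζ, one_zpow, mul_one, ← h1, zpow_natCast]

theorem ig_pow_val_intCast_mul (hζ : ζ ^ M = 1) (s : ℤ) (m : ℕ) :
    ζ ^ ((s : ZMod M).val * m) = ζ ^ (s * (m : ℤ)) := by
  rw [pow_mul, ig_pow_val_intCast hζ, zpow_mul, zpow_natCast]

theorem ig_pow_val_neg_intCast_mul (hζ : ζ ^ M = 1) (s : ℤ) (m : ℕ) :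
    ζ ^ ((-(s : ZMod M)).val * m) = ζ ^ (-(s * (m : ℤ))) := by
  have h : (-(s : ZMod M)) = (((-s : ℤ)) : ZMod M) := by push_cast; rfl
  rw [h, ig_pow_val_intCast_mul hζ, neg_mul]

end zpow

section bridge

variable {M : ℕ} [NeZero M] {ζ : Kb}

omit [NeZero M] in
theorem ig_isNZ_iff (r s : ℤ) :
    IsNZ M r s ↔ ¬ ((r : ZMod M) = 0 ∧ (s : ZMod M) = 0) := by
  unfold IsNZ
  rw [ZMod.intCast_zmod_eq_zero_iff_dvd, ZMod.intCast_zmod_eq_zero_iff_dvd]

theorem xCoeff_eq_igCoeff (hζ : ζ ^ M = 1) (r s : ℤ) (n : ℕ) :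
    xCoeff M ζ r s n = igCoeff M ζ (r : ZMod M) (s : ZMod M) n := by
  unfold xCoeff igCoeff igTerm igConst
  simp only [ig_pow_val_intCast_mul hζ, ig_pow_val_neg_intCast_mul hζ, ig_pow_val_intCast hζ,
    ZMod.intCast_zmod_eq_zero_iff_dvd]
  congr 2
  by_cases hn : n = 0
  · rw [if_pos hn, if_pos hn]
    by_cases hr : (M : ℤ) ∣ r
    · rw [if_pos hr, if_pos hr]
    · rw [if_neg hr, if_neg hr, add_zero]
  · rw [if_neg hn, if_neg hn]

theorem mk_xCoeff_eq_igX (hζ : ζ ^ M = 1) (r s : ℤ) :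
    PowerSeries.mk (xCoeff M ζ r s) = igX M ζ (r : ZMod M) (s : ZMod M) := by
  ext n
  simp [xCoeff_eq_igCoeff hζ]

/-- the expansion of the Fricke function `frickeFun M r s` (`0 ≤ r < M`). -/
def xF (M : ℕ) [NeZero M] (ζ : Kb) (r s : ℤ) : LaurentSeries Kb :=
  igE Kb M * HahnSeries.ofPowerSeries ℤ Kb (PowerSeries.mk (xCoeff M ζ r s))

theorem xF_eq_igF (hζ : ζ ^ M = 1) (r s : ℤ) :
    xF M ζ r s = igF M ζ (r : ZMod M) (s : ZMod M) := by
  unfold xF igF
  rw [mk_xCoeff_eq_igX hζ]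

variable (A : ValuationSubring Kb)

theorem xF_isIntK (hζ : IsPrimitiveRoot ζ M) (hM : A.valuation (M : Kb) = 1)
    {r s : ℤ} (hv : IsNZ M r s) : IsIntK A (xF M ζ r s) := by
  rw [xF_eq_igF hζ.pow_eq_one]
  exact igF_isIntK A hζ hM ((ig_isNZ_iff r s).1 hv)

/-- **IG-DIST** in the variables of hub A1. -/
theorem xF_distinct (hζ : IsPrimitiveRoot ζ M) (hM : A.valuation (M : Kb) = 1)
    (h12 : A.valuation (12 : Kb) = 1) {r s r' s' : ℤ} (hv : IsNZ M r s) (hv' : IsNZ M r' s')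
    (H : ∀ n, A.valuation ((xF M ζ r s - xF M ζ r' s').coeff n) < 1) :
    ((M : ℤ) ∣ r - r' ∧ (M : ℤ) ∣ s - s') ∨ ((M : ℤ) ∣ r + r' ∧ (M : ℤ) ∣ s + s') := by
  rw [xF_eq_igF hζ.pow_eq_one, xF_eq_igF hζ.pow_eq_one] at H
  have h := igF_distinct A hζ hM h12 ((ig_isNZ_iff r s).1 hv) ((ig_isNZ_iff r' s').1 hv') H
  rcases h with ⟨h1, h2⟩ | ⟨h1, h2⟩
  · left
    constructor
    · rw [← ZMod.intCast_zmod_eq_zero_iff_dvd]
      push_cast
      rw [h1, sub_self]
    · rw [← ZMod.intCast_zmod_eq_zero_iff_dvd]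
      push_cast
      rw [h2, sub_self]
  · right
    constructor
    · rw [← ZMod.intCast_zmod_eq_zero_iff_dvd]
      push_cast
      rw [h1, neg_add_cancel]
    · rw [← ZMod.intCast_zmod_eq_zero_iff_dvd]
      push_cast
      rw [h2, neg_add_cancel]

theorem xF_distinct_of_prime {p : ℕ} (hp : p.Prime) (hp5 : 5 ≤ p) (hpM : ¬ p ∣ M)
    (hA : A.valuation (p : Kb) < 1) (hζ : IsPrimitiveRoot ζ M)
    {r s r' s' : ℤ} (hv : IsNZ M r s) (hv' : IsNZ M r' s')
    (H : ∀ n, A.valuation ((xF M ζ r s - xF M ζ r' s').coeff n) < 1) :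
    ((M : ℤ) ∣ r - r' ∧ (M : ℤ) ∣ s - s') ∨ ((M : ℤ) ∣ r + r' ∧ (M : ℤ) ∣ s + s') := by
  rw [xF_eq_igF hζ.pow_eq_one, xF_eq_igF hζ.pow_eq_one] at H
  have h := igF_distinct_of_prime A hp hp5 hpM hA hζ ((ig_isNZ_iff r s).1 hv)
    ((ig_isNZ_iff r' s').1 hv') H
  rcases h with ⟨h1, h2⟩ | ⟨h1, h2⟩
  · left
    constructor
    · rw [← ZMod.intCast_zmod_eq_zero_iff_dvd]
      push_cast
      rw [h1, sub_self]
    · rw [← ZMod.intCast_zmod_eq_zero_iff_dvd]
      push_cast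
      rw [h2, sub_self]
  · right
    constructor
    · rw [← ZMod.intCast_zmod_eq_zero_iff_dvd]
      push_cast
      rw [h1, neg_add_cancel]
    · rw [← ZMod.intCast_zmod_eq_zero_iff_dvd]
      push_cast
      rw [h2, neg_add_cancel]

end bridge

end Fermat.Agent.S48WG
end
end MergeWrap_S48_W_G_Red_Igusa_DistA1

section MergeWrap_S48_W_G_Red_Branch_EllTrace -- from S48/W/G/Red/Branch/EllTrace.lean

set_option autoImplicit false
set_option linter.style.haveILetI false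

noncomputable section

namespace Fermat.Agent.S48WG

open UpperHalfPlane AlgebraicCurve IntermediateField Fermat.Agent.S24 Fermat.Agent.S48WKron
open Fermat.Agent.S48W Fermat.Agent.S48WA1
open scoped MatrixGroups Real

/-! ### distinctness in characteristic `0` -/

theorem br_top_valuation_eq_one {K : Type*} [Field K] {x : K} (hx : x ≠ 0) :
    (⊤ : ValuationSubring K).valuation x = 1 := by
  have h1 : (⊤ : ValuationSubring K).valuation x ≤ 1 :=
    ((⊤ : ValuationSubring K).valuation_le_one_iff x).mpr (ValuationSubring.mem_top x)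
  have h2 : (⊤ : ValuationSubring K).valuation x⁻¹ ≤ 1 :=
    ((⊤ : ValuationSubring K).valuation_le_one_iff x⁻¹).mpr (ValuationSubring.mem_top _)
  rw [map_inv₀] at h2
  have h0 : (⊤ : ValuationSubring K).valuation x ≠ 0 := by
    rw [Valuation.ne_zero_iff]
    exact hx
  have h3 : 1 ≤ (⊤ : ValuationSubring K).valuation x := by
    have := (inv_le_one₀ (zero_lt_iff.mpr h0)).mp h2
    exact this
  exact le_antisymm h1 h3

/-- `igF v = igF v' ⟹ v = ± v'` over a field of characteristic `0`. -/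
theorem br_igF_injective {K : Type*} [Field K] [Algebra ℚ K] [CharZero K] {M : ℕ} [NeZero M]
    {ζ : K} (hζ : IsPrimitiveRoot ζ M) {r s r' s' : ZMod M} (hv : ¬ (r = 0 ∧ s = 0))
    (hv' : ¬ (r' = 0 ∧ s' = 0)) (h : igF M ζ r s = igF M ζ r' s') :
    (r = r' ∧ s = s') ∨ (r = -r' ∧ s = -s') := by
  refine igF_distinct (⊤ : ValuationSubring K) hζ
    (br_top_valuation_eq_one (Nat.cast_ne_zero.mpr (NeZero.ne M)))
    (br_top_valuation_eq_one (by norm_num)) hv hv' fun n => ?_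
  rw [h, sub_self, HahnSeries.coeff_zero, map_zero]
  exact zero_lt_one

theorem br_isPrimitiveRoot (M : ℕ) [NeZero M] (ζ : Kbar)
    (hζ : iota ζ = Complex.exp (2 * π * Complex.I / M)) : IsPrimitiveRoot ζ M := by
  have h := Complex.isPrimitiveRoot_exp M (NeZero.ne M)
  rw [← hζ] at h
  exact h.of_map_of_injective iota_injective

/-! ### matrices fixing `F_{(1,0)}` -/

theorem br_isNZ_one_zero {M : ℕ} (hM : 2 ≤ M) : IsNZ M 1 0 := by
  intro h
  have := Int.le_of_dvd one_pos h.1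
  omega

theorem br_actL_inv (g : SL(2, ℤ)) : actL g⁻¹ 1 0 = g 1 1 := by
  unfold actL
  rw [Matrix.SpecialLinearGroup.SL2_inv_expl]
  simp

theorem br_actR_inv (g : SL(2, ℤ)) : actR g⁻¹ 1 0 = -g 0 1 := by
  unfold actR
  rw [Matrix.SpecialLinearGroup.SL2_inv_expl]
  simp

/-- `g • F_{(1,0)} = F_{(1,0)} ⟹ (g₁₁, g₀₁) ≡ ± (1, 0)` modulo `M`. -/
theorem br_row_of_fix (M : ℕ) [NeZero M] (hM : 2 ≤ M) (g : SL(2, ℤ))
    (hg : g • frickeFun M 1 0 = frickeFun M 1 0) :
    (((g 1 1 : ℤ) : ZMod M) = 1 ∨ ((g 1 1 : ℤ) : ZMod M) = -1) ∧ ((g 0 1 : ℤ) : ZMod M) = 0 := by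
  obtain ⟨ζ, hζ⟩ := HasExp.exists_iota_eq_exp M
  have h1 := frickeSmul M 1 0 g
  rw [hg, br_actL_inv, br_actR_inv] at h1
  have hnz := br_isNZ_one_zero hM
  have hnz' : IsNZ M (g 1 1) (-g 0 1) := by
    have := isNZ_act hnz g⁻¹
    rwa [br_actL_inv, br_actR_inv] at this
  have e1 := igFExp M ζ hζ 1 0 hnz
  have e2 := igFExp M ζ hζ (g 1 1) (-g 0 1) hnz'
  rw [← h1] at e2
  have e := e1.unique e2
  have hv : ¬ ((((1 : ℤ) : ℤ) : ZMod M) = 0 ∧ (((0 : ℤ) : ℤ) : ZMod M) = 0) := by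
    rw [ig_isNZ_iff] at hnz
    exact hnz
  have hv' : ¬ ((((g 1 1 : ℤ) : ℤ) : ZMod M) = 0 ∧ (((-g 0 1 : ℤ) : ℤ) : ZMod M) = 0) := by
    rw [ig_isNZ_iff] at hnz'
    exact hnz'
  rcases br_igF_injective (br_isPrimitiveRoot M ζ hζ) hv hv' e with ⟨ha, hb⟩ | ⟨ha, hb⟩
  · refine ⟨Or.inl ?_, ?_⟩
    · rw [← ha]
      simp
    · have : (((-g 0 1 : ℤ) : ℤ) : ZMod M) = 0 := by
        rw [← hb]
        simp
      simpa using this
  · refine ⟨Or.inr ?_, ?_⟩
    · have : -(((g 1 1 : ℤ) : ℤ) : ZMod M) = 1 := by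
        rw [← ha]
        simp
      rw [← this, neg_neg]
    · have : -(((-g 0 1 : ℤ) : ℤ) : ZMod M) = 0 := by
        rw [← hb]
        simp
      simpa using this

/-- **the traces of a subgroup fixing `F_{(1,0)}` are `≡ ± 2` modulo `M`.** -/
theorem br_tracePM_of_fix (M : ℕ) [NeZero M] (hM : 2 ≤ M) (H : Subgroup SL(2, ℤ))
    (hH : ∀ g ∈ H, g • frickeFun M 1 0 = frickeFun M 1 0) : BrTracePM M H := by
  intro g hg
  obtain ⟨h11, h01⟩ := br_row_of_fix M hM g (hH g hg)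
  have hdet : g 0 0 * g 1 1 - g 0 1 * g 1 0 = 1 := by
    have := g.det_coe
    rw [Matrix.det_fin_two] at this
    exact this
  have hdetM : ((g 0 0 : ℤ) : ZMod M) * ((g 1 1 : ℤ) : ZMod M) = 1 := by
    have := congrArg (fun t : ℤ => (t : ZMod M)) hdet
    simp only [Int.cast_sub, Int.cast_mul, Int.cast_one, h01, zero_mul, sub_zero] at this
    exact this
  rw [Matrix.trace_fin_two]
  rcases h11 with h | h
  · left
    rw [h, mul_one] at hdetM
    rw [← ZMod.intCast_zmod_eq_zero_iff_dvd]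
    push_cast
    rw [hdetM, h]
    ring
  · right
    rw [h, mul_neg, mul_one, neg_eq_iff_eq_neg] at hdetM
    rw [← ZMod.intCast_zmod_eq_zero_iff_dvd]
    push_cast
    rw [hdetM, h]
    ring

/-! ### the elliptic fibres -/

variable {F : Type} [Field F] [Algebra Kbar F] {M : ℕ} [NeZero M]

/-- **(ELL, places form)** for `φ : F →ₐ LHb M`, `φ x = j`: if every element of `SL₂(ℤ)` fixing
`φ F` fixes the Fricke function `F_{(1,0)}` and `M ≥ 4`, then
`3 · #fibre(0) = 2 · #fibre(1728) = [F : ℚ̄(x)]`. -/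
theorem br_ell_of_fix (hM : 4 ≤ M) (φ : F →ₐ[Kbar] LHb M) (x : F) (hφx : φ x = jLHb M)
    (hfix : ∀ g ∈ brStab (Γ := SL(2, ℤ)) φ, g • frickeFun M 1 0 = frickeFun M 1 0) :
    3 * Nat.card {v : Place Kbar F // 0 < v.ord x} = Module.finrank Kbar⟮x⟯ F ∧
    2 * Nat.card {v : Place Kbar F // 0 < v.ord (x - algebraMap Kbar F 1728)} =
      Module.finrank Kbar⟮x⟯ F :=
  br_ell_of_trace hM φ x hφx (br_tracePM_of_fix M (by omega) _ hfix)

/-- **(ELL, `fibreCard` form)**. -/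
theorem br_ell_fibreCard_of_fix (hM : 4 ≤ M) (φ : F →ₐ[Kbar] LHb M) (x : F)
    (hφx : φ x = jLHb M)
    (hfix : ∀ g ∈ brStab (Γ := SL(2, ℤ)) φ, g • frickeFun M 1 0 = frickeFun M 1 0) :
    3 * Fermat.Agent.GoodRed.fibreCard Kbar x 0 = Module.finrank Kbar⟮x⟯ F ∧
    2 * Fermat.Agent.GoodRed.fibreCard Kbar x 1728 = Module.finrank Kbar⟮x⟯ F :=
  br_ell_fibreCard_of_trace hM φ x hφx (br_tracePM_of_fix M (by omega) _ hfix)

/-- the hypothesis `hfix` holds as soon as `F_{(1,0)}` (as an element of `LHb M`) is in the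
image of `φ`. -/
theorem br_fix_of_mem_range (φ : F →ₐ[Kbar] LHb M) (hAH : IsAHb M (frickeFun M 1 0))
    (y : F) (hy : φ y = LHb.ofFun (frickeFun M 1 0) hAH) :
    ∀ g ∈ brStab (Γ := SL(2, ℤ)) φ, g • frickeFun M 1 0 = frickeFun M 1 0 := by
  intro g hg
  have h1 : g • φ y = φ y := hg y
  rw [hy, LHb.smul_ofFun] at h1
  exact LHb.ofFun_injective _ _ h1

end Fermat.Agent.S48WG
end
end MergeWrap_S48_W_G_Red_Branch_EllTrace

section MergeWrap_S48_W_G_Red_Branch_EllOne -- from S48/W/G/Red/Branch/EllOne.lean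

set_option autoImplicit false
set_option linter.style.haveILetI false
set_option synthInstance.maxHeartbeats 400000

noncomputable section

namespace Fermat.Agent.S48WG

open UpperHalfPlane ModularCurve AlgebraicCurve IntermediateField
open Fermat.Agent.S24 Fermat.Agent.S48W Fermat.Agent.S48WA1 Fermat.Agent.S48WKron
open scoped MatrixGroups Real

/-- (ELL) the fibres of `x = j(q^M)` over `0` and `1728` on `ℚ̄ F₁(M)`, `M ≥ 4`. -/
def EllOneStatement : Prop :=
  ∀ (M : ℕ) [NeZero M], 4 ≤ M →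
    ∀ x : ↥(FOneBar M), (x : LaurentSeries Kbar) = qExpand Kbar M (jqModC Kbar) →
      3 * Fermat.Agent.GoodRed.fibreCard Kbar x 0 = Module.finrank ↥(Kbar⟮x⟯) ↥(FOneBar M) ∧
      2 * Fermat.Agent.GoodRed.fibreCard Kbar x 1728 = Module.finrank ↥(Kbar⟮x⟯) ↥(FOneBar M)

theorem ell_one_ne_zero {M : ℕ} (hM : 2 ≤ M) : ((1 : ℤ) : ZMod M) ≠ 0 := by
  intro h
  rw [ZMod.intCast_zmod_eq_zero_iff_dvd] at h
  have := Int.le_of_dvd one_pos h
  omega

/-- the Fricke function `F_{(1,0)}` is the image of `fricke M 1` under `brEmb M`. -/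
theorem brEmb_fricke_one (M : ℕ) [NeZero M] (hM : 2 ≤ M) :
    ∃ y : ↥(FOneBar M), brEmb M y =
      LHb.ofFun (frickeFun M 1 0) (isAHb_frickeFun M 1 0 (br_isNZ_one_zero hM)) := by
  obtain ⟨ζ, hζ⟩ := HasExp.exists_iota_eq_exp M
  have h1 : ((1 : ℤ) : ZMod M) ≠ 0 := ell_one_ne_zero hM
  refine ⟨⟨coeffEmb Kbar (fricke M ((1 : ℤ) : ZMod M)),
    coeffEmb_mem_laurentBaseChange Kbar (fricke_mem M h1)⟩, ?_⟩
  apply expLHb_injective M
  rw [expLHb_brEmb]
  have e := igFExp M ζ hζ 1 0 (br_isNZ_one_zero hM)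
  rw [expLHb_ofFun _ _ e]
  have e0 : (((0 : ℤ) : ℤ) : ZMod M) = 0 := by simp
  rw [e0, igF_zero_right h1]

/-- **(ELL)** for `X₁(M)`, `M ≥ 4`. -/
theorem ellOne : EllOneStatement := by
  intro M _ hM x hx
  have hM2 : 2 ≤ M := by omega
  obtain ⟨y, hy⟩ := brEmb_fricke_one M hM2
  exact br_ell_fibreCard_of_fix hM (brEmb M) x (brEmb_base M x hx)
    (br_fix_of_mem_range (brEmb M) (isAHb_frickeFun M 1 0 (br_isNZ_one_zero hM2)) y hy)

end Fermat.Agent.S48WG
end
end MergeWrap_S48_W_G_Red_Branch_EllOne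

section MergeWrap_S48_Wire7 -- from S48/Wire7.lean

/-!
# S48 (Deligne–Serre): the frontier is FRICKE (helper22)

`dsResult_of_fricke : FrickeBaseStatement 4 → FrickeBaseStatement 9 → [statement of S48]`
(G-23 final assembly of helper94, `S48WG23.goodRedOne23`; G-IGUSA `igusaOne_of_deg0 igDeg0`;
G-BRANCH `branchOne`; ELL `ellOne`).
-/

set_option autoImplicit false

open CongruenceSubgroup

namespace Fermat.Agent.S48

local notation "Γℚ" => (AlgebraicClosure ℚ ≃ₐ[ℚ] AlgebraicClosure ℚ)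

/-- (ELL) in the form of `P23/Final.lean`. -/
theorem ellOne23 : Fermat.Agent.S48WG23.EllOneStatement :=
  fun M _ hM x hx => Fermat.Agent.S48WG.ellOne M hM x hx

/-- **(G-23)** from the embedding of the genus-`0` bases of levels `4` and `9`. -/
theorem goodRedTwoThree_of_fricke (hFr4 : Fermat.Agent.S48WG23.FrickeBaseStatement 4)
    (hFr9 : Fermat.Agent.S48WG23.FrickeBaseStatement 9) : GoodRedTwoThree := by
  intro M _ p hp hpM h A hA
  rcases h with ⟨rfl, h4⟩ | ⟨rfl, h9⟩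
  · exact Fermat.Agent.S48WG23.goodRedOne23
      (Fermat.Agent.S48WG.igusaOne_of_deg0 Fermat.Agent.S48WG.igDeg0)
      Fermat.Agent.S48WG.branchOne ellOne23 4 (Or.inl rfl) hFr4 M h4 hp hpM hA
  · exact Fermat.Agent.S48WG23.goodRedOne23
      (Fermat.Agent.S48WG.igusaOne_of_deg0 Fermat.Agent.S48WG.igDeg0)
      Fermat.Agent.S48WG.branchOne ellOne23 9 (Or.inr rfl) hFr9 M h9 hp hpM hA

/-- **The statement of S48 from FRICKE** (the last open leaf of the wall). -/
theorem dsResult_of_fricke (hFr4 : Fermat.Agent.S48WG23.FrickeBaseStatement 4)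
    (hFr9 : Fermat.Agent.S48WG23.FrickeBaseStatement 9)
    (N : ℕ) [NeZero N] (ε : DirichletCharacter ℂ N) (f : CuspForm (Gamma1 N) 1)
    (hf₁ : ModularFormClass.qCoeff f 1 = 1)
    (hT : ∀ p : ℕ, p.Prime → ¬ p ∣ N → ∀ n : ℕ,
        ModularFormClass.qCoeff f (p * n) +
            ε (p : ZMod N) * (if p ∣ n then ModularFormClass.qCoeff f (n / p) else 0) =
          ModularFormClass.qCoeff f p * ModularFormClass.qCoeff f n) :
    ∃ ρ : Γℚ →* GL (Fin 2) ℂ, GaloisFactorsThroughFiniteLevel ρ ∧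
      (Deformation.matrixRepresentation ρ).IsIrreducible ∧
      ∀ p : ℕ, p.Prime → ¬ p ∣ N →
        ∀ A : ValuationSubring (AlgebraicClosure ℚ), A.LiesOverPrime p →
          (∀ σ ∈ A.inertiaSubgroupIn ℚ, ρ σ = 1) ∧
          ∀ σ : Γℚ, A.IsFrobeniusAt σ p →
            ((ρ σ : GL (Fin 2) ℂ) : Matrix (Fin 2) (Fin 2) ℂ).trace = ModularFormClass.qCoeff f p ∧
            ((ρ σ : GL (Fin 2) ℂ) : Matrix (Fin 2) (Fin 2) ℂ).det = ε (p : ZMod N) :=
  dsResult_of_twoThree (goodRedTwoThree_of_fricke hFr4 hFr9) N ε f hf₁ hT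

end Fermat.Agent.S48
end MergeWrap_S48_Wire7
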